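import Mathlib
import Fermat.Agent.GAL.Theta
import Fermat.Agent.GAL.h65_LevelGlue
import Fermat.Agent.GAL.h31_S30Pseudo

/-!
# S35, GAL side [Q3]: the canonical THETA and the explicit level data

* `h29_theta_canon N n` : the interface THETA with its defining relation: there is an injective
  homomorphism `Θ : gal_Hpe N n → J₀(N)(ℚ̄)` intertwining the Hecke operators `T_ℓ`, `ℓ ∤ N n`,
  such that `gal_R N n h78_iota (gal_chi n ψ) (Θ ψ)` for all `ψ` (so `Θ ψ` is THE class related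
  to `ψ` for the fixed embedding `h78_iota`).
* `h29_qLev p N n Θ : h65_Lam N →+ J₀(N)[p ^ n]`, `φ ↦ Θ (φ mod p ^ n)`, and
  `h29_isLevel` : with the Galois action and the Hecke operators of `J₀(N)[p ^ n]` it is a level
  in the sense `h31_IsLevel` of the S30 endgame (from the reduction interface of S37).
-/

set_option autoImplicit false

open CongruenceSubgroup ModularCurve ModularCurve.Period AlgebraicCurve

namespace Fermat.Agent.S35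

open Fermat.Agent.GAL Fermat.Agent.S16 Fermat.Agent.S24

local notation "Qb" => AlgebraicClosure ℚ

/-- **THETA with its defining relation.** -/
theorem h29_theta_canon (N : ℕ) [NeZero N] (n : ℕ) [NeZero n] :
    ∃ Θ : gal_Hpe N n →+ JZero N, Function.Injective Θ ∧
      (∀ (ℓ : ℕ) [Fact ℓ.Prime] (hℓN : ¬ ℓ ∣ N), ¬ ℓ ∣ n →
        ∀ χ χ' : gal_Hpe N n,
          (χ' : Additive (Gamma0 N) →+ ZMod n) =
              h30_heckeT N ℓ hℓN (χ : Additive (Gamma0 N) →+ ZMod n) →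
            heckeOperatorBar N ⟨ℓ, Fact.out⟩ (Θ χ) = Θ χ') ∧
      ∀ ψ : gal_Hpe N n,
        gal_R N n h78_iota (gal_chi n (ψ : Additive (Gamma0 N) →+ ZMod n)) (Θ ψ) := by
  classical
  have hn : 0 < n := Nat.pos_of_ne_zero (NeZero.ne n)
  have hEX : ∀ ψ : gal_Hpe N n, ∃ x : JZero N,
      gal_R N n h78_iota (gal_chi n (ψ : Additive ↥(Gamma0 N) →+ ZMod n)) x :=
    gal_R_exists_uncond n h78_iota
  have hUQ : ∀ (χ : ↥(Gamma0 N) →* ℂˣ) (x x' : JZero N),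
      gal_R N n h78_iota χ x → gal_R N n h78_iota χ x' → x = x' :=
    gal_R_unique hn (gal_rootAlgHyp N n hn) (gal_descInjHyp N n hn h78_iota)
      (gal_picEqHyp N n hn)
  have hINJ : ∀ (χ χ' : ↥(Gamma0 N) →* ℂˣ) (x : JZero N),
      gal_R N n h78_iota χ x → gal_R N n h78_iota χ' x → χ = χ' :=
    gal_R_char_unique hn (gal_picEqHyp N n hn)
  have hHK := gal_heckeRHyp N n h78_iota
  choose θ hθ using hEX
  have hadd : ∀ ψ ψ' : gal_Hpe N n, θ (ψ + ψ') = θ ψ + θ ψ' := by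
    intro ψ ψ'
    have h1 := (hθ ψ).mul (hθ ψ')
    rw [← gal_chi_add] at h1
    exact hUQ _ _ _ (hθ (ψ + ψ')) h1
  refine ⟨AddMonoidHom.mk' θ hadd, ?_, ?_, fun ψ => hθ ψ⟩
  · intro ψ ψ' h
    have h1 : θ ψ = θ ψ' := h
    have h2 := hINJ _ _ _ (hθ ψ) (h1 ▸ hθ ψ')
    exact Subtype.ext (gal_chi_injective n h2)
  · intro ℓ _ hℓN hℓn χ χ' hχ
    have h1 := hHK ℓ hℓN hℓn _ _ hχ _ (hθ χ)
    exact hUQ _ _ _ h1 (hθ χ')

section levels

variable (p N n : ℕ) [NeZero N]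

/-- The level map `φ ↦ Θ (φ mod p ^ n)` into `J₀(N)[p ^ n]`. -/
noncomputable def h29_qLev (Θ : gal_Hpe N (p ^ n) →+ JZero N) :
    h65_Lam N →+ ↥(h65_tors (JZero N) (p ^ n)) where
  toFun φ := ⟨Θ (h65_redHom N (p ^ n) φ), by
    show p ^ n • Θ (h65_redHom N (p ^ n) φ) = 0
    rw [← map_nsmul, h65_Hpe_torsion, map_zero]⟩
  map_zero' := by
    apply Subtype.ext
    show Θ (h65_redHom N (p ^ n) 0) = 0
    rw [map_zero, map_zero]
  map_add' φ ψ := by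
    apply Subtype.ext
    show Θ (h65_redHom N (p ^ n) (φ + ψ)) =
      Θ (h65_redHom N (p ^ n) φ) + Θ (h65_redHom N (p ^ n) ψ)
    rw [map_add, map_add]

theorem h29_qLev_coe (Θ : gal_Hpe N (p ^ n) →+ JZero N) (φ : h65_Lam N) :
    ((h29_qLev p N n Θ φ : ↥(h65_tors (JZero N) (p ^ n))) : JZero N) =
      Θ (h65_redHom N (p ^ n) φ) := rfl

variable {p N n} {S : Finset ℕ}

set_option maxHeartbeats 1600000 in
/-- The explicit level data on `J₀(N)[p ^ n]` form a level of the S30 endgame. -/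
theorem h29_isLevel (hp : p.Prime) (hpS : p ∈ S)
    (hNS : ∀ q : ℕ, q.Prime → q ∣ N → q ∈ (↑S : Set ℕ))
    (Θ : gal_Hpe N (p ^ n) →+ JZero N) (hΘinj : Function.Injective Θ)
    (hΘhecke : ∀ (ℓ : ℕ) [Fact ℓ.Prime] (hℓN : ¬ ℓ ∣ N), ¬ ℓ ∣ p ^ n →
      ∀ χ χ' : gal_Hpe N (p ^ n),
        (χ' : Additive (Gamma0 N) →+ ZMod (p ^ n)) =
            h30_heckeT N ℓ hℓN (χ : Additive (Gamma0 N) →+ ZMod (p ^ n)) →
          heckeOperatorBar N ⟨ℓ, Fact.out⟩ (Θ χ) = Θ χ')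
    (hred : ∀ (ℓ : ℕ) (hℓ : ℓ.Prime), ¬ ℓ ∣ N * p →
      ∀ A : ValuationSubring (AlgebraicClosure ℚ), A.LiesOverPrime ℓ →
        Fermat.Agent.S37.h87_RedData N p ℓ hℓ A) :
    h31_IsLevel p N S (h65_iota N (↑S : Set ℕ) hNS) n (h29_qLev p N n Θ)
      (h65_torsRep (AlgebraicClosure ℚ ≃ₐ[ℚ] AlgebraicClosure ℚ) (JZero N) (p ^ n))
      (fun ℓ => h65_torsEnd (p ^ n) (heckeOperatorBar N ℓ).toAddMonoidHom) := by
  have hNp : ∀ ℓ : ℕ, ℓ.Prime → ¬ ℓ ∣ N → ℓ ≠ p → ¬ ℓ ∣ N * p := by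
    intro ℓ hℓ hℓN hℓp hdvd
    rcases (Nat.Prime.dvd_mul hℓ).1 hdvd with h | h
    · exact hℓN h
    · exact hℓp ((Nat.prime_dvd_prime_iff_eq hℓ hp).1 h)
  refine ⟨?_, ?_, ?_, ?_, ?_, ?_, ?_⟩
  · -- KER
    intro φ hφ
    have h1 : Θ (h65_redHom N (p ^ n) φ) = 0 := by
      rw [← h29_qLev_coe p N n Θ φ, hφ, AddSubgroup.coe_zero]
    have h2 : h65_redHom N (p ^ n) φ = 0 := hΘinj (by rw [h1, map_zero])
    obtain ⟨ψ, hψ⟩ := h65_redHom_ker N (p ^ n) φ h2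
    exact ⟨ψ, by rw [hψ]; push_cast; rfl⟩
  · -- TORS
    intro m
    exact h65_tors_nsmul (p ^ n) m
  · -- STAB
    intro φ
    obtain ⟨E, hE, hfix⟩ := h67_torsion_stabiliser N (p ^ n) (pow_pos hp.pos n)
      (h29_qLev p N n Θ φ : JZero N) (h29_qLev p N n Θ φ).2
    refine ⟨E, hE, fun σ hσ => ?_⟩
    apply Subtype.ext
    exact hfix σ hσ
  · -- HECKE
    intro ℓ hℓ hℓN hℓS φ
    have : Fact ℓ.Prime := ⟨hℓ⟩
    apply Subtype.ext
    have hℓp : ¬ ℓ ∣ p ^ n := by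
      intro h
      have h' := (Nat.prime_dvd_prime_iff_eq hℓ hp).1 (hℓ.dvd_of_dvd_pow h)
      rw [h'] at hℓS
      exact hℓS (Finset.mem_coe.2 hpS)
    exact (hΘhecke ℓ hℓN hℓp (h65_redHom N (p ^ n) φ) _
      (h65_redHom_hecke N (p ^ n) (↑S : Set ℕ) hNS hℓ hℓN hℓS φ)).symm
  · -- ES
    intro ℓ hℓ hℓN hℓS A hA σ hσ m
    have hℓp : ℓ ≠ p := fun h => hℓS (by rw [h]; exact Finset.mem_coe.2 hpS)
    obtain ⟨Jbar, _, red, φ, hI, hF, hT, hinj⟩ := hred ℓ hℓ (hNp ℓ hℓ hℓN hℓp) A hA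
    exact h65_tors_es (AlgebraicClosure ℚ ≃ₐ[ℚ] AlgebraicClosure ℚ) p ℓ red φ hinj σ (hF σ hσ)
      (heckeOperatorBar N ⟨ℓ, hℓ⟩).toAddMonoidHom hT n m
  · -- INERT
    intro q' hq' hq'N hq'p A hA τ hτ
    obtain ⟨Jbar, _, red, φ, hI, hF, hT, hinj⟩ := hred q' hq' (hNp q' hq' hq'N hq'p) A hA
    exact h65_tors_unr (AlgebraicClosure ℚ ≃ₐ[ℚ] AlgebraicClosure ℚ) p red hinj τ (hI τ hτ) n
  · -- COMM
    intro ℓ g m
    exact h65_tors_comm (AlgebraicClosure ℚ ≃ₐ[ℚ] AlgebraicClosure ℚ) (p ^ n)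
      (heckeOperatorBar N ℓ).toAddMonoidHom (fun g x => h67_hecke_galois_comm N ℓ g x) g m

end levels

end Fermat.Agent.S35
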