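/-
S35 (helper67): the DEFINITION of the `q`-new classes of `J₀(N q)`, on prelude objects only.

`h67_Jnew N q x`   : `x : JZero (N * q)` has a degree-zero representative `D` whose push-forwards
                     along the two degeneracy maps `heckeAlphaBar`, `heckeBetaBar : F(N) → F(N q)`
                     are both principal (i.e. `α_* x = 0 = β_* x` in `J₀(N)`).
`h67_JnewAt M q x` : the same predicate for `x : JZero M` at a level `M` that is (propositionally)
                     of the form `N * q`.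

This file imports only Mathlib and the prelude, so that both the geometric side (FROB2) and the
Galois side of S35 can state their interface lemmas against it.
-/
import Mathlib
import Fermat.Prelude.Def_ModularCurve_HeckeOperatorTotal
import Fermat.Prelude.Def_EllipticCurve_FrobeniusTrace

set_option autoImplicit false

noncomputable section

open ModularCurve AlgebraicCurve

namespace Fermat.Agent.S35

local notation "Qb" => AlgebraicClosure ℚ

/-- A divisor of `X₀(N q)` is `q`-new if both its push-forwards to `X₀(N)` are principal. -/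
def h67_DivNew (N q : ℕ) [NeZero N] [NeZero q]
    (D : Divisor Qb (modularFunctionFieldBar (N * q))) : Prop :=
  (∃ hα : HeckeAlphaBarIntegral Qb N q,
      (Divisor.pushforwardAlong (heckeAlphaBar Qb N q) hα D).IsPrincipal) ∧
    ∃ hβ : HeckeBetaBarIntegral Qb N q,
      (Divisor.pushforwardAlong (heckeBetaBar Qb N q) hβ D).IsPrincipal

/-- The `q`-new classes of `J₀(N q)`: classes with a `q`-new representative. -/
def h67_Jnew (N q : ℕ) [NeZero N] [NeZero q] (x : JZero (N * q)) : Prop :=
  ∃ D : Divisor.degZero (K := Qb) (F := modularFunctionFieldBar (N * q)),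
    Pic0.mk D = x ∧ h67_DivNew N q (D : Divisor Qb (modularFunctionFieldBar (N * q)))

/-- The `q`-new classes of `J₀(M)` at a level `M = N * q`. -/
def h67_JnewAt (M q : ℕ) [NeZero q] (x : JZero M) : Prop :=
  ∃ (N : ℕ) (_ : NeZero N) (e : M = N * q), h67_Jnew N q (e ▸ x)

theorem h67_divNew_intro {N q : ℕ} [NeZero N] [NeZero q]
    {D : Divisor Qb (modularFunctionFieldBar (N * q))}
    (hα : HeckeAlphaBarIntegral Qb N q) (hβ : HeckeBetaBarIntegral Qb N q)
    (h1 : (Divisor.pushforwardAlong (heckeAlphaBar Qb N q) hα D).IsPrincipal)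
    (h2 : (Divisor.pushforwardAlong (heckeBetaBar Qb N q) hβ D).IsPrincipal) :
    h67_DivNew N q D :=
  ⟨⟨hα, h1⟩, ⟨hβ, h2⟩⟩

theorem h67_divNew_alpha {N q : ℕ} [NeZero N] [NeZero q]
    {D : Divisor Qb (modularFunctionFieldBar (N * q))} (h : h67_DivNew N q D)
    (hα : HeckeAlphaBarIntegral Qb N q) :
    (Divisor.pushforwardAlong (heckeAlphaBar Qb N q) hα D).IsPrincipal := by
  obtain ⟨⟨_, h1⟩, _⟩ := h
  exact h1

theorem h67_divNew_beta {N q : ℕ} [NeZero N] [NeZero q]
    {D : Divisor Qb (modularFunctionFieldBar (N * q))} (h : h67_DivNew N q D)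
    (hβ : HeckeBetaBarIntegral Qb N q) :
    (Divisor.pushforwardAlong (heckeBetaBar Qb N q) hβ D).IsPrincipal := by
  obtain ⟨_, ⟨_, h2⟩⟩ := h
  exact h2

theorem h67_jnew_mk {N q : ℕ} [NeZero N] [NeZero q]
    (D : Divisor.degZero (K := Qb) (F := modularFunctionFieldBar (N * q)))
    (h : h67_DivNew N q (D : Divisor Qb (modularFunctionFieldBar (N * q)))) :
    h67_Jnew N q (Pic0.mk D) :=
  ⟨D, rfl, h⟩

/-- At a level that is syntactically `N * q` the two predicates agree. -/
theorem h67_jnewAt_iff (N q : ℕ) [NeZero N] [NeZero q] (x : JZero (N * q)) :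
    h67_JnewAt (N * q) q x ↔ h67_Jnew N q x := by
  constructor
  · rintro ⟨N', hN', e, h⟩
    have hq : q ≠ 0 := NeZero.ne q
    have hN : N = N' := Nat.eq_of_mul_eq_mul_right (Nat.pos_of_ne_zero hq) e
    subst hN
    exact h
  · intro h
    exact ⟨N, inferInstance, rfl, h⟩

theorem h67_jnewAt_of_jnew {N q : ℕ} [NeZero N] [NeZero q] {x : JZero (N * q)}
    (h : h67_Jnew N q x) : h67_JnewAt (N * q) q x :=
  (h67_jnewAt_iff N q x).2 h

/-- Elimination principle: a statement about `q`-new classes at all levels `M` follows from the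
statement at the levels `N * q`. -/
theorem h67_jnewAt_elim {motive : ∀ (M : ℕ), JZero M → Prop} {q : ℕ} [NeZero q]
    (H : ∀ (N : ℕ) [NeZero N] (x : JZero (N * q)), h67_Jnew N q x → motive (N * q) x)
    {M : ℕ} {x : JZero M} (hx : h67_JnewAt M q x) : motive M x := by
  obtain ⟨N, hN, rfl, h⟩ := hx
  exact H N x h

/-! ## The geometric input (FROB2) of the S35 `q`-clause, as a `Prop` -/

/-- **(FROB2)** at level `N * q`: for every Frobenius lift `s` at `q`,
`(s² - 1)(s² - q²) = 0` on the `q`-new classes of prime-to-`q` prime-power order. -/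
def h67_Frob2Geom (N q : ℕ) [NeZero N] [NeZero q] : Prop :=
  ∀ A : ValuationSubring Qb, A.LiesOverPrime q →
    ∀ s : Qb ≃ₐ[ℚ] Qb, A.IsFrobeniusAt s q → ∀ p : ℕ, p.Prime → p ≠ q →
      ∀ (n : ℕ) (x : JZero (N * q)), p ^ n • x = 0 → h67_Jnew N q x →
        s • s • s • s • x + (q ^ 2) • x = (q ^ 2 + 1) • (s • s • x)

/-- **(FROB2)** at a level `M`, for the classes that are `q`-new at `M`. -/
def h67_Frob2At (M q : ℕ) [NeZero q] : Prop :=
  ∀ A : ValuationSubring Qb, A.LiesOverPrime q →
    ∀ s : Qb ≃ₐ[ℚ] Qb, A.IsFrobeniusAt s q → ∀ p : ℕ, p.Prime → p ≠ q →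
      ∀ (n : ℕ) (x : JZero M), p ^ n • x = 0 → h67_JnewAt M q x →
        s • s • s • s • x + (q ^ 2) • x = (q ^ 2 + 1) • (s • s • x)

/-- (FROB2) at all levels `N * q` with `q ∤ N` gives (FROB2) at every level `M` with `q ∥ M`. -/
theorem h67_frob2At_of_geom (q : ℕ) [NeZero q]
    (H : ∀ (N : ℕ) [NeZero N], ¬ q ∣ N → h67_Frob2Geom N q)
    (M : ℕ) (hq2 : ¬ q ^ 2 ∣ M) : h67_Frob2At M q := by
  intro A hA s hs p hp hpq n x hx hnew
  obtain ⟨N, hN, rfl, h⟩ := hnew
  have hqN : ¬ q ∣ N := by
    rintro ⟨c, rfl⟩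
    exact hq2 ⟨c, by ring⟩
  exact H N hqN A hA s hs p hp hpq n x hx h

end Fermat.Agent.S35
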