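import Mathlib
import Fermat.Agent.S35.h67_NewDefs
import Fermat.Agent.S19.h54_LvlInj
import Fermat.Agent.S37.h60_RedInj

/-!
# S35: descent of (FROB2) from the charted levels

The geometric foundation (two reductions of `X₀(N q)` at `q`) exists at the levels `N` carrying a
chart at `q`: `5 ≤ q`, or `2 ∣ N`, or `3 ∣ N` (`h60_lvl N q = 1`).  For `q ∈ {2, 3}` and the
remaining levels we raise the level by the auxiliary prime `c = h60_lvl N q ∈ {2, 3}`:

* `h29_PullNew N q c` (**(PULL-NEW)**, an input): the pull-back along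
  `α_c : X₀(N q c) → X₀(N q)` of a `q`-new torsion class is `q`-new;
* the pull-back is additive, Galois-equivariant and injective on torsion (`h54_lvl_inj`).

`h29_frob2Geom_of_charted` : (PULL-NEW) + (FROB2) at the charted levels give (FROB2) at all
levels `N` with `q ∤ N`.
-/

set_option autoImplicit false

noncomputable section

open ModularCurve AlgebraicCurve

namespace Fermat.Agent.S35

open Fermat.Agent.S37 Fermat.Agent.S19

local notation "Qb" => AlgebraicClosure ℚ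

/-- **(PULL-NEW)**: the pull-back along `α_c : X₀(N q c) → X₀(N q)` of a `q`-new torsion class
is `q`-new (at the level `N q c`). -/
def h29_PullNew (N q c : ℕ) [NeZero N] [NeZero q] [NeZero c] : Prop :=
  ∀ [HasPrincipalDivisors Qb (modularFunctionFieldBar (N * q * c))]
    (hα : (heckeAlphaBar Qb (N * q) c).toRingHom.IsIntegral)
    (hFI : FundamentalIdentityAlong Qb (heckeAlphaBar Qb (N * q) c) hα)
    (n : ℕ), 0 < n → ∀ x : JZero (N * q), n • x = 0 → h67_Jnew N q x →
      h67_JnewAt (N * q * c) q (h87_pullPic0 (heckeAlphaBar Qb (N * q) c) hα hFI x)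

/-- (FROB2) for the `q`-new classes at a level `M` (a variable), from (FROB2) at the charted
levels, when `M = N' q` with `N'` charted. -/
theorem h29_frob2_at_level (q : ℕ) [NeZero q] (hq : q.Prime)
    (hmain : ∀ (N : ℕ) [NeZero N], ¬ q ∣ N → (5 ≤ q ∨ 2 ∣ N ∨ 3 ∣ N) → h67_Frob2Geom N q)
    (A : ValuationSubring Qb) (hA : A.LiesOverPrime q) (s : Qb ≃ₐ[ℚ] Qb)
    (hs : A.IsFrobeniusAt s q) (p : ℕ) (hp : p.Prime) (hpq : p ≠ q) (n : ℕ)
    {M : ℕ} {y : JZero M} (hy : h67_JnewAt M q y) :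
    ¬ q ^ 2 ∣ M → (5 ≤ q ∨ (2 ∣ M ∧ q ≠ 2) ∨ (3 ∣ M ∧ q ≠ 3)) → p ^ n • y = 0 →
      s • s • s • s • y + (q ^ 2) • y = (q ^ 2 + 1) • (s • s • y) := by
  refine h67_jnewAt_elim (motive := fun M y => ¬ q ^ 2 ∣ M →
    (5 ≤ q ∨ (2 ∣ M ∧ q ≠ 2) ∨ (3 ∣ M ∧ q ≠ 3)) → p ^ n • y = 0 →
      s • s • s • s • y + (q ^ 2) • y = (q ^ 2 + 1) • (s • s • y)) ?_ hy
  intro N' _ x hx hq2 hch hpx
  have hqN' : ¬ q ∣ N' := by
    rintro ⟨t, rfl⟩
    exact hq2 ⟨t, by ring⟩
  have hch' : 5 ≤ q ∨ 2 ∣ N' ∨ 3 ∣ N' := by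
    rcases hch with h | ⟨h, hne⟩ | ⟨h, hne⟩
    · exact Or.inl h
    · refine Or.inr (Or.inl ?_)
      rcases (Nat.Prime.dvd_mul Nat.prime_two).1 h with h' | h'
      · exact h'
      · exact absurd ((Nat.prime_dvd_prime_iff_eq Nat.prime_two hq).1 h').symm hne
    · refine Or.inr (Or.inr ?_)
      rcases (Nat.Prime.dvd_mul Nat.prime_three).1 h with h' | h'
      · exact h'
      · exact absurd ((Nat.prime_dvd_prime_iff_eq Nat.prime_three hq).1 h').symm hne
  exact hmain N' hqN' hch' A hA s hs p hp hpq n x hpx hx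

/-- One step of the descent: (FROB2) at level `N` from (PULL-NEW) at `(N, q, c)` and (FROB2)
for the `q`-new classes of level `N q c`. -/
theorem h29_frob2Geom_descent (N q c : ℕ) [NeZero N] [NeZero q] [NeZero c] (hc : c.Prime)
    (hcNq : ¬ c ∣ N * q) (hpull : h29_PullNew N q c)
    (H : ∀ A : ValuationSubring Qb, A.LiesOverPrime q → ∀ s : Qb ≃ₐ[ℚ] Qb,
      A.IsFrobeniusAt s q → ∀ p : ℕ, p.Prime → p ≠ q → ∀ (n : ℕ) (y : JZero (N * q * c)),
        h67_JnewAt (N * q * c) q y → p ^ n • y = 0 →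
          s • s • s • s • y + (q ^ 2) • y = (q ^ 2 + 1) • (s • s • y)) :
    h67_Frob2Geom N q := by
  intro A hA s hs p hp hpq n x hx hnew
  haveI : HasPrincipalDivisors Qb (modularFunctionFieldBar (N * q * c)) :=
    h88_hasPrincipalDivisors (N * q * c)
  have hα := h88_alphaIntegral (N * q) c
  have hFI := h60_FI_alpha (N * q) c
  have hpn : 0 < p ^ n := pow_pos hp.pos n
  set φ := h87_pullPic0 (heckeAlphaBar Qb (N * q) c) hα hFI with hφ
  have hgal : ∀ (σ : Qb ≃ₐ[ℚ] Qb) (z : JZero (N * q)), φ (σ • z) = σ • φ z :=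
    fun σ z => h54_pull_galois (N * q) c hα hFI σ z
  have hy : h67_JnewAt (N * q * c) q (φ x) := hpull hα hFI (p ^ n) hpn x hx hnew
  have hpy : p ^ n • φ x = 0 := by rw [← map_nsmul, hx, map_zero]
  have e := H A hA s hs p hp hpq n (φ x) hy hpy
  -- the difference of the two sides is a torsion class with vanishing pull-back
  set w : JZero (N * q) := s • s • s • s • x + (q ^ 2) • x - (q ^ 2 + 1) • (s • s • x) with hw
  have hw0 : φ w = 0 := by
    rw [hw, map_sub, map_add, map_nsmul, map_nsmul]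
    simp only [hgal]
    rw [e, sub_self]
  have hsx : ∀ z : JZero (N * q), p ^ n • z = 0 → p ^ n • (s • z) = 0 := by
    intro z hz
    rw [smul_comm (p ^ n) s z, hz, smul_zero]
  have hpw : p ^ n • w = 0 := by
    rw [hw, nsmul_sub, nsmul_add, hsx _ (hsx _ (hsx _ (hsx _ hx))), zero_add,
      nsmul_left_comm, hx, nsmul_zero, zero_sub, nsmul_left_comm, hsx _ (hsx _ hx), nsmul_zero,
      neg_zero]
  have hw1 : w = 0 := h54_lvl_inj (N * q) c hα hFI hc hcNq (p ^ n) hpn w hpw hw0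
  exact sub_eq_zero.mp hw1

/-- **(FROB2) at all levels from the charted levels**, given (PULL-NEW). -/
theorem h29_frob2Geom_of_charted (q : ℕ) [NeZero q] (hq : q.Prime)
    (hpull : ∀ (N : ℕ) [NeZero N], ¬ q ∣ N → ∀ (c : ℕ) [NeZero c], c.Prime → ¬ c ∣ N * q →
      h29_PullNew N q c)
    (hmain : ∀ (N : ℕ) [NeZero N], ¬ q ∣ N → (5 ≤ q ∨ 2 ∣ N ∨ 3 ∣ N) → h67_Frob2Geom N q)
    (N : ℕ) [NeZero N] (hqN : ¬ q ∣ N) : h67_Frob2Geom N q := by
  haveI : Fact q.Prime := ⟨hq⟩
  have hq2 : ∀ c : ℕ, ¬ q ∣ c → ¬ q ^ 2 ∣ N * q * c := by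
    intro c hqc hd
    have h1 : q ∣ N * c := by
      have h2 : q * q ∣ q * (N * c) := by
        have h3 : N * q * c = q * (N * c) := by ring
        rw [← h3, ← pow_two]
        exact hd
      exact (Nat.mul_dvd_mul_iff_left hq.pos).1 h2
    rcases (Nat.Prime.dvd_mul hq).1 h1 with h | h
    · exact hqN h
    · exact hqc h
  rcases h60_lvl_cases N q hqN with ⟨hch, -⟩ | ⟨h3, h2N, -⟩ | ⟨h2, h3N, -⟩
  · exact hmain N hqN hch
  · -- `q = 3`, auxiliary prime `2`
    have hc : ¬ 2 ∣ N * q := by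
      intro h
      rcases (Nat.Prime.dvd_mul Nat.prime_two).1 h with h' | h'
      · exact h2N h'
      · rw [h3] at h'
        omega
    refine h29_frob2Geom_descent N q 2 Nat.prime_two hc (hpull N hqN 2 Nat.prime_two hc) ?_
    intro A hA s hs p hp hpq n y hy hpy
    refine h29_frob2_at_level q hq hmain A hA s hs p hp hpq n hy
      (hq2 2 (by rw [h3]; omega)) (Or.inr (Or.inl ⟨Dvd.intro_left _ rfl, by omega⟩)) hpy
  · -- `q = 2`, auxiliary prime `3`
    have hc : ¬ 3 ∣ N * q := by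
      intro h
      rcases (Nat.Prime.dvd_mul Nat.prime_three).1 h with h' | h'
      · exact h3N h'
      · rw [h2] at h'
        omega
    refine h29_frob2Geom_descent N q 3 Nat.prime_three hc (hpull N hqN 3 Nat.prime_three hc) ?_
    intro A hA s hs p hp hpq n y hy hpy
    refine h29_frob2_at_level q hq hmain A hA s hs p hp hpq n hy
      (hq2 3 (by rw [h2]; omega)) (Or.inr (Or.inr ⟨Dvd.intro_left _ rfl, by omega⟩)) hpy

end Fermat.Agent.S35

end
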