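import Mathlib
import Fermat.Agent.S35.h29_FrobDescent
import Fermat.Agent.S37.h87_RedData

/-!
# S35: (PULL-NEW) from the norm base change (NBC)

`h29_pullNew_of_nbc` : the pull-back along `α_c : X₀(N q c) → X₀(N q)` of a `q`-new torsion class
is `q`-new, given the norm base change along the square of levels `N, N q, N c, N c q`:
`N_{α'}(ι f) = γ₀(N_α f)` and `N_{β'}(ι f) = γ₀(N_β f)`.

Proof: `x = [D]`, `n D = div f`.  Then `n ι^* D = div (ι f)`, and by the norm formula
`n α'_*(ι^* D) = div N_{α'}(ι f) = div γ₀(N_α f) = γ₀^*(α_*(n D))`; divisors are torsion-free, so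
`α'_*(ι^* D) = γ₀^*(α_* D)`, which is principal.
-/

set_option autoImplicit false
set_option synthInstance.maxHeartbeats 400000

noncomputable section

open ModularCurve AlgebraicCurve

namespace Fermat.Agent.S35

open Fermat.Agent.S37 Fermat.Agent.S19

local notation "Qb" => AlgebraicClosure ℚ

section Core

variable {K F0 F1 F0' F1' : Type*} [Field K] [Field F0] [Field F1] [Field F0'] [Field F1']
  [Algebra K F0] [Algebra K F1] [Algebra K F0'] [Algebra K F1']

/-- Push-forward commutes with pull-back along a square of function fields with norm base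
change, on divisors a multiple of which is principal. -/
theorem h29_push_pull_comm [HasPrincipalDivisors K F1'] [HasPrincipalDivisors K F0']
    (a : F0 →ₐ[K] F1) (a' : F0' →ₐ[K] F1') (γ0 : F0 →ₐ[K] F0') (ι : F1 →ₐ[K] F1')
    (ha : a.toRingHom.IsIntegral) (ha' : a'.toRingHom.IsIntegral)
    (hγ0 : γ0.toRingHom.IsIntegral) (hι : ι.toRingHom.IsIntegral)
    (hfin : FiniteAlong K a) (hN : NormFormulaAlong K a hfin)
    (hfin' : FiniteAlong K a') (hN' : NormFormulaAlong K a' hfin')
    (hnbc : ∀ f : F1, @Algebra.norm F0' F1' _ _ (algebraAlong a') (ι f)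
      = γ0 (@Algebra.norm F0 F1 _ _ (algebraAlong a) f))
    (D : Divisor K F1) (n : ℕ) (hn : 0 < n) (hD : (n • D).IsPrincipal) :
    Divisor.pushforwardAlong a' ha' (Divisor.pullbackAlong ι hι D)
      = Divisor.pullbackAlong γ0 hγ0 (Divisor.pushforwardAlong a ha D) := by
  obtain ⟨f, hf, hDf⟩ := hD
  have hιf : ι f ≠ 0 := (map_ne_zero ι).mpr hf
  have h1 : ∀ W : Place K F1', Divisor.pullbackAlong ι hι (n • D) W = W.ord (ι f) :=
    fun W => h87_pullbackAlong_isDiv ι hι hDf W
  have h2 : ∀ v : Place K F0',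
      Divisor.pushforwardAlong a' ha' (Divisor.pullbackAlong ι hι (n • D)) v
        = v.ord (@Algebra.norm F0' F1' _ _ (algebraAlong a') (ι f)) :=
    fun v => hN' (ι f) hιf _ h1 v
  have h3 : ∀ P : Place K F0, Divisor.pushforwardAlong a ha (n • D) P
      = P.ord (@Algebra.norm F0 F1 _ _ (algebraAlong a) f) :=
    fun P => hN f hf _ hDf P
  have h4 : ∀ v : Place K F0',
      Divisor.pullbackAlong γ0 hγ0 (Divisor.pushforwardAlong a ha (n • D)) v
        = v.ord (γ0 (@Algebra.norm F0 F1 _ _ (algebraAlong a) f)) :=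
    fun v => h87_pullbackAlong_isDiv γ0 hγ0 h3 v
  ext v
  have h5 := h2 v
  rw [hnbc f, ← h4 v, map_nsmul, map_nsmul, map_nsmul, map_nsmul, Finsupp.smul_apply,
    Finsupp.smul_apply, nsmul_eq_mul, nsmul_eq_mul] at h5
  have hn' : (n : ℤ) ≠ 0 := by exact_mod_cast hn.ne'
  exact mul_left_cancel₀ hn' h5

end Core

/-- The norm formula along `β : F(N) → F(N ℓ)`. -/
theorem h29_NF_beta (N ℓ : ℕ) [NeZero N] [NeZero ℓ] :
    NormFormulaAlong Qb (heckeBetaBar Qb N ℓ) (h88_finiteAlong_beta N ℓ) := by
  letI := algebraAlong (heckeBetaBar Qb N ℓ)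
  haveI := isScalarTower_along (heckeBetaBar Qb N ℓ)
  haveI : FiniteDimensional (modularFunctionFieldBar N) (modularFunctionFieldBar (N * ℓ)) :=
    h88_finiteAlong_beta N ℓ
  exact h85_NF (h88_isFF N)

/-- (PULL-NEW), cast-free core: an abstract inclusion `ι : F(N q) → F(N c q)` preserving the
underlying Laurent series. -/
theorem h29_jnew_pull_core (N q c : ℕ) [NeZero N] [NeZero q] [NeZero c]
    [HasPrincipalDivisors Qb (modularFunctionFieldBar (N * c * q))]
    (ι : modularFunctionFieldBar (N * q) →ₐ[Qb] modularFunctionFieldBar (N * c * q))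
    (hnα : ∀ f : modularFunctionFieldBar (N * q),
      @Algebra.norm (modularFunctionFieldBar (N * c)) (modularFunctionFieldBar (N * c * q)) _ _
          (algebraAlong (heckeAlphaBar Qb (N * c) q)) (ι f)
        = heckeAlphaBar Qb N c
            (@Algebra.norm (modularFunctionFieldBar N) (modularFunctionFieldBar (N * q)) _ _
              (algebraAlong (heckeAlphaBar Qb N q)) f))
    (hnβ : ∀ f : modularFunctionFieldBar (N * q),
      @Algebra.norm (modularFunctionFieldBar (N * c)) (modularFunctionFieldBar (N * c * q)) _ _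
          (algebraAlong (heckeBetaBar Qb (N * c) q)) (ι f)
        = heckeAlphaBar Qb N c
            (@Algebra.norm (modularFunctionFieldBar N) (modularFunctionFieldBar (N * q)) _ _
              (algebraAlong (heckeBetaBar Qb N q)) f))
    (hint : ι.toRingHom.IsIntegral) (hFI : FundamentalIdentityAlong Qb ι hint)
    (n : ℕ) (hn : 0 < n) (x : JZero (N * q)) (hx : n • x = 0) (hnew : h67_Jnew N q x) :
    h67_Jnew (N * c) q (h87_pullPic0 ι hint hFI x) := by
  obtain ⟨D, rfl, hDnew⟩ := hnew
  haveI : HasPrincipalDivisors Qb (modularFunctionFieldBar (N * c)) :=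
    h88_hasPrincipalDivisors (N * c)
  -- `n D` is principal
  have hprin : (n • (D : Divisor Qb (modularFunctionFieldBar (N * q)))).IsPrincipal := by
    have h1 : Pic0.mk (n • D) = (0 : Pic0 Qb (modularFunctionFieldBar (N * q))) := hx
    have h2 := (QuotientAddGroup.eq_zero_iff (n • D)).1 h1
    exact h2
  have hγ0 := h88_alphaIntegral N c
  refine ⟨h87_pullDegZero ι hint hFI D, (h87_pullPic0_mk ι hint hFI D).symm, ?_, ?_⟩
  · refine ⟨h88_alphaIntegral (N * c) q, ?_⟩
    rw [h87_coe_pullDegZero,
      h29_push_pull_comm (heckeAlphaBar Qb N q) (heckeAlphaBar Qb (N * c) q)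
        (heckeAlphaBar Qb N c) ι (h88_alphaIntegral N q) (h88_alphaIntegral (N * c) q) hγ0 hint
        (h88_finiteAlong_alpha N q) (h87_NF_alpha N q) (h88_finiteAlong_alpha (N * c) q)
        (h87_NF_alpha (N * c) q) hnα D n hn hprin]
    exact Divisor.isPrincipal_pullbackAlong _ hγ0 (h67_divNew_alpha hDnew (h88_alphaIntegral N q))
  · refine ⟨h88_betaIntegral (N * c) q, ?_⟩
    rw [h87_coe_pullDegZero,
      h29_push_pull_comm (heckeBetaBar Qb N q) (heckeBetaBar Qb (N * c) q)
        (heckeAlphaBar Qb N c) ι (h88_betaIntegral N q) (h88_betaIntegral (N * c) q) hγ0 hint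
        (h88_finiteAlong_beta N q) (h29_NF_beta N q) (h88_finiteAlong_beta (N * c) q)
        (h29_NF_beta (N * c) q) hnβ D n hn hprin]
    exact Divisor.isPrincipal_pullbackAlong _ hγ0 (h67_divNew_beta hDnew (h88_betaIntegral N q))

/-- (PULL-NEW) at a level variable `M₁ = N c q`. -/
theorem h29_jnewAt_pull (N q c : ℕ) [NeZero N] [NeZero q] [NeZero c]
    (hnα : ∀ (ι : modularFunctionFieldBar (N * q) →ₐ[Qb] modularFunctionFieldBar (N * c * q)),
      (∀ f : modularFunctionFieldBar (N * q),
        ((ι f : modularFunctionFieldBar (N * c * q)) : LaurentSeries Qb) = (f : LaurentSeries Qb)) →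
      ∀ f : modularFunctionFieldBar (N * q),
      @Algebra.norm (modularFunctionFieldBar (N * c)) (modularFunctionFieldBar (N * c * q)) _ _
          (algebraAlong (heckeAlphaBar Qb (N * c) q)) (ι f)
        = heckeAlphaBar Qb N c
            (@Algebra.norm (modularFunctionFieldBar N) (modularFunctionFieldBar (N * q)) _ _
              (algebraAlong (heckeAlphaBar Qb N q)) f))
    (hnβ : ∀ (ι : modularFunctionFieldBar (N * q) →ₐ[Qb] modularFunctionFieldBar (N * c * q)),
      (∀ f : modularFunctionFieldBar (N * q),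
        ((ι f : modularFunctionFieldBar (N * c * q)) : LaurentSeries Qb) = (f : LaurentSeries Qb)) →
      ∀ f : modularFunctionFieldBar (N * q),
      @Algebra.norm (modularFunctionFieldBar (N * c)) (modularFunctionFieldBar (N * c * q)) _ _
          (algebraAlong (heckeBetaBar Qb (N * c) q)) (ι f)
        = heckeAlphaBar Qb N c
            (@Algebra.norm (modularFunctionFieldBar N) (modularFunctionFieldBar (N * q)) _ _
              (algebraAlong (heckeBetaBar Qb N q)) f))
    (M₁ : ℕ) (e : M₁ = N * c * q)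
    [HasPrincipalDivisors Qb (modularFunctionFieldBar M₁)]
    (ι : modularFunctionFieldBar (N * q) →ₐ[Qb] modularFunctionFieldBar M₁)
    (hι : ∀ f : modularFunctionFieldBar (N * q),
      ((ι f : modularFunctionFieldBar M₁) : LaurentSeries Qb) = (f : LaurentSeries Qb))
    (hint : ι.toRingHom.IsIntegral) (hFI : FundamentalIdentityAlong Qb ι hint)
    (n : ℕ) (hn : 0 < n) (x : JZero (N * q)) (hx : n • x = 0) (hnew : h67_Jnew N q x) :
    h67_JnewAt M₁ q (h87_pullPic0 ι hint hFI x) := by
  subst e
  exact (h67_jnewAt_iff (N * c) q _).2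
    (h29_jnew_pull_core N q c ι (hnα ι hι) (hnβ ι hι) hint hFI n hn x hx hnew)

/-- **(PULL-NEW) from the norm base change.** -/
theorem h29_pullNew_of_nbc (N q c : ℕ) [NeZero N] [NeZero q] [NeZero c]
    (hnα : ∀ (ι : modularFunctionFieldBar (N * q) →ₐ[Qb] modularFunctionFieldBar (N * c * q)),
      (∀ f : modularFunctionFieldBar (N * q),
        ((ι f : modularFunctionFieldBar (N * c * q)) : LaurentSeries Qb) = (f : LaurentSeries Qb)) →
      ∀ f : modularFunctionFieldBar (N * q),
      @Algebra.norm (modularFunctionFieldBar (N * c)) (modularFunctionFieldBar (N * c * q)) _ _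
          (algebraAlong (heckeAlphaBar Qb (N * c) q)) (ι f)
        = heckeAlphaBar Qb N c
            (@Algebra.norm (modularFunctionFieldBar N) (modularFunctionFieldBar (N * q)) _ _
              (algebraAlong (heckeAlphaBar Qb N q)) f))
    (hnβ : ∀ (ι : modularFunctionFieldBar (N * q) →ₐ[Qb] modularFunctionFieldBar (N * c * q)),
      (∀ f : modularFunctionFieldBar (N * q),
        ((ι f : modularFunctionFieldBar (N * c * q)) : LaurentSeries Qb) = (f : LaurentSeries Qb)) →
      ∀ f : modularFunctionFieldBar (N * q),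
      @Algebra.norm (modularFunctionFieldBar (N * c)) (modularFunctionFieldBar (N * c * q)) _ _
          (algebraAlong (heckeBetaBar Qb (N * c) q)) (ι f)
        = heckeAlphaBar Qb N c
            (@Algebra.norm (modularFunctionFieldBar N) (modularFunctionFieldBar (N * q)) _ _
              (algebraAlong (heckeBetaBar Qb N q)) f)) :
    h29_PullNew N q c := by
  intro _ hα hFI n hn x hx hnew
  exact h29_jnewAt_pull N q c hnα hnβ (N * q * c) (by ring) (heckeAlphaBar Qb (N * q) c)
    (fun f => coe_heckeAlphaBar (N * q) c f) hα hFI n hn x hx hnew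

end Fermat.Agent.S35

end
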