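/-
S35 / row NBC (helper49): norm base change along the level square `(N, N q, N c, N c q)`.

For `q ∤ N c` and the `q`-expansion preserving inclusion `ι : F(N q) → F(N c q)`:
`N_{F(Ncq)/F(Nc)} (ι f) = N_{F(Nq)/F(N)} f` (as functions of level `N c`), for the norm along
`heckeAlphaBar` and along `heckeBetaBar`.

Proof: the norm along `α` has the `q`-expansion
`N(f)(q^ℓ) = f(q^ℓ) ∏_{c<ℓ} (w f)(ζ^c q)` (`h49_norm_along` with the embeddings `h49_sigma`);
`w_(Nc) (ι f)` and `w_N f` have the same `q`-expansion (`h49_swap_unique`); `qExpand` is injective.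
The norm along `β` is the norm along `α` of `w f`.
-/
import Mathlib
import Fermat.Agent.S37.h49_K1Final
import Fermat.Agent.S34.h49_SwapInv

set_option autoImplicit false
set_option synthInstance.maxHeartbeats 400000

noncomputable section

open ModularCurve AlgebraicCurve

namespace Fermat.Agent.S35

open Fermat.Agent.S34 Fermat.Agent.S37 Fermat.Agent.S24

local notation "Qb" => AlgebraicClosure ℚ

/-- The `q`-expansion of the norm along `heckeAlphaBar`. -/
theorem h49_norm_alpha_qexp (N q : ℕ) [NeZero N] [NeZero q] (hq : q.Prime) (hqN : ¬ q ∣ N)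
    {a b : ℤ} (hab : (q : ℤ) * a - (N : ℤ) * b = 1) (ζ : Qbˣ) (hζ : IsPrimitiveRoot ζ q)
    (f : modularFunctionFieldBar (N * q)) :
    qExpand Qb q
        ((@Algebra.norm (modularFunctionFieldBar N) (modularFunctionFieldBar (N * q)) _ _
          (algebraAlong (heckeAlphaBar Qb N q)) f : modularFunctionFieldBar N) : LaurentSeries Qb)
      = qExpand Qb q (f : LaurentSeries Qb) *
          ∏ c : Fin q, h87_twist (ζ ^ (c : ℕ))
            ((h49_swapF hab h78_iota hq f : modularFunctionFieldBar (N * q)) :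
              LaurentSeries Qb) := by
  have key := h49_norm_along (heckeAlphaBar Qb N q) (h19_DEG N q hq hqN) (h49_sigma hab hq ζ)
    (h49_sigma_injective hab hq ζ hζ)
    (fun x x' e => (h49_sigma_alpha hab hq ζ hζ.pow_eq_one x e).trans
      (h49_sigma_alpha hab hq ζ hζ.pow_eq_one x' e).symm) f
  rw [h49_sigma_alpha hab hq ζ hζ.pow_eq_one, h49_sigma_none] at key
  rw [key]
  congr 1

/-- The swap commutes with the `q`-expansion preserving inclusion of levels. -/
theorem h49_swap_bc (N q c : ℕ) [NeZero N] [NeZero q] [NeZero c] (hq : q.Prime)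
    {a b : ℤ} (hab : (q : ℤ) * a - (N : ℤ) * b = 1)
    {a' b' : ℤ} (hab' : (q : ℤ) * a' - ((N * c : ℕ) : ℤ) * b' = 1)
    (ι : modularFunctionFieldBar (N * q) →ₐ[Qb] modularFunctionFieldBar (N * c * q))
    (hι : ∀ f : modularFunctionFieldBar (N * q),
      ((ι f : modularFunctionFieldBar (N * c * q)) : LaurentSeries Qb) = (f : LaurentSeries Qb))
    (f : modularFunctionFieldBar (N * q)) :
    ((h49_swapF hab' h78_iota hq (ι f) : modularFunctionFieldBar (N * c * q)) : LaurentSeries Qb)
      = ((h49_swapF hab h78_iota hq f : modularFunctionFieldBar (N * q)) : LaurentSeries Qb) := by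
  have key : ((modularFunctionFieldBar (N * c * q)).val.toRingHom.comp
        ((h49_swapF hab' h78_iota hq).comp ι.toRingHom))
      = (modularFunctionFieldBar (N * q)).val.toRingHom.comp (h49_swapF hab h78_iota hq) := by
    apply h49_swap_unique hq
    · intro y
      have e1 : ι (heckeAlphaBar Qb N q y)
          = heckeAlphaBar Qb (N * c) q (heckeAlphaBar Qb N c y) := by
        apply Subtype.ext
        rw [hι, coe_heckeAlphaBar, coe_heckeAlphaBar, coe_heckeAlphaBar]
      show ((h49_swapF hab' h78_iota hq (ι (heckeAlphaBar Qb N q y)) :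
            modularFunctionFieldBar (N * c * q)) : LaurentSeries Qb)
          = ((h49_swapF hab h78_iota hq (heckeAlphaBar Qb N q y) :
            modularFunctionFieldBar (N * q)) : LaurentSeries Qb)
      rw [e1, h49_swapF_alpha, h49_swapF_alpha, coe_heckeBetaBar, coe_heckeBetaBar,
        coe_heckeAlphaBar]
    · intro y
      have e1 : ι (heckeBetaBar Qb N q y)
          = heckeBetaBar Qb (N * c) q (heckeAlphaBar Qb N c y) := by
        apply Subtype.ext
        rw [hι, coe_heckeBetaBar, coe_heckeBetaBar, coe_heckeAlphaBar]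
      show ((h49_swapF hab' h78_iota hq (ι (heckeBetaBar Qb N q y)) :
            modularFunctionFieldBar (N * c * q)) : LaurentSeries Qb)
          = ((h49_swapF hab h78_iota hq (heckeBetaBar Qb N q y) :
            modularFunctionFieldBar (N * q)) : LaurentSeries Qb)
      rw [e1, h49_swapF_beta, h49_swapF_beta, coe_heckeAlphaBar, coe_heckeAlphaBar,
        coe_heckeAlphaBar]
  exact RingHom.congr_fun key f

/-- The same as an equality of functions of level `N c q`. -/
theorem h49_swap_bc' (N q c : ℕ) [NeZero N] [NeZero q] [NeZero c] (hq : q.Prime)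
    {a b : ℤ} (hab : (q : ℤ) * a - (N : ℤ) * b = 1)
    {a' b' : ℤ} (hab' : (q : ℤ) * a' - ((N * c : ℕ) : ℤ) * b' = 1)
    (ι : modularFunctionFieldBar (N * q) →ₐ[Qb] modularFunctionFieldBar (N * c * q))
    (hι : ∀ f : modularFunctionFieldBar (N * q),
      ((ι f : modularFunctionFieldBar (N * c * q)) : LaurentSeries Qb) = (f : LaurentSeries Qb))
    (f : modularFunctionFieldBar (N * q)) :
    h49_swapF hab' h78_iota hq (ι f) = ι (h49_swapF hab h78_iota hq f) := by
  apply Subtype.ext
  rw [h49_swap_bc N q c hq hab hab' ι hι f, hι]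

/-- **NBC, alpha** (statement verbatim from `skel/h29_NbcStmt.lean`). -/
theorem h49_norm_bc_alpha (N q c : ℕ) [NeZero N] [NeZero q] [NeZero c] (hq : q.Prime)
    (hqNc : ¬ q ∣ N * c)
    (ι : modularFunctionFieldBar (N * q) →ₐ[Qb] modularFunctionFieldBar (N * c * q))
    (hι : ∀ f : modularFunctionFieldBar (N * q),
      ((ι f : modularFunctionFieldBar (N * c * q)) : LaurentSeries Qb) = (f : LaurentSeries Qb))
    (f : modularFunctionFieldBar (N * q)) :
    @Algebra.norm (modularFunctionFieldBar (N * c)) (modularFunctionFieldBar (N * c * q)) _ _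
        (algebraAlong (heckeAlphaBar Qb (N * c) q)) (ι f)
      = heckeAlphaBar Qb N c
          (@Algebra.norm (modularFunctionFieldBar N) (modularFunctionFieldBar (N * q)) _ _
            (algebraAlong (heckeAlphaBar Qb N q)) f) := by
  have hqN : ¬ q ∣ N := fun h => hqNc (Dvd.dvd.mul_right h c)
  obtain ⟨a, b, hab⟩ := h49_exists_bezout ((Nat.Prime.coprime_iff_not_dvd hq).mpr hqN)
  obtain ⟨a', b', hab'⟩ := h49_exists_bezout ((Nat.Prime.coprime_iff_not_dvd hq).mpr hqNc)
  obtain ⟨ζ₀, hζ₀⟩ := HasEnoughRootsOfUnity.exists_primitiveRoot Qb q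
  obtain ⟨ζ, rfl⟩ := hζ₀.isUnit (NeZero.ne q)
  have hζ : IsPrimitiveRoot ζ q := IsPrimitiveRoot.coe_units_iff.1 hζ₀
  apply Subtype.ext
  rw [coe_heckeAlphaBar]
  apply qExpand_injective (R := Qb) q
  rw [h49_norm_alpha_qexp (N * c) q hq hqNc hab' ζ hζ (ι f),
    h49_norm_alpha_qexp N q hq hqN hab ζ hζ f, hι]
  congr 1
  refine Finset.prod_congr rfl fun c' _ => ?_
  rw [h49_swap_bc N q c hq hab hab' ι hι f]

/-- The norm along `heckeBetaBar` is the norm along `heckeAlphaBar` of the swapped function. -/
theorem h49_norm_beta_eq (N q : ℕ) [NeZero N] [NeZero q] (hq : q.Prime)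
    {a b : ℤ} (hab : (q : ℤ) * a - (N : ℤ) * b = 1) (f : modularFunctionFieldBar (N * q)) :
    @Algebra.norm (modularFunctionFieldBar N) (modularFunctionFieldBar (N * q)) _ _
        (algebraAlong (heckeBetaBar Qb N q)) f
      = @Algebra.norm (modularFunctionFieldBar N) (modularFunctionFieldBar (N * q)) _ _
        (algebraAlong (heckeAlphaBar Qb N q)) (h49_swapF hab h78_iota hq f) := by
  have h := @Algebra.norm_eq_of_equiv_equiv (modularFunctionFieldBar N)
    (modularFunctionFieldBar (N * q)) (modularFunctionFieldBar N)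
    (modularFunctionFieldBar (N * q)) _ _ _ _ (algebraAlong (heckeBetaBar Qb N q))
    (algebraAlong (heckeAlphaBar Qb N q)) (RingEquiv.refl _) (h49_swapEquiv hab h78_iota hq)
    (by
      refine RingHom.ext fun y => ?_
      show heckeAlphaBar Qb N q y = h49_swapF hab h78_iota hq (heckeBetaBar Qb N q y)
      rw [h49_swapF_beta]) f
  rw [h]
  rfl

/-- **NBC, beta** (statement verbatim from `skel/h29_NbcStmt.lean`). -/
theorem h49_norm_bc_beta (N q c : ℕ) [NeZero N] [NeZero q] [NeZero c] (hq : q.Prime)
    (hqNc : ¬ q ∣ N * c)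
    (ι : modularFunctionFieldBar (N * q) →ₐ[Qb] modularFunctionFieldBar (N * c * q))
    (hι : ∀ f : modularFunctionFieldBar (N * q),
      ((ι f : modularFunctionFieldBar (N * c * q)) : LaurentSeries Qb) = (f : LaurentSeries Qb))
    (f : modularFunctionFieldBar (N * q)) :
    @Algebra.norm (modularFunctionFieldBar (N * c)) (modularFunctionFieldBar (N * c * q)) _ _
        (algebraAlong (heckeBetaBar Qb (N * c) q)) (ι f)
      = heckeAlphaBar Qb N c
          (@Algebra.norm (modularFunctionFieldBar N) (modularFunctionFieldBar (N * q)) _ _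
            (algebraAlong (heckeBetaBar Qb N q)) f) := by
  have hqN : ¬ q ∣ N := fun h => hqNc (Dvd.dvd.mul_right h c)
  obtain ⟨a, b, hab⟩ := h49_exists_bezout ((Nat.Prime.coprime_iff_not_dvd hq).mpr hqN)
  obtain ⟨a', b', hab'⟩ := h49_exists_bezout ((Nat.Prime.coprime_iff_not_dvd hq).mpr hqNc)
  rw [h49_norm_beta_eq (N * c) q hq hab' (ι f), h49_norm_beta_eq N q hq hab f,
    h49_swap_bc' N q c hq hab hab' ι hι f]
  exact h49_norm_bc_alpha N q c hq hqNc ι hι _

end Fermat.Agent.S35
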