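import Mathlib

/-!
# (LI): integrality gives ℂ-linear independence

`h1_int_li`: if `n : T →+ (X → ℤ)` is injective and `b : ι → T` is `ℤ`-linearly independent,
then the integer-valued functions `n (b i)` are linearly independent over `ℂ`.
(Requested by helper67, board #2648; Mathlib only.)
-/

set_option autoImplicit false

namespace Fermat.Agent.S35

/-- Rational version: a rational relation between the functions `n (b i)` is trivial. -/
theorem h1_rat_li {T X ι : Type*} [AddCommGroup T] [Fintype ι] (n : T →+ (X → ℤ))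
    (hn : Function.Injective n) (b : ι → T) (hb : LinearIndependent ℤ b) (r : ι → ℚ)
    (h : ∀ x, ∑ i, r i * ((n (b i) x : ℤ) : ℚ) = 0) : r = 0 := by
  classical
  -- clear denominators
  obtain ⟨d, hd⟩ := IsLocalization.exist_integer_multiples (nonZeroDivisors ℤ)
    (Finset.univ : Finset ι) r
  have hd0 : ((d : ℤ) : ℚ) ≠ 0 := by
    have := nonZeroDivisors.ne_zero d.2
    exact_mod_cast this
  have hd' : ∀ j, ∃ m : ℤ, (m : ℚ) = ((d : ℤ) : ℚ) * r j := by
    intro j
    obtain ⟨m, hm⟩ := hd j (Finset.mem_univ j)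
    refine ⟨m, ?_⟩
    rw [← eq_intCast (algebraMap ℤ ℚ) m, hm, zsmul_eq_mul]
  choose m hm using hd'
  have hz : ∑ j, m j • b j = 0 := by
    apply hn
    rw [map_zero, map_sum]
    funext x
    rw [Finset.sum_apply, Pi.zero_apply]
    have hq : ((∑ j, n (m j • b j) x : ℤ) : ℚ) = 0 := by
      rw [Int.cast_sum]
      have : ∀ j, ((n (m j • b j) x : ℤ) : ℚ) = ((d : ℤ) : ℚ) * (r j * ((n (b j) x : ℤ) : ℚ)) := by
        intro j
        rw [map_zsmul, Pi.smul_apply, smul_eq_mul, Int.cast_mul, hm j, mul_assoc]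
      simp_rw [this]
      rw [← Finset.mul_sum, h x, mul_zero]
    exact_mod_cast hq
  have hm0 := Fintype.linearIndependent_iff.mp hb m hz
  funext i
  have h1 := hm i
  rw [hm0 i, Int.cast_zero] at h1
  rcases mul_eq_zero.mp h1.symm with h2 | h2
  · exact absurd h2 hd0
  · exact h2

/-- **(LI)**, statement verbatim from board #2648. -/
theorem h1_int_li {T X ι : Type*} [AddCommGroup T] [Fintype ι] (n : T →+ (X → ℤ))
    (hn : Function.Injective n) (b : ι → T) (hb : LinearIndependent ℤ b) (c : ι → ℂ)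
    (h : ∀ x, ∑ i, c i * ((n (b i) x : ℤ) : ℂ) = 0) : c = 0 := by
  classical
  funext i
  rw [Pi.zero_apply, ← Module.forall_dual_apply_eq_zero_iff ℚ]
  intro lam
  have key : ∀ x, ∑ j, lam (c j) * ((n (b j) x : ℤ) : ℚ) = 0 := by
    intro x
    have h0 := congrArg lam (h x)
    rw [map_sum, map_zero] at h0
    rw [← h0]
    refine Finset.sum_congr rfl fun j _ => ?_
    have hsm : c j * ((n (b j) x : ℤ) : ℂ) = ((n (b j) x : ℤ) : ℚ) • c j := by
      rw [Algebra.smul_def, mul_comm]
      simp
    rw [hsm, map_smul, smul_eq_mul, mul_comm]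
  have hr := h1_rat_li n hn b hb (fun j => lam (c j)) key
  exact congrFun hr i

end Fermat.Agent.S35
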