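import Mathlib
import Fermat.Agent.GAL.h31_S30Pseudo

/-!
# S35, GAL side [Q1]: the pseudo-character with explicit level data and its specification

`h29_exists_pseudo_spec` is helper31's `h31_exists_pseudo` (the pseudo-character `(t, d)` of a
Hecke character `χ`, as a limit of scalars over the levels) for an EXPLICIT family of level data,
exporting the internal specification of `t` and `d`.  The proof is the one of
`h31_S30Pseudo.lean`; only the statement is stronger.  It is used for the Frobenius clause of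
S35 at the primes `q ∥ N` (`h29_QClause.lean`).
-/

set_option autoImplicit false

open Polynomial

namespace Fermat.Agent.S35

open Fermat.Agent.GAL

local instance h29_isAlgebraicQbar : Algebra.IsAlgebraic ℚ (AlgebraicClosure ℚ) :=
  AlgebraicClosure.isAlgebraic ℚ
local instance h29_isAlgClosureQbar : IsAlgClosure ℚ (AlgebraicClosure ℚ) :=
  ⟨inferInstance, inferInstance⟩
local instance h29_normalQbar : Normal ℚ (AlgebraicClosure ℚ) :=
  IsAlgClosure.normal ℚ (AlgebraicClosure ℚ)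

section main

variable {p N : ℕ} [NeZero N] {S : Finset ℕ}

/-- **The pseudo-character attached to a Hecke character, with explicit level data and its
specification.**  This is `h31_exists_pseudo` for a given family of level data
`(M n, qM n, r n, tM n)`; in addition to `t`, `d` it exports the saturation constant `c` and

* (SPEC-t) a good pair `(x, e)` for `g` at level `k + c` gives `t g ≡ χ x` modulo `I ^ k`;
* (SPEC-d) `d g ≡ e` modulo `I ^ k` when `g` acts on the `p ^ k`-th roots of unity through `e`;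
* (EX) good pairs exist for every `g`, simultaneously at all levels `≤ m`;
* (SAT) a Hecke element killing `qM (k + c) Λ` has `χ`-value in `I ^ k`. -/
theorem h29_exists_pseudo_spec (hp : p.Prime) (hpS : p ∈ S)
    (hNS : ∀ q : ℕ, q.Prime → q ∣ N → q ∈ S)
    {𝒪 : Type*} [CommRing 𝒪] (I : Ideal 𝒪) [IsAdicComplete I 𝒪] (hpI : (p : 𝒪) ∈ I)
    (χ : CuspForm.heckeAlgebra N 2 (↑S : Set ℕ) →+* 𝒪)
    {Λ : Type} [AddCommGroup Λ] [Module.Free ℤ Λ] [Module.Finite ℤ Λ]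
    (ι : CuspForm.heckeAlgebra N 2 (↑S : Set ℕ) →+* Module.End ℤ Λ)
    (hι : Function.Injective ι)
    (M : ℕ → Type) [instM : ∀ n, AddCommGroup (M n)] (qM : ∀ n, Λ →+ M n)
    (r : ∀ n, (AlgebraicClosure ℚ ≃ₐ[ℚ] AlgebraicClosure ℚ) →* AddMonoid.End (M n))
    (tM : ∀ n, Nat.Primes → M n →+ M n)
    (hlevel : ∀ n : ℕ, h31_IsLevel p N S ι n (qM n) (r n) (tM n)) (hcheb : h65_WCheb) :
    ∃ (c : ℕ) (t : (AlgebraicClosure ℚ ≃ₐ[ℚ] AlgebraicClosure ℚ) → 𝒪)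
      (d : (AlgebraicClosure ℚ ≃ₐ[ℚ] AlgebraicClosure ℚ) →* 𝒪),
      (t 1 = 2 ∧ (∀ g h, t (g * h) + d h * t (g * h⁻¹) = t g * t h) ∧
      d complexConjugation = -1 ∧
      (∀ (ℓ : ℕ) (hℓ : ℓ.Prime) (hℓN : ¬ ℓ ∣ N) (hℓS : ℓ ∉ (↑S : Set ℕ))
        (A : ValuationSubring (AlgebraicClosure ℚ)), A.LiesOverPrime ℓ →
        ∀ σ : AlgebraicClosure ℚ ≃ₐ[ℚ] AlgebraicClosure ℚ, A.IsFrobeniusAt σ ℓ →
          t σ = χ (CuspForm.heckeAlgebra.T hℓ hℓN hℓS) ∧ d σ = (ℓ : 𝒪)) ∧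
      (∀ q' : ℕ, q'.Prime → ¬ q' ∣ N → q' ≠ p →
        ∀ A : ValuationSubring (AlgebraicClosure ℚ), A.LiesOverPrime q' →
          ∀ τ ∈ A.inertiaSubgroupIn ℚ, ∀ g, t (τ * g) = t g) ∧
      (∀ n : ℕ, ∃ L : IntermediateField ℚ (AlgebraicClosure ℚ), FiniteDimensional ℚ L ∧
        ∀ σ : AlgebraicClosure ℚ ≃ₐ[ℚ] AlgebraicClosure ℚ, (∀ x ∈ L, σ x = x) →
          ∀ g, t (σ * g) - t g ∈ I ^ n)) ∧
      (∀ (g : AlgebraicClosure ℚ ≃ₐ[ℚ] AlgebraicClosure ℚ) (k : ℕ)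
        (x : CuspForm.heckeAlgebra N 2 (↑S : Set ℕ)) (e : ℕ),
        h31_Good ι (qM (k + c)) (r (k + c)) (p ^ (k + c)) g x e → t g - χ x ∈ I ^ k) ∧
      (∀ (g : AlgebraicClosure ℚ ≃ₐ[ℚ] AlgebraicClosure ℚ) (k : ℕ) (e : ℕ),
        h31_Cyc (p ^ k) g e → d g - (e : 𝒪) ∈ I ^ k) ∧
      (∀ (m : ℕ) (g : AlgebraicClosure ℚ ≃ₐ[ℚ] AlgebraicClosure ℚ),
        ∃ (x : CuspForm.heckeAlgebra N 2 (↑S : Set ℕ)) (e : ℕ),
          ∀ n ≤ m, h31_Good ι (qM n) (r n) (p ^ n) g x e) ∧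
      (∀ (k : ℕ) (z : CuspForm.heckeAlgebra N 2 (↑S : Set ℕ)),
        (∀ v : Λ, qM (k + c) (ι z v) = 0) → χ z ∈ I ^ k) := by
  classical
  obtain ⟨c, hc⟩ := h65_saturation ι hι p
  have hppos : ∀ n, 0 < p ^ n := fun n => pow_pos hp.pos n
  have hker : ∀ (n : ℕ) (x : Λ), qM n x = 0 → ∃ y : Λ, x = (p ^ n : ℤ) • y :=
    fun n => (hlevel n).1
  have htors : ∀ (n : ℕ) (m : M n), p ^ n • m = 0 := fun n => (hlevel n).2.1
  have hstab := fun n => (hlevel n).2.2.1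
  have hhecke := fun n => (hlevel n).2.2.2.1
  have hfrob := fun n => (hlevel n).2.2.2.2.1
  have hinert := fun n => (hlevel n).2.2.2.2.2.1
  have hcomm := fun n => (hlevel n).2.2.2.2.2.2
  -- Galois levels
  choose Lv hLvfin hLvgal hLv using
    fun n => h31_exists_isLev (qM n) (r n) (hppos n) (hstab n)
  have hmulti : ∀ m : ℕ, ∃ L : IntermediateField ℚ (AlgebraicClosure ℚ),
      FiniteDimensional ℚ L ∧ IsGalois ℚ L ∧ ∀ n ≤ m, Lv n ≤ L := by
    intro m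
    induction m with
    | zero =>
      exact ⟨Lv 0, hLvfin 0, hLvgal 0, fun n hn => by rw [Nat.le_zero.mp hn]⟩
    | succ m ih =>
      obtain ⟨L, hLfin, hLgal, hL⟩ := ih
      obtain ⟨L', hL'fin, hL'gal, h1, h2, -⟩ :=
        h65_exists_galois_level L (Lv (m + 1)) hLfin (hLvfin (m + 1)) 1
      refine ⟨L', hL'fin, hL'gal, fun n hn => ?_⟩
      rcases Nat.lt_or_ge n (m + 1) with h | h
      · exact le_trans (hL n (by omega)) h1
      · have : n = m + 1 := by omega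
        subst this
        exact h2
  -- Frobenius elements are good
  have hfrobgood : ∀ (n : ℕ) (ℓ : ℕ) (hℓ : ℓ.Prime) (hℓN : ¬ ℓ ∣ N) (hℓS : ℓ ∉ (↑S : Set ℕ))
      (A : ValuationSubring (AlgebraicClosure ℚ)), A.LiesOverPrime ℓ →
      ∀ σ : AlgebraicClosure ℚ ≃ₐ[ℚ] AlgebraicClosure ℚ, A.IsFrobeniusAt σ ℓ →
        h31_Cyc (p ^ n) σ ℓ ∧ ∀ b : ℕ, h31_Good ι (qM n) (r n) (p ^ n) (σ ^ b)
          (Polynomial.aeval (CuspForm.heckeAlgebra.T hℓ hℓN hℓS)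
            (Polynomial.dickson 1 (ℓ : ℤ) b)) (ℓ ^ b) := by
    intro n ℓ hℓ hℓN hℓS A hA σ hσ
    have hℓp : ℓ ≠ p := fun h => hℓS (by rw [h]; exact_mod_cast hpS)
    have hℓpn : ¬ ℓ ∣ p ^ n := fun h =>
      hℓp ((Nat.prime_dvd_prime_iff_eq hℓ hp).mp (hℓ.dvd_of_dvd_pow h))
    have hcyc : h31_Cyc (p ^ n) σ ℓ := fun ζ hζ => h65_frob_root A hℓ hA hσ hℓpn hζ
    exact ⟨hcyc, fun b => h31_good_pow _ (tM n ⟨ℓ, hℓ⟩) ℓ σ hcyc (hhecke n ℓ hℓ hℓN hℓS)
      (hfrob n ℓ hℓ hℓN hℓS A hA σ hσ) (fun g m => hcomm n ⟨ℓ, hℓ⟩ g m) b⟩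
  -- existence of good pairs, simultaneously at all levels `≤ m`
  have hexist : ∀ (m : ℕ) (g : AlgebraicClosure ℚ ≃ₐ[ℚ] AlgebraicClosure ℚ),
      ∃ (x : CuspForm.heckeAlgebra N 2 (↑S : Set ℕ)) (e : ℕ),
        ∀ n ≤ m, h31_Good ι (qM n) (r n) (p ^ n) g x e := by
    intro m g
    obtain ⟨L, hLfin, hLgal, hL⟩ := hmulti m
    obtain ⟨ℓ, A, σ, b, hℓ, hℓS, hA, hσ, hσg⟩ := hcheb L hLfin hLgal g S
    have hℓN : ¬ ℓ ∣ N := fun h => hℓS (hNS ℓ hℓ h)
    have hℓS' : ℓ ∉ (↑S : Set ℕ) := by simpa using hℓS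
    refine ⟨Polynomial.aeval (CuspForm.heckeAlgebra.T hℓ hℓN hℓS')
      (Polynomial.dickson 1 (ℓ : ℤ) b), ℓ ^ b, fun n hn => ?_⟩
    have hLn : h31_IsLev (qM n) (r n) (p ^ n) L := (hLv n).mono (hL n hn)
    exact h31_good_of_agree hLgal.to_normal hLn hσg
      ((hfrobgood n ℓ hℓ hℓN hℓS' A hA σ hσ).2 b)
  -- saturation
  have hsat : ∀ (k : ℕ) (z : CuspForm.heckeAlgebra N 2 (↑S : Set ℕ)),
      (∀ v : Λ, qM (k + c) (ι z v) = 0) → χ z ∈ I ^ k := by
    intro k z hz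
    obtain ⟨y, hy⟩ := hc (k + c) z (fun v => hker (k + c) _ (hz v))
    rw [hy, show k + c - c = k by omega, zsmul_eq_mul, map_mul, map_intCast]
    push_cast
    exact Ideal.mul_mem_right _ _ (Ideal.pow_mem_pow hpI k)
  -- the trace function
  have ht_ex : ∀ g : AlgebraicClosure ℚ ≃ₐ[ℚ] AlgebraicClosure ℚ, ∃ L : 𝒪,
      ∀ (k : ℕ) (a : 𝒪), (∃ (x : CuspForm.heckeAlgebra N 2 (↑S : Set ℕ)) (e : ℕ),
        h31_Good ι (qM (k + c)) (r (k + c)) (p ^ (k + c)) g x e ∧ a = χ x) → L - a ∈ I ^ k := by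
    intro g
    apply h31_exists_limit I
    · intro k
      obtain ⟨x, e, hxe⟩ := hexist (k + c) g
      exact ⟨χ x, fun j hj => ⟨x, e, hxe (j + c) (by omega), rfl⟩⟩
    · rintro k a b ⟨x, e, hx, rfl⟩ ⟨x', e', hx', rfl⟩
      rw [← map_sub]
      exact hsat k _ (h31_good_unique (hppos _) (htors _) hx hx')
  choose t ht using ht_ex
  have htspec : ∀ (g : AlgebraicClosure ℚ ≃ₐ[ℚ] AlgebraicClosure ℚ) (k : ℕ)
      (x : CuspForm.heckeAlgebra N 2 (↑S : Set ℕ)) (e : ℕ),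
      h31_Good ι (qM (k + c)) (r (k + c)) (p ^ (k + c)) g x e → t g - χ x ∈ I ^ k :=
    fun g k x e h => ht g k _ ⟨x, e, h, rfl⟩
  -- the cyclotomic character
  have hd_ex : ∀ g : AlgebraicClosure ℚ ≃ₐ[ℚ] AlgebraicClosure ℚ, ∃ L : 𝒪,
      ∀ (k : ℕ) (a : 𝒪), (∃ e : ℕ, h31_Cyc (p ^ k) g e ∧ a = (e : 𝒪)) → L - a ∈ I ^ k := by
    intro g
    apply h31_exists_limit I
    · intro k
      obtain ⟨e, he⟩ := h31_Cyc_exists (hppos k) g
      exact ⟨(e : 𝒪), fun j hj => ⟨e, h31_Cyc_mono (pow_dvd_pow p hj) he, rfl⟩⟩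
    · rintro k a b ⟨e, he, rfl⟩ ⟨e', he', rfl⟩
      exact h31_cast_sub_mem I hpI (h31_Cyc_modEq (hppos k) he he')
  choose d0 hd0 using hd_ex
  have hdspec : ∀ (g : AlgebraicClosure ℚ ≃ₐ[ℚ] AlgebraicClosure ℚ) (k : ℕ) (e : ℕ),
      h31_Cyc (p ^ k) g e → d0 g - (e : 𝒪) ∈ I ^ k :=
    fun g k e h => hd0 g k _ ⟨e, h, rfl⟩
  have hd_one : d0 1 = 1 := by
    apply h31_eq_of_forall_sub_mem I
    intro k
    have := hdspec 1 k 1 (h31_Cyc_one _)
    simpa using this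
  have hd_mul : ∀ g h, d0 (g * h) = d0 g * d0 h := by
    intro g h
    apply h31_eq_of_forall_sub_mem I
    intro k
    obtain ⟨eg, heg⟩ := h31_Cyc_exists (hppos k) g
    obtain ⟨eh, heh⟩ := h31_Cyc_exists (hppos k) h
    have h1 := hdspec g k eg heg
    have h2 := hdspec h k eh heh
    have h3 := hdspec (g * h) k (eg * eh) (h31_Cyc_mul heg heh)
    have e : d0 (g * h) - d0 g * d0 h = (d0 (g * h) - ((eg * eh : ℕ) : 𝒪)) -
        ((d0 g - (eg : 𝒪)) * d0 h + (eg : 𝒪) * (d0 h - (eh : 𝒪))) := by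
      push_cast; ring
    rw [e]
    exact Ideal.sub_mem _ h3 (Ideal.add_mem _ (Ideal.mul_mem_right _ _ h1)
      (Ideal.mul_mem_left _ _ h2))
  let d : (AlgebraicClosure ℚ ≃ₐ[ℚ] AlgebraicClosure ℚ) →* 𝒪 :=
    { toFun := d0, map_one' := hd_one, map_mul' := hd_mul }
  have hd_apply : ∀ g, d g = d0 g := fun g => rfl
  refine ⟨c, t, d, ⟨?_, ?_, ?_, ?_, ?_, ?_⟩, htspec, fun g k e h => hdspec g k e h, hexist, hsat⟩
  · -- t 1 = 2
    apply h31_eq_of_forall_sub_mem I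
    intro k
    have := htspec 1 k 2 1 (h31_good_one _)
    rwa [map_ofNat] at this
  · -- the pseudo-character identity
    intro g h
    apply h31_eq_of_forall_sub_mem I
    intro k
    obtain ⟨xg, eg, hg⟩ := hexist (k + c) g
    obtain ⟨xh, eh, hh⟩ := hexist (k + c) h
    obtain ⟨x1, e1, h1⟩ := hexist (k + c) (g * h)
    obtain ⟨x2, e2, h2⟩ := hexist (k + c) (g * h⁻¹)
    have Hg := hg (k + c) le_rfl
    have Hh := hh (k + c) le_rfl
    have H1 := h1 (k + c) le_rfl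
    have H2 := h2 (k + c) le_rfl
    have hrel := hsat k _ (h31_good_rel (hppos _) (htors _) Hg Hh H1 H2)
    rw [map_sub, map_add, map_nsmul, map_mul, nsmul_eq_mul] at hrel
    have a1 := htspec _ k _ _ H1
    have a2 := htspec _ k _ _ H2
    have ag := htspec _ k _ _ Hg
    have ah := htspec _ k _ _ Hh
    have ad : d0 h - (eh : 𝒪) ∈ I ^ k :=
      Ideal.pow_le_pow_right (Nat.le_add_right k c) (hdspec h (k + c) eh Hh.1)
    have e : t (g * h) + d h * t (g * h⁻¹) - t g * t h =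
        (t (g * h) - χ x1) + (d0 h - (eh : 𝒪)) * t (g * h⁻¹) +
          (eh : 𝒪) * (t (g * h⁻¹) - χ x2) - (t g - χ xg) * t h - χ xg * (t h - χ xh) +
          (χ x1 + (eh : 𝒪) * χ x2 - χ xg * χ xh) := by
      rw [hd_apply]; ring
    rw [e]
    exact Ideal.add_mem _ (Ideal.sub_mem _ (Ideal.sub_mem _ (Ideal.add_mem _ (Ideal.add_mem _ a1
      (Ideal.mul_mem_right _ _ ad)) (Ideal.mul_mem_left _ _ a2)) (Ideal.mul_mem_right _ _ ag))
      (Ideal.mul_mem_left _ _ ah)) hrel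
  · -- complex conjugation
    rw [hd_apply]
    apply h31_eq_of_forall_sub_mem I
    intro k
    have h1 := hdspec complexConjugation k (p ^ k - 1) (h31_Cyc_conj (hppos k))
    have h2 : ((p ^ k - 1 : ℕ) : 𝒪) = (p : 𝒪) ^ k - 1 := by
      rw [Nat.cast_sub (hppos k)]; push_cast; ring
    rw [h2] at h1
    have e : d0 complexConjugation - -1 =
        (d0 complexConjugation - ((p : 𝒪) ^ k - 1)) + (p : 𝒪) ^ k := by ring
    rw [e]
    exact Ideal.add_mem _ h1 (Ideal.pow_mem_pow hpI k)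
  · -- Frobenius elements
    intro ℓ hℓ hℓN hℓS A hA σ hσ
    constructor
    · apply h31_eq_of_forall_sub_mem I
      intro k
      have h1 := (hfrobgood (k + c) ℓ hℓ hℓN hℓS A hA σ hσ).2 1
      rw [pow_one, Polynomial.dickson_one, Polynomial.aeval_X, pow_one] at h1
      exact htspec σ k _ _ h1
    · rw [hd_apply]
      apply h31_eq_of_forall_sub_mem I
      intro k
      exact hdspec σ k ℓ (hfrobgood k ℓ hℓ hℓN hℓS A hA σ hσ).1
  · -- inertia
    intro q' hq' hq'N hq'p A hA τ hτ g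
    apply h31_eq_of_forall_sub_mem I
    intro k
    obtain ⟨x, e, hx⟩ := hexist (k + c) g
    have Hx := hx (k + c) le_rfl
    have hrτ : r (k + c) τ = 1 := hinert (k + c) q' hq' hq'N hq'p A hA τ hτ
    have hq'pn : ¬ q' ∣ p ^ (k + c) := fun h =>
      hq'p ((Nat.prime_dvd_prime_iff_eq hq' hp).mp (hq'.dvd_of_dvd_pow h))
    have hcyc : h31_Cyc (p ^ (k + c)) τ 1 := by
      intro ζ hζ
      rw [pow_one]
      exact h65_inertia_root A hq' hA hτ hq'pn hζ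
    have Hx' := h31_good_left_mul hcyc (h31_triv_of_eq_one hrτ) Hx
    have a1 := htspec _ k _ _ Hx
    have a2 := htspec _ k _ _ Hx'
    have e : t (τ * g) - t g = (t (τ * g) - χ x) - (t g - χ x) := by ring
    rw [e]
    exact Ideal.sub_mem _ a2 a1
  · -- continuity
    intro n
    refine ⟨Lv (n + c), hLvfin (n + c), fun σ hσ g => ?_⟩
    obtain ⟨x, e, hx⟩ := hexist (n + c) g
    have Hx := hx (n + c) le_rfl
    have Hx' := h31_good_left_mul (h31_cyc_of_fix (hLv (n + c)) hσ)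
      (h31_triv_of_fix (hLvgal (n + c)).to_normal (hLv (n + c)) hσ) Hx
    have a1 := htspec _ n _ _ Hx
    have a2 := htspec _ n _ _ Hx'
    have e : t (σ * g) - t g = (t (σ * g) - χ x) - (t g - χ x) := by ring
    rw [e]
    exact Ideal.sub_mem _ a2 a1

end main

end Fermat.Agent.S35
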