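import Mathlib
import Fermat.Agent.S35.h29_PseudoSpec
import Fermat.Agent.GAL.h65_Cyclo

/-!
# S35, GAL side [Q2]: the Frobenius clause at a prime `q ∥ N`, abstractly

`h29_qclause`: let `(t, d)` be the pseudo-character of a Hecke character `χ` with its
specification (`h29_exists_pseudo_spec`: (SPEC-t), (SPEC-d), (EX), (SAT)) on level data
`(M n, qM n, r n)` killed by `p ^ n`.  Let `q ≠ p` be a prime, `s` a Frobenius element at `q`
and `P` a Hecke element such that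

  (NEWQ)  `(s² - 1) (s² - q²) = 0` on `qM n (P Λ)` for all `n`
          (spelled `s⁴ m + q² m = (q² + 1) s² m`).

Then `d s = q` and `(t s ^ 2 - (q + 1) ^ 2) * χ P = 0`.

Proof.  A good pair `(x, e)` for `s` at level `n = k + c` has `e ≡ q` modulo `p ^ n`, so
`x` acts on `qM n Λ` as `Θ := s + q s⁻¹`, and `Θ² - (q + 1)² = s⁻² (s² - 1) (s² - q²)` vanishes
on `qM n (P Λ)`; hence `(x² - (q + 1)²) P` kills `qM n Λ`, (SAT) gives
`(χ x ^ 2 - (q + 1) ^ 2) χ P ∈ I ^ k` and (SPEC-t) gives `t s ≡ χ x`.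
-/

set_option autoImplicit false

namespace Fermat.Agent.S35

open Fermat.Agent.GAL

section qclause

variable {p N : ℕ} [NeZero N] {S : Finset ℕ}

/-- **The Frobenius clause at `q`**, abstract form. -/
theorem h29_qclause (hp : p.Prime)
    {𝒪 : Type*} [CommRing 𝒪] (I : Ideal 𝒪) [IsAdicComplete I 𝒪]
    (χ : CuspForm.heckeAlgebra N 2 (↑S : Set ℕ) →+* 𝒪)
    {Λ : Type} [AddCommGroup Λ]
    (ι : CuspForm.heckeAlgebra N 2 (↑S : Set ℕ) →+* Module.End ℤ Λ)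
    (M : ℕ → Type) [instM : ∀ n, AddCommGroup (M n)] (qM : ∀ n, Λ →+ M n)
    (r : ∀ n, (AlgebraicClosure ℚ ≃ₐ[ℚ] AlgebraicClosure ℚ) →* AddMonoid.End (M n))
    (htors : ∀ (n : ℕ) (m : M n), p ^ n • m = 0)
    (c : ℕ) (t : (AlgebraicClosure ℚ ≃ₐ[ℚ] AlgebraicClosure ℚ) → 𝒪)
    (d : (AlgebraicClosure ℚ ≃ₐ[ℚ] AlgebraicClosure ℚ) →* 𝒪)
    (hspec_t : ∀ (g : AlgebraicClosure ℚ ≃ₐ[ℚ] AlgebraicClosure ℚ) (k : ℕ)
      (x : CuspForm.heckeAlgebra N 2 (↑S : Set ℕ)) (e : ℕ),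
      h31_Good ι (qM (k + c)) (r (k + c)) (p ^ (k + c)) g x e → t g - χ x ∈ I ^ k)
    (hspec_d : ∀ (g : AlgebraicClosure ℚ ≃ₐ[ℚ] AlgebraicClosure ℚ) (k : ℕ) (e : ℕ),
      h31_Cyc (p ^ k) g e → d g - (e : 𝒪) ∈ I ^ k)
    (hexist : ∀ (m : ℕ) (g : AlgebraicClosure ℚ ≃ₐ[ℚ] AlgebraicClosure ℚ),
      ∃ (x : CuspForm.heckeAlgebra N 2 (↑S : Set ℕ)) (e : ℕ),
        ∀ n ≤ m, h31_Good ι (qM n) (r n) (p ^ n) g x e)
    (hsat : ∀ (k : ℕ) (z : CuspForm.heckeAlgebra N 2 (↑S : Set ℕ)),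
      (∀ v : Λ, qM (k + c) (ι z v) = 0) → χ z ∈ I ^ k)
    (q : ℕ) (hq : q.Prime) (hqp : q ≠ p) (P : CuspForm.heckeAlgebra N 2 (↑S : Set ℕ))
    (A : ValuationSubring (AlgebraicClosure ℚ)) (hA : A.LiesOverPrime q)
    (s : AlgebraicClosure ℚ ≃ₐ[ℚ] AlgebraicClosure ℚ) (hs : A.IsFrobeniusAt s q)
    (hnew : ∀ (n : ℕ) (y : Λ),
      r n s (r n s (r n s (r n s (qM n (ι P y))))) + q ^ 2 • qM n (ι P y) =
        (q ^ 2 + 1) • r n s (r n s (qM n (ι P y)))) :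
    d s = (q : 𝒪) ∧ (t s ^ 2 - ((q : 𝒪) + 1) ^ 2) * χ P = 0 := by
  have hqpk : ∀ k : ℕ, ¬ q ∣ p ^ k := fun k h =>
    hqp ((Nat.prime_dvd_prime_iff_eq hq hp).mp (hq.dvd_of_dvd_pow h))
  have hcyc : ∀ k : ℕ, h31_Cyc (p ^ k) s q := fun k ζ hζ =>
    h65_frob_root A hq hA hs (hqpk k) hζ
  refine ⟨?_, ?_⟩
  · apply h31_eq_of_forall_sub_mem I
    intro k
    exact hspec_d s k q (hcyc k)
  · apply h31_eq_zero_of_forall_mem I
    intro k
    obtain ⟨x, e, hx⟩ := hexist (k + c) s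
    have Hx := hx (k + c) le_rfl
    have a1 := hspec_t s k x e Hx
    have hmod : e ≡ q [MOD p ^ (k + c)] :=
      h31_Cyc_modEq (pow_pos hp.pos _) Hx.1 (hcyc (k + c))
    -- `x` acts as `Θ = s + q s⁻¹`
    have hΘ : ∀ z : Λ, qM (k + c) (ι x z) =
        r (k + c) s (qM (k + c) z) + q • r (k + c) s⁻¹ (qM (k + c) z) := by
      intro z
      have h := Hx.2 1 z
      rw [h31_r_one, h31_r_one] at h
      rw [h, h65_nsmul_eq_of_modEq hmod _ (htors _ _)]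
    have hkill : ∀ y : Λ, qM (k + c) (ι ((x * x - (((q + 1) ^ 2 : ℕ) :
        CuspForm.heckeAlgebra N 2 (↑S : Set ℕ))) * P) y) = 0 := by
      intro y
      have e1 : ι ((x * x - (((q + 1) ^ 2 : ℕ) : CuspForm.heckeAlgebra N 2 (↑S : Set ℕ))) * P) y =
          ι x (ι x (ι P y)) - ((q + 1) ^ 2) • ι P y := by
        rw [map_mul, map_sub, map_mul, map_natCast, Module.End.mul_apply, LinearMap.sub_apply,
          Module.End.mul_apply, Module.End.natCast_apply]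
      rw [e1, map_sub, map_nsmul, hΘ, hΘ]
      set m := qM (k + c) (ι P y) with hm
      have hN := hnew (k + c) y
      rw [← hm] at hN
      have hN2 : r (k + c) s (r (k + c) s m) + q ^ 2 • r (k + c) s⁻¹ (r (k + c) s⁻¹ m) =
          (q ^ 2 + 1) • m := by
        have h1 := congrArg (fun w => r (k + c) s⁻¹ (r (k + c) s⁻¹ w)) hN
        simp only [map_add, map_nsmul, h31_r_inv_cancel'] at h1
        exact h1
      rw [map_add, map_add, map_nsmul, map_nsmul, h31_r_inv_cancel, h31_r_inv_cancel']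
      have hN3 : r (k + c) s (r (k + c) s m) =
          (q ^ 2 + 1) • m - q ^ 2 • r (k + c) s⁻¹ (r (k + c) s⁻¹ m) :=
        eq_sub_of_add_eq hN2
      rw [hN3]
      module
    have hz := hsat k _ hkill
    rw [map_mul, map_sub, map_mul, map_natCast] at hz
    have e : (t s ^ 2 - ((q : 𝒪) + 1) ^ 2) * χ P =
        (t s - χ x) * (t s + χ x) * χ P + (χ x * χ x - (((q + 1) ^ 2 : ℕ) : 𝒪)) * χ P := by
      push_cast
      ring
    rw [e]
    exact Ideal.add_mem _ (Ideal.mul_mem_right _ _ (Ideal.mul_mem_right _ _ a1)) hz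

end qclause

end Fermat.Agent.S35
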