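import Mathlib
import Fermat.Agent.S35.h29_QClause
import Fermat.Agent.S35.h29_ThetaCanon
import Fermat.Agent.GAL.h31_S30Asm
import Fermat.Agent.S37.h60_Final
import Fermat.Agent.S22.Cocycle

/-!
# S35, GAL side [Q4]: the assembly

`h29_S35_of_new`: the conclusion of the frozen statement S35 (a `λ`-adic representation attached
to a Hecke character `chig : 𝕋 → ℂ`, `iota : chig.range → O'`, with the Frobenius characteristic
polynomials at the good primes AND at the primes `q ≠ λ`, `q ∥ M`) from ONE hypothesis per prime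
`q`:

  (NEW+FROB2)  there are a predicate `Jnew` on `J₀(M)(ℚ̄)` ("`q`-new") and a Hecke element `P`
  with `chig P ≠ 0` such that
  * every class `x` related (`gal_R`, for the fixed embedding `h78_iota`) to a character
    `(P φ) mod λ ^ n`, `φ ∈ h65_Lam M`, is `q`-new;
  * `(s² - 1) (s² - q²) x = 0` for every Frobenius element `s` at `q` and every `q`-new `x`
    killed by a power of `λ`.

THETA (canonical form `h29_theta_canon`), the reduction interface (`h60_redData`), the weak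
Chebotarev statement and the pseudo-character machinery are discharged here.  The coefficient
ring is `O'' := O'`.
-/

set_option autoImplicit false

open Polynomial CongruenceSubgroup ModularCurve

namespace Fermat.Agent.S35

open Fermat.Agent.GAL Fermat.Agent.S16 Fermat.Agent.S24

/-- A ring homomorphism from a domain to a ring of characteristic zero does not kill a nonzero
element integral over `ℤ`. -/
theorem h29_map_ne_zero_of_integral {R O : Type*} [CommRing R] [IsDomain R] [CommRing O]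
    [CharZero O] (f : R →+* O) {y : R} (hy : IsIntegral ℤ y) (hy0 : y ≠ 0) : f y ≠ 0 := by
  intro h
  have h1 : (RingHom.ker f).comap (algebraMap ℤ R) ≠ ⊥ :=
    Ideal.comap_ne_bot_of_integral_mem hy0 (RingHom.mem_ker.2 h) hy
  obtain ⟨n, hn, hn0⟩ := Submodule.exists_mem_ne_zero_of_ne_bot h1
  have h2 : f (algebraMap ℤ R n) = 0 := RingHom.mem_ker.1 (Ideal.mem_comap.1 hn)
  rw [eq_intCast, map_intCast] at h2
  exact hn0 (Int.cast_eq_zero.1 h2)

section main

variable {M : ℕ} [NeZero M]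

set_option maxHeartbeats 1600000 in
/-- **S35 from the `q`-new input.** -/
theorem h29_S35_of_new (lam : ℕ) [Fact lam.Prime] (S : Finset ℕ)
    (O' : Type) [CommRing O'] [IsDomain O'] [IsDiscreteValuationRing O']
    [IsAdicComplete (IsLocalRing.maximalIdeal O') O'] [Finite (IsLocalRing.ResidueField O')]
    [CharZero O'] (hlamO' : (lam : O') ∈ IsLocalRing.maximalIdeal O')
    (chig : CuspForm.heckeAlgebra M 2 (↑S : Set ℕ) →+* ℂ)
    (iota : chig.range →+* O')
    (hlamS : lam ∈ S) (hMS : ∀ q : ℕ, q.Prime → q ∣ M → q ∈ S)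
    (hnew : ∀ q : ℕ, q.Prime → q ≠ lam → q ∣ M → ¬ q ^ 2 ∣ M →
      ∃ (Jnew : JZero M → Prop) (P : CuspForm.heckeAlgebra M 2 (↑S : Set ℕ)), chig P ≠ 0 ∧
        (∀ (n : ℕ) (φ : h65_Lam M) (x : JZero M),
          gal_R M (lam ^ n) h78_iota (gal_chi (lam ^ n)
            ((h65_redHom M (lam ^ n) (h65_iota M (↑S : Set ℕ)
              (fun q hq hqM => Finset.mem_coe.2 (hMS q hq hqM)) P φ) : gal_Hpe M (lam ^ n)) :
                Additive (Gamma0 M) →+ ZMod (lam ^ n))) x → Jnew x) ∧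
        (∀ A : ValuationSubring (AlgebraicClosure ℚ), A.LiesOverPrime q →
          ∀ s : AlgebraicClosure ℚ ≃ₐ[ℚ] AlgebraicClosure ℚ, A.IsFrobeniusAt s q →
            ∀ (n : ℕ) (x : JZero M), lam ^ n • x = 0 → Jnew x →
              s • s • s • s • x + q ^ 2 • x = (q ^ 2 + 1) • (s • s • x))) :
    ∃ (O'' : Type) (_ : CommRing O'') (_ : IsDomain O'') (_ : IsDiscreteValuationRing O'')
      (_ : IsAdicComplete (IsLocalRing.maximalIdeal O'') O'')
      (_ : Finite (IsLocalRing.ResidueField O''))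
      (_ : CharZero O'') (_ : Algebra O' O'') (_ : Module.Finite O' O'')
      (_ : IsLocalHom (algebraMap O' O'')),
      Function.Injective (algebraMap O' O'') ∧
      ∃ ρ : GaloisRepAdic O'',
        (∀ (ℓ : ℕ) (hℓ : ℓ.Prime) (hℓM : ¬ ℓ ∣ M) (hℓS : ℓ ∉ (↑S : Set ℕ)),
          ∀ A : ValuationSubring (AlgebraicClosure ℚ), A.LiesOverPrime ℓ →
            ∀ σ : AlgebraicClosure ℚ ≃ₐ[ℚ] AlgebraicClosure ℚ, A.IsFrobeniusAt σ ℓ →
              LinearMap.charpoly (ρ.ρ σ) =
                X ^ 2 - C (algebraMap O' O'' ((iota.comp chig.rangeRestrict)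
                  (CuspForm.heckeAlgebra.T hℓ hℓM hℓS))) * X + C ((ℓ : O''))) ∧
        (∀ q : ℕ, q.Prime → q ≠ lam → q ∣ M → ¬ q ^ 2 ∣ M →
          ∀ A : ValuationSubring (AlgebraicClosure ℚ), A.LiesOverPrime q →
            ∀ σ : AlgebraicClosure ℚ ≃ₐ[ℚ] AlgebraicClosure ℚ, A.IsFrobeniusAt σ q →
              LinearMap.charpoly (ρ.ρ σ) = X ^ 2 - C ((q : O'') + 1) * X + C ((q : O'')) ∨
              LinearMap.charpoly (ρ.ρ σ) = X ^ 2 + C ((q : O'') + 1) * X + C ((q : O''))) := by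
  classical
  have hp : lam.Prime := Fact.out
  have hMS' : ∀ q : ℕ, q.Prime → q ∣ M → q ∈ (↑S : Set ℕ) :=
    fun q hq hqM => Finset.mem_coe.2 (hMS q hq hqM)
  set χ : CuspForm.heckeAlgebra M 2 (↑S : Set ℕ) →+* O' := iota.comp chig.rangeRestrict with hχ
  -- the canonical THETA family
  have hθ : ∀ n : ℕ, ∃ Θ : gal_Hpe M (lam ^ n) →+ JZero M, Function.Injective Θ ∧
      (∀ (ℓ : ℕ) [Fact ℓ.Prime] (hℓN : ¬ ℓ ∣ M), ¬ ℓ ∣ lam ^ n →
        ∀ χ χ' : gal_Hpe M (lam ^ n),
          (χ' : Additive (Gamma0 M) →+ ZMod (lam ^ n)) =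
              h30_heckeT M ℓ hℓN (χ : Additive (Gamma0 M) →+ ZMod (lam ^ n)) →
            heckeOperatorBar M ⟨ℓ, Fact.out⟩ (Θ χ) = Θ χ') ∧
      ∀ ψ : gal_Hpe M (lam ^ n),
        gal_R M (lam ^ n) h78_iota
          (gal_chi (lam ^ n) (ψ : Additive (Gamma0 M) →+ ZMod (lam ^ n))) (Θ ψ) := by
    intro n
    have : NeZero (lam ^ n) := ⟨pow_ne_zero n hp.ne_zero⟩
    exact h29_theta_canon M (lam ^ n)
  choose Θ hΘinj hΘhecke hΘR using hθ
  -- the explicit level data
  let Mn : ℕ → Type := fun n => ↥(h65_tors (JZero M) (lam ^ n))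
  let qM : ∀ n, h65_Lam M →+ Mn n := fun n => h29_qLev lam M n (Θ n)
  let r : ∀ n, (AlgebraicClosure ℚ ≃ₐ[ℚ] AlgebraicClosure ℚ) →* AddMonoid.End (Mn n) :=
    fun n => h65_torsRep (AlgebraicClosure ℚ ≃ₐ[ℚ] AlgebraicClosure ℚ) (JZero M) (lam ^ n)
  let tM : ∀ n, Nat.Primes → Mn n →+ Mn n :=
    fun n ℓ => h65_torsEnd (lam ^ n) (heckeOperatorBar M ℓ).toAddMonoidHom
  have hlevel : ∀ n : ℕ, h31_IsLevel lam M S (h65_iota M (↑S : Set ℕ) hMS') n (qM n) (r n)
      (tM n) := fun n =>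
    h29_isLevel hp hlamS hMS' (Θ n) (hΘinj n) (hΘhecke n)
      (fun ℓ hℓ h A hA => Fermat.Agent.S37.h60_redData M lam ℓ hℓ h A hA)
  obtain ⟨c, t, d, ⟨ht1, ht, hdc, hfrob, -, hcont⟩, hspec_t, hspec_d, hexist, hsat⟩ :=
    h29_exists_pseudo_spec hp hlamS hMS (IsLocalRing.maximalIdeal O') hlamO' χ
      (h65_iota M (↑S : Set ℕ) hMS') (h65_iota_injective M (↑S : Set ℕ) hMS') Mn qM r tM hlevel
      h65_wcheb
  obtain ⟨ρ, hchar, -⟩ := h31_adicRep_of_pseudo t d ht1 ht hdc hcont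
  refine ⟨O', inferInstance, inferInstance, inferInstance, inferInstance, inferInstance,
    inferInstance, Algebra.id O', inferInstance, ?_, Function.injective_id, ρ, ?_, ?_⟩
  · exact ⟨fun a ha => ha⟩
  · intro ℓ hℓ hℓM hℓS A hA σ hσ
    obtain ⟨h1, h2⟩ := hfrob ℓ hℓ hℓM hℓS A hA σ hσ
    rw [hchar σ, h1, h2]
    rfl
  · intro q hq hql hqM hq2 A hA σ hσ
    obtain ⟨Jnew, P, hP, hPnew, hfrob2⟩ := hnew q hq hql hqM hq2
    have htors : ∀ (n : ℕ) (m : Mn n), lam ^ n • m = 0 := fun n m => h65_tors_nsmul (lam ^ n) m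
    have hnewQ : ∀ (n : ℕ) (y : h65_Lam M),
        r n σ (r n σ (r n σ (r n σ (qM n (h65_iota M (↑S : Set ℕ) hMS' P y))))) +
            q ^ 2 • qM n (h65_iota M (↑S : Set ℕ) hMS' P y) =
          (q ^ 2 + 1) • r n σ (r n σ (qM n (h65_iota M (↑S : Set ℕ) hMS' P y))) := by
      intro n y
      apply Subtype.ext
      rw [AddSubgroup.coe_add, AddSubgroup.coe_nsmul, AddSubgroup.coe_nsmul, h65_torsRep_coe,
        h65_torsRep_coe, h65_torsRep_coe, h65_torsRep_coe]
      exact hfrob2 A hA σ hσ n _ (qM n (h65_iota M (↑S : Set ℕ) hMS' P y)).2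
        (hPnew n y _ (hΘR n _))
    obtain ⟨hd, ht2⟩ := h29_qclause hp (IsLocalRing.maximalIdeal O') χ
      (h65_iota M (↑S : Set ℕ) hMS') Mn qM r htors c t d hspec_t hspec_d hexist hsat q hq hql P
      A hA σ hσ hnewQ
    -- `χ P ≠ 0`
    have hfin : Module.Finite ℤ (CuspForm.heckeAlgebra M 2 (↑S : Set ℕ)) :=
      Fermat.Agent.S22.heckeAlgebra_finite M 2 (↑S : Set ℕ)
    have hint : IsIntegral ℤ (chig.rangeRestrict P) :=
      (IsIntegral.of_finite ℤ P).map chig.rangeRestrict.toIntAlgHom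
    have hne : chig.rangeRestrict P ≠ 0 := by
      intro h
      apply hP
      have h' := congrArg (Subtype.val) h
      exact h'
    have hχP : χ P ≠ 0 := h29_map_ne_zero_of_integral iota hint hne
    have hsq : t σ ^ 2 - ((q : O') + 1) ^ 2 = 0 := by
      rcases mul_eq_zero.1 ht2 with h | h
      · exact h
      · exact absurd h hχP
    have hfac : (t σ - ((q : O') + 1)) * (t σ + ((q : O') + 1)) = 0 := by
      rw [← hsq]
      ring
    rcases mul_eq_zero.1 hfac with h | h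
    · left
      rw [hchar σ, hd, sub_eq_zero.1 h]
    · right
      rw [hchar σ, hd, eq_neg_of_add_eq_zero_left h, map_neg, neg_mul, sub_neg_eq_add]

end main

end Fermat.Agent.S35
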