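import Mathlib
import Fermat.Agent.S35.h29_S35Asm

/-!
# S35: the top wiring

The frozen statement S35 is reduced to two inputs per prime `q ≠ λ`, `q ∥ M`, linked by a
predicate `Jnew` on `J₀(M)(ℚ̄)` ("the `q`-new part", e.g. the common kernel of the two
pushforwards to `J₀(M / q)`):

* `h29_NewProp M lam S hMS chig Jnew` (HECKE SIDE): there is a Hecke element `P` with
  `chig P ≠ 0` such that every class `x` related (`gal_R`, for the fixed embedding `h78_iota`)
  to the character `(P φ) mod λ ^ n` (`φ ∈ h65_Lam M`, any `n`) satisfies `Jnew x`;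
* `h29_FrobGeom M q Jnew` (GEOMETRIC SIDE, "(FROB2)"): for every valuation subring `A` of `ℚ̄`
  over `q`, every Frobenius element `s` at `A`, every prime `p ≠ q` and every `x` with
  `p ^ n • x = 0` and `Jnew x`:   `s⁴ x + q² x = (q² + 1) s² x`,  i.e. `(s² - 1)(s² - q²) x = 0`.

`h29_S35_of_new_frob` : the conclusion of the frozen S35 from these inputs.  So
`Fermat/Agent/S35.lean` is
`h29_S35_of_new_frob lam S O' hlamO' chig iota hlamS hMS (fun q hq hql hqM hq2 => ⟨Jnew, new, frob⟩)`.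
-/

set_option autoImplicit false

open Polynomial CongruenceSubgroup ModularCurve

namespace Fermat.Agent.S35

open Fermat.Agent.GAL Fermat.Agent.S16 Fermat.Agent.S24

/-- The Hecke-side input of the Frobenius clause of S35 at `q`. -/
def h29_NewProp (M : ℕ) [NeZero M] (lam : ℕ) [Fact lam.Prime] (S : Finset ℕ)
    (hMS : ∀ q : ℕ, q.Prime → q ∣ M → q ∈ S)
    (chig : CuspForm.heckeAlgebra M 2 (↑S : Set ℕ) →+* ℂ) (Jnew : JZero M → Prop) : Prop :=
  ∃ P : CuspForm.heckeAlgebra M 2 (↑S : Set ℕ), chig P ≠ 0 ∧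
    ∀ (n : ℕ) (φ : h65_Lam M) (x : JZero M),
      gal_R M (lam ^ n) h78_iota (gal_chi (lam ^ n)
        ((h65_redHom M (lam ^ n) (h65_iota M (↑S : Set ℕ)
          (fun q hq hqM => Finset.mem_coe.2 (hMS q hq hqM)) P φ) : gal_Hpe M (lam ^ n)) :
            Additive (Gamma0 M) →+ ZMod (lam ^ n))) x → Jnew x

/-- The geometric input of the Frobenius clause of S35 at `q`: `(s² - 1) (s² - q²) = 0` on the
`q`-new classes of prime-to-`q` primary torsion, for every Frobenius element `s` at `q`. -/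
def h29_FrobGeom (M : ℕ) [NeZero M] (q : ℕ) (Jnew : JZero M → Prop) : Prop :=
  ∀ A : ValuationSubring (AlgebraicClosure ℚ), A.LiesOverPrime q →
    ∀ s : AlgebraicClosure ℚ ≃ₐ[ℚ] AlgebraicClosure ℚ, A.IsFrobeniusAt s q →
      ∀ p : ℕ, p.Prime → p ≠ q → ∀ (n : ℕ) (x : JZero M), p ^ n • x = 0 → Jnew x →
        s • s • s • s • x + q ^ 2 • x = (q ^ 2 + 1) • (s • s • x)

/-- The geometric input from its two halves: `s² = q²` on a subgroup-like predicate `Y` (the
toric classes), and `(s² - 1) x ∈ Y` for `q`-new `x`. -/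
theorem h29_frobGeom_of_toric (M : ℕ) [NeZero M] (q : ℕ) (Jnew : JZero M → Prop)
    (Y : ℕ → JZero M → Prop)
    (h1 : ∀ A : ValuationSubring (AlgebraicClosure ℚ), A.LiesOverPrime q →
      ∀ s : AlgebraicClosure ℚ ≃ₐ[ℚ] AlgebraicClosure ℚ, A.IsFrobeniusAt s q →
        ∀ p : ℕ, p.Prime → p ≠ q → ∀ (n : ℕ) (y : JZero M), Y (p ^ n) y →
          s • s • y = q ^ 2 • y)
    (h2 : ∀ A : ValuationSubring (AlgebraicClosure ℚ), A.LiesOverPrime q →
      ∀ s : AlgebraicClosure ℚ ≃ₐ[ℚ] AlgebraicClosure ℚ, A.IsFrobeniusAt s q →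
        ∀ p : ℕ, p.Prime → p ≠ q → ∀ (n : ℕ) (x : JZero M), p ^ n • x = 0 → Jnew x →
          Y (p ^ n) (s • s • x - x)) :
    h29_FrobGeom M q Jnew := by
  intro A hA s hs p hp hpq n x hx hnew
  have e := h1 A hA s hs p hp hpq n _ (h2 A hA s hs p hp hpq n x hx hnew)
  rw [smul_sub, smul_sub, nsmul_sub] at e
  have e2 : s • s • s • s • x = q ^ 2 • (s • s • x) - q ^ 2 • x + s • s • x :=
    sub_eq_iff_eq_add.1 e
  rw [e2, add_smul, one_smul]
  abel

section main

variable {M : ℕ} [NeZero M]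

/-- **S35 from the Hecke-side and the geometric inputs.** -/
theorem h29_S35_of_new_frob (lam : ℕ) [Fact lam.Prime] (S : Finset ℕ)
    (O' : Type) [CommRing O'] [IsDomain O'] [IsDiscreteValuationRing O']
    [IsAdicComplete (IsLocalRing.maximalIdeal O') O'] [Finite (IsLocalRing.ResidueField O')]
    [CharZero O'] (hlamO' : (lam : O') ∈ IsLocalRing.maximalIdeal O')
    (chig : CuspForm.heckeAlgebra M 2 (↑S : Set ℕ) →+* ℂ)
    (iota : chig.range →+* O')
    (hlamS : lam ∈ S) (hMS : ∀ q : ℕ, q.Prime → q ∣ M → q ∈ S)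
    (hin : ∀ q : ℕ, q.Prime → q ≠ lam → q ∣ M → ¬ q ^ 2 ∣ M →
      ∃ Jnew : JZero M → Prop, h29_NewProp M lam S hMS chig Jnew ∧ h29_FrobGeom M q Jnew) :
    ∃ (O'' : Type) (_ : CommRing O'') (_ : IsDomain O'') (_ : IsDiscreteValuationRing O'')
      (_ : IsAdicComplete (IsLocalRing.maximalIdeal O'') O'')
      (_ : Finite (IsLocalRing.ResidueField O''))
      (_ : CharZero O'') (_ : Algebra O' O'') (_ : Module.Finite O' O'')
      (_ : IsLocalHom (algebraMap O' O'')),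
      Function.Injective (algebraMap O' O'') ∧
      ∃ ρ : GaloisRepAdic O'',
        (∀ (ℓ : ℕ) (hℓ : ℓ.Prime) (hℓM : ¬ ℓ ∣ M) (hℓS : ℓ ∉ (↑S : Set ℕ)),
          ∀ A : ValuationSubring (AlgebraicClosure ℚ), A.LiesOverPrime ℓ →
            ∀ σ : AlgebraicClosure ℚ ≃ₐ[ℚ] AlgebraicClosure ℚ, A.IsFrobeniusAt σ ℓ →
              LinearMap.charpoly (ρ.ρ σ) =
                X ^ 2 - C (algebraMap O' O'' ((iota.comp chig.rangeRestrict)
                  (CuspForm.heckeAlgebra.T hℓ hℓM hℓS))) * X + C ((ℓ : O''))) ∧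
        (∀ q : ℕ, q.Prime → q ≠ lam → q ∣ M → ¬ q ^ 2 ∣ M →
          ∀ A : ValuationSubring (AlgebraicClosure ℚ), A.LiesOverPrime q →
            ∀ σ : AlgebraicClosure ℚ ≃ₐ[ℚ] AlgebraicClosure ℚ, A.IsFrobeniusAt σ q →
              LinearMap.charpoly (ρ.ρ σ) = X ^ 2 - C ((q : O'') + 1) * X + C ((q : O'')) ∨
              LinearMap.charpoly (ρ.ρ σ) = X ^ 2 + C ((q : O'') + 1) * X + C ((q : O''))) := by
  have hp : lam.Prime := Fact.out
  refine h29_S35_of_new lam S O' hlamO' chig iota hlamS hMS (fun q hq hql hqM hq2 => ?_)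
  obtain ⟨Jnew, ⟨P, hP, hPnew⟩, hfrob⟩ := hin q hq hql hqM hq2
  exact ⟨Jnew, P, hP, hPnew, fun A hA s hs n x hx hJ =>
    hfrob A hA s hs lam hp (fun h => hql h.symm) n x hx hJ⟩

end main

end Fermat.Agent.S35
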