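import Mathlib

/-!
# A common eigenvector for a commuting family stabilising a subspace

Generic linear algebra (Mathlib only) for the S35 "new at q" argument.
-/

namespace Fermat.Agent.S35

/-- Auxiliary form of `h39_exists_common_eigenvector`, by strong induction on the dimension
of the stable subspace. -/
theorem h39_exists_common_eigenvector_aux {k V : Type*} [Field k] [IsAlgClosed k]
    [AddCommGroup V] [Module k V] [FiniteDimensional k V] (s : Set (Module.End k V))
    (hs : ∀ a ∈ s, ∀ b ∈ s, Commute a b) :
    ∀ (n : ℕ) (W : Submodule k V), Module.finrank k W = n → W ≠ ⊥ →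
      (∀ a ∈ s, ∀ w ∈ W, a w ∈ W) →
      ∃ v ∈ W, v ≠ 0 ∧ ∀ a ∈ s, ∃ c : k, a v = c • v := by
  intro n
  induction n using Nat.strong_induction_on with
  | _ n ih =>
    intro W hn hW hWs
    by_cases hsc : ∀ a ∈ s, ∃ c : k, ∀ w ∈ W, a w = c • w
    · -- every element of `s` is a scalar on `W`
      obtain ⟨v, hvW, hv0⟩ := (Submodule.ne_bot_iff W).1 hW
      refine ⟨v, hvW, hv0, fun a ha => ?_⟩
      obtain ⟨c, hc⟩ := hsc a ha
      exact ⟨c, hc v hvW⟩
    · -- some `a ∈ s` is not a scalar on `W`
      push Not at hsc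
      obtain ⟨a, ha, hnot⟩ := hsc
      -- an eigenvalue of `a` restricted to `W`
      have : Nontrivial W := (Submodule.nontrivial_iff_ne_bot).2 hW
      obtain ⟨μ, hμ⟩ := Module.End.exists_eigenvalue (a.restrict (hWs a ha))
      obtain ⟨w0, hw0⟩ := hμ.exists_hasEigenvector
      have hw0eq : a (w0 : V) = μ • (w0 : V) := by
        have h1 := hw0.apply_eq_smul
        have h2 := congrArg (Subtype.val) h1
        simpa using h2
      have hw0ne : (w0 : V) ≠ 0 := by
        intro h
        exact hw0.2 (Subtype.ext h)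
      -- the smaller stable subspace
      set W' : Submodule k V := W ⊓ Module.End.eigenspace a μ with hW'
      have hmem' : ∀ w : V, w ∈ W' ↔ w ∈ W ∧ a w = μ • w := by
        intro w
        rw [hW', Submodule.mem_inf, Module.End.mem_eigenspace_iff]
      have hW'ne : W' ≠ ⊥ := by
        rw [Submodule.ne_bot_iff]
        exact ⟨w0, (hmem' _).2 ⟨w0.2, hw0eq⟩, hw0ne⟩
      have hW'le : W' ≤ W := inf_le_left
      have hW'lt : W' < W := by
        refine lt_of_le_of_ne hW'le ?_
        intro hEq
        obtain ⟨w, hwW, hw⟩ := hnot μ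
        have : w ∈ W' := hEq ▸ hwW
        exact hw ((hmem' w).1 this).2
      have hfin : Module.finrank k W' < n := by
        rw [← hn]
        exact Submodule.finrank_lt_finrank_of_lt hW'lt
      have hW's : ∀ b ∈ s, ∀ w ∈ W', b w ∈ W' := by
        intro b hb w hw
        obtain ⟨hwW, hwe⟩ := (hmem' w).1 hw
        refine (hmem' _).2 ⟨hWs b hb w hwW, ?_⟩
        have hc : a (b w) = b (a w) := by
          have := (hs a ha b hb).eq
          exact congrArg (fun f : Module.End k V => f w) this
        rw [hc, hwe, map_smul]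
      obtain ⟨v, hvW', hv0, hv⟩ := ih _ hfin W' rfl hW'ne hW's
      exact ⟨v, hW'le hvW', hv0, hv⟩

/-- **Common eigenvector.**  A commuting family of endomorphisms of a finite-dimensional
vector space over an algebraically closed field which stabilises a nonzero subspace `W`
has a common eigenvector in `W`. -/
theorem h39_exists_common_eigenvector {k V : Type*} [Field k] [IsAlgClosed k]
    [AddCommGroup V] [Module k V] [FiniteDimensional k V] (W : Submodule k V) (hW : W ≠ ⊥)
    (s : Set (Module.End k V)) (hs : ∀ a ∈ s, ∀ b ∈ s, Commute a b)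
    (hWs : ∀ a ∈ s, ∀ w ∈ W, a w ∈ W) :
    ∃ v ∈ W, v ≠ 0 ∧ ∀ a ∈ s, ∃ c : k, a v = c • v :=
  h39_exists_common_eigenvector_aux s hs _ W rfl hW hWs

end Fermat.Agent.S35
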