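import Mathlib

/-!
# S35 (E'): an eigenvector for a character of a faithful finite commutative algebra

`h3_exists_eigenvector_of_character`: let `A` be a commutative algebra of finite dimension over a
field `k`, acting faithfully on a finite-dimensional `k`-space `V` through `ρ : A →ₐ[k] End_k V`,
and let `χ : A →ₐ[k] k` be a character. Then some `v ≠ 0` satisfies `ρ a v = χ a • v` for all `a`.

Proof: `m := ker χ`; the powers `m ^ n` stabilise (`A` is Artinian), Nakayama gives `e` with
`e - 1 ∈ m` and `e * m ^ n = 0`; `e ≠ 0`, so `ρ e v₀ ≠ 0` for some `v₀`, and `m ^ n` kills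
`ρ e v₀`; the last nonzero `ρ (m ^ j) (ρ e v₀)` consists of eigenvectors.
-/

set_option autoImplicit false

namespace Fermat.Agent.S35

/-- A nonzero vector killed by `ρ (m ^ n)` yields a nonzero vector killed by `ρ m`. -/
theorem h3_exists_killed_of_pow {k A V : Type*} [Field k] [CommRing A] [Algebra k A]
    [AddCommGroup V] [Module k V] (ρ : A →ₐ[k] Module.End k V) (m : Ideal A) :
    ∀ (n : ℕ) (w : V), w ≠ 0 → (∀ b ∈ m ^ n, ρ b w = 0) →
      ∃ v : V, v ≠ 0 ∧ ∀ a ∈ m, ρ a v = 0 := by
  intro n
  induction n with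
  | zero =>
    intro w hw h
    exact absurd (by simpa using h 1 (by simp)) hw
  | succ n ih =>
    intro w hw h
    by_cases hn : ∀ b ∈ m ^ n, ρ b w = 0
    · exact ih w hw hn
    · push Not at hn
      obtain ⟨b, hb, hbw⟩ := hn
      refine ⟨ρ b w, hbw, fun a ha => ?_⟩
      have hab : a * b ∈ m ^ (n + 1) := by
        rw [pow_succ']
        exact Ideal.mul_mem_mul ha hb
      have := h (a * b) hab
      rwa [map_mul, Module.End.mul_apply] at this

/-- **(E')** A character of a finite-dimensional commutative algebra acting faithfully on a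
finite-dimensional space has an eigenvector. -/
theorem h3_exists_eigenvector_of_character {k A V : Type*} [Field k] [CommRing A] [Algebra k A]
    [Module.Finite k A] [AddCommGroup V] [Module k V] [Module.Finite k V]
    (ρ : A →ₐ[k] Module.End k V) (hρ : Function.Injective ρ) (χ : A →ₐ[k] k) :
    ∃ v : V, v ≠ 0 ∧ ∀ a : A, ρ a v = χ a • v := by
  have hart : IsArtinianRing A := IsArtinianRing.of_finite k A
  have hnoeth : IsNoetherianRing A := inferInstance
  set m : Ideal A := RingHom.ker (χ : A →+* k) with hm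
  -- the powers of `m` stabilise
  let f : ℕ →o (Ideal A)ᵒᵈ :=
    ⟨fun n => OrderDual.toDual (m ^ n), fun i j hij => Ideal.pow_le_pow_right hij⟩
  obtain ⟨n, hn⟩ := IsArtinian.monotone_stabilizes f
  have hI : m ^ n = m ^ (n + 1) := congrArg OrderDual.ofDual (hn (n + 1) (Nat.le_succ n))
  -- Nakayama
  obtain ⟨e, he1, he⟩ := Submodule.exists_sub_one_mem_and_smul_eq_zero_of_fg_of_le_smul m (m ^ n)
    (IsNoetherian.noetherian _) (by
      rw [smul_eq_mul, ← pow_succ']
      exact hI.le)
  have hχe : χ e = 1 := by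
    have : χ (e - 1) = 0 := he1
    rw [map_sub, map_one, sub_eq_zero] at this
    exact this
  have he0 : e ≠ 0 := by
    rintro rfl
    rw [map_zero] at hχe
    exact zero_ne_one hχe
  have hρe : ρ e ≠ 0 := fun h => he0 (hρ (by rw [h, map_zero]))
  obtain ⟨v₀, hv₀⟩ : ∃ v₀ : V, ρ e v₀ ≠ 0 := by
    by_contra hcon
    push Not at hcon
    exact hρe (LinearMap.ext hcon)
  obtain ⟨v, hv, hvm⟩ := h3_exists_killed_of_pow ρ m n (ρ e v₀) hv₀ (fun b hb => by
    have h0 : e * b = 0 := by simpa [smul_eq_mul] using he b hb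
    rw [← Module.End.mul_apply, ← map_mul, mul_comm, h0, map_zero, LinearMap.zero_apply])
  refine ⟨v, hv, fun a => ?_⟩
  have ha : a - algebraMap k A (χ a) ∈ m := by
    rw [hm, RingHom.mem_ker]
    show χ (a - algebraMap k A (χ a)) = 0
    rw [map_sub, AlgHom.commutes, Algebra.algebraMap_self_apply, sub_self]
  have h1 := hvm _ ha
  rw [map_sub, LinearMap.sub_apply, AlgHom.commutes, Module.algebraMap_end_apply, sub_eq_zero] at h1
  exact h1

end Fermat.Agent.S35
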