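/-
S35 (helper67), (N2) NORM TRANSFER.

For a prime `q ∤ N`, the two push-forwards `J₀(N q) → J₀(N)` along `heckeAlphaBar` and
`heckeBetaBar` are compatible with the analytic relation `h67_Rel` (= `gal_R`):

* `h67_rel_push_alpha` : `R_n(χ_ψ, [D]) ⟹ R_n(χ_{tr ψ}, [α_* D])`;
* `h67_rel_push_beta`  : `R_n(χ_ψ, [D]) ⟹ R_n(χ_{tr (W ψ)}, [β_* D])`

(`tr = h30_tr`, `W = h30_W` of S41), hence

* `h67_jnew_of_rel` : if `tr ψ = 0 = tr (W ψ)` then every `x` with `R_n(χ_ψ, x)` is `q`-new.
-/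
import Mathlib
import Fermat.Agent.GAL.h67_ThetaGlue
import Fermat.Agent.S41.h30_LRDefs
import Fermat.Agent.S37.h49_Swap
import Fermat.Agent.S37.h88_HICore
import Fermat.Agent.S37.h85_NormFormula
import Fermat.Agent.S35.h67_NewDefs

set_option autoImplicit false
set_option linter.unusedSectionVars false
set_option linter.style.haveILetI false

open UpperHalfPlane ModularCurve CongruenceSubgroup AlgebraicCurve
open scoped MatrixGroups Manifold

namespace Fermat.Agent.S35

open Fermat.Agent.GAL Fermat.Agent.S24 Fermat.Agent.S16 Fermat.Agent.S41 Fermat.Agent.S37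
open Matrix.SpecialLinearGroup

local notation "Qb" => AlgebraicClosure ℚ

theorem h67_repGL_det_pos (N q : ℕ) [Fact q.Prime] (hqN : ¬ q ∣ N) (x : OnePoint (ZMod q)) :
    0 < (h30_repGL N q hqN x).det.val :=
  h67_mapGL_det_pos _

/-! ## The analytic norm formula along `α`, for arbitrary functions -/

section NormAlpha

variable (ι : Qb →+* ℂ) (N q : ℕ) [NeZero N] [Fact q.Prime] (hqN : ¬ q ∣ N)

/-- **The analytic norm formula along `α`**: `Φ_N (N_α G) = ∏_x (Φ_{N q} G) ∘ r_x`, the product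
over the coset representatives `r_x` of `Γ₀(N q) \ Γ₀(N)`. -/
theorem h67_Phi_norm_alpha [NeZero q] (G : gal_F Qb (N * q)) :
    gal_Phi ι N (h67_normAlong (heckeAlphaBar Qb N q) G)
      = ∏ x : OnePoint (ZMod q),
          h67_C (h30_repGL N q hqN x) (h67_repGL_det_pos N q hqN x) (gal_Phi ι (N * q) G) := by
  classical
  have hq : q.Prime := Fact.out
  let _ : Algebra (gal_F Qb N) (gal_F Qb (N * q)) := algebraAlong (heckeAlphaBar Qb N q)
  have hfr : Module.finrank (gal_F Qb N) (gal_F Qb (N * q)) = q + 1 := h19_DEG N q hq hqN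
  have : FiniteDimensional (gal_F Qb N) (gal_F Qb (N * q)) :=
    Module.finite_of_finrank_pos (by rw [hfr]; omega)
  have : CharZero (gal_F Qb N) :=
    charZero_of_injective_algebraMap (algebraMap Qb (gal_F Qb N)).injective
  have : Algebra.IsSeparable (gal_F Qb N) (gal_F Qb (N * q)) := inferInstance
  let σ : OnePoint (ZMod q) → gal_F Qb (N * q) →+* h25_Mer := fun x =>
    (MulSemiringAction.toRingHom SL(2, ℤ) h25_Mer
      ((h30_rep N q hqN x : Gamma0 N) : SL(2, ℤ))⁻¹).comp (gal_Phi ι (N * q))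
  have hE : ∀ x e, σ x (algebraMap (gal_F Qb N) (gal_F Qb (N * q)) e) = gal_Phi ι N e := by
    intro x e
    show ((h30_rep N q hqN x : Gamma0 N) : SL(2, ℤ))⁻¹ •
      gal_Phi ι (N * q) (heckeAlphaBar Qb N q e) = gal_Phi ι N e
    rw [h67_Phi_alpha]
    exact gal_Phi_smul ι N (inv_mem (h30_rep N q hqN x).2) e
  have hσinj : Function.Injective σ := by
    intro x x' hxx
    have hmem : ((h30_rep N q hqN x : Gamma0 N) : SL(2, ℤ)) *
        ((h30_rep N q hqN x' : Gamma0 N) : SL(2, ℤ))⁻¹ ∈ Gamma0 (N * q) := by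
      apply h67_mem_Gamma0_of_fix ι (N * q)
      intro f
      have h1 : ((h30_rep N q hqN x : Gamma0 N) : SL(2, ℤ))⁻¹ • gal_Phi ι (N * q) f
          = ((h30_rep N q hqN x' : Gamma0 N) : SL(2, ℤ))⁻¹ • gal_Phi ι (N * q) f :=
        DFunLike.congr_fun hxx f
      rw [mul_smul, ← h1, smul_inv_smul]
    refine h30_rep_inj N q hqN x x' ⟨_, hmem⟩ ?_
    show _ = _ * _
    rw [inv_mul_cancel_right]
  have hcard : Fintype.card (OnePoint (ZMod q))
      = Module.finrank (gal_F Qb N) (gal_F Qb (N * q)) := by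
    rw [hfr]
    show Fintype.card (Option (ZMod q)) = q + 1
    rw [Fintype.card_option, ZMod.card]
  have key := (h85_norm_of_embeddings (E := gal_F Qb N) σ hσinj
    (fun x x' e => (hE x e).trans (hE x' e).symm)).2 hcard OnePoint.infty G
  rw [hE] at key
  have hn : h67_normAlong (heckeAlphaBar Qb N q) G = Algebra.norm (gal_F Qb N) G := rfl
  rw [hn, key]
  refine Finset.prod_congr rfl (fun x _ => ?_)
  show ((h30_rep N q hqN x : Gamma0 N) : SL(2, ℤ))⁻¹ • gal_Phi ι (N * q) G = _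
  rw [← h67_C_mapGL]
  rfl

end NormAlpha

/-! ## Transfer of multipliers -/

section Transfer

variable (N q : ℕ) [Fact q.Prime] (hqN : ¬ q ∣ N)

/-- **Transfer of multipliers.**  If `u` has multiplier `gal_chi n ψ` on `Γ₀(N q)`, then
`∏_x u ∘ r_x` has multiplier `gal_chi n (tr ψ)` on `Γ₀(N)`. -/
theorem h67_isAut_tr (n : ℕ) [NeZero n] (ψ : Additive ↥(Gamma0 (N * q)) →+ ZMod n) (u : h25_Mer)
    (hu : h67_IsAut (N * q) (gal_chi n ψ) u) :
    h67_IsAut N (gal_chi n (h30_tr N q hqN ψ))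
      (∏ x : OnePoint (ZMod q),
        h67_C (h30_repGL N q hqN x) (h67_repGL_det_pos N q hqN x) u) := by
  intro γ
  obtain ⟨γ', y, hdec, hT⟩ := h30_tr_exists N q hqN γ
  rw [map_prod]
  have h1 : ∀ x : OnePoint (ZMod q),
      h67_C (mapGL ℝ (γ : SL(2, ℤ))) (h67_mapGL_det_pos _)
          (h67_C (h30_repGL N q hqN x) (h67_repGL_det_pos N q hqN x) u)
        = h74_constHom (gal_chi n ψ (γ' x) : ℂ)
          * h67_C (h30_repGL N q hqN (y x)) (h67_repGL_det_pos N q hqN (y x)) u := by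
    intro x
    rw [h67_C_comp,
      h67_C_congr (hdec x) _
        (h67_det_mul_pos (h67_repGL_det_pos N q hqN (y x)) (h67_mapGL_det_pos _)),
      ← h67_C_comp _ _ (h67_repGL_det_pos N q hqN (y x)) (h67_mapGL_det_pos _), hu (γ' x),
      map_mul, h67_C_const]
  rw [Finset.prod_congr rfl (fun x _ => h1 x), Finset.prod_mul_distrib,
    Equiv.prod_comp y (fun x => h67_C (h30_repGL N q hqN x) (h67_repGL_det_pos N q hqN x) u),
    ← map_prod]
  congr 2
  rw [gal_chi_apply, hT (ZMod n) ψ, h67_addChar_sum]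
  rfl

end Transfer

/-! ## The Atkin-Lehner side: multipliers -/

section WMult

variable (N q : ℕ) [Fact q.Prime] (hqN : ¬ q ∣ N)

theorem h67_w_det_pos : 0 < (h30_w N q (h30_coprime hqN)).det.val :=
  h67_det_mul_pos (h67_heckeDiag_det_pos q) (h67_mapGL_det_pos _)

/-- If `u` has multiplier `gal_chi n ψ` on `Γ₀(N q)`, then `u ∘ w` has multiplier
`gal_chi n (W ψ)`. -/
theorem h67_isAut_W (n : ℕ) [NeZero n] (ψ : Additive ↥(Gamma0 (N * q)) →+ ZMod n) (u : h25_Mer)
    (hu : h67_IsAut (N * q) (gal_chi n ψ) u) :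
    h67_IsAut (N * q) (gal_chi n (h30_W N q hqN ψ))
      (h67_C (h30_w N q (h30_coprime hqN)) (h67_w_det_pos N q hqN) u) := by
  have : NeZero q := ⟨(Fact.out : q.Prime).ne_zero⟩
  intro γ
  rw [h67_C_comp,
    h67_C_congr (h30_wc_spec (h30_coprime hqN) γ) _
      (h67_det_mul_pos (h67_w_det_pos N q hqN) (h67_mapGL_det_pos _)),
    ← h67_C_comp _ _ (h67_w_det_pos N q hqN) (h67_mapGL_det_pos _),
    hu (h30_wc N q (h30_coprime hqN) γ), map_mul, h67_C_const]
  congr 2
  rw [gal_chi_apply, gal_chi_apply, h30_W_apply]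

/-- The matrix of the swap of S37: `g_W = γ₀ * diag(q, 1)`, `γ₀ = [d, b; N, q]`. -/
noncomputable def h67_gW : GL (Fin 2) ℝ :=
  mapGL ℝ (h49_g0 N q (h30_dd N q) (h30_bb N q) (h30_bez (h30_coprime hqN))) *
    ModularForm.heckeDiagMatrix q

theorem h67_gW_det_pos : 0 < (h67_gW N q hqN).det.val :=
  h67_det_mul_pos (h67_heckeDiag_det_pos q) (h67_mapGL_det_pos _)

/-- `κ = γ₀ * t'⁻¹ ∈ Γ₀(N q)`. -/
def h67_kappa : Gamma0 (N * q) :=
  ⟨h49_g0 N q (h30_dd N q) (h30_bb N q) (h30_bez (h30_coprime hqN)) *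
      ((h30_tp N q (h30_coprime hqN) : Gamma0 N) : SL(2, ℤ))⁻¹, by
    rw [h30_mem_Gamma0_iff, h30_mul_inv_10]
    refine ⟨h30_dd N q - 1, ?_⟩
    simp only [h49_g0, h30_tp, h30_mk_10, h30_mk_11]
    show (N : ℤ) * ((q : ℤ) * h30_dd N q) - (q : ℤ) * (N : ℤ) = _
    push_cast
    ring⟩

theorem h67_gW_eq : h67_gW N q hqN =
    mapGL ℝ ((h67_kappa N q hqN : Gamma0 (N * q)) : SL(2, ℤ)) * h30_w N q (h30_coprime hqN) := by
  rw [h67_gW, h30_w, ← mul_assoc, ← map_mul]
  congr 2
  show _ = _ * _⁻¹ * _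
  rw [inv_mul_cancel_right]

/-- If `u` has multiplier `gal_chi n ψ` on `Γ₀(N q)`, then `u ∘ g_W` has multiplier
`gal_chi n (W ψ)`. -/
theorem h67_isAut_gW (n : ℕ) [NeZero n] (ψ : Additive ↥(Gamma0 (N * q)) →+ ZMod n) (u : h25_Mer)
    (hu : h67_IsAut (N * q) (gal_chi n ψ) u) :
    h67_IsAut (N * q) (gal_chi n (h30_W N q hqN ψ))
      (h67_C (h67_gW N q hqN) (h67_gW_det_pos N q hqN) u) := by
  have e : h67_C (h67_gW N q hqN) (h67_gW_det_pos N q hqN) u
      = h74_constHom (gal_chi n ψ (h67_kappa N q hqN) : ℂ) *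
        h67_C (h30_w N q (h30_coprime hqN)) (h67_w_det_pos N q hqN) u := by
    rw [h67_C_congr (h67_gW_eq N q hqN) _
        (h67_det_mul_pos (h67_w_det_pos N q hqN) (h67_mapGL_det_pos _)),
      ← h67_C_comp _ _ (h67_w_det_pos N q hqN) (h67_mapGL_det_pos _), hu (h67_kappa N q hqN),
      map_mul, h67_C_const]
  rw [e]
  have h1 := (h67_isAut_const (N * q) (gal_chi n ψ (h67_kappa N q hqN) : ℂ)).mul
    (h67_isAut_W N q hqN n ψ u hu)
  exact h1.of_eq (fun γ => by rw [MonoidHom.mul_apply, MonoidHom.one_apply, one_mul])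

end WMult

/-! ## The swap and the norm along `β` -/

section Generic

variable {K F F' : Type*} [Field K] [Field F] [Field F'] [Algebra K F] [Algebra K F']

/-- The norm along `β` is the norm along `α` after a ring automorphism carrying `β` to `α`. -/
theorem h67_normAlong_comp_equiv (α β : F →ₐ[K] F') (s : F' →+* F') (hs : Function.Bijective s)
    (hsβ : ∀ y, s (β y) = α y) (G : F') :
    h67_normAlong α (s G) = h67_normAlong β G := by
  have key := @Algebra.norm_eq_of_algEquiv F F' F' _ _ (algebraAlong β) _ (algebraAlong α)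
    (@AlgEquiv.ofRingEquiv F F' F' _ _ _ (algebraAlong β) (algebraAlong α)
      (RingEquiv.ofBijective s hs) (fun y => hsβ y)) G
  exact key

end Generic

section Swap

variable (ι : Qb →+* ℂ) (N q : ℕ) [NeZero N] [Fact q.Prime] (hqN : ¬ q ∣ N)

/-- The swap of S37 (Atkin-Lehner involution of `F(N q)`), for the Bezout data of S41. -/
noncomputable def h67_swap [NeZero q] : gal_F Qb (N * q) →+* gal_F Qb (N * q) :=
  h49_swapF (h30_bez (h30_coprime hqN)) ι (Fact.out : q.Prime)

theorem h67_swap_alpha [NeZero q] (y : gal_F Qb N) :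
    h67_swap ι N q hqN (heckeAlphaBar Qb N q y) = heckeBetaBar Qb N q y :=
  h49_swapF_alpha _ ι _ y

theorem h67_swap_beta [NeZero q] (y : gal_F Qb N) :
    h67_swap ι N q hqN (heckeBetaBar Qb N q y) = heckeAlphaBar Qb N q y :=
  h49_swapF_beta _ ι _ y

/-- `Φ (swap f) = (Φ f) ∘ g_W`. -/
theorem h67_Phi_swap [NeZero q] (f : gal_F Qb (N * q)) :
    gal_Phi ι (N * q) (h67_swap ι N q hqN f)
      = h67_C (h67_gW N q hqN) (h67_gW_det_pos N q hqN) (gal_Phi ι (N * q) f) := by
  have key : (gal_Phi ι (N * q)).comp (h67_swap ι N q hqN)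
      = (h67_C (h67_gW N q hqN) (h67_gW_det_pos N q hqN)).comp (gal_Phi ι (N * q)) := by
    apply IsFractionRing.ringHom_ext (A := h78_AN Qb (N * q))
    intro a
    rw [RingHom.comp_apply, RingHom.comp_apply, h67_swap, h49_swapF_algebraMap,
      gal_Phi_algebraMap, gal_Phi_algebraMap, h67_C_algebraMap]
    congr 1
    apply Subtype.ext
    funext τ
    rw [h67_compHol_apply, gal_evHol_coe, gal_evHol_coe, h49_swapA_spec, h49_W, h67_ofComplex_mul,
      h67_gW, mul_smul]
    rfl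
  exact DFunLike.congr_fun key f

theorem h67_swap_surjective [NeZero q] : Function.Surjective (h67_swap ι N q hqN) := by
  letI : Algebra (gal_F Qb N) (gal_F Qb (N * q)) := algebraAlong (heckeAlphaBar Qb N q)
  haveI : FiniteDimensional (gal_F Qb N) (gal_F Qb (N * q)) := h88_finiteAlong_alpha N q
  let L : gal_F Qb (N * q) →ₗ[gal_F Qb N] gal_F Qb (N * q) :=
    { toFun := fun G => h67_swap ι N q hqN (h67_swap ι N q hqN G)
      map_add' := fun G G' => by rw [map_add, map_add]
      map_smul' := fun y G => by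
        show h67_swap ι N q hqN (h67_swap ι N q hqN (heckeAlphaBar Qb N q y * G))
          = heckeAlphaBar Qb N q y * h67_swap ι N q hqN (h67_swap ι N q hqN G)
        rw [map_mul, map_mul, h67_swap_alpha, h67_swap_beta] }
  have hinj : Function.Injective L := fun G G' h =>
    (h67_swap ι N q hqN).injective ((h67_swap ι N q hqN).injective h)
  have hsurj : Function.Surjective L := LinearMap.surjective_of_injective hinj
  intro G
  obtain ⟨G', hG'⟩ := hsurj G
  exact ⟨h67_swap ι N q hqN G', hG'⟩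

/-- `N_β G = N_α (swap G)`. -/
theorem h67_norm_beta_eq [NeZero q] (G : gal_F Qb (N * q)) :
    h67_normAlong (heckeBetaBar Qb N q) G
      = h67_normAlong (heckeAlphaBar Qb N q) (h67_swap ι N q hqN G) :=
  (h67_normAlong_comp_equiv (heckeAlphaBar Qb N q) (heckeBetaBar Qb N q) (h67_swap ι N q hqN)
    ⟨(h67_swap ι N q hqN).injective, h67_swap_surjective ι N q hqN⟩
    (h67_swap_beta ι N q hqN) G).symm

/-- **The analytic norm formula along `β`**:
`Φ_N (N_β G) = ∏_x ((Φ_{N q} G) ∘ g_W) ∘ r_x`. -/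
theorem h67_Phi_norm_beta [NeZero q] (G : gal_F Qb (N * q)) :
    gal_Phi ι N (h67_normAlong (heckeBetaBar Qb N q) G)
      = ∏ x : OnePoint (ZMod q),
          h67_C (h30_repGL N q hqN x) (h67_repGL_det_pos N q hqN x)
            (h67_C (h67_gW N q hqN) (h67_gW_det_pos N q hqN) (gal_Phi ι (N * q) G)) := by
  rw [h67_norm_beta_eq ι N q hqN, h67_Phi_norm_alpha ι N q hqN, h67_Phi_swap]

end Swap

/-! ## The relation `R_n` under the two push-forwards -/

section Rel

variable (ι : Qb →+* ℂ) (N q : ℕ) [NeZero N] [Fact q.Prime] (hqN : ¬ q ∣ N)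

theorem h67_NF_alpha [NeZero q] :
    NormFormulaAlong Qb (heckeAlphaBar Qb N q) (h88_finiteAlong_alpha N q) := by
  letI := algebraAlong (heckeAlphaBar Qb N q)
  haveI := isScalarTower_along (heckeAlphaBar Qb N q)
  haveI : FiniteDimensional (modularFunctionFieldBar N) (modularFunctionFieldBar (N * q)) :=
    h88_finiteAlong_alpha N q
  exact h85_NF (h88_isFF N)

theorem h67_NF_beta [NeZero q] :
    NormFormulaAlong Qb (heckeBetaBar Qb N q) (h88_finiteAlong_beta N q) := by
  letI := algebraAlong (heckeBetaBar Qb N q)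
  haveI := isScalarTower_along (heckeBetaBar Qb N q)
  haveI : FiniteDimensional (modularFunctionFieldBar N) (modularFunctionFieldBar (N * q)) :=
    h88_finiteAlong_beta N q
  exact h85_NF (h88_isFF N)

/-- **Norm transfer along `α`**: `R_n(χ_ψ, [D]) ⟹ R_n(χ_{tr ψ}, [α_* D])`. -/
theorem h67_rel_push_alpha [NeZero q] (n : ℕ) [NeZero n]
    (ψ : Additive ↥(Gamma0 (N * q)) →+ ZMod n)
    (D : Divisor.degZero (K := Qb) (F := modularFunctionFieldBar (N * q)))
    (f₀ : modularFunctionFieldBar (N * q)) (u : h25_Mer) (hf₀ : f₀ ≠ 0)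
    (hD : ∀ v : Place Qb (modularFunctionFieldBar (N * q)),
      (n • (D : Divisor Qb (modularFunctionFieldBar (N * q)))) v = v.ord f₀)
    (hu : u ^ n = gal_Phi ι (N * q) f₀) (haut : h67_IsAut (N * q) (gal_chi n ψ) u) :
    h67_Rel ι N n (gal_chi n (h30_tr N q hqN ψ))
      (Pic0.mk ⟨Divisor.pushforwardAlong (heckeAlphaBar Qb N q) (h88_alphaIntegral N q)
          (D : Divisor Qb (modularFunctionFieldBar (N * q))),
        Divisor.pushforwardAlong_mem_degZero _ _ D.2⟩) := by
  refine ⟨_, h67_normAlong (heckeAlphaBar Qb N q) f₀,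
    ∏ x : OnePoint (ZMod q), h67_C (h30_repGL N q hqN x) (h67_repGL_det_pos N q hqN x) u,
    h67_normAlong_ne_zero _ (h88_finiteAlong_alpha N q) hf₀, rfl, ?_, ?_,
    h67_isAut_tr N q hqN n ψ u haut⟩
  · intro v
    show (n • Divisor.pushforwardAlong (heckeAlphaBar Qb N q) (h88_alphaIntegral N q)
      (D : Divisor Qb (modularFunctionFieldBar (N * q)))) v = _
    rw [← map_nsmul]
    exact h67_pushforwardAlong_principal _ _ (h88_finiteAlong_alpha N q) (h67_NF_alpha N q) hf₀
      hD v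
  · rw [h67_Phi_norm_alpha ι N q hqN, ← Finset.prod_pow]
    refine Finset.prod_congr rfl fun x _ => ?_
    rw [← map_pow, hu]

/-- **Norm transfer along `β`**: `R_n(χ_ψ, [D]) ⟹ R_n(χ_{tr (W ψ)}, [β_* D])`. -/
theorem h67_rel_push_beta [NeZero q] (n : ℕ) [NeZero n]
    (ψ : Additive ↥(Gamma0 (N * q)) →+ ZMod n)
    (D : Divisor.degZero (K := Qb) (F := modularFunctionFieldBar (N * q)))
    (f₀ : modularFunctionFieldBar (N * q)) (u : h25_Mer) (hf₀ : f₀ ≠ 0)
    (hD : ∀ v : Place Qb (modularFunctionFieldBar (N * q)),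
      (n • (D : Divisor Qb (modularFunctionFieldBar (N * q)))) v = v.ord f₀)
    (hu : u ^ n = gal_Phi ι (N * q) f₀) (haut : h67_IsAut (N * q) (gal_chi n ψ) u) :
    h67_Rel ι N n (gal_chi n (h30_tr N q hqN (h30_W N q hqN ψ)))
      (Pic0.mk ⟨Divisor.pushforwardAlong (heckeBetaBar Qb N q) (h88_betaIntegral N q)
          (D : Divisor Qb (modularFunctionFieldBar (N * q))),
        Divisor.pushforwardAlong_mem_degZero _ _ D.2⟩) := by
  refine ⟨_, h67_normAlong (heckeBetaBar Qb N q) f₀,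
    ∏ x : OnePoint (ZMod q), h67_C (h30_repGL N q hqN x) (h67_repGL_det_pos N q hqN x)
      (h67_C (h67_gW N q hqN) (h67_gW_det_pos N q hqN) u),
    h67_normAlong_ne_zero _ (h88_finiteAlong_beta N q) hf₀, rfl, ?_, ?_,
    h67_isAut_tr N q hqN n (h30_W N q hqN ψ) _ (h67_isAut_gW N q hqN n ψ u haut)⟩
  · intro v
    show (n • Divisor.pushforwardAlong (heckeBetaBar Qb N q) (h88_betaIntegral N q)
      (D : Divisor Qb (modularFunctionFieldBar (N * q)))) v = _
    rw [← map_nsmul]
    exact h67_pushforwardAlong_principal _ _ (h88_finiteAlong_beta N q) (h67_NF_beta N q) hf₀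
      hD v
  · rw [h67_Phi_norm_beta ι N q hqN, ← Finset.prod_pow]
    refine Finset.prod_congr rfl fun x _ => ?_
    rw [← map_pow, ← map_pow, hu]

/-- a degree-zero divisor whose class is related to the trivial character is principal -/
theorem h67_principal_of_rel_one (n : ℕ) [NeZero n]
    (D : Divisor.degZero (K := Qb) (F := modularFunctionFieldBar N))
    (h : h67_Rel ι N n 1 (Pic0.mk D)) :
    (D : Divisor Qb (modularFunctionFieldBar N)).IsPrincipal := by
  have hn : 0 < n := Nat.pos_of_ne_zero (NeZero.ne n)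
  have h0 : (Pic0.mk D : JZero N) = 0 :=
    h67_rel_unique_qbar ι N n hn 1 _ 0 h (h67_rel_one ι N n)
  have h1 : D ∈ (Divisor.principal (K := Qb) (F := modularFunctionFieldBar N)).addSubgroupOf
      (Divisor.degZero (K := Qb) (F := modularFunctionFieldBar N)) :=
    (QuotientAddGroup.eq_zero_iff D).mp h0
  exact Divisor.mem_principal.mp (AddSubgroup.mem_addSubgroupOf.mp h1)

/-- **(N2)** If `tr ψ = 0 = tr (W ψ)`, every class related to `χ_ψ` is `q`-new. -/
theorem h67_jnew_of_rel [NeZero q] (n : ℕ) [NeZero n]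
    (ψ : Additive ↥(Gamma0 (N * q)) →+ ZMod n)
    (h1 : h30_tr N q hqN ψ = 0) (h2 : h30_tr N q hqN (h30_W N q hqN ψ) = 0)
    (x : JZero (N * q)) (hx : h67_Rel ι (N * q) n (gal_chi n ψ) x) : h67_Jnew N q x := by
  obtain ⟨D, f₀, u, hf₀, rfl, hD, hu, haut⟩ := hx
  refine ⟨D, rfl, h67_divNew_intro (h88_alphaIntegral N q) (h88_betaIntegral N q) ?_ ?_⟩
  · have hrel := h67_rel_push_alpha ι N q hqN n ψ D f₀ u hf₀ hD hu haut
    rw [h1, gal_chi_zero] at hrel
    exact h67_principal_of_rel_one ι N n _ hrel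
  · have hrel := h67_rel_push_beta ι N q hqN n ψ D f₀ u hf₀ hD hu haut
    rw [h2, gal_chi_zero] at hrel
    exact h67_principal_of_rel_one ι N n _ hrel

end Rel

end Fermat.Agent.S35
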