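import Mathlib
import Fermat.Agent.GAL.h31_S30Pseudo
import Fermat.Agent.GAL.h65_LevelDef
import Fermat.Agent.GAL.h65_Lattice
import Fermat.Agent.GAL.h42_Coh
import Fermat.Agent.S54.Frob

/-!
# S35 (GAL side): strong multiplicity one away from the levels - the abstract core

`h67_smo_core`: two normalised weight-2 eigenforms `g` (level `N`) and `g'` (level `N'`) whose
prime coefficients agree outside a finite set `S` have the same coefficient at EVERY prime `ℓ`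
not dividing `N N'`.  Inputs: the levels `h65_HasLevelS` of helper65's Hecke lattice (for an
auxiliary prime `p ≠ ℓ`) and the weak Chebotarev statement `h65_WCheb`.

Mechanism (no coefficient ring): at level `n` the operator `T_ℓ - D_b(T_ℓ', ℓ')` maps the Hecke
lattice into `p ^ n Λ` (both are "the Hecke element of the Frobenius at `ℓ`" on `J₀[p ^ n]`,
`h67_level_congr`), so its eigenvalue on an eigenform divided by `p ^ n` is an algebraic integer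
(`h67_int_of_div`); subtracting the two levels, `(a_ℓ(g') - a_ℓ(g)) / p ^ n` is an algebraic
integer for all `n`, hence zero (`h67_int0`).
-/

set_option autoImplicit false

open Polynomial CongruenceSubgroup ModularCurve ModularCurve.Period ModularFormClass

namespace Fermat.Agent.S35

open Fermat.Agent.GAL

local notation "Qb" => AlgebraicClosure ℚ

local instance h67_isAlgebraicQbar : Algebra.IsAlgebraic ℚ (AlgebraicClosure ℚ) :=
  AlgebraicClosure.isAlgebraic ℚ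
local instance h67_isAlgClosureQbar : IsAlgClosure ℚ (AlgebraicClosure ℚ) :=
  ⟨inferInstance, inferInstance⟩
local instance h67_normalQbar : Normal ℚ (AlgebraicClosure ℚ) :=
  IsAlgClosure.normal ℚ (AlgebraicClosure ℚ)

/-- A complex number all of whose quotients by powers of `p ≥ 2` are algebraic integers is
zero. -/
theorem h67_int0 (p : ℕ) (hp : 2 ≤ p) (x : ℂ) (h : ∀ n : ℕ, IsIntegral ℤ (x / (p : ℂ) ^ n)) :
    x = 0 := by
  by_contra hx
  have hxi : IsIntegral ℤ x := by simpa using h 0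
  set m := minpoly ℤ x with hm
  have hm0 : m.coeff 0 ≠ 0 := by
    have h1 : (minpoly ℚ x).coeff 0 ≠ 0 := minpoly.coeff_zero_ne_zero hxi.tower_top hx
    rw [minpoly.isIntegrallyClosed_eq_field_fractions' ℚ hxi, coeff_map] at h1
    intro h0
    rw [← hm, h0] at h1
    exact h1 (map_zero _)
  have haev : aeval x m = 0 := minpoly.aeval ℤ x
  -- `m = divX m * X + C (m.coeff 0)`
  set w : ℂ := aeval x m.divX with hw
  have hwi : IsIntegral ℤ w := by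
    have e : w = ((aeval (⟨x, hxi⟩ : integralClosure ℤ ℂ) m.divX : integralClosure ℤ ℂ) : ℂ) :=
      Subalgebra.aeval_coe (integralClosure ℤ ℂ) ⟨x, hxi⟩ m.divX
    rw [e]
    exact (aeval (⟨x, hxi⟩ : integralClosure ℤ ℂ) m.divX).2
  have hrel : w * x + (m.coeff 0 : ℂ) = 0 := by
    have h1 : m = m.divX * X + C (m.coeff 0) := (divX_mul_X_add m).symm
    have h2 := haev
    rw [h1, map_add, map_mul, aeval_X, aeval_C] at h2
    simpa using h2
  have hpC : (p : ℂ) ≠ 0 := by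
    have : p ≠ 0 := by omega
    exact_mod_cast this
  have key : ∀ n : ℕ, (p : ℤ) ^ n ∣ m.coeff 0 := by
    intro n
    have h1 : IsIntegral ℤ ((m.coeff 0 : ℂ) / (p : ℂ) ^ n) := by
      have e : (m.coeff 0 : ℂ) / (p : ℂ) ^ n = -(w * (x / (p : ℂ) ^ n)) := by
        have : (m.coeff 0 : ℂ) = -(w * x) := by linear_combination hrel
        rw [this]; ring
      rw [e]
      exact (hwi.mul (h n)).neg
    have h2 : IsIntegral ℤ (((m.coeff 0 : ℚ) / (p : ℚ) ^ n : ℚ)) := by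
      have e : (((m.coeff 0 : ℚ) / (p : ℚ) ^ n : ℚ) : ℂ) = (m.coeff 0 : ℂ) / (p : ℂ) ^ n := by
        push_cast; ring
      have h3 : IsIntegral ℤ (algebraMap ℚ ℂ ((m.coeff 0 : ℚ) / (p : ℚ) ^ n)) := by
        rw [show algebraMap ℚ ℂ ((m.coeff 0 : ℚ) / (p : ℚ) ^ n) =
          (((m.coeff 0 : ℚ) / (p : ℚ) ^ n : ℚ) : ℂ) from rfl, e]
        exact h1
      exact (isIntegral_algebraMap_iff (algebraMap ℚ ℂ).injective).mp h3
    obtain ⟨z, hz⟩ := IsIntegrallyClosed.isIntegral_iff.mp h2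
    refine ⟨z, ?_⟩
    have hpQ : ((p : ℚ) ^ n) ≠ 0 := by
      have : p ≠ 0 := by omega
      positivity
    have h4 : (m.coeff 0 : ℚ) = (p : ℚ) ^ n * (z : ℚ) := by
      have : (algebraMap ℤ ℚ z) = (z : ℚ) := rfl
      rw [this] at hz
      rw [hz]; field_simp
    exact_mod_cast h4
  -- contradiction: `p ^ n` exceeds `|m.coeff 0|`
  have h5 := key (m.coeff 0).natAbs
  have h6 : ((m.coeff 0).natAbs : ℤ) < (p : ℤ) ^ (m.coeff 0).natAbs := by
    have : (m.coeff 0).natAbs < p ^ (m.coeff 0).natAbs := Nat.lt_pow_self (by omega)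
    exact_mod_cast this
  have h7 : m.coeff 0 = 0 := by
    apply Int.eq_zero_of_abs_lt_dvd h5
    rw [Int.abs_eq_natAbs]
    exact h6
  exact hm0 h7

/-- **Level congruence.** At level `n` of a Hecke lattice, the Hecke operator `T_ℓ` is congruent
modulo `p ^ n` to the Dickson polynomial `D_b(T_ℓ', ℓ')` as soon as the `b`-th power of a
Frobenius element at `ℓ'` agrees with a Frobenius element at `ℓ` on a suitable finite Galois
extension `L` of `ℚ` (depending only on the level). -/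
theorem h67_level_congr {p N : ℕ} [NeZero N] {S : Finset ℕ} (hp : p.Prime) (hpS : p ∈ S)
    {Λ : Type} [AddCommGroup Λ] [Module.Free ℤ Λ] [Module.Finite ℤ Λ]
    (ι : CuspForm.heckeAlgebra N 2 (↑S : Set ℕ) →+* Module.End ℤ Λ) (n : ℕ)
    (hlev : h65_HasLevelS p N S ι n) :
    ∃ L : IntermediateField ℚ Qb, FiniteDimensional ℚ L ∧ IsGalois ℚ L ∧
      ∀ (ℓ : ℕ) (hℓ : ℓ.Prime) (hℓN : ¬ ℓ ∣ N) (hℓS : ℓ ∉ (↑S : Set ℕ))
        (A : ValuationSubring Qb), A.LiesOverPrime ℓ → ∀ σ : Qb ≃ₐ[ℚ] Qb, A.IsFrobeniusAt σ ℓ →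
      ∀ (ℓ' : ℕ) (hℓ' : ℓ'.Prime) (hℓ'N : ¬ ℓ' ∣ N) (hℓ'S : ℓ' ∉ (↑S : Set ℕ))
        (A' : ValuationSubring Qb), A'.LiesOverPrime ℓ' → ∀ σ' : Qb ≃ₐ[ℚ] Qb,
        A'.IsFrobeniusAt σ' ℓ' → ∀ b : ℕ, (∀ x ∈ L, (σ' ^ b) x = σ x) →
      ∀ v : Λ, ∃ y : Λ,
        ι (CuspForm.heckeAlgebra.T hℓ hℓN hℓS -
            Polynomial.aeval (CuspForm.heckeAlgebra.T hℓ' hℓ'N hℓ'S)
              (Polynomial.dickson 1 (ℓ' : ℤ) b)) v = (p ^ n : ℤ) • y := by
  obtain ⟨M, instM, q, r, tM, hker, htors, hstab, hhecke, hes, hinert, hcomm⟩ := hlev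
  have hpn : 0 < p ^ n := pow_pos hp.pos n
  obtain ⟨L, hLfin, hLgal, hL⟩ := h31_exists_isLev q r hpn (fun x => hstab (q x))
  refine ⟨L, hLfin, hLgal, ?_⟩
  intro ℓ hℓ hℓN hℓS A hA σ hσ ℓ' hℓ' hℓ'N hℓ'S A' hA' σ' hσ' b hag v
  have hne : ∀ (l : ℕ), l.Prime → l ∉ (↑S : Set ℕ) → l ≠ p ∧ ¬ l ∣ p ^ n := by
    intro l hl hlS
    have h1 : l ≠ p := fun h => hlS (by rw [h]; exact Finset.mem_coe.2 hpS)
    exact ⟨h1, fun h => h1 ((Nat.prime_dvd_prime_iff_eq hl hp).mp (hl.dvd_of_dvd_pow h))⟩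
  have hcyc : h31_Cyc (p ^ n) σ ℓ := fun ζ hζ => h65_frob_root A hℓ hA hσ (hne ℓ hℓ hℓS).2 hζ
  have hcyc' : h31_Cyc (p ^ n) σ' ℓ' :=
    fun ζ hζ => h65_frob_root A' hℓ' hA' hσ' (hne ℓ' hℓ' hℓ'S).2 hζ
  have good1 : h31_Good ι q r (p ^ n) σ (CuspForm.heckeAlgebra.T hℓ hℓN hℓS) ℓ :=
    h31_good_frob _ (tM ⟨ℓ, hℓ⟩) ℓ σ hcyc (hhecke ℓ hℓ hℓN hℓS)
      (hes ℓ hℓ hℓN (hne ℓ hℓ hℓS).1 A hA σ hσ) (fun g m => hcomm ⟨ℓ, hℓ⟩ g m)
  have good2 : h31_Good ι q r (p ^ n) (σ' ^ b)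
      (Polynomial.aeval (CuspForm.heckeAlgebra.T hℓ' hℓ'N hℓ'S)
        (Polynomial.dickson 1 (ℓ' : ℤ) b)) (ℓ' ^ b) :=
    h31_good_pow _ (tM ⟨ℓ', hℓ'⟩) ℓ' σ' hcyc' (hhecke ℓ' hℓ' hℓ'N hℓ'S)
      (hes ℓ' hℓ' hℓ'N (hne ℓ' hℓ' hℓ'S).1 A' hA' σ' hσ') (fun g m => hcomm ⟨ℓ', hℓ'⟩ g m) b
  have hLnor : Normal ℚ L := inferInstance
  have good2' := h31_good_of_agree hLnor hL hag good2
  exact hker _ (h31_good_unique hpn htors good1 good2' v)

/-- An eigenvalue of a complex endomorphism preserving a finitely generated free lattice that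
spans the space is an algebraic integer. -/
theorem h67_int_abs {Λ V : Type*} [AddCommGroup Λ] [Module.Free ℤ Λ] [Module.Finite ℤ Λ]
    [AddCommGroup V] [Module ℂ V] (j : Λ →+ V)
    (hspan : Submodule.span ℂ (Set.range j) = ⊤) (Y : Module.End ℂ V) (E : Module.End ℤ Λ)
    (hE : ∀ φ, Y (j φ) = j (E φ)) (w : V) (hw0 : w ≠ 0) (μ : ℂ) (hw : Y w = μ • w) :
    IsIntegral ℤ μ := by
  classical
  set P : ℤ[X] := E.charpoly with hP
  have hPmonic : P.Monic := LinearMap.charpoly_monic E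
  have hPE : aeval E P = 0 := LinearMap.aeval_self_charpoly E
  have key : ∀ (Q : ℤ[X]) (φ : Λ), aeval Y Q (j φ) = j (aeval E Q φ) := by
    intro Q
    induction Q using Polynomial.induction_on with
    | C a =>
      intro φ
      rw [aeval_C, aeval_C, Algebra.algebraMap_eq_smul_one, Algebra.algebraMap_eq_smul_one,
        LinearMap.smul_apply, LinearMap.smul_apply, Module.End.one_apply, Module.End.one_apply,
        map_zsmul]
    | add p q hp hq =>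
      intro φ
      rw [map_add, map_add, LinearMap.add_apply, LinearMap.add_apply, hp, hq, map_add]
    | monomial n a ih =>
      intro φ
      have e1 : aeval Y (C a * X ^ (n + 1)) = aeval Y (C a * X ^ n) * Y := by
        rw [pow_succ, ← mul_assoc, map_mul, aeval_X]
      have e2 : aeval E (C a * X ^ (n + 1)) = aeval E (C a * X ^ n) * E := by
        rw [pow_succ, ← mul_assoc, map_mul, aeval_X]
      rw [e1, e2, Module.End.mul_apply, Module.End.mul_apply, hE, ih]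
  have h3 : ∀ φ : Λ, aeval Y P (j φ) = 0 := by
    intro φ
    rw [key, hPE, LinearMap.zero_apply, map_zero]
  have h4 : ∀ ψ : V, aeval Y P ψ = 0 := by
    intro ψ
    have hψ : ψ ∈ Submodule.span ℂ (Set.range j) := by
      rw [hspan]; exact Submodule.mem_top
    induction hψ using Submodule.span_induction with
    | mem x hx =>
      obtain ⟨φ, rfl⟩ := hx
      exact h3 φ
    | zero => rw [map_zero]
    | add x y _ _ hx hy => rw [map_add, hx, hy, add_zero]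
    | smul a x _ hx => rw [map_smul, hx, smul_zero]
  have heig : Module.End.HasEigenvector Y μ w :=
    ⟨Module.End.mem_eigenspace_iff.mpr hw, hw0⟩
  have h5 : aeval Y (P.map (algebraMap ℤ ℂ)) w = (P.map (algebraMap ℤ ℂ)).eval μ • w :=
    Module.End.aeval_apply_of_hasEigenvector heig
  rw [Polynomial.aeval_map_algebraMap, h4] at h5
  have h6 : (P.map (algebraMap ℤ ℂ)).eval μ = 0 := by
    rcases smul_eq_zero.mp h5.symm with h | h
    · exact h
    · exact absurd h hw0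
  refine ⟨P, hPmonic, ?_⟩
  rw [← Polynomial.eval_map]
  exact h6

/-- **Integrality of divided eigenvalues.** If a Hecke operator `t` maps the Hecke lattice into
`m • Λ` and `t g = c • g` for a nonzero cusp form `g`, then `c / m` is an algebraic integer. -/
theorem h67_int_of_div (N : ℕ) [NeZero N] (S : Set ℕ) (hNS : ∀ q : ℕ, q.Prime → q ∣ N → q ∈ S)
    (t : CuspForm.heckeAlgebra N 2 S) (m : ℕ) (hm : 0 < m)
    (hdiv : ∀ v : h65_Lam N, ∃ y : h65_Lam N, h65_iota N S hNS t v = (m : ℤ) • y)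
    (g : CuspForm (Gamma0 N) 2) (hg0 : g ≠ 0) (c : ℂ)
    (hc : (t : Module.End ℂ (CuspForm (Gamma0 N) 2)) g = c • g) :
    IsIntegral ℤ (c / (m : ℂ)) := by
  classical
  have hmC : (m : ℂ) ≠ 0 := by exact_mod_cast hm.ne'
  obtain ⟨X, hX⟩ : ∃ X : Module.End ℂ ↥(parabolicHoms ℂ (Gamma0 N) ℂ), X = h65_PhiC N t.1 :=
    ⟨_, rfl⟩
  have hXj : ∀ φ : h65_Lam N, X (h65_j N φ) = h65_j N (h65_iota N S hNS t φ) := by
    intro φ
    rw [hX, h65_iota_spec]
  obtain ⟨w, hw⟩ : ∃ w : ↥(parabolicHoms ℂ (Gamma0 N) ℂ), w = h65_E N (g, 0) := ⟨_, rfl⟩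
  have hw0 : w ≠ 0 := by
    intro h
    rw [hw] at h
    have : (g, (0 : CuspForm (Gamma0 N) 2)) = 0 := (h65_E N).map_eq_zero_iff.mp h
    exact hg0 (congrArg Prod.fst this)
  have hXw : X w = c • w := by
    rw [hX, hw, h65_PhiC_apply, hc, map_zero, ← map_smul]
    congr 1
    ext <;> simp
  clear hX hw
  obtain ⟨Y, hY⟩ : ∃ Y : Module.End ℂ ↥(parabolicHoms ℂ (Gamma0 N) ℂ), Y = (m : ℂ)⁻¹ • X :=
    ⟨_, rfl⟩
  have hYap : ∀ ψ, Y ψ = (m : ℂ)⁻¹ • X ψ := fun ψ => by rw [hY, LinearMap.smul_apply]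
  -- `Y` preserves the lattice
  have hYmem : Y ∈ h65_R0 N := by
    intro φ
    obtain ⟨y, hy⟩ := hdiv φ
    refine ⟨y, ?_⟩
    have h2 : h65_j N ((m : ℤ) • y) = (m : ℂ) • h65_j N y := by
      rw [map_zsmul]
      apply Subtype.ext
      refine AddMonoidHom.ext fun γ => ?_
      simp
    rw [hYap, hXj, hy, h2, smul_smul, inv_mul_cancel₀ hmC, one_smul]
  have hYw : Y w = (c / (m : ℂ)) • w := by
    rw [hYap, hXw, smul_smul]
    congr 1
    field_simp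
  exact h67_int_abs (h65_j N) (h65_span_j N) Y (h65_res N ⟨Y, hYmem⟩)
    (fun φ => (h65_res_spec N ⟨Y, hYmem⟩ φ).symm) w hw0 _ hYw

/-- Polynomials in a Hecke operator act on an eigenvector through the eigenvalue. -/
theorem h67_eig_aeval {N : ℕ} [NeZero N] {S : Set ℕ} (x : CuspForm.heckeAlgebra N 2 S)
    (g : CuspForm (Gamma0 N) 2) (a : ℂ)
    (hx : h65_val N S x g = a • g) (P : ℤ[X]) :
    h65_val N S (aeval x P) g = (aeval a P) • g := by
  have e : h65_val N S (aeval x P) = aeval (h65_val N S x) P :=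
    (Polynomial.aeval_algHom_apply (h65_val N S).toIntAlgHom x P).symm
  rw [e]
  clear e
  generalize h65_val N S x = X0 at hx ⊢
  induction P using Polynomial.induction_on with
  | C c =>
    rw [aeval_C, aeval_C, Algebra.algebraMap_eq_smul_one, LinearMap.smul_apply,
      Module.End.one_apply, Algebra.algebraMap_eq_smul_one, smul_assoc, one_smul]
  | add p q hp hq =>
    rw [map_add, map_add, LinearMap.add_apply, hp, hq, add_smul]
  | monomial n c ih =>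
    have e1 : aeval X0 (C c * X ^ (n + 1)) = aeval X0 (C c * X ^ n) * X0 := by
      rw [pow_succ, ← mul_assoc, map_mul, aeval_X]
    have e2 : aeval a (C c * X ^ (n + 1)) = aeval a (C c * X ^ n) * a := by
      rw [pow_succ, ← mul_assoc, map_mul, aeval_X]
    rw [e1, e2, Module.End.mul_apply, hx, map_smul, ih, smul_smul, mul_comm]

/-- The eigenvalue of `T_ℓ - D_b(T_ℓ', ℓ')` on a normalised eigenform. -/
theorem h67_eig_diff {N : ℕ} [NeZero N] {S : Set ℕ} {g : CuspForm (Gamma0 N) 2}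
    (hg : g.IsNormalizedEigenform) {ℓ : ℕ} (hℓ : ℓ.Prime) (hℓN : ¬ ℓ ∣ N) (hℓS : ℓ ∉ S)
    {ℓ' : ℕ} (hℓ' : ℓ'.Prime) (hℓ'N : ¬ ℓ' ∣ N) (hℓ'S : ℓ' ∉ S) (P : ℤ[X]) :
    h65_val N S (CuspForm.heckeAlgebra.T hℓ hℓN hℓS -
        aeval (CuspForm.heckeAlgebra.T hℓ' hℓ'N hℓ'S) P) g =
      (qCoeff g ℓ - aeval (qCoeff g ℓ') P) • g := by
  have h1 : h65_val N S (CuspForm.heckeAlgebra.T hℓ hℓN hℓS) g = qCoeff g ℓ • g :=
    h42_heckeT_eigen hg hℓ hℓN
  have h2 : h65_val N S (CuspForm.heckeAlgebra.T hℓ' hℓ'N hℓ'S) g = qCoeff g ℓ' • g :=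
    h42_heckeT_eigen hg hℓ' hℓ'N
  have h3 := h67_eig_aeval (CuspForm.heckeAlgebra.T hℓ' hℓ'N hℓ'S) g _ h2 P
  rw [map_sub, LinearMap.sub_apply, h1, h3, sub_smul]

/-- **Strong multiplicity one away from the levels**, from the levels and weak Chebotarev. -/
theorem h67_smo_core
    (hlev : ∀ (p N : ℕ) [NeZero N] (S : Finset ℕ), p.Prime → p ∈ S →
      ∀ (hNS : ∀ q : ℕ, q.Prime → q ∣ N → q ∈ (↑S : Set ℕ)) (n : ℕ),
        h65_HasLevelS p N S (h65_iota N (↑S : Set ℕ) hNS) n)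
    (hcheb : h65_WCheb)
    {N N' : ℕ} [NeZero N] [NeZero N'] {g : CuspForm (Gamma0 N) 2} {g' : CuspForm (Gamma0 N') 2}
    (hg : g.IsNormalizedEigenform) (hg' : g'.IsNormalizedEigenform)
    (S : Finset ℕ) (hS : ∀ ℓ : ℕ, ℓ.Prime → ℓ ∉ S → qCoeff g' ℓ = qCoeff g ℓ)
    (ℓ : ℕ) (hℓ : ℓ.Prime) (hℓN : ¬ ℓ ∣ N) (hℓN' : ¬ ℓ ∣ N') :
    qCoeff g' ℓ = qCoeff g ℓ := by
  classical
  obtain ⟨p, hp, hpℓ⟩ : ∃ p : ℕ, p.Prime ∧ p ≠ ℓ := by
    by_cases h : ℓ = 2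
    · exact ⟨3, Nat.prime_three, by omega⟩
    · exact ⟨2, Nat.prime_two, fun h' => h h'.symm⟩
  set S0 : Finset ℕ := N.primeFactors ∪ N'.primeFactors ∪ {p} with hS0
  have hpS0 : p ∈ S0 := by simp [hS0]
  have hNS0 : ∀ q : ℕ, q.Prime → q ∣ N → q ∈ (↑S0 : Set ℕ) := by
    intro q hq hqN
    have : q ∈ N.primeFactors := Nat.mem_primeFactors.mpr ⟨hq, hqN, NeZero.ne N⟩
    simp [hS0, this]
  have hN'S0 : ∀ q : ℕ, q.Prime → q ∣ N' → q ∈ (↑S0 : Set ℕ) := by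
    intro q hq hqN
    have : q ∈ N'.primeFactors := Nat.mem_primeFactors.mpr ⟨hq, hqN, NeZero.ne N'⟩
    simp [hS0, this]
  have hmemS0 : ∀ q : ℕ, q ∈ S0 → q ∣ N ∨ q ∣ N' ∨ q = p := by
    intro q hq
    simp only [hS0, Finset.mem_union, Finset.mem_singleton, Nat.mem_primeFactors] at hq
    rcases hq with (h | h) | h
    · exact Or.inl h.2.1
    · exact Or.inr (Or.inl h.2.1)
    · exact Or.inr (Or.inr h)
  have hℓS0 : ℓ ∉ (↑S0 : Set ℕ) := by
    intro h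
    rcases hmemS0 ℓ (Finset.mem_coe.mp h) with h | h | h
    · exact hℓN h
    · exact hℓN' h
    · exact hpℓ h.symm
  obtain ⟨A, σ, hA, hσ⟩ := Fermat.Agent.S54.exists_isFrobeniusAt ℓ hℓ
  have key : ∀ n : ℕ, IsIntegral ℤ ((qCoeff g' ℓ - qCoeff g ℓ) / (p : ℂ) ^ n) := by
    intro n
    obtain ⟨L1, hL1fin, -, hL1⟩ := h67_level_congr hp hpS0 (h65_iota N (↑S0 : Set ℕ) hNS0) n
      (hlev p N S0 hp hpS0 hNS0 n)
    obtain ⟨L2, hL2fin, -, hL2⟩ := h67_level_congr hp hpS0 (h65_iota N' (↑S0 : Set ℕ) hN'S0) n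
      (hlev p N' S0 hp hpS0 hN'S0 n)
    obtain ⟨L, hLfin, hLgal, hL1L, hL2L, -⟩ := h65_exists_galois_level L1 L2 hL1fin hL2fin 1
    obtain ⟨ℓ', A', σ', b, hℓ', hℓ'S, hA', hσ', hag⟩ := hcheb L hLfin hLgal σ (S ∪ S0)
    have hℓ'S1 : ℓ' ∉ S := fun h => hℓ'S (Finset.mem_union_left _ h)
    have hℓ'S0 : ℓ' ∉ (↑S0 : Set ℕ) := fun h => hℓ'S (Finset.mem_union_right _ (Finset.mem_coe.mp h))
    have hℓ'N : ¬ ℓ' ∣ N := fun h => hℓ'S0 (hNS0 ℓ' hℓ' h)
    have hℓ'N' : ¬ ℓ' ∣ N' := fun h => hℓ'S0 (hN'S0 ℓ' hℓ' h)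
    have hpn : 0 < p ^ n := pow_pos hp.pos n
    have d1 := hL1 ℓ hℓ hℓN hℓS0 A hA σ hσ ℓ' hℓ' hℓ'N hℓ'S0 A' hA' σ' hσ' b
      (fun x hx => hag x (hL1L hx))
    have d2 := hL2 ℓ hℓ hℓN' hℓS0 A hA σ hσ ℓ' hℓ' hℓ'N' hℓ'S0 A' hA' σ' hσ' b
      (fun x hx => hag x (hL2L hx))
    have i1 := h67_int_of_div N (↑S0 : Set ℕ) hNS0 _ (p ^ n) hpn
      (fun v => by obtain ⟨y, hy⟩ := d1 v; exact ⟨y, by rw [hy]; push_cast; rfl⟩)
      g hg.ne_zero _ (h67_eig_diff hg hℓ hℓN hℓS0 hℓ' hℓ'N hℓ'S0 _)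
    have i2 := h67_int_of_div N' (↑S0 : Set ℕ) hN'S0 _ (p ^ n) hpn
      (fun v => by obtain ⟨y, hy⟩ := d2 v; exact ⟨y, by rw [hy]; push_cast; rfl⟩)
      g' hg'.ne_zero _ (h67_eig_diff hg' hℓ hℓN' hℓS0 hℓ' hℓ'N' hℓ'S0 _)
    have e : (qCoeff g' ℓ - qCoeff g ℓ) / (p : ℂ) ^ n =
        (qCoeff g' ℓ - aeval (qCoeff g' ℓ') (Polynomial.dickson 1 (ℓ' : ℤ) b)) / ((p ^ n : ℕ) : ℂ)
          - (qCoeff g ℓ - aeval (qCoeff g ℓ') (Polynomial.dickson 1 (ℓ' : ℤ) b)) /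
            ((p ^ n : ℕ) : ℂ) := by
      rw [hS ℓ' hℓ' hℓ'S1]
      push_cast
      ring
    rw [e]
    exact i2.sub i1
  have := h67_int0 p hp.two_le _ key
  exact sub_eq_zero.mp this

end Fermat.Agent.S35
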