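import Mathlib
import Fermat.Agent.S35.h67_SMOCore
import Fermat.Agent.GAL.h65_LevelGlue
import Fermat.Agent.GAL.Theta
import Fermat.Agent.S37.h60_Final
import Fermat.Prelude.Def_CuspForm_Newforms

/-!
# S35 (GAL side): strong multiplicity one away from the levels

`h67_smo`: two normalised weight-2 eigenforms `g` (level `N`) and `g'` (level `N'`) whose prime
coefficients agree outside a finite set `S` have the same coefficient at every prime `ℓ` not
dividing `N N'`.  Unconditional: the levels come from THETA (`gal_thetaProp`) and the reduction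
interface of S37 (`h60_redData`) through `h65_levelsS`, weak Chebotarev from `h65_wcheb`.

`h67_not_occurs`: consequently the good eigensystem of a newform `g` of level `N`, restricted to
the primes outside ANY finite set `S`, does not occur at a proper divisor `M` of `N`
(the prelude `IsNewform` only forbids agreement at ALL primes not dividing `N`).
-/

set_option autoImplicit false

open Polynomial CongruenceSubgroup ModularCurve ModularCurve.Period ModularFormClass

namespace Fermat.Agent.S35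

open Fermat.Agent.GAL

/-- The strong levels of helper65's Hecke lattice, for every prime `p`, level `N` and `S`. -/
theorem h67_levels (p N : ℕ) [NeZero N] (S : Finset ℕ) (hp : p.Prime) (hpS : p ∈ S)
    (hNS : ∀ q : ℕ, q.Prime → q ∣ N → q ∈ (↑S : Set ℕ)) (n : ℕ) :
    h65_HasLevelS p N S (h65_iota N (↑S : Set ℕ) hNS) n :=
  h65_levelsS hp hpS hNS
    (fun n => have : NeZero (p ^ n) := ⟨pow_ne_zero n hp.ne_zero⟩; gal_thetaProp N (p ^ n))
    (fun ℓ hℓ h A hA => Fermat.Agent.S37.h60_redData N p ℓ hℓ h A hA) n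

/-- **Strong multiplicity one away from the levels.** -/
theorem h67_smo {N N' : ℕ} [NeZero N] [NeZero N'] {g : CuspForm (Gamma0 N) 2}
    {g' : CuspForm (Gamma0 N') 2} (hg : g.IsNormalizedEigenform) (hg' : g'.IsNormalizedEigenform)
    (S : Finset ℕ) (hS : ∀ ℓ : ℕ, ℓ.Prime → ℓ ∉ S → qCoeff g' ℓ = qCoeff g ℓ)
    (ℓ : ℕ) (hℓ : ℓ.Prime) (hℓN : ¬ ℓ ∣ N) (hℓN' : ¬ ℓ ∣ N') :
    qCoeff g' ℓ = qCoeff g ℓ :=
  h67_smo_core (fun p N _ S hp hpS hNS n => h67_levels p N S hp hpS hNS n) h65_wcheb hg hg' S hS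
    ℓ hℓ hℓN hℓN'

/-- The good eigensystem of a newform, restricted to the primes outside a finite set, does not
occur at a proper divisor of the level. -/
theorem h67_not_occurs {N : ℕ} [NeZero N] {g : CuspForm (Gamma0 N) 2} (hg : g.IsNewform)
    {M : ℕ} (hMN : M ∣ N) (hM : M ≠ N) (S : Finset ℕ)
    (g' : CuspForm (Gamma0 M) 2) (hg' : g'.IsNormalizedEigenform) :
    ¬ ∀ ℓ : ℕ, ℓ.Prime → ℓ ∉ S → qCoeff g' ℓ = qCoeff g ℓ := by
  intro hS
  have hM0 : M ≠ 0 := fun h => by
    rw [h, zero_dvd_iff] at hMN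
    exact NeZero.ne N hMN
  have : NeZero M := ⟨hM0⟩
  refine hg.2 M hMN hM ⟨g', hg', fun ℓ hℓ hℓN => ?_⟩
  exact h67_smo hg.1 hg' S hS ℓ hℓ hℓN (fun h => hℓN (dvd_trans h hMN))

end Fermat.Agent.S35
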