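/-
S35 (helper67), (N3) THE HECKE-SIDE INPUT OF THE `q`-CLAUSE.

For a newform `g` of level `N q` (`q` prime, `q ∤ N`) and any finite set `S` of primes, there is
a Hecke element `P` of level `N q` away from `S` with `χ_g(P) ≠ 0` which vanishes at level `N`;
hence the transfers `tr (P φ)` and `tr (W (P φ))` vanish for every `φ` in the Hecke lattice, and
by the norm transfer (`h67_jnew_of_rel`) every class related to `(P φ) mod n` is `q`-new.
-/
import Mathlib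
import Fermat.Agent.S35.h67_NormTransfer
import Fermat.Agent.S35.h67_SMO
import Fermat.Agent.S35.h29_S35Top
import Fermat.Agent.S41.h24_LRI5c
import Fermat.Agent.S41.h7_LRI5b
import Fermat.Agent.S49.helper7_Eigen
import Fermat.Agent.S22
import Fermat.Agent.GAL.Theta
import Fermat.Agent.S35.h1_IntLI
import Fermat.Agent.S35.h39_CommonEig
import Fermat.Agent.S35.h3_EigChar

set_option autoImplicit false
set_option linter.unusedSectionVars false
set_option linter.style.haveILetI false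

open UpperHalfPlane ModularCurve CongruenceSubgroup AlgebraicCurve ModularCurve.Period
open scoped MatrixGroups Manifold

namespace Fermat.Agent.S35

open Fermat.Agent.GAL Fermat.Agent.S24 Fermat.Agent.S16 Fermat.Agent.S41 Fermat.Agent.S37

local notation "Qb" => AlgebraicClosure ℚ

/-! ## Polynomial intertwining -/

/-- An additive map intertwining the generators intertwines all polynomials in them. -/
theorem h67_intertwine {L A B ΛA ΛB : Type*} [CommRing A] [CommRing B] [AddCommGroup ΛA]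
    [AddCommGroup ΛB] (a : L → A) (b : L → B) (ιA : A →+* Module.End ℤ ΛA)
    (ιB : B →+* Module.End ℤ ΛB) (τ : ΛA →+ ΛB)
    (h : ∀ (ℓ : L) (φ : ΛA), τ (ιA (a ℓ) φ) = ιB (b ℓ) (τ φ)) (P : MvPolynomial L ℤ) (φ : ΛA) :
    τ (ιA (MvPolynomial.aeval a P) φ) = ιB (MvPolynomial.aeval b P) (τ φ) := by
  induction P using MvPolynomial.induction_on generalizing φ with
  | C r =>
    rw [MvPolynomial.aeval_C, MvPolynomial.aeval_C, eq_intCast, eq_intCast, map_intCast,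
      map_intCast, Module.End.intCast_apply, Module.End.intCast_apply, map_zsmul]
  | add p p' hp hp' =>
    rw [map_add, map_add, map_add, map_add, LinearMap.add_apply, LinearMap.add_apply, map_add,
      hp, hp']
  | mul_X p ℓ hp =>
    simp only [map_mul, MvPolynomial.aeval_X, Module.End.mul_apply, hp, h]

/-! ## The two transfers on the Hecke lattices -/

section Lat

variable (N q : ℕ) [NeZero N] [Fact q.Prime] (hqN : ¬ q ∣ N)

/-- The transfer `Λ_{N q} → Λ_N`. -/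
noncomputable def h67_trLam : h65_Lam (N * q) →+ h65_Lam N where
  toFun φ := ⟨h30_tr N q hqN (φ : Additive (Gamma0 (N * q)) →+ ℤ),
    h30_tr_parabolic N q hqN _ φ.2⟩
  map_zero' := Subtype.ext (map_zero _)
  map_add' _ _ := Subtype.ext (map_add _ _ _)

/-- The transfer after the Atkin-Lehner conjugation, `Λ_{N q} → Λ_N`. -/
noncomputable def h67_trWLam : h65_Lam (N * q) →+ h65_Lam N where
  toFun φ := ⟨h30_tr N q hqN (h30_W N q hqN (φ : Additive (Gamma0 (N * q)) →+ ℤ)),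
    h30_tr_parabolic N q hqN _ (h30_W_parabolic N q hqN _ φ.2)⟩
  map_zero' := Subtype.ext
    (show h30_tr N q hqN (h30_W N q hqN (0 : Additive (Gamma0 (N * q)) →+ ℤ)) = 0 by
      rw [map_zero, map_zero])
  map_add' φ ψ := Subtype.ext
    (show h30_tr N q hqN (h30_W N q hqN ((φ : Additive (Gamma0 (N * q)) →+ ℤ) +
          (ψ : Additive (Gamma0 (N * q)) →+ ℤ))) =
        h30_tr N q hqN (h30_W N q hqN (φ : Additive (Gamma0 (N * q)) →+ ℤ)) +
          h30_tr N q hqN (h30_W N q hqN (ψ : Additive (Gamma0 (N * q)) →+ ℤ)) by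
      rw [map_add, map_add])

theorem h67_trLam_coe (φ : h65_Lam (N * q)) :
    ((h67_trLam N q hqN φ : h65_Lam N) : Additive (Gamma0 N) →+ ℤ)
      = h30_tr N q hqN (φ : Additive (Gamma0 (N * q)) →+ ℤ) := rfl

theorem h67_trWLam_coe (φ : h65_Lam (N * q)) :
    ((h67_trWLam N q hqN φ : h65_Lam N) : Additive (Gamma0 N) →+ ℤ)
      = h30_tr N q hqN (h30_W N q hqN (φ : Additive (Gamma0 (N * q)) →+ ℤ)) := rfl

variable [NeZero q]

theorem h67_trLam_hecke (ℓ : ℕ) [Fact ℓ.Prime] (hℓ : ¬ ℓ ∣ N * q) (φ : h65_Lam (N * q)) :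
    h67_trLam N q hqN (h65_TLam ℓ hℓ φ)
      = h65_TLam ℓ (fun h => hℓ (Dvd.dvd.mul_right h q)) (h67_trLam N q hqN φ) := by
  apply Subtype.ext
  rw [h67_trLam_coe, h65_TLam_coe, h65_TLam_coe, h67_trLam_coe]
  exact (h24_heckeT_tr hqN ℓ hℓ _).symm

theorem h67_trWLam_hecke (ℓ : ℕ) [Fact ℓ.Prime] (hℓ : ¬ ℓ ∣ N * q) (φ : h65_Lam (N * q)) :
    h67_trWLam N q hqN (h65_TLam ℓ hℓ φ)
      = h65_TLam ℓ (fun h => hℓ (Dvd.dvd.mul_right h q)) (h67_trWLam N q hqN φ) := by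
  apply Subtype.ext
  rw [h67_trWLam_coe, h65_TLam_coe, h65_TLam_coe, h67_trWLam_coe, ← h7_heckeT_W hqN ℓ hℓ]
  exact (h24_heckeT_tr hqN ℓ hℓ _).symm

end Lat

/-! ## The Hecke generators away from `N q` and `S` -/

section Gen

variable (N q : ℕ) [NeZero N] [NeZero q] (S : Finset ℕ)

/-- The index set: the primes away from `N q` and `S`. -/
abbrev h67_L : Type := {ℓ : ℕ // ℓ.Prime ∧ ¬ ℓ ∣ N * q ∧ ℓ ∉ (↑S : Set ℕ)}

/-- The excluded set at level `N`. -/
def h67_S2 : Set ℕ := {ℓ | ℓ ∈ S ∨ ℓ ∣ N * q}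

theorem h67_hNS2 : ∀ p : ℕ, p.Prime → p ∣ N → p ∈ h67_S2 N q S :=
  fun _ _ hp => Or.inr (Dvd.dvd.mul_right hp q)

/-- `T_ℓ` at level `N`. -/
noncomputable def h67_TN (ℓ : h67_L N q S) : CuspForm.heckeAlgebra N 2 (h67_S2 N q S) :=
  CuspForm.heckeAlgebra.T ℓ.2.1 (fun h => ℓ.2.2.1 (Dvd.dvd.mul_right h q))
    (fun h => h.elim (fun h1 => ℓ.2.2.2 (Finset.mem_coe.2 h1)) ℓ.2.2.1)

/-- `T_ℓ` at level `N q`. -/
noncomputable def h67_TM (ℓ : h67_L N q S) : CuspForm.heckeAlgebra (N * q) 2 (↑S : Set ℕ) :=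
  CuspForm.heckeAlgebra.T ℓ.2.1 ℓ.2.2.1 ℓ.2.2.2

/-- The `T_ℓ`, `ℓ ∤ N q`, `ℓ ∉ S`, generate the Hecke algebra of level `N` away from `S ∪ {ℓ ∣ N q}`. -/
theorem h67_aeval_surj :
    Function.Surjective (MvPolynomial.aeval (h67_TN N q S) :
      MvPolynomial (h67_L N q S) ℤ → CuspForm.heckeAlgebra N 2 (h67_S2 N q S)) := by
  rintro ⟨t, ht⟩
  induction ht using Algebra.adjoin_induction with
  | mem x hx =>
    rcases hx with ⟨ℓ, hℓ, hℓN, hℓS, rfl⟩ | ⟨p, hpN, hp, hpS, rfl⟩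
    · have h1 : ¬ ℓ ∣ N * q := fun h => hℓS (Or.inr h)
      have h2 : ℓ ∉ (↑S : Set ℕ) := fun h => hℓS (Or.inl (Finset.mem_coe.1 h))
      refine ⟨MvPolynomial.X (⟨ℓ, hℓ, h1, h2⟩ : h67_L N q S), ?_⟩
      rw [MvPolynomial.aeval_X]
      rfl
    · exact absurd (h67_hNS2 N q S p hp hpN) hpS
  | algebraMap r =>
    refine ⟨MvPolynomial.C r, ?_⟩
    rw [MvPolynomial.aeval_C]
    rfl
  | add x y hx hy ihx ihy =>
    obtain ⟨P, hP⟩ := ihx
    obtain ⟨Q, hQ⟩ := ihy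
    refine ⟨P + Q, ?_⟩
    rw [map_add, hP, hQ]
    rfl
  | mul x y hx hy ihx ihy =>
    obtain ⟨P, hP⟩ := ihx
    obtain ⟨Q, hQ⟩ := ihy
    refine ⟨P * Q, ?_⟩
    rw [map_mul, hP, hQ]
    rfl

end Gen

/-! ## Characters of lattices of commuting operators -/

open scoped TensorProduct in
/-- A character of a commutative ring `H`, free of finite rank over `ℤ`, acting on a
finite-dimensional complex vector space such that a `ℤ`-basis stays `ℂ`-linearly independent,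
has an eigenvector. -/
theorem h67_eig_of_lattice_char {H V ι : Type*} [CommRing H] [Fintype ι]
    [AddCommGroup V] [Module ℂ V] [Module.Finite ℂ V]
    (val : H →+* Module.End ℂ V) (b : Module.Basis ι ℤ H)
    (hli : ∀ c : ι → ℂ, ∑ i, c i • val (b i) = 0 → c = 0)
    (χ : H →+* ℂ) : ∃ v : V, v ≠ 0 ∧ ∀ t : H, val t v = χ t • v := by
  classical
  have : Module.Finite ℤ H := Module.Finite.of_basis b
  obtain ⟨ρ, hρ1⟩ : ∃ ρ : ℂ ⊗[ℤ] H →ₐ[ℂ] Module.End ℂ V, ∀ t : H, ρ (1 ⊗ₜ[ℤ] t) = val t := by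
    have hc : ∀ (x : ℂ) (y : H),
        Commute (Algebra.ofId ℂ (Module.End ℂ V) x) (val.toIntAlgHom y) :=
      fun x y => Algebra.commute_algebraMap_left x _
    refine ⟨Algebra.TensorProduct.lift (Algebra.ofId ℂ _) val.toIntAlgHom hc, fun t => ?_⟩
    rw [Algebra.TensorProduct.lift_tmul, map_one, one_mul]
    rfl
  obtain ⟨χC, hχ1⟩ : ∃ χC : ℂ ⊗[ℤ] H →ₐ[ℂ] ℂ, ∀ t : H, χC (1 ⊗ₜ[ℤ] t) = χ t := by
    refine ⟨Algebra.TensorProduct.lift (AlgHom.id ℂ ℂ) χ.toIntAlgHom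
      (fun _ _ => Commute.all _ _), fun t => ?_⟩
    rw [Algebra.TensorProduct.lift_tmul, map_one, one_mul]
    rfl
  have hρ : Function.Injective ρ := by
    rw [injective_iff_map_eq_zero]
    intro x hx
    obtain ⟨bC, hbC⟩ : ∃ bC : Module.Basis ι ℂ (ℂ ⊗[ℤ] H), ∀ i, bC i = 1 ⊗ₜ[ℤ] b i :=
      ⟨Algebra.TensorProduct.basis ℂ b, fun i => Algebra.TensorProduct.basis_apply b i⟩
    have hx1 : x = ∑ i, bC.repr x i • bC i := (bC.sum_repr x).symm
    have h0 : (fun i => bC.repr x i) = 0 := by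
      apply hli
      rw [hx1, map_sum] at hx
      rw [← hx]
      refine Finset.sum_congr rfl fun i _ => ?_
      rw [map_smul, hbC, hρ1]
    rw [hx1]
    refine Finset.sum_eq_zero fun i _ => ?_
    rw [congrFun h0 i, Pi.zero_apply, zero_smul]
  obtain ⟨v, hv0, hv⟩ := h3_exists_eigenvector_of_character ρ hρ χC
  refine ⟨v, hv0, fun t => ?_⟩
  have h1 := hv (1 ⊗ₜ[ℤ] t)
  rw [hρ1, hχ1] at h1
  exact h1

/-! ## A character of the Hecke algebra has an eigenvector -/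

section Eig

variable {N : ℕ} [NeZero N]

theorem h67_PhiC_smul (c : ℂ) (t : Module.End ℂ (CuspForm (Gamma0 N) 2)) :
    h65_PhiC N (c • t) = c • h65_PhiC N t := by
  refine LinearMap.ext fun ψ => ?_
  obtain ⟨⟨f, g⟩, rfl⟩ := (h65_E N).surjective ψ
  rw [LinearMap.smul_apply, h65_PhiC_apply, h65_PhiC_apply, ← map_smul]
  rfl

/-- A `ℤ`-linearly independent family of Hecke operators is `ℂ`-linearly independent. -/
theorem h67_hecke_li {ι : Type*} [Fintype ι] (S2 : Set ℕ)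
    (hNS2 : ∀ p : ℕ, p.Prime → p ∣ N → p ∈ S2)
    (b : ι → CuspForm.heckeAlgebra N 2 S2) (hb : LinearIndependent ℤ b) (c : ι → ℂ)
    (h : ∑ i, c i • ((b i : CuspForm.heckeAlgebra N 2 S2) :
      Module.End ℂ (CuspForm (Gamma0 N) 2)) = 0) : c = 0 := by
  let n : CuspForm.heckeAlgebra N 2 S2 →+ (h65_Lam N × Additive (Gamma0 N) → ℤ) :=
    { toFun := fun t x =>
        ((h65_iota N S2 hNS2 t x.1 : h65_Lam N) : Additive (Gamma0 N) →+ ℤ) x.2
      map_zero' := by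
        funext x
        rw [map_zero]
        rfl
      map_add' := fun s t => by
        funext x
        rw [map_add]
        rfl }
  have hn : Function.Injective n := by
    intro s t hst
    apply h65_iota_injective N S2 hNS2
    refine LinearMap.ext fun φ => Subtype.ext (AddMonoidHom.ext fun γ => ?_)
    exact congrFun hst (φ, γ)
  refine h1_int_li n hn b hb c (fun x => ?_)
  obtain ⟨φ, γ⟩ := x
  have h1 := congrArg (h65_PhiC N) h
  rw [map_sum, map_zero] at h1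
  have h2 := congrArg (fun T : Module.End ℂ ↥(parabolicHoms ℂ (Gamma0 N) ℂ) =>
    ((T (h65_j N φ) : ↥(parabolicHoms ℂ (Gamma0 N) ℂ)) : Additive (Gamma0 N) →+ ℂ) γ) h1
  simp only [LinearMap.sum_apply, LinearMap.zero_apply, h67_PhiC_smul, LinearMap.smul_apply,
    ← h65_iota_spec N S2 hNS2] at h2
  rw [Submodule.coe_sum, AddMonoidHom.finsetSum_apply] at h2
  refine (Finset.sum_congr rfl fun i _ => ?_).trans h2
  rfl

/-- **A character of the Hecke algebra occurs in the cusp forms.** -/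
theorem h67_exists_eigvec (S2 : Set ℕ) (hNS2 : ∀ p : ℕ, p.Prime → p ∣ N → p ∈ S2)
    (χ : CuspForm.heckeAlgebra N 2 S2 →+* ℂ) :
    ∃ v : CuspForm (Gamma0 N) 2, v ≠ 0 ∧ ∀ t : CuspForm.heckeAlgebra N 2 S2,
      (t : Module.End ℂ (CuspForm (Gamma0 N) 2)) v = χ t • v := by
  classical
  have hfV : Module.Finite ℂ (CuspForm (Gamma0 N) 2) := Fermat.Agent.S21.h20_finite_cuspForm N
  have hfH : Module.Finite ℤ (CuspForm.heckeAlgebra N 2 S2) := Fermat.Agent.S22.result N 2 S2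
  have hfree : Module.Free ℤ (CuspForm.heckeAlgebra N 2 S2) := inferInstance
  exact h67_eig_of_lattice_char (h65_val N S2)
    (Module.Free.chooseBasis ℤ (CuspForm.heckeAlgebra N 2 S2))
    (fun c hc => h67_hecke_li S2 hNS2 _ (Module.Basis.linearIndependent _) c hc) χ

end Eig

/-! ## (C1): a Hecke polynomial vanishing at level `N` but not on the newform -/

section C1

open ModularFormClass

variable {N q : ℕ} [NeZero N] [NeZero q] (S : Finset ℕ)

/-- If a character of the Hecke algebra of level `N q` factors through level `N` on the good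
operators, its good eigensystem occurs in a normalized eigenform of level `N`. -/
theorem h67_exists_eigenform_of_factor
    (chig : CuspForm.heckeAlgebra (N * q) 2 (↑S : Set ℕ) →+* ℂ)
    (hcon : ∀ P₀ : MvPolynomial (h67_L N q S) ℤ, MvPolynomial.aeval (h67_TN N q S) P₀ = 0 →
      chig (MvPolynomial.aeval (h67_TM N q S) P₀) = 0) :
    ∃ f : CuspForm (Gamma0 N) 2, f.IsNormalizedEigenform ∧
      ∀ ℓ : h67_L N q S, qCoeff (⇑f) ℓ.1 = chig (h67_TM N q S ℓ) := by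
  classical
  have hfV : Module.Finite ℂ (CuspForm (Gamma0 N) 2) := Fermat.Agent.S21.h20_finite_cuspForm N
  -- the character of level `N`
  let evN : MvPolynomial (h67_L N q S) ℤ →+* CuspForm.heckeAlgebra N 2 (h67_S2 N q S) :=
    (MvPolynomial.aeval (h67_TN N q S)).toRingHom
  let evM : MvPolynomial (h67_L N q S) ℤ →+* CuspForm.heckeAlgebra (N * q) 2 (↑S : Set ℕ) :=
    (MvPolynomial.aeval (h67_TM N q S)).toRingHom
  have hsurj : Function.Surjective evN := h67_aeval_surj N q S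
  obtain ⟨χ2, hχ2⟩ : ∃ χ2 : CuspForm.heckeAlgebra N 2 (h67_S2 N q S) →+* ℂ,
      ∀ ℓ : h67_L N q S, χ2 (h67_TN N q S ℓ) = chig (h67_TM N q S ℓ) := by
    refine ⟨RingHom.liftOfSurjective evN hsurj ⟨chig.comp evM, fun P hP => hcon P hP⟩,
      fun ℓ => ?_⟩
    have h1 := RingHom.liftOfSurjective_comp_apply evN hsurj
      ⟨chig.comp evM, fun P hP => hcon P hP⟩ (MvPolynomial.X ℓ)
    have h2 : evN (MvPolynomial.X ℓ) = h67_TN N q S ℓ := MvPolynomial.aeval_X _ _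
    have h3 : evM (MvPolynomial.X ℓ) = h67_TM N q S ℓ := MvPolynomial.aeval_X _ _
    rw [h2] at h1
    rw [h1, RingHom.comp_apply, h3]
  obtain ⟨v, hv0, hv⟩ := h67_exists_eigvec (h67_S2 N q S) (h67_hNS2 N q S) χ2
  -- the common eigenspace of the good operators
  let W : Submodule ℂ (CuspForm (Gamma0 N) 2) :=
    { carrier := {w | ∀ ℓ : h67_L N q S,
        ((h67_TN N q S ℓ : CuspForm.heckeAlgebra N 2 (h67_S2 N q S)) :
          Module.End ℂ (CuspForm (Gamma0 N) 2)) w = chig (h67_TM N q S ℓ) • w}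
      add_mem' := fun {a b} ha hb ℓ => by rw [map_add, ha ℓ, hb ℓ, smul_add]
      zero_mem' := fun ℓ => by rw [map_zero, smul_zero]
      smul_mem' := fun c w hw ℓ => by rw [map_smul, hw ℓ, smul_comm] }
  have hvW : v ∈ W := fun ℓ => by rw [hv, hχ2]
  have hW : W ≠ ⊥ := fun h => hv0 ((Submodule.mem_bot ℂ).1 (h ▸ hvW))
  have hs : ∀ a ∈ CuspForm.heckeGenerators N 2 (∅ : Set ℕ),
      ∀ b ∈ CuspForm.heckeGenerators N 2 (∅ : Set ℕ), Commute a b :=
    fun a ha b hb => CuspForm.commute_of_mem_heckeGenerators ha hb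
  have hWs : ∀ a ∈ CuspForm.heckeGenerators N 2 (∅ : Set ℕ), ∀ w ∈ W, a w ∈ W := by
    intro a ha w hw ℓ
    have hc : Commute ((h67_TN N q S ℓ : CuspForm.heckeAlgebra N 2 (h67_S2 N q S)) :
        Module.End ℂ (CuspForm (Gamma0 N) 2)) a :=
      CuspForm.commute_of_mem_heckeGenerators
        (CuspForm.heckeTLin_mem_heckeGenerators ℓ.2.1
          (fun h => ℓ.2.2.1 (Dvd.dvd.mul_right h q)) (Set.notMem_empty _)) ha
    have h1 := congrArg (fun T : Module.End ℂ (CuspForm (Gamma0 N) 2) => T w) hc.eq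
    simp only [Module.End.mul_apply] at h1
    rw [h1, hw ℓ, map_smul]
  obtain ⟨v', hv'W, hv'0, hv'⟩ := h39_exists_common_eigenvector W hW _ hs hWs
  have hT : ∀ (ℓ : ℕ) (hℓ : ℓ.Prime) (hℓN : ¬ ℓ ∣ N),
      ∃ c : ℂ, CuspForm.heckeTLin 2 hℓ hℓN v' = c • v' := fun ℓ hℓ hℓN =>
    hv' _ (CuspForm.heckeTLin_mem_heckeGenerators hℓ hℓN (Set.notMem_empty _))
  have hU : ∀ (p : ℕ) (_ : p.Prime) (hpN : p ∣ N),
      ∃ c : ℂ, CuspForm.heckeULin 2 hpN v' = c • v' := fun p hp hpN =>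
    hv' _ (CuspForm.heckeULin_mem_heckeGenerators hp hpN (Set.notMem_empty _))
  let lam : ℕ → ℂ := fun ℓ =>
    if h : ℓ.Prime then
      (if hN : ℓ ∣ N then Classical.choose (hU ℓ h hN) else Classical.choose (hT ℓ h hN))
    else 0
  have hlamT : ∀ (ℓ : ℕ) (hℓ : ℓ.Prime) (hℓN : ¬ ℓ ∣ N),
      CuspForm.heckeTLin 2 hℓ hℓN v' = lam ℓ • v' := by
    intro ℓ hℓ hℓN
    simp only [lam, dif_pos hℓ, dif_neg hℓN]
    exact Classical.choose_spec (hT ℓ hℓ hℓN)
  have hlamU : ∀ (p : ℕ) (_ : p.Prime) (hpN : p ∣ N),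
      CuspForm.heckeULin 2 hpN v' = lam p • v' := by
    intro p hp hpN
    simp only [lam, dif_pos hp, dif_pos hpN]
    exact Classical.choose_spec (hU p hp hpN)
  obtain ⟨f, hf, hfl⟩ :=
    Fermat.Agent.S49.h7_exists_normalized_eigenform v' hv'0 lam hlamT hlamU
  refine ⟨f, hf, fun ℓ => ?_⟩
  rw [hfl ℓ.1 ℓ.2.1]
  have h1 := hv'W ℓ
  have h2 := hlamT ℓ.1 ℓ.2.1 (fun h => ℓ.2.2.1 (Dvd.dvd.mul_right h q))
  have h3 : lam ℓ.1 • v' = chig (h67_TM N q S ℓ) • v' := h2.symm.trans h1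
  exact smul_left_injective ℂ hv'0 h3

/-- **(C1)** For a newform `g` of level `N q`, some polynomial in the good Hecke operators
vanishes at level `N` but not under `χ_g`. -/
theorem h67_exists_P0 [Fact q.Prime] {g : CuspForm (Gamma0 (N * q)) 2} (hg : g.IsNewform)
    (chig : CuspForm.heckeAlgebra (N * q) 2 (↑S : Set ℕ) →+* ℂ)
    (hchig : ∀ (ℓ : ℕ) (hℓ : ℓ.Prime) (hℓM : ¬ ℓ ∣ N * q) (hℓS : ℓ ∉ (↑S : Set ℕ)),
      chig (CuspForm.heckeAlgebra.T hℓ hℓM hℓS) = qCoeff g ℓ) :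
    ∃ P₀ : MvPolynomial (h67_L N q S) ℤ, MvPolynomial.aeval (h67_TN N q S) P₀ = 0 ∧
      chig (MvPolynomial.aeval (h67_TM N q S) P₀) ≠ 0 := by
  by_contra hcon
  obtain ⟨f, hf, hfl⟩ := h67_exists_eigenform_of_factor S chig
    (fun P₀ h0 => by_contra fun h => hcon ⟨P₀, h0, h⟩)
  have hq : q.Prime := Fact.out
  have hNq : N ≠ N * q := by
    intro h
    have h1 : N * 1 = N * q := by rw [mul_one]; exact h
    exact hq.one_lt.ne (Nat.eq_of_mul_eq_mul_left (Nat.pos_of_ne_zero (NeZero.ne N)) h1)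
  refine h67_not_occurs hg (Dvd.intro q rfl) hNq (S ∪ (N * q).primeFactors) f hf
    (fun ℓ hℓ hℓS => ?_)
  rw [Finset.mem_union, not_or] at hℓS
  have h1 : ¬ ℓ ∣ N * q := fun h =>
    hℓS.2 (Nat.mem_primeFactors.2 ⟨hℓ, h, NeZero.ne (N * q)⟩)
  have h2 : ℓ ∉ (↑S : Set ℕ) := fun h => hℓS.1 (Finset.mem_coe.1 h)
  have h3 := hfl ⟨ℓ, hℓ, h1, h2⟩
  rw [h3]
  exact hchig ℓ hℓ h1 h2

end C1

/-! ## (C2) and the Hecke-side input -/

section Final

open ModularFormClass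

variable {N q : ℕ} [NeZero N] [NeZero q] (S : Finset ℕ)

/-- **(C2)** A Hecke polynomial vanishing at level `N` kills both transfers of the lattice. -/
theorem h67_tr_aeval_eq_zero [Fact q.Prime] (hqN : ¬ q ∣ N)
    (hMS : ∀ p : ℕ, p.Prime → p ∣ N * q → p ∈ (↑S : Set ℕ))
    (P₀ : MvPolynomial (h67_L N q S) ℤ) (hP₀ : MvPolynomial.aeval (h67_TN N q S) P₀ = 0)
    (φ : h65_Lam (N * q)) :
    h67_trLam N q hqN (h65_iota (N * q) (↑S : Set ℕ) hMS
        (MvPolynomial.aeval (h67_TM N q S) P₀) φ) = 0 ∧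
      h67_trWLam N q hqN (h65_iota (N * q) (↑S : Set ℕ) hMS
        (MvPolynomial.aeval (h67_TM N q S) P₀) φ) = 0 := by
  constructor
  · rw [h67_intertwine (h67_TM N q S) (h67_TN N q S) (h65_iota (N * q) (↑S : Set ℕ) hMS)
      (h65_iota N (h67_S2 N q S) (h67_hNS2 N q S)) (h67_trLam N q hqN) (fun ℓ φ => by
        haveI : Fact ℓ.1.Prime := ⟨ℓ.2.1⟩
        rw [h67_TM, h67_TN, h65_iota_T, h65_iota_T, h67_trLam_hecke]) P₀ φ, hP₀, map_zero,
      LinearMap.zero_apply]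
  · rw [h67_intertwine (h67_TM N q S) (h67_TN N q S) (h65_iota (N * q) (↑S : Set ℕ) hMS)
      (h65_iota N (h67_S2 N q S) (h67_hNS2 N q S)) (h67_trWLam N q hqN) (fun ℓ φ => by
        haveI : Fact ℓ.1.Prime := ⟨ℓ.2.1⟩
        rw [h67_TM, h67_TN, h65_iota_T, h65_iota_T, h67_trWLam_hecke]) P₀ φ, hP₀, map_zero,
      LinearMap.zero_apply]

/-- **The Hecke-side input of the `q`-clause at the level `N q`.** -/
theorem h67_newProp_at [Fact q.Prime] (hqN : ¬ q ∣ N)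
    {g : CuspForm (Gamma0 (N * q)) 2} (hg : g.IsNewform)
    (lam : ℕ) [Fact lam.Prime]
    (hMS : ∀ p : ℕ, p.Prime → p ∣ N * q → p ∈ S)
    (chig : CuspForm.heckeAlgebra (N * q) 2 (↑S : Set ℕ) →+* ℂ)
    (hchig : ∀ (ℓ : ℕ) (hℓ : ℓ.Prime) (hℓM : ¬ ℓ ∣ N * q) (hℓS : ℓ ∉ (↑S : Set ℕ)),
      chig (CuspForm.heckeAlgebra.T hℓ hℓM hℓS) = qCoeff g ℓ) :
    h29_NewProp (N * q) lam S hMS chig (h67_JnewAt (N * q) q) := by
  obtain ⟨P₀, hP0, hP1⟩ := h67_exists_P0 S hg chig hchig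
  refine ⟨MvPolynomial.aeval (h67_TM N q S) P₀, hP1, fun n φ x hx => ?_⟩
  haveI : NeZero (lam ^ n) := ⟨pow_ne_zero n (Fact.out : lam.Prime).ne_zero⟩
  have hrel := (gal_R_iff_h67_Rel (lam ^ n) h78_iota _ x).mp hx
  obtain ⟨h1, h2⟩ := h67_tr_aeval_eq_zero S hqN
    (fun p hp hpM => Finset.mem_coe.2 (hMS p hp hpM)) P₀ hP0 φ
  refine h67_jnewAt_of_jnew (h67_jnew_of_rel h78_iota N q hqN (lam ^ n) _ ?_ ?_ x hrel)
  · rw [h65_redHom_coe, h30_tr_comp, ← h67_trLam_coe, h1]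
    exact AddMonoidHom.comp_zero _
  · rw [h65_redHom_coe, h30_W_comp, h30_tr_comp, ← h67_trWLam_coe, h2]
    exact AddMonoidHom.comp_zero _

end Final

/-- **(N3) The Hecke-side input of the `q`-clause of S35.**  For a newform `g` of level `M`
and a prime `q` exactly dividing `M`, the `q`-new classes `h67_JnewAt M q` satisfy
`h29_NewProp`. -/
theorem h67_newProp {M : ℕ} [NeZero M] {g : CuspForm (Gamma0 M) 2} (hg : g.IsNewform)
    (lam : ℕ) [Fact lam.Prime] (S : Finset ℕ)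
    (hMS : ∀ p : ℕ, p.Prime → p ∣ M → p ∈ S)
    (chig : CuspForm.heckeAlgebra M 2 (↑S : Set ℕ) →+* ℂ)
    (hchig : ∀ (ℓ : ℕ) (hℓ : ℓ.Prime) (hℓM : ¬ ℓ ∣ M) (hℓS : ℓ ∉ (↑S : Set ℕ)),
      chig (CuspForm.heckeAlgebra.T hℓ hℓM hℓS) = ModularFormClass.qCoeff g ℓ)
    (q : ℕ) [NeZero q] (hq : q.Prime) (hqM : q ∣ M) (hq2 : ¬ q ^ 2 ∣ M) :
    h29_NewProp M lam S hMS chig (h67_JnewAt M q) := by
  obtain ⟨N, rfl⟩ : ∃ N, M = N * q := ⟨M / q, (Nat.div_mul_cancel hqM).symm⟩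
  haveI : Fact q.Prime := ⟨hq⟩
  haveI : NeZero N := ⟨fun h => NeZero.ne (N * q) (by rw [h, zero_mul])⟩
  have hqN : ¬ q ∣ N := fun h => hq2 (by
    rw [pow_two]
    exact Nat.mul_dvd_mul h (dvd_refl q))
  exact h67_newProp_at S hqN hg lam hMS chig hchig

/-- **S35 from the geometric input (FROB2) alone**: the conclusion of the frozen S35, given
`h67_Frob2Geom N q` for all levels `N q` with `q` prime, `q ∤ N`. -/
theorem h67_S35_of_geom
    (GEOM : ∀ (N q : ℕ) [NeZero N] [NeZero q], q.Prime → ¬ q ∣ N → h67_Frob2Geom N q)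
    {M : ℕ} [NeZero M] {g : CuspForm (Gamma0 M) 2} (hg : g.IsNewform)
    (lam : ℕ) [Fact lam.Prime] (S : Finset ℕ)
    (O' : Type) [CommRing O'] [IsDomain O'] [IsDiscreteValuationRing O']
    [IsAdicComplete (IsLocalRing.maximalIdeal O') O'] [Finite (IsLocalRing.ResidueField O')]
    [CharZero O'] (hlamO' : (lam : O') ∈ IsLocalRing.maximalIdeal O')
    (chig : CuspForm.heckeAlgebra M 2 (↑S : Set ℕ) →+* ℂ)
    (hchig : ∀ (ℓ : ℕ) (hℓ : ℓ.Prime) (hℓM : ¬ ℓ ∣ M) (hℓS : ℓ ∉ (↑S : Set ℕ)),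
      chig (CuspForm.heckeAlgebra.T hℓ hℓM hℓS) = ModularFormClass.qCoeff g ℓ)
    (iota : chig.range →+* O')
    (hlamS : lam ∈ S) (hMS : ∀ q : ℕ, q.Prime → q ∣ M → q ∈ S) :
    ∃ (O'' : Type) (_ : CommRing O'') (_ : IsDomain O'') (_ : IsDiscreteValuationRing O'')
      (_ : IsAdicComplete (IsLocalRing.maximalIdeal O'') O'')
      (_ : Finite (IsLocalRing.ResidueField O''))
      (_ : CharZero O'') (_ : Algebra O' O'') (_ : Module.Finite O' O'')
      (_ : IsLocalHom (algebraMap O' O'')),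
      Function.Injective (algebraMap O' O'') ∧
      ∃ ρ : GaloisRepAdic O'',
        (∀ (ℓ : ℕ) (hℓ : ℓ.Prime) (hℓM : ¬ ℓ ∣ M) (hℓS : ℓ ∉ (↑S : Set ℕ)),
          ∀ A : ValuationSubring (AlgebraicClosure ℚ), A.LiesOverPrime ℓ →
            ∀ σ : AlgebraicClosure ℚ ≃ₐ[ℚ] AlgebraicClosure ℚ, A.IsFrobeniusAt σ ℓ →
              LinearMap.charpoly (ρ.ρ σ) =
                Polynomial.X ^ 2 - Polynomial.C (algebraMap O' O''
                  ((iota.comp chig.rangeRestrict) (CuspForm.heckeAlgebra.T hℓ hℓM hℓS))) *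
                    Polynomial.X + Polynomial.C ((ℓ : O''))) ∧
        (∀ q : ℕ, q.Prime → q ≠ lam → q ∣ M → ¬ q ^ 2 ∣ M →
          ∀ A : ValuationSubring (AlgebraicClosure ℚ), A.LiesOverPrime q →
            ∀ σ : AlgebraicClosure ℚ ≃ₐ[ℚ] AlgebraicClosure ℚ, A.IsFrobeniusAt σ q →
              LinearMap.charpoly (ρ.ρ σ) =
                Polynomial.X ^ 2 - Polynomial.C ((q : O'') + 1) * Polynomial.X +
                  Polynomial.C ((q : O'')) ∨
              LinearMap.charpoly (ρ.ρ σ) =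
                Polynomial.X ^ 2 + Polynomial.C ((q : O'') + 1) * Polynomial.X +
                  Polynomial.C ((q : O''))) :=
  h29_S35_of_new_frob lam S O' hlamO' chig iota hlamS hMS (fun q hq _ hqM hq2 => by
    haveI : NeZero q := ⟨hq.ne_zero⟩
    exact ⟨h67_JnewAt M q, h67_newProp hg lam S hMS chig hchig q hq hqM hq2,
      h67_frob2At_of_geom q (fun N _ hqN => GEOM N q hq hqN) M hq2⟩)

end Fermat.Agent.S35
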