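/-
S35 (helper29): the closed form of (PULL-NEW) and the reduction of the whole geometric input
of S35 to the two statements (E1) and (B) at the charted levels.

* `h29_pullNew`       : (PULL-NEW), from the norm base change `h49_norm_bc_alpha/beta`;
* `h29_geom_of_E1_B`  : (E1) + (B) at the charted levels give `h67_Frob2Geom N q` at all levels;
* `h29_S35_of_E1_B`   : the conclusion of the frozen S35 from (E1) + (B).
-/
import Mathlib
import Fermat.Agent.S35.h29_GeomIface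
import Fermat.Agent.S35.h29_PullNew
import Fermat.Agent.S35.h49_NormBC
import Fermat.Agent.S35.h67_NewPart

set_option autoImplicit false

noncomputable section

open ModularCurve AlgebraicCurve CongruenceSubgroup

namespace Fermat.Agent.S35

open Fermat.Agent.S34

/-- **(PULL-NEW)**, closed: the pull-back along `α_c` of a `q`-new torsion class is `q`-new. -/
theorem h29_pullNew (N q c : ℕ) [NeZero N] [NeZero q] [NeZero c] (hq : q.Prime)
    (hqN : ¬ q ∣ N) (hc : c.Prime) (hcNq : ¬ c ∣ N * q) : h29_PullNew N q c := by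
  have hqNc : ¬ q ∣ N * c := by
    intro h
    rcases (Nat.Prime.dvd_mul hq).1 h with h | h
    · exact hqN h
    · have hqc : q = c := (Nat.prime_dvd_prime_iff_eq hq hc).1 h
      exact hcNq (hqc ▸ Dvd.intro_left N rfl)
  exact @h29_pullNew_of_nbc N q c _ _ _
    (fun ι hι f => h49_norm_bc_alpha N q c hq hqNc ι hι f)
    (fun ι hι f => h49_norm_bc_beta N q c hq hqNc ι hι f)

/-- **The geometric input of S35 from (E1) and (B)** at the charted levels. -/
theorem h29_geom_of_E1_B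
    (hE1 : ∀ (M q : ℕ) [NeZero M] [NeZero q] [Fact q.Prime] (hqM : ¬ q ∣ M),
      (5 ≤ q ∨ 2 ∣ M ∨ 3 ∣ M) → h29_E1Prop M q hqM)
    (hB : ∀ (M q : ℕ) [NeZero M] [NeZero q] [Fact q.Prime] (hqM : ¬ q ∣ M),
      (5 ≤ q ∨ 2 ∣ M ∨ 3 ∣ M) → h29_BProp M q hqM)
    (N q : ℕ) [NeZero N] [NeZero q] (hq : q.Prime) (hqN : ¬ q ∣ N) : h67_Frob2Geom N q := by
  have : Fact q.Prime := ⟨hq⟩
  exact h29_frob2Geom_all q (fun M _ hqM hch => hE1 M q hqM hch)
    (fun M _ hqM hch => hB M q hqM hch)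
    (fun N' _ hqN' c _ hc hcNq => h29_pullNew N' q c hq hqN' hc hcNq) N hqN

/-- **S35 from (E1) and (B)**: the conclusion of the frozen S35. -/
theorem h29_S35_of_E1_B
    (hE1 : ∀ (M q : ℕ) [NeZero M] [NeZero q] [Fact q.Prime] (hqM : ¬ q ∣ M),
      (5 ≤ q ∨ 2 ∣ M ∨ 3 ∣ M) → h29_E1Prop M q hqM)
    (hB : ∀ (M q : ℕ) [NeZero M] [NeZero q] [Fact q.Prime] (hqM : ¬ q ∣ M),
      (5 ≤ q ∨ 2 ∣ M ∨ 3 ∣ M) → h29_BProp M q hqM)
    {M : ℕ} [NeZero M] {g : CuspForm (Gamma0 M) 2} (hg : g.IsNewform)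
    (lam : ℕ) [Fact lam.Prime] (S : Finset ℕ)
    (O' : Type) [CommRing O'] [IsDomain O'] [IsDiscreteValuationRing O']
    [IsAdicComplete (IsLocalRing.maximalIdeal O') O'] [Finite (IsLocalRing.ResidueField O')]
    [CharZero O'] (hlamO' : (lam : O') ∈ IsLocalRing.maximalIdeal O')
    (chig : CuspForm.heckeAlgebra M 2 (↑S : Set ℕ) →+* ℂ)
    (hchig : ∀ (ℓ : ℕ) (hℓ : ℓ.Prime) (hℓM : ¬ ℓ ∣ M) (hℓS : ℓ ∉ (↑S : Set ℕ)),
      chig (CuspForm.heckeAlgebra.T hℓ hℓM hℓS) = ModularFormClass.qCoeff g ℓ)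
    (iota : chig.range →+* O')
    (hlamS : lam ∈ S) (hMS : ∀ q : ℕ, q.Prime → q ∣ M → q ∈ S) :
    ∃ (O'' : Type) (_ : CommRing O'') (_ : IsDomain O'') (_ : IsDiscreteValuationRing O'')
      (_ : IsAdicComplete (IsLocalRing.maximalIdeal O'') O'')
      (_ : Finite (IsLocalRing.ResidueField O''))
      (_ : CharZero O'') (_ : Algebra O' O'') (_ : Module.Finite O' O'')
      (_ : IsLocalHom (algebraMap O' O'')),
      Function.Injective (algebraMap O' O'') ∧
      ∃ ρ : GaloisRepAdic O'',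
        (∀ (ℓ : ℕ) (hℓ : ℓ.Prime) (hℓM : ¬ ℓ ∣ M) (hℓS : ℓ ∉ (↑S : Set ℕ)),
          ∀ A : ValuationSubring (AlgebraicClosure ℚ), A.LiesOverPrime ℓ →
            ∀ σ : AlgebraicClosure ℚ ≃ₐ[ℚ] AlgebraicClosure ℚ, A.IsFrobeniusAt σ ℓ →
              LinearMap.charpoly (ρ.ρ σ) =
                Polynomial.X ^ 2 - Polynomial.C (algebraMap O' O''
                  ((iota.comp chig.rangeRestrict) (CuspForm.heckeAlgebra.T hℓ hℓM hℓS))) *
                    Polynomial.X + Polynomial.C ((ℓ : O''))) ∧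
        (∀ q : ℕ, q.Prime → q ≠ lam → q ∣ M → ¬ q ^ 2 ∣ M →
          ∀ A : ValuationSubring (AlgebraicClosure ℚ), A.LiesOverPrime q →
            ∀ σ : AlgebraicClosure ℚ ≃ₐ[ℚ] AlgebraicClosure ℚ, A.IsFrobeniusAt σ q →
              LinearMap.charpoly (ρ.ρ σ) =
                Polynomial.X ^ 2 - Polynomial.C ((q : O'') + 1) * Polynomial.X +
                  Polynomial.C ((q : O'')) ∨
              LinearMap.charpoly (ρ.ρ σ) =
                Polynomial.X ^ 2 + Polynomial.C ((q : O'') + 1) * Polynomial.X +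
                  Polynomial.C ((q : O''))) :=
  h67_S35_of_geom (fun N q _ _ hq hqN => h29_geom_of_E1_B hE1 hB N q hq hqN)
    hg lam S O' hlamO' chig hchig iota hlamS hMS

end Fermat.Agent.S35

end
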