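import Mathlib
import Fermat.Agent.S34.h60_R1AB
import Fermat.Agent.S35.h29_FrobDescent

/-!
# S35: the geometric interface ((E1) + (B) + (PULL-NEW) ⟹ (FROB2) at all levels)

Level `M q`, `q` prime, `q ∤ M`, `A` a valuation subring of `ℚ̄` over `q`.  `R₁ := h60_R1 M q hqM A hA`
is helper60's first reduction datum of `F(M q)` (residue field: the level-`M` function field over
the residue field of `A`), `w := h49_swapF` the swap (Atkin–Lehner at `q`); the second reduction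
datum is `R₂ = R₁ ∘ w`.

* `h29_Toric M q hqM A hA m y` : the class `y ∈ J₀(M q)(ℚ̄)` has a representative `E` with
  `m E = div u`, where `u` is a unit with reduction `1` at both reductions
  (`u ∈ O₁`, `red₁ u = 1`, `w u ∈ O₁`, `red₁ (w u) = 1`).
* `h29_E1Prop M q hqM`  (**(E1)**) : `s² y = q² y` for every toric class `y` (exponent prime to `q`)
  and every Frobenius element `s` at `A`.
* `h29_BProp M q hqM`  (**(B)**) : `s² x - x` is toric (exponent `p ^ n`) for every `q`-new class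
  `x` killed by `p ^ n`, `p ≠ q`.
* `h29_frob2Geom_of_E1_B` : (E1) + (B) ⟹ `h67_Frob2Geom M q`.
* `h29_frob2Geom_all` : (E1) + (B) at the charted levels + (PULL-NEW) ⟹ `h67_Frob2Geom N q` at
  every level `N` with `q ∤ N`.
-/

set_option autoImplicit false

noncomputable section

open ModularCurve AlgebraicCurve

namespace Fermat.Agent.S35

open Fermat.Agent.S34 Fermat.Agent.S37 Fermat.Agent.S24 Fermat.Agent.S18

local notation "Qb" => AlgebraicClosure ℚ

/-- The toric classes of `J₀(M q)(ℚ̄)` at `A` for the exponent `m`: classes of divisors `E` with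
`m E = div u`, `u` of reduction `1` at both reductions `R₁`, `R₂ = R₁ ∘ w` of `F(M q)`. -/
def h29_Toric (M q : ℕ) [NeZero M] [NeZero q] [hq : Fact q.Prime] (hqM : ¬ q ∣ M)
    (A : ValuationSubring Qb) (hA : A.LiesOverPrime q) (m : ℕ) (y : JZero (M * q)) : Prop :=
  ∃ (E : Divisor.degZero (K := Qb) (F := modularFunctionFieldBar (M * q)))
    (u : modularFunctionFieldBar (M * q)),
    u ≠ 0 ∧ Pic0.mk E = y ∧
    (∀ v : Place Qb (modularFunctionFieldBar (M * q)),
      (m : ℤ) * (E : Divisor Qb (modularFunctionFieldBar (M * q))) v = v.ord u) ∧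
    (u ∈ (h60_R1 M q hqM A hA).O ∧ (h60_R1 M q hqM A hA).redF u = 1) ∧
    ∀ (a b : ℤ) (h : (q : ℤ) * a - (M : ℤ) * b = 1),
      h49_swapF h h78_iota hq.out u ∈ (h60_R1 M q hqM A hA).O ∧
        (h60_R1 M q hqM A hA).redF (h49_swapF h h78_iota hq.out u) = 1

/-- **(E1)** at level `M q`: `s² = q²` on the toric classes, for every Frobenius element `s`. -/
def h29_E1Prop (M q : ℕ) [NeZero M] [NeZero q] [Fact q.Prime] (hqM : ¬ q ∣ M) : Prop :=
  ∀ (A : ValuationSubring Qb) (hA : A.LiesOverPrime q) (s : Qb ≃ₐ[ℚ] Qb),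
    A.IsFrobeniusAt s q → ∀ m : ℕ, ¬ q ∣ m → ∀ y : JZero (M * q),
      h29_Toric M q hqM A hA m y → s • s • y = (q ^ 2) • y

/-- **(B)** at level `M q`: `(s² - 1) x` is toric for every `q`-new class `x` of `p`-power order,
`p ≠ q`, and every Frobenius element `s`. -/
def h29_BProp (M q : ℕ) [NeZero M] [NeZero q] [Fact q.Prime] (hqM : ¬ q ∣ M) : Prop :=
  ∀ (A : ValuationSubring Qb) (hA : A.LiesOverPrime q) (s : Qb ≃ₐ[ℚ] Qb),
    A.IsFrobeniusAt s q → ∀ p : ℕ, p.Prime → p ≠ q → ∀ (n : ℕ) (x : JZero (M * q)),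
      p ^ n • x = 0 → h67_Jnew M q x → h29_Toric M q hqM A hA (p ^ n) (s • s • x - x)

/-- (E1) + (B) give (FROB2) at level `M q`. -/
theorem h29_frob2Geom_of_E1_B (M q : ℕ) [NeZero M] [NeZero q] [Fact q.Prime] (hqM : ¬ q ∣ M)
    (hE1 : h29_E1Prop M q hqM) (hB : h29_BProp M q hqM) : h67_Frob2Geom M q := by
  intro A hA s hs p hp hpq n x hx hnew
  have hq : q.Prime := Fact.out
  have hqp : ¬ q ∣ p ^ n := fun hd =>
    hpq ((Nat.prime_dvd_prime_iff_eq hq hp).1 (hq.dvd_of_dvd_pow hd)).symm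
  have e := hE1 A hA s hs (p ^ n) hqp _ (hB A hA s hs p hp hpq n x hx hnew)
  rw [smul_sub, smul_sub, nsmul_sub] at e
  have e2 : s • s • s • s • x = q ^ 2 • (s • s • x) - q ^ 2 • x + s • s • x :=
    sub_eq_iff_eq_add.1 e
  rw [e2, add_smul, one_smul]
  abel

/-- **The geometric input of S35 at all levels**: (E1) and (B) at the charted levels
(`5 ≤ q ∨ 2 ∣ M ∨ 3 ∣ M`) together with (PULL-NEW) give (FROB2) at every level `N`, `q ∤ N`. -/
theorem h29_frob2Geom_all (q : ℕ) [NeZero q] [Fact q.Prime]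
    (hE1 : ∀ (M : ℕ) [NeZero M] (hqM : ¬ q ∣ M), (5 ≤ q ∨ 2 ∣ M ∨ 3 ∣ M) → h29_E1Prop M q hqM)
    (hB : ∀ (M : ℕ) [NeZero M] (hqM : ¬ q ∣ M), (5 ≤ q ∨ 2 ∣ M ∨ 3 ∣ M) → h29_BProp M q hqM)
    (hpull : ∀ (N : ℕ) [NeZero N], ¬ q ∣ N → ∀ (c : ℕ) [NeZero c], c.Prime → ¬ c ∣ N * q →
      h29_PullNew N q c)
    (N : ℕ) [NeZero N] (hqN : ¬ q ∣ N) : h67_Frob2Geom N q :=
  h29_frob2Geom_of_charted q Fact.out hpull
    (fun M _ hqM hch => h29_frob2Geom_of_E1_B M q hqM (hE1 M hqM hch) (hB M hqM hch)) N hqN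

end Fermat.Agent.S35

end
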