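import Mathlib
import Fermat.Agent.S34.h60_Pair
import Fermat.Agent.S34.h87_Toric
import Fermat.Agent.S35.h29_GeomIface

/-!
# S35 bridge (helper60): the second datum `h60_R2` against an arbitrary swap, and the toric
predicate

* `h60_w_eq_swapF` : `h49_swapF h h78_iota hq = h60_w M q hqM` for every Bezout datum `h`;
* `h60_R2_mem_iff_swapF`, `h60_R2_redF_swapF` : `O₂`, `red₂` through an arbitrary swap;
* `h60_toric_iff` : `h29_Toric M q hqM A hA m y` is the family-toric predicate `h87_IsToric` of the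
  pair `![R₁, R₂]`.
-/

set_option autoImplicit false
set_option synthInstance.maxHeartbeats 400000

noncomputable section

open ModularCurve AlgebraicCurve IntermediateField

namespace Fermat.Agent.S35

open Fermat.Agent.S34 Fermat.Agent.S18 Fermat.Agent.S37 Fermat.Agent.S24

local notation "Qb" => AlgebraicClosure ℚ

section Bridge

variable (M q : ℕ) [NeZero M] [NeZero q] [hqF : Fact q.Prime] (hqM : ¬ q ∣ M)
  (A : ValuationSubring Qb) (hA : A.LiesOverPrime q)

/-- Every swap is the swap `h60_w`. -/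
theorem h60_w_eq_swapF {a b : ℤ} (h : (q : ℤ) * a - (M : ℤ) * b = 1) (hq : q.Prime) :
    h49_swapF h h78_iota hq = h60_w M q hqM :=
  h60_w_unique M q hqM _ (fun y => h49_swapF_alpha h h78_iota hq y)
    (fun y => h49_swapF_beta h h78_iota hq y)

theorem h60_R2_mem_iff_swapF {a b : ℤ} (h : (q : ℤ) * a - (M : ℤ) * b = 1) (hq : q.Prime)
    (u : ↥(modularFunctionFieldBar (M * q))) :
    u ∈ (h60_R2 M q hqM A hA).O ↔ h49_swapF h h78_iota hq u ∈ (h60_R1 M q hqM A hA).O := by
  rw [h60_w_eq_swapF M q hqM h hq]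
  exact h60_R2_mem_iff M q hqM A hA u

theorem h60_R2_redF_swapF {a b : ℤ} (h : (q : ℤ) * a - (M : ℤ) * b = 1) (hq : q.Prime)
    (u : ↥(modularFunctionFieldBar (M * q))) :
    (h60_R2 M q hqM A hA).redF u = (h60_R1 M q hqM A hA).redF (h49_swapF h h78_iota hq u) := by
  rw [h60_w_eq_swapF M q hqM h hq]
  exact h60_R2_redF M q hqM A hA u

/-- Unit-reduction at a datum, in `redF` form. -/
theorem h60_red_one_iff {K F k Fb : Type*} [Field K] [Field F] [Algebra K F] [Field k] [Field Fb]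
    [Algebra k Fb] (R : h39_RedDatum K F k Fb) (u : F) :
    (∃ h : u ∈ R.O, R.red ⟨u, h⟩ = 1) ↔ (u ∈ R.O ∧ R.redF u = 1) := by
  constructor
  · rintro ⟨h, h1⟩
    exact ⟨h, (R.redF_of_mem h).trans h1⟩
  · rintro ⟨h, h1⟩
    exact ⟨h, (R.redF_of_mem h).symm.trans h1⟩

/-- `h29_Toric` is the family-toric predicate of the pair `![R₁, R₂]`. -/
theorem h60_toric_iff (m : ℕ) (y : JZero (M * q)) :
    h29_Toric M q hqM A hA m y ↔
      h87_IsToric (fun i => (h60_pair M q hqM A hA i).O) (fun i => (h60_pair M q hqM A hA i).red)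
        m y := by
  have hq : q.Prime := Fact.out
  obtain ⟨a, b, hab⟩ := h49_exists_bezout ((Nat.Prime.coprime_iff_not_dvd hq).mpr hqM)
  constructor
  · rintro ⟨E, u, hu, hE, hdiv, h1, h2⟩
    refine ⟨E, u, hu, hE, hdiv, ?_⟩
    intro i
    fin_cases i
    · exact (h60_red_one_iff (h60_R1 M q hqM A hA) u).mpr h1
    · have h3 := h2 a b hab
      rw [← h60_R2_mem_iff_swapF M q hqM A hA hab hq u,
        ← h60_R2_redF_swapF M q hqM A hA hab hq u] at h3
      exact (h60_red_one_iff (h60_R2 M q hqM A hA) u).mpr h3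
  · rintro ⟨E, u, hu, hE, hdiv, h⟩
    refine ⟨E, u, hu, hE, hdiv, (h60_red_one_iff (h60_R1 M q hqM A hA) u).mp (h 0), ?_⟩
    intro a' b' hab'
    have h3 := (h60_red_one_iff (h60_R2 M q hqM A hA) u).mp (h 1)
    rw [h60_R2_mem_iff_swapF M q hqM A hA hab' hq u,
      h60_R2_redF_swapF M q hqM A hA hab' hq u] at h3
    exact h3

end Bridge

end Fermat.Agent.S35

end
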