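import Mathlib
import Fermat.Agent.S18.h19_RedAbs
import Fermat.Agent.S37.h87_Twist
import Fermat.Agent.S37.h87_Frob
import Fermat.Agent.S37.h24_Decomp
import Fermat.Prelude.Thm_ModularCurve_coeffMap_qExpand

/-!
# S35 (q-clause), series level: the Gauss ring of Laurent series and its symmetries

`A` a valuation subring of a field `K`, `k = A/𝔪`.  `h19_InO A f` (S18) says that the Laurent
series `f ∈ K((q))` is a ratio `y₁/y₂` of `A`-integral series with `ȳ₂ ≠ 0`, and
`h19_redFun f _ = ȳ₁/ȳ₂ ∈ k((q))` is its reduction.  This file proves that the Gauss ring and its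
reduction are compatible with

* `q ↦ q^n` (`h19_InO_qExpand`),
* the twist `q ↦ c q` by a unit `c` of `A` (`h19_InO_twist`),
* the coefficientwise action of the decomposition group of `A` (`h19_InO_decomp`), with the
  special cases of inertia (`h19_InO_inertia`: the reduction does not change) and of Frobenius
  elements (`h19_InO_frob`: the reduction is hit by the coefficientwise Frobenius),
* inverses of elements with nonzero reduction and finite products,

and the two facts used for the norm reduction at a prime of bad reduction: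

* `h19_InO_of_qExpand` : descent along `q ↦ q^n` for scalable series;
* `h19_norm_red_series` : if `N(q^ℓ) = f(q^ℓ) ∏_{b<ℓ} g(ζ^b q)` (`ζ^ℓ = 1`, `ℓ` the residue
  characteristic) with `f`, `g` units of the Gauss ring and `N` scalable, then `N` is in the
  Gauss ring and `N̄ = f̄ · Frob(ḡ)`.
-/

set_option autoImplicit false
set_option synthInstance.maxHeartbeats 400000

noncomputable section

open ModularCurve HahnSeries

namespace Fermat.Agent.S35

open Fermat.Agent.S18 Fermat.Agent.S37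

section Series

variable {K : Type*} [Field K] {A : ValuationSubring K}

/-- **Transfer principle.** A ring endomorphism `Φ` of `K((q))` which maps `A`-integral series
to `A`-integral series, compatibly with a ring endomorphism `Φk` of `k((q))`, preserves the
Gauss ring and commutes with the reduction. -/
theorem h19_InO_transfer (Φ : LaurentSeries K →+* LaurentSeries K)
    (Φk : LaurentSeries (IsLocalRing.ResidueField A) →+*
      LaurentSeries (IsLocalRing.ResidueField A))
    (hΦ : ∀ y : LaurentSeries A, ∃ y' : LaurentSeries A,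
      coeffMap A.subtype y' = Φ (coeffMap A.subtype y) ∧
      coeffMap (IsLocalRing.residue A) y' = Φk (coeffMap (IsLocalRing.residue A) y))
    {f : LaurentSeries K} (hf : h19_InO A f) :
    ∃ h : h19_InO A (Φ f), h19_redFun (Φ f) h = Φk (h19_redFun f hf) := by
  have hspec := fun z₁ z₂ hz => h19_redFun_spec f hf z₁ z₂ hz
  obtain ⟨y₁, y₂, hy₂, hy⟩ := hf
  obtain ⟨z₁, hz₁, hz₁'⟩ := hΦ y₁
  obtain ⟨z₂, hz₂, hz₂'⟩ := hΦ y₂
  have hne : coeffMap (IsLocalRing.residue A) z₂ ≠ 0 := by
    rw [hz₂']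
    exact (map_ne_zero Φk).mpr hy₂
  have heq : Φ f * coeffMap A.subtype z₂ = coeffMap A.subtype z₁ := by
    rw [hz₁, hz₂, ← map_mul, hy]
  refine ⟨⟨z₁, z₂, hne, heq⟩, ?_⟩
  refine h19_redFun_eq (Φ f) _ z₁ z₂ hne heq _ ?_
  rw [hz₁', hz₂', ← map_mul, hspec y₁ y₂ hy]

/-- The Gauss ring is stable under `q ↦ q^n`. -/
theorem h19_InO_qExpand (n : ℕ) [NeZero n] {f : LaurentSeries K} (hf : h19_InO A f) :
    ∃ h : h19_InO A (qExpand K n f),
      h19_redFun (qExpand K n f) h = qExpand _ n (h19_redFun f hf) :=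
  h19_InO_transfer (qExpand K n) (qExpand _ n)
    (fun y => ⟨qExpand A n y, coeffMap_qExpand _ n y, coeffMap_qExpand _ n y⟩) hf

/-- The Gauss ring is stable under the twist by a unit of `A`. -/
theorem h19_InO_twist (c : Aˣ) {f : LaurentSeries K} (hf : h19_InO A f) :
    ∃ h : h19_InO A (h87_twist (Units.map ((A.subtype : A →+* K) : A →* K) c) f),
      h19_redFun (h87_twist (Units.map ((A.subtype : A →+* K) : A →* K) c) f) h =
        h87_twist (Units.map ((IsLocalRing.residue A : A →+* IsLocalRing.ResidueField A) :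
          A →* IsLocalRing.ResidueField A) c) (h19_redFun f hf) :=
  h19_InO_transfer (h87_twist _) (h87_twist _)
    (fun y => ⟨h87_twist c y, h87_coeffMap_twist _ c y, h87_coeffMap_twist _ c y⟩) hf

/-- Elements with nonzero reduction are units of the Gauss ring. -/
theorem h19_InO_inv {f : LaurentSeries K} (hf : h19_InO A f) (hne : h19_redFun f hf ≠ 0) :
    ∃ h : h19_InO A f⁻¹, h19_redFun f⁻¹ h = (h19_redFun f hf)⁻¹ := by
  have hspec := fun z₁ z₂ hz => h19_redFun_spec f hf z₁ z₂ hz
  obtain ⟨y₁, y₂, hy₂, hy⟩ := hf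
  have h1 := hspec y₁ y₂ hy
  have hy₁ : coeffMap (IsLocalRing.residue A) y₁ ≠ 0 := by
    rw [← h1]
    exact mul_ne_zero hne hy₂
  have hf0 : f ≠ 0 := by
    rintro rfl
    rw [zero_mul] at hy
    have : y₁ = 0 := h19_coeffMap_subtype_injective A (by rw [← hy, map_zero])
    exact hy₁ (by rw [this, map_zero])
  have heq : f⁻¹ * coeffMap A.subtype y₁ = coeffMap A.subtype y₂ := by
    rw [← hy, ← mul_assoc, inv_mul_cancel₀ hf0, one_mul]
  refine ⟨⟨y₂, y₁, hy₁, heq⟩, ?_⟩
  refine h19_redFun_eq f⁻¹ _ y₂ y₁ hy₁ heq _ ?_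
  rw [← h1, ← mul_assoc, inv_mul_cancel₀ hne, one_mul]

/-- Finite products in the Gauss ring. -/
theorem h19_InO_prod {ι : Type*} (s : Finset ι) (f : ι → LaurentSeries K)
    (g : ι → LaurentSeries (IsLocalRing.ResidueField A))
    (hf : ∀ i ∈ s, ∃ h : h19_InO A (f i), h19_redFun (f i) h = g i) :
    ∃ h : h19_InO A (∏ i ∈ s, f i), h19_redFun (∏ i ∈ s, f i) h = ∏ i ∈ s, g i := by
  classical
  induction s using Finset.induction_on with
  | empty =>
    refine ⟨by rw [Finset.prod_empty]; exact h19_InO_one, ?_⟩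
    simp only [Finset.prod_empty]
    exact h19_redFun_one _
  | insert a s ha ih =>
    obtain ⟨h1, h2⟩ := ih (fun i hi => hf i (Finset.mem_insert_of_mem hi))
    obtain ⟨h3, h4⟩ := hf a (Finset.mem_insert_self a s)
    have hprod : h19_InO A (f a * ∏ i ∈ s, f i) := h19_InO_mul h3 h1
    have hred := h19_redFun_mul (f a) (∏ i ∈ s, f i) h3 h1 hprod
    rw [h4, h2] at hred
    simp only [Finset.prod_insert ha]
    exact ⟨hprod, hred⟩

/-- A constant of the Gauss ring lies in `A`. -/
theorem h19_const_mem_of_InO {a : K} (h : h19_InO A (algebraMap K (LaurentSeries K) a)) :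
    a ∈ A := by
  obtain ⟨y₁, y₂, hy, h⟩ := h
  by_contra haA
  have hinv : a⁻¹ ∈ A := (A.mem_or_inv_mem a).resolve_left haA
  have ha0 : a ≠ 0 := fun h0 => haA (h0 ▸ A.zero_mem)
  have haK : algebraMap K (LaurentSeries K) a ≠ 0 := (map_ne_zero _).2 ha0
  have h2 : coeffMap A.subtype y₂ =
      coeffMap A.subtype (HahnSeries.single 0 (⟨a⁻¹, hinv⟩ : A) * y₁) := by
    rw [h19_coeffMap_const_mul, ← h, map_inv₀, ← mul_assoc, inv_mul_cancel₀ haK, one_mul]
  have h3 := h19_coeffMap_subtype_injective A h2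
  have hres : IsLocalRing.residue A (⟨a⁻¹, hinv⟩ : A) = 0 := by
    rw [IsLocalRing.residue_eq_zero_iff, IsLocalRing.mem_maximalIdeal, mem_nonunits_iff]
    intro hu
    obtain ⟨u, hu⟩ := hu
    apply haA
    have h4 : (((u⁻¹ : Aˣ) : A) : K) * a⁻¹ = 1 := by
      have : ((u⁻¹ : Aˣ) : A) * (⟨a⁻¹, hinv⟩ : A) = 1 := by
        rw [← hu]
        exact Units.inv_mul u
      exact congrArg (fun x : A => (x : K)) this
    have h5 : (((u⁻¹ : Aˣ) : A) : K) = a := by
      field_simp at h4
      exact h4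
    rw [← h5]
    exact ((u⁻¹ : Aˣ) : A).2
  apply hy
  rw [h3, map_mul, coeffMap_single, hres, HahnSeries.single_eq_zero, zero_mul]

/-- A constant of the Gauss ring with nonzero reduction is a unit of `A`. -/
theorem h19_const_inv_mem_of_InO {a : K} (h : h19_InO A (algebraMap K (LaurentSeries K) a))
    (hne : h19_redFun (algebraMap K (LaurentSeries K) a) h ≠ 0) : a ∈ A ∧ a⁻¹ ∈ A := by
  have ha : a ∈ A := h19_const_mem_of_InO h
  refine ⟨ha, ?_⟩
  obtain ⟨h', hinv⟩ := h19_InO_inv h hne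
  rw [← map_inv₀] at h'
  exact h19_const_mem_of_InO h'

/-- `q ↦ q^n` fixes the constants. -/
theorem h19_qExpand_const (n : ℕ) [NeZero n] (a : K) :
    qExpand K n (algebraMap K (LaurentSeries K) a) = algebraMap K (LaurentSeries K) a := by
  rw [algebraMap_laurentSeries_eq_single, qExpand_single, mul_zero]

/-- **Descent along `q ↦ q^n`.** If `g(q^n)` is a unit of the Gauss ring and some constant
multiple of `g` is a unit of the Gauss ring, then `g` is in the Gauss ring, and its reduction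
`ḡ` satisfies `ḡ(q^n) = (g(q^n))‾`. -/
theorem h19_InO_of_qExpand (n : ℕ) [NeZero n] {g : LaurentSeries K}
    (hX : h19_InO A (qExpand K n g)) (hXne : h19_redFun (qExpand K n g) hX ≠ 0)
    (c : K) (hcg : h19_InO A (algebraMap K (LaurentSeries K) c * g))
    (hcgne : h19_redFun (algebraMap K (LaurentSeries K) c * g) hcg ≠ 0) :
    ∃ h : h19_InO A g, qExpand _ n (h19_redFun g h) = h19_redFun (qExpand K n g) hX := by
  -- `c g(q^n)` is a unit of the Gauss ring
  obtain ⟨hY, hYred⟩ := h19_InO_qExpand (A := A) n hcg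
  rw [map_mul, h19_qExpand_const] at hY
  have hYne : h19_redFun _ hY ≠ 0 := by
    have : h19_redFun _ hY =
        qExpand _ n (h19_redFun (algebraMap K (LaurentSeries K) c * g) hcg) := by
      rw [← hYred]
      congr 1
      rw [map_mul, h19_qExpand_const]
    rw [this]
    exact (map_ne_zero _).mpr hcgne
  -- so `c` is a unit of the Gauss ring, hence of `A`
  obtain ⟨hXinv, hXinvred⟩ := h19_InO_inv hX hXne
  have hX0 : qExpand K n g ≠ 0 := by
    intro h0
    apply hXne
    have : h19_redFun (qExpand K n g) hX = h19_redFun 0 (h0 ▸ hX) := by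
      congr 1
    rw [this]
    exact h19_redFun_zero _
  have hcconst : algebraMap K (LaurentSeries K) c =
      (algebraMap K (LaurentSeries K) c * qExpand K n g) * (qExpand K n g)⁻¹ := by
    rw [mul_assoc, mul_inv_cancel₀ hX0, mul_one]
  have hcIn : h19_InO A (algebraMap K (LaurentSeries K) c) := by
    rw [hcconst]
    exact h19_InO_mul hY hXinv
  have hcred : h19_redFun (algebraMap K (LaurentSeries K) c) hcIn ≠ 0 := by
    have hprod : h19_InO A ((algebraMap K (LaurentSeries K) c * qExpand K n g) *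
        (qExpand K n g)⁻¹) := h19_InO_mul hY hXinv
    have h1 := h19_redFun_mul _ _ hY hXinv hprod
    have h2 : h19_redFun (algebraMap K (LaurentSeries K) c) hcIn =
        h19_redFun ((algebraMap K (LaurentSeries K) c * qExpand K n g) *
          (qExpand K n g)⁻¹) hprod := by
      congr 1
    rw [h2, h1, hXinvred]
    exact mul_ne_zero hYne (inv_ne_zero hXne)
  obtain ⟨hcA, hcinvA⟩ := h19_const_inv_mem_of_InO hcIn hcred
  have hc0 : c ≠ 0 := by
    rintro rfl
    apply hcred
    have : h19_redFun (algebraMap K (LaurentSeries K) (0 : K)) hcIn =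
        h19_redFun 0 (by rw [← map_zero (algebraMap K (LaurentSeries K))]; exact hcIn) := by
      congr 1
      exact map_zero _
    rw [this]
    exact h19_redFun_zero _
  have hg : g = algebraMap K (LaurentSeries K) c⁻¹ * (algebraMap K (LaurentSeries K) c * g) := by
    rw [← mul_assoc, ← map_mul, inv_mul_cancel₀ hc0, map_one, one_mul]
  have hgIn : h19_InO A g := by
    rw [hg]
    exact h19_InO_mul (h19_InO_const hcinvA) hcg
  refine ⟨hgIn, ?_⟩
  obtain ⟨h', hred'⟩ := h19_InO_qExpand (A := A) n hgIn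
  exact hred'.symm

/-- An `ℓ`-th root of unity of `K` is a unit of `A`. -/
theorem h19_exists_unit_of_pow_eq_one (ℓ : ℕ) (hℓ : ℓ ≠ 0) (ζ : Kˣ) (hζ : ζ ^ ℓ = 1) :
    ∃ c : Aˣ, Units.map ((A.subtype : A →+* K) : A →* K) c = ζ := by
  obtain ⟨m, rfl⟩ : ∃ m, ℓ = m + 1 := Nat.exists_eq_succ_of_ne_zero hℓ
  have hinv : ((ζ⁻¹ : Kˣ) : K) = (ζ : K) ^ m := by
    have h1 : ζ⁻¹ = ζ ^ m := by
      rw [inv_eq_iff_eq_inv, eq_inv_iff_mul_eq_one, ← pow_succ', hζ]
    rw [h1, Units.val_pow_eq_pow_val]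
  have hself : (ζ : K) = ((ζ⁻¹ : Kˣ) : K) ^ m := by
    have h1 : ζ = ζ⁻¹ ^ m := by
      rw [inv_pow, eq_inv_iff_mul_eq_one, ← pow_succ', hζ]
    conv_lhs => rw [h1]
    rw [Units.val_pow_eq_pow_val]
  have hmem : (ζ : K) ∈ A ∧ ((ζ⁻¹ : Kˣ) : K) ∈ A := by
    rcases A.mem_or_inv_mem (ζ : K) with h | h
    · exact ⟨h, by rw [hinv]; exact pow_mem h m⟩
    · have h' : ((ζ⁻¹ : Kˣ) : K) ∈ A := by rwa [Units.val_inv_eq_inv_val]
      exact ⟨by rw [hself]; exact pow_mem h' m, h'⟩
  refine ⟨⟨⟨(ζ : K), hmem.1⟩, ⟨((ζ⁻¹ : Kˣ) : K), hmem.2⟩, ?_, ?_⟩, ?_⟩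
  · apply Subtype.ext
    show (ζ : K) * ((ζ⁻¹ : Kˣ) : K) = 1
    rw [← Units.val_mul, mul_inv_cancel, Units.val_one]
  · apply Subtype.ext
    show ((ζ⁻¹ : Kˣ) : K) * (ζ : K) = 1
    rw [← Units.val_mul, inv_mul_cancel, Units.val_one]
  · apply Units.ext
    rfl

/-- **Norm reduction, series form.** Let `ℓ` be the residue characteristic.  If
`N(q^ℓ) = f(q^ℓ) ∏_{b<ℓ} g(ζ^b q)` with `ζ^ℓ = 1`, `f` and `g` units of the Gauss ring, and some
constant multiple of `N` a unit of the Gauss ring, then `N` lies in the Gauss ring and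
`N̄ = f̄ · Frob(ḡ)`, `Frob` the coefficientwise Frobenius. -/
theorem h19_norm_red_series (ℓ : ℕ) [Fact ℓ.Prime] [NeZero ℓ]
    [CharP (IsLocalRing.ResidueField A) ℓ] (ζ : Kˣ) (hζ : ζ ^ ℓ = 1)
    {Nf f g : LaurentSeries K}
    (hid : qExpand K ℓ Nf = qExpand K ℓ f * ∏ b : Fin ℓ, h87_twist (ζ ^ (b : ℕ)) g)
    (hf : h19_InO A f) (hg : h19_InO A g)
    (hfne : h19_redFun f hf ≠ 0) (hgne : h19_redFun g hg ≠ 0)
    (c : K) (hcN : h19_InO A (algebraMap K (LaurentSeries K) c * Nf))
    (hcNne : h19_redFun (algebraMap K (LaurentSeries K) c * Nf) hcN ≠ 0) :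
    ∃ h : h19_InO A Nf, h19_redFun Nf h =
      h19_redFun f hf * coeffMap (frobenius (IsLocalRing.ResidueField A) ℓ) (h19_redFun g hg) := by
  obtain ⟨cA, hcA⟩ := h19_exists_unit_of_pow_eq_one (A := A) ℓ (NeZero.ne ℓ) ζ hζ
  -- the residue of `ζ` is `1`
  have hres1 : Units.map ((IsLocalRing.residue A : A →+* IsLocalRing.ResidueField A) :
      A →* IsLocalRing.ResidueField A) cA = 1 := by
    have hpow : cA ^ ℓ = 1 := by
      apply Units.map_injective (f := ((A.subtype : A →+* K) : A →* K))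
        (fun x y h => Subtype.ext h)
      rw [map_pow, hcA, hζ, map_one]
    apply Units.ext
    have h1 : ((Units.map ((IsLocalRing.residue A : A →+* IsLocalRing.ResidueField A) :
        A →* IsLocalRing.ResidueField A) cA : (IsLocalRing.ResidueField A)ˣ) :
        IsLocalRing.ResidueField A) ^ ℓ = 1 := by
      rw [← Units.val_pow_eq_pow_val, ← map_pow, hpow, map_one, Units.val_one]
    have h2 : frobenius (IsLocalRing.ResidueField A) ℓ
        ((Units.map ((IsLocalRing.residue A : A →+* IsLocalRing.ResidueField A) :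
        A →* IsLocalRing.ResidueField A) cA : (IsLocalRing.ResidueField A)ˣ) :
        IsLocalRing.ResidueField A) = frobenius (IsLocalRing.ResidueField A) ℓ 1 := by
      rw [frobenius_def, frobenius_def, h1, one_pow]
    rw [Units.val_one]
    exact frobenius_inj (IsLocalRing.ResidueField A) ℓ h2
  -- the twisted factors
  have htw : ∀ b ∈ (Finset.univ : Finset (Fin ℓ)),
      ∃ h : h19_InO A (h87_twist (ζ ^ (b : ℕ)) g),
        h19_redFun (h87_twist (ζ ^ (b : ℕ)) g) h = h19_redFun g hg := by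
    intro b _
    obtain ⟨h, hred⟩ := h19_InO_twist (A := A) (cA ^ (b : ℕ)) hg
    rw [map_pow, hcA] at h
    refine ⟨h, ?_⟩
    have : h19_redFun (h87_twist (ζ ^ (b : ℕ)) g) h =
        h87_twist (Units.map ((IsLocalRing.residue A : A →+* IsLocalRing.ResidueField A) :
          A →* IsLocalRing.ResidueField A) (cA ^ (b : ℕ))) (h19_redFun g hg) := by
      rw [← hred]
      congr 1
      rw [map_pow, hcA]
    rw [this, map_pow, hres1, one_pow, h87_twist_one]
  obtain ⟨hP, hPred⟩ := h19_InO_prod (A := A) Finset.univ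
    (fun b : Fin ℓ => h87_twist (ζ ^ (b : ℕ)) g) (fun _ => h19_redFun g hg) htw
  rw [Finset.prod_const, Finset.card_univ, Fintype.card_fin] at hPred
  obtain ⟨hQ, hQred⟩ := h19_InO_qExpand (A := A) ℓ hf
  have hX' : h19_InO A (qExpand K ℓ f * ∏ b : Fin ℓ, h87_twist (ζ ^ (b : ℕ)) g) :=
    h19_InO_mul hQ hP
  have hX'red := h19_redFun_mul _ _ hQ hP hX'
  rw [hQred, hPred, h87_pow_char, ← map_mul] at hX'red
  have hX : h19_InO A (qExpand K ℓ Nf) := by
    rw [hid]
    exact hX'
  have hXred : h19_redFun (qExpand K ℓ Nf) hX = qExpand _ ℓ (h19_redFun f hf *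
      coeffMap (frobenius (IsLocalRing.ResidueField A) ℓ) (h19_redFun g hg)) := by
    rw [← hX'red]
    congr 1
  have hXne : h19_redFun (qExpand K ℓ Nf) hX ≠ 0 := by
    rw [hXred]
    refine (map_ne_zero _).mpr (mul_ne_zero hfne ?_)
    exact (map_ne_zero _).mpr hgne
  obtain ⟨h, hred⟩ := h19_InO_of_qExpand ℓ hX hXne c hcN hcNne
  refine ⟨h, ?_⟩
  rw [hXred] at hred
  exact qExpand_injective ℓ hred

end Series

section Galois

variable {K₀ K : Type*} [Field K₀] [Field K] [Algebra K₀ K] {A : ValuationSubring K}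

/-- The Gauss ring is stable under the coefficientwise action of the decomposition group. -/
theorem h19_InO_decomp (σ : K ≃ₐ[K₀] K) (hσ : σ ∈ A.decompositionSubgroup K₀)
    {f : LaurentSeries K} (hf : h19_InO A f) :
    ∃ h : h19_InO A (coeffMap ((σ : K ≃+* K) : K →+* K) f),
      h19_redFun (coeffMap ((σ : K ≃+* K) : K →+* K) f) h =
        coeffMap (h24_resAut A ⟨σ, hσ⟩ :
          IsLocalRing.ResidueField A →+* IsLocalRing.ResidueField A) (h19_redFun f hf) :=
  h19_InO_transfer (coeffMap _) (coeffMap _) (fun y => h24_decomp_transfer A σ hσ y) hf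

/-- Inertia acts trivially on reductions. -/
theorem h19_InO_inertia (σ : K ≃ₐ[K₀] K) (hσ : σ ∈ A.inertiaSubgroupIn K₀)
    {f : LaurentSeries K} (hf : h19_InO A f) :
    ∃ h : h19_InO A (coeffMap ((σ : K ≃+* K) : K →+* K) f),
      h19_redFun (coeffMap ((σ : K ≃+* K) : K →+* K) f) h = h19_redFun f hf :=
  h19_InO_transfer (coeffMap _) (RingHom.id _) (fun y => h24_transfer_inertia A σ hσ y) hf

/-- A Frobenius element at `ℓ` acts on reductions by the coefficientwise Frobenius. -/
theorem h19_InO_frob (σ : K ≃ₐ[K₀] K) (ℓ : ℕ) [Fact ℓ.Prime]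
    [CharP (IsLocalRing.ResidueField A) ℓ] (hσ : A.IsFrobeniusAt σ ℓ)
    {f : LaurentSeries K} (hf : h19_InO A f) :
    ∃ h : h19_InO A (coeffMap ((σ : K ≃+* K) : K →+* K) f),
      h19_redFun (coeffMap ((σ : K ≃+* K) : K →+* K) f) h =
        coeffMap (frobenius (IsLocalRing.ResidueField A) ℓ) (h19_redFun f hf) :=
  h19_InO_transfer (coeffMap _) (coeffMap _) (fun y => h24_transfer_frob A σ ℓ hσ y) hf

end Galois


end Fermat.Agent.S35
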