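import Mathlib
import Fermat.Agent.S34.h87_Toric

/-!
# S35 (E1), Pic⁰ form: a semilinear automorphism acting as `Q` on the toric classes

Generic (no modular input); the Frobenius twin of `h87_toric_fixed_of_principal` (S34).

* `h5_toric_frob_of_principal` : if for every toric datum `(E, u)` (`div u = m E`, `u` reduces
  to `1` at every `O i`) the divisor `sg • E - Q • E` is principal, then `sg • y = Q • y` for
  every toric class `y`.
* `h5_frob_of_toric` : the algebra of (FROB2): if `sg = Q` on the toric classes and
  `sg • x - x` is toric, then `sg • sg • x + Q • x = (Q + 1) • sg • x`.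
-/

set_option autoImplicit false

noncomputable section

open AlgebraicCurve

namespace Fermat.Agent.S35

open Fermat.Agent.S34

variable {K F : Type*} [Field K] [Field F] [Algebra K F]
variable {ι : Type*} {κ : ι → Type*} [∀ i, Field (κ i)]

/-- **(E1), Pic⁰ form.**  If for every toric datum `(E, u)` the divisor `sg • E - Q • E` is
principal, then `sg` acts as multiplication by `Q` on the toric classes. -/
theorem h5_toric_frob_of_principal
    (O : ι → ValuationSubring F) (red : ∀ i, O i →+* κ i) (m : ℕ) (sg : SemilinearAut K F)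
    (Q : ℕ)
    (hG : ∀ (E : Divisor K F) (u : F), Divisor.degree E = 0 → u ≠ 0 →
      (∀ v : Place K F, (m : ℤ) * E v = v.ord u) →
      (∀ i, ∃ h : u ∈ O i, red i ⟨u, h⟩ = 1) →
      sg • E - Q • E ∈ Divisor.principal (K := K) (F := F))
    (y : Pic0 K F) (hy : h87_IsToric O red m y) : sg • y = Q • y := by
  obtain ⟨E, u, hu, rfl, hdiv, hred⟩ := hy
  rw [SemilinearAut.pic0_smul_mk]
  have hQ : Q • Pic0.mk E = Pic0.mk (Q • E) :=
    (map_nsmul (QuotientAddGroup.mk' ((Divisor.principal (K := K) (F := F)).addSubgroupOf
      (Divisor.degZero (K := K) (F := F)))) Q E).symm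
  rw [hQ]
  refine (QuotientAddGroup.eq).mpr ?_
  have h := hG (E : Divisor K F) u E.2 hu hdiv hred
  have h' := (Divisor.principal (K := K) (F := F)).neg_mem h
  show (-(SemilinearAut.degZeroSMulHom sg E) + Q • E : Divisor.degZero (K := K) (F := F)) ∈
    (Divisor.principal (K := K) (F := F)).addSubgroupOf (Divisor.degZero (K := K) (F := F))
  rw [AddSubgroup.mem_addSubgroupOf]
  have hcoe : ((-(SemilinearAut.degZeroSMulHom sg E) + Q • E :
      Divisor.degZero (K := K) (F := F)) : Divisor K F)
        = -(sg • (E : Divisor K F) - Q • (E : Divisor K F)) := by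
    simp only [AddSubgroup.coe_add, NegMemClass.coe_neg, SemilinearAut.coe_degZeroSMulHom,
      AddSubgroup.coe_nsmul]
    abel
  rw [hcoe]
  exact h'

/-- The algebra of (FROB2) on an additive group with an additive self-map `S`: if `S y = Q • y`
for `y = S x - x`, then `S (S x) + Q • x = (Q + 1) • S x`. -/
theorem h5_frob_of_toric {G : Type*} [AddCommGroup G] (S : G →+ G) (Q : ℕ) (x : G)
    (h : S (S x - x) = Q • (S x - x)) : S (S x) + Q • x = (Q + 1) • S x := by
  rw [map_sub, nsmul_sub] at h
  have e2 : S (S x) = Q • S x - Q • x + S x := sub_eq_iff_eq_add.1 h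
  rw [e2, add_smul, one_smul]
  abel

end Fermat.Agent.S35

end
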