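import Mathlib
import Fermat.Agent.S34.h51_Glue

/-!
# S35 / FROB-GLUE (helper5): Frobenius-equivariance of the gluing constants

Generic layer (no modular input), the Frobenius twin of `h51_toric_smul_sub` /
`h51_trivial_gluing` of `S34/h51_Glue`.

Setting: the chart data of `h51_Glue` (lattice datum `D`, polar divisor `D0`, spaces `P n`, node
values `e1 ν`, `e2 ν`), and a semilinear automorphism `sg` of `F` which preserves `O` and `D0`
and acts on the reductions through a map `Φ : Rb → Rb` that preserves the `P n` and raises the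
node values to the `Q`-th power (in the application: `sg = s * s` for a Frobenius lift `s` at a
prime `q`, `Q = q ^ 2`, `Φ` the square of the coefficient Frobenius; the nodes are fixed by
`Φ`).

Main results, for a toric witness `(E, u)` (`deg E = 0`, `m E = div u`, `u ∈ O`, `red u = 1`):

* `h5_toric_frob` : `(sg • E - Q • E, (sg • u) * (u ^ Q)⁻¹)` is again a toric witness;
* `h5_frob_trivial_gluing` : it has trivial gluing,
  `red (L(n D0 + j (sg • E - Q • E)) ∩ O) = red (L(n D0) ∩ O)` for `n ≥ 2 n0`, `j : ℤ`;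
* `h5_exists_lift_frob` : every reduction of an element of `L(n D0) ∩ O` is the reduction of an
  element of `L(n D0 + j (sg • E - Q • E)) ∩ O`.

So "`s² = q²` on toric classes" follows from the same last step as "inertia is trivial on toric
classes".
-/

set_option autoImplicit false

noncomputable section

open AlgebraicCurve Module

namespace Fermat.Agent.S35

open Fermat.Agent.S34

variable {K F k Rb : Type*} [Field K] [Field F] [Algebra K F] [Field k] [CommRing Rb]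
  [Algebra k Rb]

/-- `1 ∈ L(0)`. -/
theorem h5_one_mem_rr : (1 : F) ∈ riemannRochSpace (0 : Divisor K F) := by
  rw [mem_riemannRochSpace_iff]
  intro v
  right
  have h := v.ord_zpow (1 : F) 0
  rw [zpow_zero, zero_mul] at h
  rw [h]
  simp

/-- `f ∈ L(D1)` gives `f ^ Q ∈ L(Q D1)`. -/
theorem h5_pow_mem_rr {D1 : Divisor K F} {f : F} (hf : f ∈ riemannRochSpace D1) (Q : ℕ) :
    f ^ Q ∈ riemannRochSpace (Q • D1) := by
  induction Q with
  | zero =>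
    rw [pow_zero, zero_smul]
    exact h5_one_mem_rr
  | succ Q ih =>
    rw [pow_succ, succ_nsmul]
    exact h51_mul_mem_rr ih hf

theorem h5_smul_ne_zero (sg : SemilinearAut K F) {u : F} (hu : u ≠ 0) : sg • u ≠ 0 := by
  intro h0
  apply hu
  have h1 : sg⁻¹ • (sg • u) = sg⁻¹ • (0 : F) := by rw [h0]
  rwa [inv_smul_smul, smul_zero] at h1

/-- If `sg` preserves `O` and acts on the reductions through `Φ`, then
`(sg • E - Q • E, (sg • u) * (u ^ Q)⁻¹)` is a toric witness whenever `(E, u)` is. -/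
theorem h5_toric_frob (D : h22_Lat K F k Rb)
    (hinv : ∀ (f : F) (hf : f ∈ D.O), IsUnit (D.red ⟨f, hf⟩) → f⁻¹ ∈ D.O)
    (sg : SemilinearAut K F) (Q : ℕ) (Φ : Rb → Rb)
    (hsO : ∀ f, f ∈ D.O → sg • f ∈ D.O)
    (hsred : ∀ f, f ∈ D.O → D.redF (sg • f) = Φ (D.redF f)) (hΦone : Φ 1 = 1)
    {m : ℕ} (E : Divisor K F) (hE : Divisor.degree E = 0) (u : F) (hu : u ≠ 0)
    (hdiv : ∀ v : Place K F, (m : ℤ) * E v = v.ord u) (huO : u ∈ D.O)
    (hured : D.red ⟨u, huO⟩ = 1) :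
    Divisor.degree (sg • E - Q • E) = 0 ∧ (sg • u) * (u ^ Q)⁻¹ ≠ 0 ∧
      (∀ v : Place K F, (m : ℤ) * (sg • E - Q • E) v = v.ord ((sg • u) * (u ^ Q)⁻¹)) ∧
      ∃ h : (sg • u) * (u ^ Q)⁻¹ ∈ D.O, D.red ⟨(sg • u) * (u ^ Q)⁻¹, h⟩ = 1 := by
  have hgu : sg • u ≠ 0 := h5_smul_ne_zero sg hu
  have hredu : D.redF u = 1 := by rw [D.redF_of_mem huO, hured]
  have hw := h51_zpow_mem D hinv hu huO hured (-(Q : ℤ))
  have hpowinv : u ^ (-(Q : ℤ)) = (u ^ Q)⁻¹ := by rw [zpow_neg, zpow_natCast]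
  rw [hpowinv] at hw
  refine ⟨?_, mul_ne_zero hgu (inv_ne_zero (pow_ne_zero Q hu)), fun v => ?_, ?_⟩
  · rw [map_sub, SemilinearAut.degree_smul, map_nsmul, hE, smul_zero, sub_zero]
  · rw [v.ord_mul hgu (inv_ne_zero (pow_ne_zero Q hu)), v.ord_inv, Finsupp.sub_apply,
      SemilinearAut.divisor_smul_apply, Finsupp.smul_apply, mul_sub, hdiv]
    have h2 := SemilinearAut.ord_smul sg (sg⁻¹ • v) u
    rw [smul_inv_smul] at h2
    rw [h2]
    have hpow : v.ord (u ^ Q) = (Q : ℤ) * v.ord u := by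
      rw [← zpow_natCast, v.ord_zpow]
    rw [hpow, nsmul_eq_mul, ← hdiv v]
    ring
  · have hmem : (sg • u) * (u ^ Q)⁻¹ ∈ D.O := D.O.mul_mem (hsO u huO) hw.1
    refine ⟨hmem, ?_⟩
    rw [← D.redF_of_mem hmem, h51_redF_mul D (hsO u huO) hw.1, hsred u huO, hredu, hw.2,
      mul_one, hΦone]

/-- **Frobenius-equivariance of the gluing constants, in the form "trivial gluing"**: for a toric
witness `(E, u)` and `sg` preserving `O` and `D0` and acting on reductions through `Φ`, where `Φ`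
preserves the `P n` and raises all node values to the `Q`-th power, the witness
`sg • E - Q • E` has trivial gluing constants:
`red (L(n D0 + j (sg • E - Q • E)) ∩ O) = red (L(n D0) ∩ O)` for `n ≥ 2 n0`. -/
theorem h5_frob_trivial_gluing (D : h22_Lat K F k Rb) (hON : h22_ON D)
    (hinv : ∀ (f : F) (hf : f ∈ D.O), IsUnit (D.red ⟨f, hf⟩) → f⁻¹ ∈ D.O)
    (D0 : Divisor K F) (P : ℕ → Submodule k Rb) [∀ n, FiniteDimensional k (P n)]
    (Bs : Subalgebra k Rb) (hPB : ∀ n, ∀ a ∈ P n, a ∈ Bs)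
    {Z : Type*} [Fintype Z] (e1 e2 : Z → (Bs →ₐ[k] k))
    (n0 : ℕ) {m : ℕ} (hm : m ≠ 0)
    (hnode : ∀ n, n0 ≤ n → ∀ a : Rb, a ∈ h51_Rd D (n • D0) ↔
        ∃ h : a ∈ P n, ∀ ν, e2 ν ⟨a, hPB n a h⟩ = e1 ν ⟨a, hPB n a h⟩)
    (hind : ∀ n, n0 ≤ n → ∀ s t : Z → k, ∃ a, ∃ h : a ∈ P n,
        (∀ ν, e1 ν ⟨a, hPB n a h⟩ = s ν) ∧ (∀ ν, e2 ν ⟨a, hPB n a h⟩ = t ν))
    (hroot : ∀ n, ∀ a : Rb, a ^ m ∈ P (m * n) → a ∈ P n)
    (hRR : ∀ n, n0 ≤ n → ∀ E : Divisor K F, Divisor.degree E = 0 →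
        Module.Finite K (riemannRochSpace (n • D0 + E)) ∧
        Module.finrank K (riemannRochSpace (n • D0 + E)) =
          Module.finrank K (riemannRochSpace (n • D0)))
    (sg : SemilinearAut K F) (Q : ℕ) (Φ : Rb → Rb)
    (hsO : ∀ f, f ∈ D.O → sg • f ∈ D.O)
    (hsred : ∀ f, f ∈ D.O → D.redF (sg • f) = Φ (D.redF f)) (hsD0 : sg • D0 = D0)
    (hΦP : ∀ n, ∀ a ∈ P n, Φ a ∈ P n)
    (hΦ1 : ∀ n ν a (h : a ∈ P n),
        e1 ν ⟨Φ a, hPB n _ (hΦP n a h)⟩ = e1 ν ⟨a, hPB n a h⟩ ^ Q)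
    (hΦ2 : ∀ n ν a (h : a ∈ P n),
        e2 ν ⟨Φ a, hPB n _ (hΦP n a h)⟩ = e2 ν ⟨a, hPB n a h⟩ ^ Q)
    (E : Divisor K F) (hE : Divisor.degree E = 0) (u : F) (hu : u ≠ 0)
    (hdiv : ∀ v : Place K F, (m : ℤ) * E v = v.ord u) (huO : u ∈ D.O)
    (hured : D.red ⟨u, huO⟩ = 1) (j : ℤ) (n : ℕ) (hn : 2 * n0 ≤ n) :
    h51_Rd D (n • D0 + j • (sg • E - Q • E)) = h51_Rd D (n • D0) := by
  classical
  have hn1 : n0 ≤ n - n0 := by omega
  have hn2 : n0 ≤ n := by omega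
  have hsum : n0 + (n - n0) = n := by omega
  have hΦone : Φ 1 = 1 := by
    have h := hsred 1 D.O.one_mem
    rw [smul_one, h51_redF_one] at h
    exact h.symm
  -- gluing constants of `y` in degrees `j` and `-(j Q)`
  obtain ⟨cp, -, hp⟩ := h51_gluing D hON hinv D0 P Bs hPB e1 e2 n0 hm hnode hind hroot hRR
    E hE u hu hdiv huO hured j n0 le_rfl
  obtain ⟨cm, -, hmi⟩ := h51_gluing D hON hinv D0 P Bs hPB e1 e2 n0 hm hnode hind hroot hRR
    E hE u hu hdiv huO hured (-(j * Q)) (n - n0) hn1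
  obtain ⟨a, haP, ha1, ha2⟩ := hind n0 le_rfl (fun _ => 1) cp
  have haR : a ∈ h51_Rd D (n0 • D0 + j • E) :=
    (hp a).mpr ⟨haP, fun ν => by rw [ha1 ν, ha2 ν, mul_one]⟩
  obtain ⟨b, hbP, hb1, hb2⟩ := hind (n - n0) hn1 (fun _ => 1) cm
  have hbR : b ∈ h51_Rd D ((n - n0) • D0 + (-(j * Q)) • E) :=
    (hmi b).mpr ⟨hbP, fun ν => by rw [hb1 ν, hb2 ν, mul_one]⟩
  obtain ⟨f, hf, hfO, rfl⟩ := haR
  obtain ⟨g, hg, hgO', rfl⟩ := hbR
  -- (1) the product `f ^ Q * g` lies in `L((Q n0 + (n - n0)) D0) ∩ O`: relation `cp ^ Q * cm = 1`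
  have hfQ : f ^ Q ∈ riemannRochSpace (Q • (n0 • D0 + j • E)) := h5_pow_mem_rr hf Q
  have hdiv1 : Q • (n0 • D0 + j • E) + ((n - n0) • D0 + (-(j * Q)) • E) =
      (Q * n0 + (n - n0)) • D0 := by
    rw [smul_add, add_nsmul, mul_nsmul', neg_smul, mul_comm j (Q : ℤ), mul_smul,
      natCast_zsmul]
    abel
  have hfQg : f ^ Q * g ∈ riemannRochSpace ((Q * n0 + (n - n0)) • D0) := by
    rw [← hdiv1]
    exact h51_mul_mem_rr hfQ hg
  have hN : n0 ≤ Q * n0 + (n - n0) := le_trans hn1 (Nat.le_add_left _ _)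
  have habQ : D.redF f ^ Q * D.redF g ∈ h51_Rd D ((Q * n0 + (n - n0)) • D0) :=
    ⟨f ^ Q * g, hfQg, D.O.mul_mem (D.O.pow_mem hfO Q) hgO', by
      rw [h51_redF_mul D (D.O.pow_mem hfO Q) hgO', h51_redF_pow D hfO]⟩
  obtain ⟨habQP, habQv⟩ := (hnode _ hN _).mp habQ
  have hrel : ∀ ν, cp ν ^ Q * cm ν = 1 := by
    intro ν
    have h1 := habQv ν
    have hprod : (⟨D.redF f ^ Q * D.redF g, hPB _ _ habQP⟩ : Bs) =
        ⟨D.redF f, hPB n0 _ haP⟩ ^ Q * ⟨D.redF g, hPB (n - n0) _ hbP⟩ := Subtype.ext rfl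
    rw [hprod, map_mul, map_mul, map_pow, map_pow, ha1 ν, ha2 ν, hb1 ν, hb2 ν, one_pow,
      mul_one] at h1
    exact h1
  -- (2) the product `(sg • f) * g` lies in `L(n D0 + j (sg • E - Q • E)) ∩ O`
  have hf' : sg • f ∈ riemannRochSpace (n0 • D0 + j • (sg • E)) := by
    have h := h51_smul_mem_rr sg hf
    rwa [smul_add, smul_comm sg n0 D0, hsD0, smul_comm sg j E] at h
  have hdiv2 : (n0 • D0 + j • (sg • E)) + ((n - n0) • D0 + (-(j * Q)) • E) =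
      n • D0 + j • (sg • E - Q • E) := by
    rw [← hsum, add_nsmul, neg_smul, smul_sub, mul_smul, natCast_zsmul]
    have : n0 + (n - n0) - n0 = n - n0 := by omega
    rw [this]
    abel
  have hfg' : (sg • f) * g ∈ riemannRochSpace (n • D0 + j • (sg • E - Q • E)) := by
    rw [← hdiv2]
    exact h51_mul_mem_rr hf' hg
  have hab' : Φ (D.redF f) * D.redF g ∈ h51_Rd D (n • D0 + j • (sg • E - Q • E)) :=
    ⟨(sg • f) * g, hfg', D.O.mul_mem (hsO f hfO) hgO', by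
      rw [h51_redF_mul D (hsO f hfO) hgO', hsred f hfO]⟩
  -- gluing constants of `z`
  obtain ⟨hEz, huz0, hdivz, huzO, huzred⟩ :=
    h5_toric_frob D hinv sg Q Φ hsO hsred hΦone E hE u hu hdiv huO hured
  obtain ⟨cz, -, hz⟩ := h51_gluing D hON hinv D0 P Bs hPB e1 e2 n0 hm hnode hind hroot hRR
    (sg • E - Q • E) hEz ((sg • u) * (u ^ Q)⁻¹) huz0 hdivz huzO huzred j n hn2
  obtain ⟨habP', habz⟩ := (hz _).mp hab'
  have hcz1 : ∀ ν, cz ν = 1 := by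
    intro ν
    have h2 := habz ν
    have hprod : (⟨Φ (D.redF f) * D.redF g, hPB n _ habP'⟩ : Bs) =
        ⟨Φ (D.redF f), hPB n0 _ (hΦP n0 _ haP)⟩ * ⟨D.redF g, hPB (n - n0) _ hbP⟩ :=
      Subtype.ext rfl
    rw [hprod, map_mul, map_mul, hΦ1 n0 ν _ haP, hΦ2 n0 ν _ haP, ha1 ν, ha2 ν, hb1 ν, hb2 ν,
      one_pow, mul_one, mul_one, hrel ν] at h2
    exact h2.symm
  ext x
  rw [hz x, hnode n hn2 x]
  constructor
  · rintro ⟨h, hh⟩
    exact ⟨h, fun ν => by rw [hh ν, hcz1 ν, one_mul]⟩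
  · rintro ⟨h, hh⟩
    exact ⟨h, fun ν => by rw [hh ν, hcz1 ν, one_mul]⟩

/-- Consequence: every reduction of an element of `L(n D0) ∩ O` is the reduction of an element of
`L(n D0 + j (sg • E - Q • E)) ∩ O`. -/
theorem h5_exists_lift_frob (D : h22_Lat K F k Rb) (hON : h22_ON D)
    (hinv : ∀ (f : F) (hf : f ∈ D.O), IsUnit (D.red ⟨f, hf⟩) → f⁻¹ ∈ D.O)
    (D0 : Divisor K F) (P : ℕ → Submodule k Rb) [∀ n, FiniteDimensional k (P n)]
    (Bs : Subalgebra k Rb) (hPB : ∀ n, ∀ a ∈ P n, a ∈ Bs)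
    {Z : Type*} [Fintype Z] (e1 e2 : Z → (Bs →ₐ[k] k))
    (n0 : ℕ) {m : ℕ} (hm : m ≠ 0)
    (hnode : ∀ n, n0 ≤ n → ∀ a : Rb, a ∈ h51_Rd D (n • D0) ↔
        ∃ h : a ∈ P n, ∀ ν, e2 ν ⟨a, hPB n a h⟩ = e1 ν ⟨a, hPB n a h⟩)
    (hind : ∀ n, n0 ≤ n → ∀ s t : Z → k, ∃ a, ∃ h : a ∈ P n,
        (∀ ν, e1 ν ⟨a, hPB n a h⟩ = s ν) ∧ (∀ ν, e2 ν ⟨a, hPB n a h⟩ = t ν))
    (hroot : ∀ n, ∀ a : Rb, a ^ m ∈ P (m * n) → a ∈ P n)
    (hRR : ∀ n, n0 ≤ n → ∀ E : Divisor K F, Divisor.degree E = 0 →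
        Module.Finite K (riemannRochSpace (n • D0 + E)) ∧
        Module.finrank K (riemannRochSpace (n • D0 + E)) =
          Module.finrank K (riemannRochSpace (n • D0)))
    (sg : SemilinearAut K F) (Q : ℕ) (Φ : Rb → Rb)
    (hsO : ∀ f, f ∈ D.O → sg • f ∈ D.O)
    (hsred : ∀ f, f ∈ D.O → D.redF (sg • f) = Φ (D.redF f)) (hsD0 : sg • D0 = D0)
    (hΦP : ∀ n, ∀ a ∈ P n, Φ a ∈ P n)
    (hΦ1 : ∀ n ν a (h : a ∈ P n),
        e1 ν ⟨Φ a, hPB n _ (hΦP n a h)⟩ = e1 ν ⟨a, hPB n a h⟩ ^ Q)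
    (hΦ2 : ∀ n ν a (h : a ∈ P n),
        e2 ν ⟨Φ a, hPB n _ (hΦP n a h)⟩ = e2 ν ⟨a, hPB n a h⟩ ^ Q)
    (E : Divisor K F) (hE : Divisor.degree E = 0) (u : F) (hu : u ≠ 0)
    (hdiv : ∀ v : Place K F, (m : ℤ) * E v = v.ord u) (huO : u ∈ D.O)
    (hured : D.red ⟨u, huO⟩ = 1) (j : ℤ) (n : ℕ) (hn : 2 * n0 ≤ n)
    (s0 : F) (hs0 : s0 ∈ riemannRochSpace (n • D0)) (hs0O : s0 ∈ D.O) :
    ∃ g0 : F, g0 ∈ riemannRochSpace (n • D0 + j • (sg • E - Q • E)) ∧ g0 ∈ D.O ∧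
      D.redF g0 = D.redF s0 := by
  have h := h5_frob_trivial_gluing D hON hinv D0 P Bs hPB e1 e2 n0 hm hnode hind hroot hRR
    sg Q Φ hsO hsred hsD0 hΦP hΦ1 hΦ2 E hE u hu hdiv huO hured j n hn
  have hmem : D.redF s0 ∈ h51_Rd D (n • D0) := ⟨s0, hs0, hs0O, rfl⟩
  rw [← h] at hmem
  exact hmem

end Fermat.Agent.S35

end
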