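/-
S35 (helper67): the FROBENIUS TWIN of helper51's `h51_G_of_chart` / `h51_G_of_sf` (generic, no
modular input).

For a lattice datum `D` with the chart data of `h51_G_of_chart` and a semilinear automorphism `sg`
which preserves `O` and `D0` and acts on the reductions through a map `Φ` preserving the spaces
`P n` and raising the node values to their `Q`-th powers, the divisor `sg • E₀ - Q • E₀` is
principal for every toric witness `(E₀, u₀)`.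

* `h67_frobG_of_chart` : the abstract chart form (`e1 / e2` shape);
* `h67_frobG_of_sf`    : the two-component special fibre form (natural node shape, values at the
  node places `Q1 ν`, `Q2 ν`).
-/
import Mathlib
import Fermat.Agent.S34.h51_MidSF
import Fermat.Agent.S34.h42_LastFinal
import Fermat.Agent.S35.h5_FrobGlue

set_option autoImplicit false

noncomputable section

open AlgebraicCurve Module

namespace Fermat.Agent.S35

open Fermat.Agent.S34 Fermat.Agent.S18 Fermat.Agent.S24 Fermat.Agent.S27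

section Chart

variable {K F k Rb : Type*} [Field K] [Field F] [Algebra K F] [Field k] [CommRing Rb]
  [Algebra k Rb]

/-- **The Frobenius relation on toric witnesses, from the chart data.** -/
theorem h67_frobG_of_chart [IsAlgClosed K] [Nontrivial Rb] {xF : F} (hxF : h75_IsChart K xF)
    (D : h22_Lat K F k Rb) (hON : h22_ON D)
    (hinv : ∀ (f : F) (hf : f ∈ D.O), IsUnit (D.red ⟨f, hf⟩) → f⁻¹ ∈ D.O)
    (hRk : h39_RankOne D.A) (m : ℕ) (hm : (m : k) ≠ 0)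
    (D0 D2 : Divisor K F) (hD0 : ∀ v, 0 ≤ D0 v) (hdegD0 : 1 ≤ Divisor.degree D0)
    (hD2 : ∀ v, 0 ≤ D2 v) (hdisj : ∀ v, D0 v = 0 ∨ D2 v = 0)
    (N : ℕ) (hN : 1 ≤ N)
    (x : F) (hx0 : x ≠ 0) (hxO : x ∈ D.O) (hxinvO : x⁻¹ ∈ D.O)
    (hxdiv : ∀ v : Place K F, v.ord x = D2 v - (N : ℤ) * D0 v)
    (P : ℕ → Submodule k Rb) [∀ n, FiniteDimensional k (P n)]
    (Bs : Subalgebra k Rb) (hPB : ∀ n, ∀ a ∈ P n, a ∈ Bs)
    {Z : Type*} [Fintype Z] (e1 e2 : Z → (Bs →ₐ[k] k)) (n0 : ℕ)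
    (hn0 : 2 * h75_genus K xF ≤ n0)
    (hnode : ∀ n, n0 ≤ n → ∀ a : Rb, a ∈ h51_Rd D (n • D0) ↔
        ∃ h : a ∈ P n, ∀ ν, e2 ν ⟨a, hPB n a h⟩ = e1 ν ⟨a, hPB n a h⟩)
    (hind : ∀ n, n0 ≤ n → ∀ s t : Z → k, ∃ a, ∃ h : a ∈ P n,
        (∀ ν, e1 ν ⟨a, hPB n a h⟩ = s ν) ∧ (∀ ν, e2 ν ⟨a, hPB n a h⟩ = t ν))
    (hroot : ∀ n, ∀ a : Rb, a ^ m ∈ P (m * n) → a ∈ P n)
    (hPx : ∀ (n : ℕ) (a : Rb), a ∈ P (n + N) → D.redF x * a ∈ P (n + N) → a ∈ P n)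
    (sg : SemilinearAut K F) (Q : ℕ) (Φ : Rb → Rb)
    (hsO : ∀ f, f ∈ D.O → sg • f ∈ D.O)
    (hsred : ∀ f, f ∈ D.O → D.redF (sg • f) = Φ (D.redF f)) (hsD0 : sg • D0 = D0)
    (hΦP : ∀ n, ∀ a ∈ P n, Φ a ∈ P n)
    (hΦ1 : ∀ n ν a (h : a ∈ P n),
        e1 ν ⟨Φ a, hPB n _ (hΦP n a h)⟩ = e1 ν ⟨a, hPB n a h⟩ ^ Q)
    (hΦ2 : ∀ n ν a (h : a ∈ P n),
        e2 ν ⟨Φ a, hPB n _ (hΦP n a h)⟩ = e2 ν ⟨a, hPB n a h⟩ ^ Q)
    (E₀ : Divisor K F) (hE₀ : Divisor.degree E₀ = 0) (u₀ : F) (hu₀ : u₀ ≠ 0)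
    (hdiv : ∀ v : Place K F, (m : ℤ) * E₀ v = v.ord u₀) (hu₀O : u₀ ∈ D.O)
    (hu₀red : D.red ⟨u₀, hu₀O⟩ = 1) :
    sg • E₀ - Q • E₀ ∈ Divisor.principal (K := K) (F := F) := by
  have : HasPrincipalDivisors K F := h75_hasPrincipalDivisors hxF
  have hfin : ∀ B : Divisor K F, Module.Finite K (riemannRochSpace B) :=
    fun B => (h75_riemann hxF B).1
  have hm0 : m ≠ 0 := by
    rintro rfl
    exact hm Nat.cast_zero
  have hN0 : 0 < N := hN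
  have hΦone : Φ 1 = 1 := by
    have h := hsred 1 D.O.one_mem
    rw [smul_one, h51_redF_one] at h
    exact h.symm
  -- the polar divisor
  have hD1 : ∀ v, 0 ≤ (N • D0) v := by
    intro v
    rw [Finsupp.smul_apply, nsmul_eq_mul]
    exact mul_nonneg (Nat.cast_nonneg N) (hD0 v)
  have hdisj' : ∀ v, (N • D0) v = 0 ∨ D2 v = 0 := by
    intro v
    rcases hdisj v with h | h
    · left
      rw [Finsupp.smul_apply, h, smul_zero]
    · exact Or.inr h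
  have hxdiv' : ∀ v : Place K F, v.ord x = D2 v - (N • D0) v := by
    intro v
    rw [hxdiv v, Finsupp.smul_apply, nsmul_eq_mul]
  have hxL : x ∈ riemannRochSpace (N • D0) := by
    rw [mem_riemannRochSpace_iff]
    intro v
    right
    rw [hxdiv' v]
    have := hD2 v
    linarith
  -- the dimension formula
  have hdegN : 1 ≤ Divisor.degree (N • D0) := by
    rw [map_nsmul, nsmul_eq_mul]
    have h1 : (1 : ℤ) ≤ (N : ℤ) := by exact_mod_cast hN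
    nlinarith
  have hdim : ∀ n, 2 * h75_genus K xF ≤ n →
      (Module.finrank K (riemannRochSpace (n • (N • D0))) : ℤ) =
        Divisor.degree (N • D0) * n + (1 - (h75_genus K xF : ℤ)) := by
    intro n hn
    have h := h20_finrank_nsmul_add hxF (N • D0) hdegN n hn 0 (map_zero _)
    rw [add_zero] at h
    rw [h]
    ring
  -- strictness
  have hstr : ∀ n, max (max (2 * h75_genus K xF) n0 + 1) (2 * n0) ≤ n →
      ∀ a ∈ h51_Rd D ((n + 1) • (N • D0)), ∃ b ∈ h51_Rd D (n • (N • D0)),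
        ∃ c ∈ h51_Rd D (n • (N • D0)), a = b + D.redF x * c := by
    intro n hn
    have hn' : max (2 * h75_genus K xF) n0 + 1 ≤ n := le_trans (le_max_left _ _) hn
    exact h51_strict_of_chart D hON D0 hD0 P Bs hPB e1 e2 n0 hnode N hN0 x hxO hxL hPx
      (fun n => hfin _) (Divisor.degree (N • D0)) (1 - (h75_genus K xF : ℤ))
      (2 * h75_genus K xF) hdim n
      (le_trans (Nat.succ_le_succ (le_max_left _ _)) hn')
      (le_trans (Nat.succ_le_succ (le_max_right _ _)) hn')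
  -- the last step
  have hlast : h51_LastStep D (N • D0) (max (max (2 * h75_genus K xF) n0 + 1) (2 * n0)) m :=
    h42_last_of_L D hON hinv hRk hfin x hx0 hxO hxinvO (N • D0) D2 hD1 hD2 hdisj' hxdiv' _
      hstr m hm
  obtain ⟨hdeg, hne, hdiv', huz⟩ :=
    h5_toric_frob D hinv sg Q Φ hsO hsred hΦone E₀ hE₀ u₀ hu₀ hdiv hu₀O hu₀red
  obtain ⟨e, he, hmem⟩ := hlast (sg • E₀ - Q • E₀) ((sg • u₀) * (u₀ ^ Q)⁻¹) hdeg hne hdiv' huz
    (fun j n hn => by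
      have e1' : n • (N • D0) = (n * N) • D0 := by rw [mul_nsmul']
      rw [e1']
      exact h5_frob_trivial_gluing D hON hinv D0 P Bs hPB e1 e2 n0 hm0 hnode hind hroot
        (h20_chart_rr hxF D0 hdegD0 n0 hn0) sg Q Φ hsO hsred hsD0 hΦP hΦ1 hΦ2
        E₀ hE₀ u₀ hu₀ hdiv hu₀O hu₀red j (n * N)
        (le_trans (le_max_right _ _) (le_trans hn (Nat.le_mul_of_pos_right n hN0))))
  exact h51_principal_of_section (h75_deg_eq_one hxF) _ hdeg e he hmem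

end Chart

section SF

variable {K F k Fb : Type*} [Field K] [Field F] [Algebra K F] [Field k] [Field Fb] [Algebra k Fb]

/-- **The Frobenius relation on toric witnesses for a two-component special fibre with nodes.**
`sg` acts on the two reductions through `φ1`, `φ2`, which preserve the pole order at `Qinf`
and raise the values at the node places to their `Q`-th powers. -/
theorem h67_frobG_of_sf [IsAlgClosed K] [IsAlgClosed k] {xF : F} (hxF : h75_IsChart K xF)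
    {xb : Fb} (hxb : h75_IsChart k xb)
    (D : h22_Lat K F k (Fb × Fb)) (hON : h22_ON D)
    (hinv : ∀ (f : F) (hf : f ∈ D.O), IsUnit (D.red ⟨f, hf⟩) → f⁻¹ ∈ D.O)
    (hRk : h39_RankOne D.A) (m : ℕ) (hm : (m : k) ≠ 0)
    (D0 D2 : Divisor K F) (hD0 : ∀ v, 0 ≤ D0 v) (hdegD0 : 1 ≤ Divisor.degree D0)
    (hD2 : ∀ v, 0 ≤ D2 v) (hdisj : ∀ v, D0 v = 0 ∨ D2 v = 0)
    (N : ℕ) (hN : 1 ≤ N)
    (x : F) (hx0 : x ≠ 0) (hxO : x ∈ D.O) (hxinvO : x⁻¹ ∈ D.O)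
    (hxdiv : ∀ v : Place K F, v.ord x = D2 v - (N : ℤ) * D0 v)
    (Qinf : Place k Fb)
    (hxb1 : Qinf.ord (D.redF x).1 ≤ -(N : ℤ)) (hxb2 : Qinf.ord (D.redF x).2 ≤ -(N : ℤ))
    {Z : Type*} [Fintype Z] (Q1 Q2 : Z → Place k Fb)
    (h1 : ∀ ν, Q1 ν ≠ Qinf) (h2 : ∀ ν, Q2 ν ≠ Qinf)
    (hinj1 : Function.Injective Q1) (hinj2 : Function.Injective Q2)
    (n0 : ℕ) (hn0F : 2 * h75_genus K xF ≤ n0)
    (hn0b : 2 * h75_genus k xb + Fintype.card Z ≤ n0)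
    (hnode : ∀ n, n0 ≤ n → ∀ a : Fb × Fb, a ∈ h51_Rd D (n • D0) ↔
        (a ∈ h20_P Qinf n ∧ ∀ ν, ∃ c : k, h39_Val (Q1 ν) a.1 c ∧ h39_Val (Q2 ν) a.2 c))
    (sg : SemilinearAut K F) (Q : ℕ) (φ1 φ2 : Fb → Fb)
    (hsO : ∀ f, f ∈ D.O → sg • f ∈ D.O)
    (hsred : ∀ f, f ∈ D.O → D.redF (sg • f) = (φ1 (D.redF f).1, φ2 (D.redF f).2))
    (hsD0 : sg • D0 = D0)
    (hφP1 : ∀ n, ∀ a ∈ riemannRochSpace (h20_Dinf Qinf n),
      φ1 a ∈ riemannRochSpace (h20_Dinf Qinf n))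
    (hφP2 : ∀ n, ∀ a ∈ riemannRochSpace (h20_Dinf Qinf n),
      φ2 a ∈ riemannRochSpace (h20_Dinf Qinf n))
    (hφ1 : ∀ ν (a : Fb) (c : k), h39_Val (Q1 ν) a c → h39_Val (Q1 ν) (φ1 a) (c ^ Q))
    (hφ2 : ∀ ν (a : Fb) (c : k), h39_Val (Q2 ν) a c → h39_Val (Q2 ν) (φ2 a) (c ^ Q))
    (E₀ : Divisor K F) (hE₀ : Divisor.degree E₀ = 0) (u₀ : F) (hu₀ : u₀ ≠ 0)
    (hdiv : ∀ v : Place K F, (m : ℤ) * E₀ v = v.ord u₀) (hu₀O : u₀ ∈ D.O)
    (hu₀red : D.red ⟨u₀, hu₀O⟩ = 1) :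
    sg • E₀ - Q • E₀ ∈ Divisor.principal (K := K) (F := F) := by
  have hm0 : m ≠ 0 := by
    rintro rfl
    exact hm Nat.cast_zero
  have hxx : D.redF x * D.redF x⁻¹ = 1 := by
    rw [← h51_redF_mul D hxO hxinvO, mul_inv_cancel₀ hx0, h51_redF_one]
  have hx1 : (D.redF x).1 ≠ 0 := by
    intro h
    have := congrArg Prod.fst hxx
    rw [Prod.fst_mul, h, zero_mul] at this
    exact zero_ne_one this
  have hx2 : (D.redF x).2 ≠ 0 := by
    intro h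
    have := congrArg Prod.snd hxx
    rw [Prod.snd_mul, h, zero_mul] at this
    exact zero_ne_one this
  have hfinP : ∀ n, FiniteDimensional k (h20_P Qinf n) := h20_P_finite hxb Qinf
  have hΦP : ∀ n, ∀ a ∈ h20_P Qinf n, ((φ1 a.1, φ2 a.2) : Fb × Fb) ∈ h20_P Qinf n := by
    intro n a ha
    rw [h20_mem_P] at ha ⊢
    exact ⟨hφP1 n _ ha.1, hφP2 n _ ha.2⟩
  exact h67_frobG_of_chart hxF D hON hinv hRk m hm D0 D2 hD0 hdegD0 hD2 hdisj N hN
    x hx0 hxO hxinvO hxdiv (h20_P Qinf) (h20_Bs Qinf) (h20_P_le_Bs Qinf)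
    (h20_e1 hxb Qinf Q1 h1) (h20_e2 hxb Qinf Q2 h2) n0 hn0F
    (fun n hn a => (hnode n hn a).trans (h51_node_iff hxb Qinf Q1 Q2 h1 h2 n a))
    (fun n hn => h20_chart_ind hxb Qinf Q1 Q2 h1 h2 hinj1 hinj2 n (le_trans hn0b hn))
    (h20_chart_root Qinf hm0)
    (h51_P_of_mul Qinf N (D.redF x) hx1 hx2 hxb1 hxb2)
    sg Q (fun a => (φ1 a.1, φ2 a.2)) hsO hsred hsD0 hΦP
    (fun n ν a h => h20_e1_eq hxb Qinf Q1 h1 ν _
      (hφ1 ν _ _ (h20_e1_spec hxb Qinf Q1 h1 ν ⟨a, h20_P_le_Bs Qinf n a h⟩)))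
    (fun n ν a h => h20_e2_eq hxb Qinf Q2 h2 ν _
      (hφ2 ν _ _ (h20_e2_spec hxb Qinf Q2 h2 ν ⟨a, h20_P_le_Bs Qinf n a h⟩)))
    E₀ hE₀ u₀ hu₀ hdiv hu₀O hu₀red

end SF

end Fermat.Agent.S35

end
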