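import Mathlib
import Fermat.Agent.S34.h51_NodeAsm
import Fermat.Agent.S35.h67_FrobSF

/-!
# S35 (E1), generic half (helper60): the Frobenius twin of `h51_G_of_frob`

`h60_frobG_of_frob` : from (INT), (LEAD), (GRAPH), the Frobenius chart, a chart unit and a
semilinear automorphism `sg` acting on the two reductions through `φ1`, `φ2` which preserve the
pole order at `Qinf` and raise the values at all `Φ²`-fixed places to their `Qn`-th powers: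
`sg • E₀ - Qn • E₀` is principal for every toric witness `(E₀, u₀)`.
-/

set_option autoImplicit false

noncomputable section

open AlgebraicCurve Module

namespace Fermat.Agent.S35

open Fermat.Agent.S34 Fermat.Agent.S18 Fermat.Agent.S24 Fermat.Agent.S27

section Frob

variable {K F k Fb : Type*} [Field K] [Field F] [Algebra K F] [Field k] [Field Fb] [Algebra k Fb]
variable [IsAlgClosed K] [IsAlgClosed k] {q : ℕ} [Fact q.Prime] [CharP k q]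

/-- **The Frobenius relation on toric witnesses** from (INT), (LEAD), (GRAPH), the Frobenius
chart and a chart unit. -/
theorem h60_frobG_of_frob {xF : F} (hxF : h75_IsChart K xF)
    {xφ : Fb} {φ : Fb →+* Fb} (h : h96_IsFrobChart k q xφ φ)
    {y : Fb} (hy : h75_IsChart k y) (Qinf : Place k Fb)
    (hpole : ∀ Q : Place k Fb, y ∈ Q.toValuationSubring ↔ Q ≠ Qinf)
    (hfix : h96_frobPerm h Qinf = Qinf)
    (D : h22_Lat K F k (Fb × Fb)) (hON : h22_ON D)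
    (hinv : ∀ (f : F) (hf : f ∈ D.O), IsUnit (D.red ⟨f, hf⟩) → f⁻¹ ∈ D.O)
    (hRk : h39_RankOne D.A) (m : ℕ) (hm : (m : k) ≠ 0)
    (D0 D2 : Divisor K F) (hD0 : ∀ v, 0 ≤ D0 v) (hdeg : Divisor.degree D0 = 2)
    (hD2 : ∀ v, 0 ≤ D2 v) (hdisj : ∀ v, D0 v = 0 ∨ D2 v = 0)
    (N : ℕ) (hN : 1 ≤ N)
    (x : F) (hx0 : x ≠ 0) (hxO : x ∈ D.O) (hxinvO : x⁻¹ ∈ D.O)
    (hxdiv : ∀ v : Place K F, v.ord x = D2 v - (N : ℤ) * D0 v)
    (hxb1 : Qinf.ord (D.redF x).1 ≤ -(N : ℤ)) (hxb2 : Qinf.ord (D.redF x).2 ≤ -(N : ℤ))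
    (hreg : ∀ n, ∀ a ∈ h51_Rd D (n • D0), a.1 ∈ h16_Linf Qinf n ∧ a.2 ∈ h16_Linf Qinf n)
    (n₁ : ℕ)
    (hlead₁ : ∀ n, n₁ ≤ n → ∃ x ∈ h51_Rd D ((n + 1) • D0),
      x.1 ∉ h16_Linf Qinf n ∧ x.2 ∈ h16_Linf Qinf n)
    (hlead₂ : ∀ n, n₁ ≤ n → ∃ y ∈ h51_Rd D ((n + 1) • D0),
      y.1 ∈ h16_Linf Qinf n ∧ y.2 ∉ h16_Linf Qinf n)
    (hB1 : ∀ b : Fb, (∀ Q : Place k Fb, Q ≠ Qinf → b ∈ Q.toValuationSubring) →
      ∃ n : ℕ, (b, φ b) ∈ h51_Rd D (n • D0))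
    (hB2 : ∀ b : Fb, (∀ Q : Place k Fb, Q ≠ Qinf → b ∈ Q.toValuationSubring) →
      ∃ n : ℕ, (φ b, b) ∈ h51_Rd D (n • D0))
    (sg : SemilinearAut K F) (Qn : ℕ) (φ1 φ2 : Fb → Fb)
    (hsO : ∀ f, f ∈ D.O → sg • f ∈ D.O)
    (hsred : ∀ f, f ∈ D.O → D.redF (sg • f) = (φ1 (D.redF f).1, φ2 (D.redF f).2))
    (hsD0 : sg • D0 = D0)
    (hφP1 : ∀ n, ∀ a ∈ riemannRochSpace (h20_Dinf Qinf n),
      φ1 a ∈ riemannRochSpace (h20_Dinf Qinf n))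
    (hφP2 : ∀ n, ∀ a ∈ riemannRochSpace (h20_Dinf Qinf n),
      φ2 a ∈ riemannRochSpace (h20_Dinf Qinf n))
    (hφ1 : ∀ P : Place k Fb, h96_frobPerm h (h96_frobPerm h P) = P →
      ∀ (a : Fb) (c : k), h39_Val P a c → h39_Val P (φ1 a) (c ^ Qn))
    (hφ2 : ∀ P : Place k Fb, h96_frobPerm h (h96_frobPerm h P) = P →
      ∀ (a : Fb) (c : k), h39_Val P a c → h39_Val P (φ2 a) (c ^ Qn))
    (E₀ : Divisor K F) (hE₀ : Divisor.degree E₀ = 0) (u₀ : F) (hu₀ : u₀ ≠ 0)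
    (hdiv : ∀ v : Place K F, (m : ℤ) * E₀ v = v.ord u₀) (hu₀O : u₀ ∈ D.O)
    (hu₀red : D.red ⟨u₀, hu₀O⟩ = 1) :
    sg • E₀ - Qn • E₀ ∈ Divisor.principal (K := K) (F := F) := by
  obtain ⟨Sg, hSg, hnode⟩ := h51_node_of_frob hxF h hy Qinf hpole hfix D hON D0 hD0 hdeg hreg n₁
    hlead₁ hlead₂ hB1 hB2
  have hdegD0 : 1 ≤ Divisor.degree D0 := by
    rw [hdeg]
    norm_num
  refine h67_frobG_of_sf hxF hy D hON hinv hRk m hm D0 D2 hD0 hdegD0 hD2 hdisj N hN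
    x hx0 hxO hxinvO hxdiv Qinf hxb1 hxb2
    (Z := {Q // Q ∈ Sg}) (fun ν => h96_frobPerm h ν.1) (fun ν => ν.1)
    (fun ν => (hSg ν.1 ν.2).2.1) (fun ν => (hSg ν.1 ν.2).1)
    (fun a b hab => Subtype.ext ((h96_frobPerm h).injective hab))
    (fun a b hab => Subtype.ext hab)
    (max (max n₁ (h75_genus K xF))
      (max (2 * h75_genus K xF) (2 * h75_genus k y + Fintype.card {Q // Q ∈ Sg})))
    (le_trans (le_max_left _ _) (le_max_right _ _))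
    (le_trans (le_max_right _ _) (le_max_right _ _))
    (fun n hn a => ?_)
    sg Qn φ1 φ2 hsO hsred hsD0 hφP1 hφP2
    (fun ν a c hv => hφ1 _ (by rw [(hSg ν.1 ν.2).2.2]) a c hv)
    (fun ν a c hv => hφ2 _ (hSg ν.1 ν.2).2.2 a c hv)
    E₀ hE₀ u₀ hu₀ hdiv hu₀O hu₀red
  rw [hnode n (le_trans (le_max_left _ _) hn) a]
  refine and_congr Iff.rfl ?_
  constructor
  · intro hc ν
    exact hc ν.1 ν.2
  · intro hc Q hQ
    exact hc ⟨Q, hQ⟩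

end Frob

end Fermat.Agent.S35

end
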