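import Mathlib
import Fermat.Agent.S35.h60_E1
import Fermat.Agent.S35.h60_ToricBridge
import Fermat.Agent.S35.h5_FrobToric
import Fermat.Agent.S34.h60_PsiSemi
import Fermat.Agent.S34.h31_GraphInst
import Fermat.Agent.S34.h10_XModInst
import Fermat.Agent.S34.h22_LatMqFinal
import Fermat.Agent.S18.h54_ModLevel

/-!
# S35 (E1), modular half (helper60): `s² = q²` on the toric classes from the rows

`h60_E1_of_rows` : at a charted level `M q` and a valuation ring `A` over `q`, the S34 rows
(INT) `hreg`, (LEAD) `hlead₁ / hlead₂` and (y-CHART) for the canonical lattice `h87_D M q hqM A hA`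
and the cuspidal divisor `D0 = (∞) + (0')` give `s • s • y = q² • y` for every Frobenius element
`s` at `A` and every toric class `y` (exponent prime to `q`).

`h60_E1Prop_of_rows` : the same, as `h29_E1Prop M q hqM`, from the rows at every `A`.
-/

set_option autoImplicit false
set_option synthInstance.maxHeartbeats 400000

noncomputable section

open ModularCurve AlgebraicCurve IntermediateField

namespace Fermat.Agent.S35

open Fermat.Agent.S34 Fermat.Agent.S18 Fermat.Agent.S37 Fermat.Agent.S24 Fermat.Agent.S27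

local notation "Qb" => AlgebraicClosure ℚ

section E1

variable (M q : ℕ) [NeZero M] [NeZero q] [Fact q.Prime] (hqM : ¬ q ∣ M)
  (A : ValuationSubring Qb) (hA : A.LiesOverPrime q)

/-- **(E1) from the rows**, at one valuation ring `A`. -/
theorem h60_E1_of_rows (hch : 5 ≤ q ∨ 2 ∣ M ∨ 3 ∣ M)
    {Pinf P0 : Place Qb ↥(modularFunctionFieldBar (M * q))}
    (hPinf : h10_IsCusp (modularFunctionFieldBar (M * q)) Pinf)
    (hP0 : h10_IsCusp0 M q (h60_w M q hqM) P0)
    {y : ↥(modularFunctionFieldFullC (IsLocalRing.ResidueField A) M)}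
    (hy : h75_IsChart (IsLocalRing.ResidueField A) y)
    (hpole : ∀ Q : Place (IsLocalRing.ResidueField A)
        ↥(modularFunctionFieldFullC (IsLocalRing.ResidueField A) M),
      y ∈ Q.toValuationSubring ↔ Q ≠ h11_placeInftyC (IsLocalRing.ResidueField A) M)
    (hreg : ∀ n, ∀ a ∈ h51_Rd (h87_D M q hqM A hA)
        (n • (Finsupp.single Pinf (1 : ℤ) + Finsupp.single P0 (1 : ℤ))),
      a.1 ∈ h16_Linf (h11_placeInftyC (IsLocalRing.ResidueField A) M) n ∧
        a.2 ∈ h16_Linf (h11_placeInftyC (IsLocalRing.ResidueField A) M) n)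
    (n₁ : ℕ)
    (hlead₁ : ∀ n, n₁ ≤ n → ∃ x ∈ h51_Rd (h87_D M q hqM A hA)
        ((n + 1) • (Finsupp.single Pinf (1 : ℤ) + Finsupp.single P0 (1 : ℤ))),
      x.1 ∉ h16_Linf (h11_placeInftyC (IsLocalRing.ResidueField A) M) n ∧
        x.2 ∈ h16_Linf (h11_placeInftyC (IsLocalRing.ResidueField A) M) n)
    (hlead₂ : ∀ n, n₁ ≤ n → ∃ x ∈ h51_Rd (h87_D M q hqM A hA)
        ((n + 1) • (Finsupp.single Pinf (1 : ℤ) + Finsupp.single P0 (1 : ℤ))),
      x.1 ∈ h16_Linf (h11_placeInftyC (IsLocalRing.ResidueField A) M) n ∧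
        x.2 ∉ h16_Linf (h11_placeInftyC (IsLocalRing.ResidueField A) M) n)
    (s : Qb ≃ₐ[ℚ] Qb) (hs : A.IsFrobeniusAt s q) (m : ℕ) (hm : ¬ q ∣ m)
    (y' : JZero (M * q)) (hy' : h29_Toric M q hqM A hA m y') :
    s • s • y' = (q ^ 2) • y' := by
  have : IsAlgClosed (IsLocalRing.ResidueField A) := h19_residueField_isAlgClosed A
  have : CharP (IsLocalRing.ResidueField A) q := h19_residueField_charP A q hA
  have hxF := h54_isChart_jbar (M * q)
  have hfr := h84_isFrobChart_jk M q hqM A hA
  have hfix := h84_frobPerm_placeInftyC hfr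
  have hON : h22_ON (h87_D M q hqM A hA) := h22_DMq_on M q hqM A hA
  have hRk : h39_RankOne (h87_D M q hqM A hA).A := h22_DMq_rankOne M q hqM A hA
  have hmk : ((m : ℕ) : IsLocalRing.ResidueField A) ≠ 0 := fun h0 =>
    hm ((CharP.cast_eq_zero_iff (IsLocalRing.ResidueField A) q m).mp h0)
  have hD0 : ∀ v, 0 ≤ (Finsupp.single Pinf (1 : ℤ) + Finsupp.single P0 (1 : ℤ) :
      Divisor Qb ↥(modularFunctionFieldBar (M * q))) v := fun v => h10_D0_nonneg Pinf P0 v
  have hdeg : Divisor.degree (Finsupp.single Pinf (1 : ℤ) + Finsupp.single P0 (1 : ℤ) :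
      Divisor Qb ↥(modularFunctionFieldBar (M * q))) = 2 :=
    h10_D0_degree (h75_deg_eq_one hxF) Pinf P0
  obtain ⟨ν₀, hx⟩ := h10_xmod_inst M q hqM A hA hch hPinf hP0
    (Qinf := h11_placeInftyC (IsLocalRing.ResidueField A) M) h84_isCusp_placeInftyC
  obtain ⟨x, E2, hx0, hxO, hxinvO, hE2, hdisj, hxdiv, -, -, hxb1, hxb2⟩ :=
    hx (max ν₀ 1) (le_max_left _ _)
  have hN : 1 ≤ (q + 1) * max ν₀ 1 :=
    Nat.mul_pos (Nat.succ_pos q) (lt_of_lt_of_le Nat.one_pos (le_max_right _ _))
  have hdisj' : ∀ v, (Finsupp.single Pinf (1 : ℤ) + Finsupp.single P0 (1 : ℤ) :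
      Divisor Qb ↥(modularFunctionFieldBar (M * q))) v = 0 ∨ E2 v = 0 := by
    intro v
    rcases hdisj v with h | h
    · left
      rw [Finsupp.smul_apply, nsmul_eq_mul] at h
      rcases mul_eq_zero.mp h with h | h
      · have h' : (q + 1) * max ν₀ 1 = 0 := by exact_mod_cast h
        omega
      · exact h
    · right
      exact h
  have hxdiv' : ∀ v : Place Qb ↥(modularFunctionFieldBar (M * q)),
      v.ord x = E2 v - (((q + 1) * max ν₀ 1 : ℕ) : ℤ) *
        (Finsupp.single Pinf (1 : ℤ) + Finsupp.single P0 (1 : ℤ) :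
          Divisor Qb ↥(modularFunctionFieldBar (M * q))) v := by
    intro v
    rw [hxdiv v, Finsupp.smul_apply, nsmul_eq_mul]
  -- the coefficientwise Frobenius
  have he : ∀ c : IsLocalRing.ResidueField A,
      frobeniusEquiv (IsLocalRing.ResidueField A) q c = c ^ q := fun c =>
    frobeniusEquiv_apply (IsLocalRing.ResidueField A) q c
  have he' : ((frobeniusEquiv (IsLocalRing.ResidueField A) q :
      IsLocalRing.ResidueField A ≃+* IsLocalRing.ResidueField A) :
        IsLocalRing.ResidueField A →+* IsLocalRing.ResidueField A)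
      = frobenius (IsLocalRing.ResidueField A) q := RingHom.ext fun c => he c
  have hσ : h57_IsFrob q (h60_psiSemi M (IsLocalRing.ResidueField A)
      (frobeniusEquiv (IsLocalRing.ResidueField A) q)) :=
    h60_psiSemi_isFrob M _ q _ he
  have hσψ : ∀ a : ↥(modularFunctionFieldFullC (IsLocalRing.ResidueField A) M),
      ((h60_psiSemi M (IsLocalRing.ResidueField A)
        (frobeniusEquiv (IsLocalRing.ResidueField A) q) :
          h57_SemiAut (IsLocalRing.ResidueField A)
            ↥(modularFunctionFieldFullC (IsLocalRing.ResidueField A) M)) :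
        ↥(modularFunctionFieldFullC (IsLocalRing.ResidueField A) M) ≃+*
          ↥(modularFunctionFieldFullC (IsLocalRing.ResidueField A) M)) a
        = h60_psi M (IsLocalRing.ResidueField A) (frobenius (IsLocalRing.ResidueField A) q) a := by
    intro a
    rw [h60_psiSemi_apply, he']
  have hσQ := h60_psiSemi_smul_cusp M (IsLocalRing.ResidueField A)
    (frobeniusEquiv (IsLocalRing.ResidueField A) q)
  have hperm := h60_frobPerm_eq M q (IsLocalRing.ResidueField A) hfr
    (frobeniusEquiv (IsLocalRing.ResidueField A) q) he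
  obtain ⟨hsO, hsred⟩ := h60_D_frob_sq M q hqM A hA s hs
  have hsD0 := h10_D0_galois M q hqM (s * s) hPinf hP0
  have hφP : ∀ n, ∀ a ∈ riemannRochSpace
      (h20_Dinf (h11_placeInftyC (IsLocalRing.ResidueField A) M) n),
      h60_psi M (IsLocalRing.ResidueField A) (frobenius (IsLocalRing.ResidueField A) q)
        (h60_psi M (IsLocalRing.ResidueField A) (frobenius (IsLocalRing.ResidueField A) q) a)
        ∈ riemannRochSpace (h20_Dinf (h11_placeInftyC (IsLocalRing.ResidueField A) M) n) := by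
    intro n a ha
    have hD : h60_psiSemi M (IsLocalRing.ResidueField A)
        (frobeniusEquiv (IsLocalRing.ResidueField A) q) •
          h20_Dinf (h11_placeInftyC (IsLocalRing.ResidueField A) M) n
        = h20_Dinf (h11_placeInftyC (IsLocalRing.ResidueField A) M) n := by
      unfold h20_Dinf
      rw [smul_comm, h57_smul_single, hσQ]
    have h1 := (h57_mem_rr_smul (h60_psiSemi M (IsLocalRing.ResidueField A)
      (frobeniusEquiv (IsLocalRing.ResidueField A) q)) _ a).mpr ha
    rw [hD, hσψ] at h1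
    have h2 := (h57_mem_rr_smul (h60_psiSemi M (IsLocalRing.ResidueField A)
      (frobeniusEquiv (IsLocalRing.ResidueField A) q)) _ _).mpr h1
    rw [hD, hσψ] at h2
    exact h2
  have hφv : ∀ P : Place (IsLocalRing.ResidueField A)
      ↥(modularFunctionFieldFullC (IsLocalRing.ResidueField A) M),
      h96_frobPerm hfr (h96_frobPerm hfr P) = P →
      ∀ (a : ↥(modularFunctionFieldFullC (IsLocalRing.ResidueField A) M))
        (c : IsLocalRing.ResidueField A), h39_Val P a c →
        h39_Val P (h60_psi M (IsLocalRing.ResidueField A)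
          (frobenius (IsLocalRing.ResidueField A) q)
          (h60_psi M (IsLocalRing.ResidueField A)
            (frobenius (IsLocalRing.ResidueField A) q) a)) (c ^ q ^ 2) := by
    intro P hP a c hv
    rw [hperm, hperm] at hP
    have h1 := h60_val_smul hσ P hv
    have h2 := h60_val_smul hσ _ h1
    rw [hP, hσψ, hσψ, ← pow_mul, ← sq] at h2
    exact h2
  -- the relation on toric witnesses
  have hG : ∀ (E : Divisor Qb ↥(modularFunctionFieldBar (M * q)))
      (u : ↥(modularFunctionFieldBar (M * q))), Divisor.degree E = 0 → u ≠ 0 →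
      (∀ v : Place Qb ↥(modularFunctionFieldBar (M * q)), (m : ℤ) * E v = v.ord u) →
      (∀ i, ∃ h : u ∈ (h60_pair M q hqM A hA i).O, (h60_pair M q hqM A hA i).red ⟨u, h⟩ = 1) →
      arithmeticGalois (modularFunctionFieldFull (M * q)) (s * s) • E - (q ^ 2) • E
        ∈ Divisor.principal (K := Qb) (F := ↥(modularFunctionFieldBar (M * q))) := by
    intro E u hE hu hdiv hred
    obtain ⟨h1, hr1⟩ := hred 0
    obtain ⟨h2, hr2⟩ := hred 1
    have huO : u ∈ (h87_D M q hqM A hA).O := (h87_D_mem M q hqM A hA).mpr ⟨h1, h2⟩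
    have e1 : (h60_R1 M q hqM A hA).redF u = 1 :=
      ((h60_R1 M q hqM A hA).redF_of_mem h1).trans hr1
    have e2 : (h60_R2 M q hqM A hA).redF u = 1 :=
      ((h60_R2 M q hqM A hA).redF_of_mem h2).trans hr2
    have hured : (h87_D M q hqM A hA).red ⟨u, huO⟩ = 1 := by
      rw [← (h87_D M q hqM A hA).redF_of_mem huO, h87_D_redF M q hqM A hA h1 h2, e1, e2]
      rfl
    exact h60_frobG_of_frob hxF hfr hy _ hpole hfix (h87_D M q hqM A hA) hON
      (h87_D_hinv M q hqM A hA) hRk m hmk _ E2 hD0 hdeg hE2 hdisj' _ hN x hx0 hxO hxinvO hxdiv'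
      (le_of_eq hxb1) (le_of_eq hxb2) hreg n₁ hlead₁ hlead₂
      (h31_graph_D₁ M q hqM A hA hch hPinf hP0) (h31_graph_D₂ M q hqM A hA hch hPinf hP0)
      (arithmeticGalois (modularFunctionFieldFull (M * q)) (s * s)) (q ^ 2) _ _ hsO hsred hsD0
      hφP hφP hφv hφv E hE u hu hdiv huO hured
  have hy'' := (h60_toric_iff M q hqM A hA m y').mp hy'
  have key := h5_toric_frob_of_principal _ _ m
    (arithmeticGalois (modularFunctionFieldFull (M * q)) (s * s)) (q ^ 2) hG y' hy''
  rw [← mul_smul, galois_smul_pic0_def]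
  exact key

end E1

section E1Prop

variable (M q : ℕ) [NeZero M] [NeZero q] [Fact q.Prime] (hqM : ¬ q ∣ M)

/-- **(E1) at a charted level `M q` from the three modular rows** (y-CHART), (INT), (LEAD), each
for the canonical lattice `h87_D M q hqM A hA` and arbitrary cusp places `Pinf`, `P0`. -/
theorem h60_E1Prop_of_rows (hch : 5 ≤ q ∨ 2 ∣ M ∨ 3 ∣ M)
    (hyc : ∀ (A : ValuationSubring Qb) (_ : A.LiesOverPrime q),
      ∃ y : ↥(modularFunctionFieldFullC (IsLocalRing.ResidueField A) M),
        h75_IsChart (IsLocalRing.ResidueField A) y ∧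
        ∀ Q : Place (IsLocalRing.ResidueField A)
            ↥(modularFunctionFieldFullC (IsLocalRing.ResidueField A) M),
          y ∈ Q.toValuationSubring ↔ Q ≠ h11_placeInftyC (IsLocalRing.ResidueField A) M)
    (hint : ∀ (A : ValuationSubring Qb) (hA : A.LiesOverPrime q)
      {Pinf P0 : Place Qb ↥(modularFunctionFieldBar (M * q))},
      h10_IsCusp (modularFunctionFieldBar (M * q)) Pinf →
      h10_IsCusp0 M q (h60_w M q hqM) P0 →
      ∀ n, ∀ a ∈ h51_Rd (h87_D M q hqM A hA)
          (n • (Finsupp.single Pinf (1 : ℤ) + Finsupp.single P0 (1 : ℤ))),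
        a.1 ∈ h16_Linf (h11_placeInftyC (IsLocalRing.ResidueField A) M) n ∧
          a.2 ∈ h16_Linf (h11_placeInftyC (IsLocalRing.ResidueField A) M) n)
    (hlead : ∀ (A : ValuationSubring Qb) (hA : A.LiesOverPrime q)
      {Pinf P0 : Place Qb ↥(modularFunctionFieldBar (M * q))},
      h10_IsCusp (modularFunctionFieldBar (M * q)) Pinf →
      h10_IsCusp0 M q (h60_w M q hqM) P0 →
      ∃ n₁ : ℕ,
        (∀ n, n₁ ≤ n → ∃ x ∈ h51_Rd (h87_D M q hqM A hA)
            ((n + 1) • (Finsupp.single Pinf (1 : ℤ) + Finsupp.single P0 (1 : ℤ))),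
          x.1 ∉ h16_Linf (h11_placeInftyC (IsLocalRing.ResidueField A) M) n ∧
            x.2 ∈ h16_Linf (h11_placeInftyC (IsLocalRing.ResidueField A) M) n) ∧
        (∀ n, n₁ ≤ n → ∃ x ∈ h51_Rd (h87_D M q hqM A hA)
            ((n + 1) • (Finsupp.single Pinf (1 : ℤ) + Finsupp.single P0 (1 : ℤ))),
          x.1 ∈ h16_Linf (h11_placeInftyC (IsLocalRing.ResidueField A) M) n ∧
            x.2 ∉ h16_Linf (h11_placeInftyC (IsLocalRing.ResidueField A) M) n)) :
    h29_E1Prop M q hqM := by
  intro A hA s hs m hm y' hy'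
  obtain ⟨Pinf, hPinf⟩ := h10_exists_cusp (K := Qb) (F := modularFunctionFieldBar (M * q))
    ⟨h59_jbar (M * q), h10_order_jbar (M * q)⟩
  obtain ⟨P0, hP0⟩ := h10_exists_cusp0 (h60_w M q hqM) (h60_w_alpha M q hqM)
    (h60_w_beta M q hqM)
  obtain ⟨y, hy, hpole⟩ := hyc A hA
  obtain ⟨n₁, hl1, hl2⟩ := hlead A hA hPinf hP0
  exact h60_E1_of_rows M q hqM A hA hch hPinf hP0 hy hpole (hint A hA hPinf hP0) n₁ hl1 hl2
    s hs m hm y' hy'

end E1Prop

end Fermat.Agent.S35

end
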