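import Fermat.Agent.S34.h75_ONPair
import Fermat.Agent.S34.h87_Toric

/-!
# S35 — (FT): `(σ² - 1)` maps `q`-new torsion classes to toric classes (generic)

Generic form of statement (B) of the S35 geometric side.  `F / K` and `E / K` function fields,
`R₁ R₂` two reduction data on `F` and `RE` one on `E`, all with the same residue function field
`Fb`; `pα pβ : Divisor K F →+ Divisor K E` two "push-forwards" with norm maps `Nα Nβ : F → E`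
(norm formula `hNα`, `hNβ`), and the NORM REDUCTION identities

  `red_E (Nα f) = red₁ f * φ (red₂ f)`,   `red_E (Nβ f) = red₂ f * φ (red₁ f)`

for `f` a unit at both `R₁` and `R₂` (`φ : Fb →+* Fb` the coefficient Frobenius).  If a
semilinear automorphism `sg` of `F` acts on both reductions by `φ ∘ φ`, then for every divisor
`D` with `m D = div f` whose two push-forwards are principal, the class of `sg • D - D` has a
toric witness: `E' = sg • D - D + div H`, `m E' = div u`, `red₁ u = 1 = red₂ u`.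
-/

set_option autoImplicit false

noncomputable section

open AlgebraicCurve
open Fermat.Agent.S18 Fermat.Agent.S34

namespace Fermat.Agent.S35

variable {K F k Fb : Type*} [Field K] [Field F] [Algebra K F] [Field k] [Field Fb] [Algebra k Fb]

/-- Rank one: a non-unit of `O` absorbs any constant after raising it to a power. -/
theorem h98_arch (R : h39_RedDatum K F k Fb) (hrank : h39_RankOne R.A) {y : F} (hy : y ∈ R.O)
    (hy0 : R.redF y = 0) (c : K) :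
    ∃ n : ℕ, algebraMap K F c * y ^ n ∈ R.O ∧ R.redF (algebraMap K F c * y ^ n) = 0 := by
  rcases eq_or_ne c 0 with rfl | hc
  · refine ⟨0, ?_, ?_⟩
    · rw [map_zero, zero_mul]; exact zero_mem _
    · rw [map_zero, zero_mul]; exact h39_redF_zero R
  rcases eq_or_ne y 0 with rfl | hyne
  · refine ⟨1, ?_, ?_⟩
    · rw [pow_one, mul_zero]; exact zero_mem _
    · rw [pow_one, mul_zero]; exact h39_redF_zero R
  obtain ⟨e, he, hew⟩ := h39_exists_scale_unit R hyne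
  set w : F := algebraMap K F e * y with hw
  have hwO : w ∈ R.O := h39_mem_of_redF_ne_zero R hew
  have hwne : w ≠ 0 := by
    intro h0
    rw [h0, h39_redF_zero] at hew
    exact hew rfl
  obtain ⟨hwinv, -⟩ := h39_inv_of_redF_ne_zero R hew
  have heF : algebraMap K F e ≠ 0 := (map_ne_zero _).mpr he
  have hy_eq : y = algebraMap K F e⁻¹ * w := by
    rw [hw, map_inv₀, ← mul_assoc, inv_mul_cancel₀ heF, one_mul]
  have haO : algebraMap K F e⁻¹ ∈ R.O := by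
    have h1 : algebraMap K F e⁻¹ = y * w⁻¹ := by
      rw [hy_eq, mul_assoc, mul_inv_cancel₀ hwne, mul_one]
    rw [h1]
    exact R.O.mul_mem _ _ hy hwinv
  have haA : e⁻¹ ∈ R.A := (R.mem_iff _).mpr haO
  have heA : (e⁻¹)⁻¹ ∉ R.A := by
    rw [inv_inv]
    intro h
    have h1 : algebraMap K F e ∈ R.O := (R.mem_iff _).mp h
    have h2 := h39_redF_mul R h1 hy
    rw [hy0, mul_zero] at h2
    exact hew h2
  obtain ⟨n, hn⟩ := hrank e⁻¹ haA heA c⁻¹ (inv_ne_zero hc)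
  rw [inv_inv] at hn
  have hcO : algebraMap K F (e⁻¹ ^ n * c) ∈ R.O := (R.mem_iff _).mp hn
  have key : algebraMap K F c * y ^ (n + 1) = algebraMap K F (e⁻¹ ^ n * c) * (y * w ^ n) := by
    have h1 : y ^ n = algebraMap K F e⁻¹ ^ n * w ^ n := by
      conv_lhs => rw [hy_eq]
      rw [mul_pow]
    rw [pow_succ, h1, map_mul, map_pow]
    ring
  have hyw : y * w ^ n ∈ R.O := R.O.mul_mem _ _ hy (R.O.pow_mem hwO n)
  refine ⟨n + 1, ?_, ?_⟩
  · rw [key]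
    exact R.O.mul_mem _ _ hcO hyw
  · rw [key, h39_redF_mul R hcO hyw, h39_redF_mul R hy (R.O.pow_mem hwO n), hy0, zero_mul,
      mul_zero]

/-- Joint lifting through two incomparable reduction data. -/
theorem h98_joint_lift (R₁ R₂ : h39_RedDatum K F k Fb)
    (hinc : ¬ R₁.O ≤ R₂.O ∧ ¬ R₂.O ≤ R₁.O) (g₁ g₂ : Fb) :
    ∃ Γ : F, Γ ∈ R₁.O ∧ Γ ∈ R₂.O ∧ R₁.redF Γ = g₁ ∧ R₂.redF Γ = g₂ := by
  obtain ⟨a₁, ha₁, hr₁⟩ := h39_redF_surjective R₁ g₁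
  obtain ⟨a₂, ha₂, hr₂⟩ := h39_redF_surjective R₂ g₂
  let O : Bool → ValuationSubring F := fun b => if b then R₁.O else R₂.O
  let a : Bool → F := fun b => if b then a₁ else a₂
  have hO : ∀ i j : Bool, i ≠ j → ¬ O i ≤ O j := by
    intro i j hij
    cases i <;> cases j
    · exact absurd rfl hij
    · exact hinc.2
    · exact hinc.1
    · exact absurd rfl hij
  have ha : ∀ i, a i ∈ O i := by
    intro i
    cases i
    · exact ha₂
    · exact ha₁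
  obtain ⟨b, hb, hbv⟩ := h44_val_crt O hO a ha
  have hb1 : b ∈ R₁.O := hb true
  have hb2 : b ∈ R₂.O := hb false
  have hv1 : R₁.O.valuation (b - a₁) < 1 := hbv true
  have hv2 : R₂.O.valuation (b - a₂) < 1 := hbv false
  refine ⟨b, hb1, hb2, ?_, ?_⟩
  · have h0 := (h75_redF_eq_zero_iff_lt R₁ (R₁.O.sub_mem hb1 ha₁)).mpr hv1
    rw [h39_redF_sub R₁ hb1 ha₁, sub_eq_zero] at h0
    rw [h0, hr₁]
  · have h0 := (h75_redF_eq_zero_iff_lt R₂ (R₂.O.sub_mem hb2 ha₂)).mpr hv2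
    rw [h39_redF_sub R₂ hb2 ha₂, sub_eq_zero] at h0
    rw [h0, hr₂]

/-- Approximation with prescribed constant sizes: an element of size `d₁` at `R₁` and of size
`d₂` at `R₂` (rank one). -/
theorem h98_approx (R₁ R₂ : h39_RedDatum K F k Fb)
    (hinc : ¬ R₁.O ≤ R₂.O ∧ ¬ R₂.O ≤ R₁.O)
    (h1 : h39_RankOne R₁.A) (h2 : h39_RankOne R₂.A) (d₁ d₂ : K) (hd₁ : d₁ ≠ 0) (hd₂ : d₂ ≠ 0) :
    ∃ G : F, R₁.redF (algebraMap K F d₁⁻¹ * G) = 1 ∧ R₂.redF (algebraMap K F d₂⁻¹ * G) = 1 := by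
  obtain ⟨y₁, hy₁1, hy₁2, hr₁1, hr₁2⟩ := h98_joint_lift R₁ R₂ hinc 1 0
  obtain ⟨y₂, hy₂1, hy₂2, hr₂1, hr₂2⟩ := h98_joint_lift R₁ R₂ hinc 0 1
  obtain ⟨n₁, hn₁, hn₁'⟩ := h98_arch R₁ h1 hy₂1 hr₂1 (d₁⁻¹ * d₂)
  obtain ⟨n₂, hn₂, hn₂'⟩ := h98_arch R₂ h2 hy₁2 hr₁2 (d₂⁻¹ * d₁)
  have hd₁F : algebraMap K F d₁ ≠ 0 := (map_ne_zero _).mpr hd₁
  have hd₂F : algebraMap K F d₂ ≠ 0 := (map_ne_zero _).mpr hd₂
  refine ⟨algebraMap K F d₁ * y₁ ^ n₂ + algebraMap K F d₂ * y₂ ^ n₁, ?_, ?_⟩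
  · have e : algebraMap K F d₁⁻¹ * (algebraMap K F d₁ * y₁ ^ n₂ + algebraMap K F d₂ * y₂ ^ n₁)
        = y₁ ^ n₂ + algebraMap K F (d₁⁻¹ * d₂) * y₂ ^ n₁ := by
      rw [map_mul, map_inv₀]
      field_simp
    rw [e, h39_redF_add R₁ (R₁.O.pow_mem hy₁1 n₂) hn₁, hn₁', add_zero, h39_redF_pow R₁ hy₁1,
      hr₁1, one_pow]
  · have e : algebraMap K F d₂⁻¹ * (algebraMap K F d₁ * y₁ ^ n₂ + algebraMap K F d₂ * y₂ ^ n₁)
        = algebraMap K F (d₂⁻¹ * d₁) * y₁ ^ n₂ + y₂ ^ n₁ := by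
      rw [map_mul, map_inv₀]
      field_simp
    rw [e, h39_redF_add R₂ hn₂ (R₂.O.pow_mem hy₂2 n₁), hn₂', zero_add, h39_redF_pow R₂ hy₂2,
      hr₂2, one_pow]

theorem h98_resK_pow (R : h39_RedDatum K F k Fb) {a : K} (ha : a ∈ R.A) (n : ℕ) :
    R.resK (a ^ n) = R.resK a ^ n := by
  induction n with
  | zero => rw [pow_zero, pow_zero]; exact h39_resK_one R
  | succ n ih =>
    rw [pow_succ, pow_succ, h39_resK_mul R (R.A.pow_mem ha n) ha, ih]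

/-- `m`-th roots in the residue field of the constants. -/
theorem h98_root_res (R : h39_RedDatum K F k Fb) (m : ℕ) (hm : m ≠ 0)
    (hroot : ∀ c : K, ∃ d : K, d ^ m = c) (b : k) : ∃ β : k, β ^ m = b := by
  obtain ⟨a, haA, hab⟩ := h39_resK_surjective R b
  obtain ⟨d, hd⟩ := hroot a
  have hdA : d ∈ R.A := by
    rw [← ValuationSubring.valuation_le_one_iff]
    have h1 : R.A.valuation d ^ m ≤ 1 := by
      rw [← map_pow, hd]
      exact (ValuationSubring.valuation_le_one_iff _ _).mpr haA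
    by_contra h2
    have h3 : 1 < R.A.valuation d := not_le.mp h2
    exact absurd h1 (not_le.mpr (one_lt_pow₀ h3 hm))
  exact ⟨R.resK d, by rw [← h98_resK_pow R hdA, hd, hab]⟩

/-- A function of `E` with a unit reduction whose divisor is `m` times the divisor of `W`
reduces to a constant times an `m`-th power. -/
theorem h98_norm_const {E : Type*} [Field E] [Algebra K E] (RE : h39_RedDatum K E k Fb) (m : ℕ)
    (hconstE : ∀ g : E, g ≠ 0 → (∀ v : Place K E, v.ord g = 0) → ∃ c : K, g = algebraMap K E c)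
    (N W : E) (hW : W ≠ 0) (hN : RE.redF N ≠ 0)
    (hord : ∀ v : Place K E, v.ord N = (m : ℤ) * v.ord W) :
    ∃ (a : k) (g : Fb), a ≠ 0 ∧ g ≠ 0 ∧ RE.redF N = algebraMap k Fb a * g ^ m := by
  have hN0 : N ≠ 0 := by
    intro h0
    rw [h0, h39_redF_zero] at hN
    exact hN rfl
  have hNO : N ∈ RE.O := h39_mem_of_redF_ne_zero RE hN
  have hWm : W ^ m ≠ 0 := pow_ne_zero m hW
  have hQ0 : N * (W ^ m)⁻¹ ≠ 0 := mul_ne_zero hN0 (inv_ne_zero hWm)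
  have hQord : ∀ v : Place K E, v.ord (N * (W ^ m)⁻¹) = 0 := by
    intro v
    have hpow : v.ord (W ^ m) = (m : ℤ) * v.ord W := by
      have := v.ord_zpow W (m : ℤ)
      simpa using this
    rw [v.ord_mul hN0 (inv_ne_zero hWm), v.ord_inv, hpow, hord v]
    ring
  obtain ⟨c, hc⟩ := hconstE _ hQ0 hQord
  obtain ⟨e, he, heW⟩ := h39_exists_scale_unit RE hW
  set W' : E := algebraMap K E e * W with hW'
  have hW'O : W' ∈ RE.O := h39_mem_of_redF_ne_zero RE heW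
  obtain ⟨hW'inv, hW'invred⟩ := h39_inv_of_redF_ne_zero RE heW
  have heE : algebraMap K E e ≠ 0 := (map_ne_zero _).mpr he
  have hW'0 : W' ≠ 0 := mul_ne_zero heE hW
  -- the constant
  have hconst : algebraMap K E (c * (e ^ m)⁻¹) = N * (W'⁻¹) ^ m := by
    rw [map_mul, ← hc, hW', map_inv₀, map_pow, mul_inv, mul_pow, inv_pow, inv_pow]
    ring
  have hcO : algebraMap K E (c * (e ^ m)⁻¹) ∈ RE.O := by
    rw [hconst]
    exact RE.O.mul_mem _ _ hNO (RE.O.pow_mem hW'inv m)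
  have hcA : c * (e ^ m)⁻¹ ∈ RE.A := (RE.mem_iff _).mpr hcO
  have hNeq : N = algebraMap K E (c * (e ^ m)⁻¹) * W' ^ m := by
    rw [hconst, inv_pow, mul_assoc, inv_mul_cancel₀ (pow_ne_zero m hW'0), mul_one]
  have hred : RE.redF N = algebraMap k Fb (RE.resK (c * (e ^ m)⁻¹)) * RE.redF W' ^ m := by
    conv_lhs => rw [hNeq]
    rw [h39_redF_mul RE hcO (RE.O.pow_mem hW'O m), h39_redF_algebraMap RE hcA,
      h39_redF_pow RE hW'O]
  refine ⟨RE.resK (c * (e ^ m)⁻¹), RE.redF W', ?_, heW, hred⟩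
  intro h0
  rw [h0, map_zero, zero_mul] at hred
  exact hN hred

section main

variable {E : Type*} [Field E] [Algebra K E]

/-- **(FT), divisor form.**  `(sg - 1)` of a divisor class of order dividing `m` whose two
push-forwards are principal has a toric witness. -/
theorem h98_frob_toric_div [HasPrincipalDivisors K F]
    (R₁ R₂ : h39_RedDatum K F k Fb) (RE : h39_RedDatum K E k Fb)
    (hinc : ¬ R₁.O ≤ R₂.O ∧ ¬ R₂.O ≤ R₁.O)
    (hrank₁ : h39_RankOne R₁.A) (hrank₂ : h39_RankOne R₂.A)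
    (m : ℕ) (hm : m ≠ 0) (hroot : ∀ c : K, ∃ d : K, d ^ m = c)
    (hconstE : ∀ g : E, g ≠ 0 → (∀ v : Place K E, v.ord g = 0) → ∃ c : K, g = algebraMap K E c)
    (pα pβ : Divisor K F →+ Divisor K E) (Nα Nβ : F → E)
    (hNα : ∀ f : F, f ≠ 0 → Nα f ≠ 0 ∧ ∀ D : Divisor K F, (∀ w, D w = w.ord f) →
      ∀ v : Place K E, pα D v = v.ord (Nα f))
    (hNβ : ∀ f : F, f ≠ 0 → Nβ f ≠ 0 ∧ ∀ D : Divisor K F, (∀ w, D w = w.ord f) →
      ∀ v : Place K E, pβ D v = v.ord (Nβ f))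
    (φ : Fb →+* Fb) (hφk : ∀ c : k, ∃ c' : k, φ (algebraMap k Fb c) = algebraMap k Fb c')
    (hNRα : ∀ f : F, R₁.redF f ≠ 0 → R₂.redF f ≠ 0 →
      RE.redF (Nα f) = R₁.redF f * φ (R₂.redF f))
    (hNRβ : ∀ f : F, R₁.redF f ≠ 0 → R₂.redF f ≠ 0 →
      RE.redF (Nβ f) = R₂.redF f * φ (R₁.redF f))
    (sg : SemilinearAut K F)
    (hsg₁ : ∀ f : F, f ∈ R₁.O → R₁.redF (sg • f) = φ (φ (R₁.redF f)))
    (hsg₂ : ∀ f : F, f ∈ R₂.O → R₂.redF (sg • f) = φ (φ (R₂.redF f)))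
    (D : Divisor K F) (f : F) (hf : f ≠ 0) (hD : ∀ v : Place K F, (m : ℤ) * D v = v.ord f)
    (hα : (pα D).IsPrincipal) (hβ : (pβ D).IsPrincipal) :
    ∃ (DH : Divisor K F) (H u : F), H ≠ 0 ∧ u ≠ 0 ∧ (∀ v : Place K F, DH v = v.ord H) ∧
      Divisor.degree DH = 0 ∧
      (∀ v : Place K F, (m : ℤ) * (sg • D - D + DH) v = v.ord u) ∧
      R₁.redF u = 1 ∧ R₂.redF u = 1 := by
  classical
  -- Step 1: make the Kummer function a unit at both valuations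
  obtain ⟨c₁, hc₁, hc₁f⟩ := h39_exists_scale_unit R₁ hf
  obtain ⟨c₂, hc₂, hc₂f⟩ := h39_exists_scale_unit R₂ hf
  obtain ⟨d₁, hd₁⟩ := hroot c₁
  obtain ⟨d₂, hd₂⟩ := hroot c₂
  have hd₁0 : d₁ ≠ 0 := by
    rintro rfl
    rw [zero_pow hm] at hd₁
    exact hc₁ hd₁.symm
  have hd₂0 : d₂ ≠ 0 := by
    rintro rfl
    rw [zero_pow hm] at hd₂
    exact hc₂ hd₂.symm
  obtain ⟨G, hG₁, hG₂⟩ := h98_approx R₁ R₂ hinc hrank₁ hrank₂ d₁ d₂ hd₁0 hd₂0
  have hd₁F : algebraMap K F d₁ ≠ 0 := (map_ne_zero _).mpr hd₁0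
  have hd₂F : algebraMap K F d₂ ≠ 0 := (map_ne_zero _).mpr hd₂0
  have hG0 : G ≠ 0 := by
    rintro rfl
    rw [mul_zero, h39_redF_zero] at hG₁
    exact zero_ne_one hG₁
  set f' : F := f * G ^ m with hf'
  have hf'0 : f' ≠ 0 := mul_ne_zero hf (pow_ne_zero m hG0)
  have hf'1 : f' = (algebraMap K F c₁ * f) * (algebraMap K F d₁⁻¹ * G) ^ m := by
    rw [hf', mul_pow, ← map_pow, inv_pow, hd₁, map_inv₀]
    have : algebraMap K F c₁ ≠ 0 := (map_ne_zero _).mpr hc₁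
    field_simp
  have hf'2 : f' = (algebraMap K F c₂ * f) * (algebraMap K F d₂⁻¹ * G) ^ m := by
    rw [hf', mul_pow, ← map_pow, inv_pow, hd₂, map_inv₀]
    have : algebraMap K F c₂ ≠ 0 := (map_ne_zero _).mpr hc₂
    field_simp
  have hG₁O : algebraMap K F d₁⁻¹ * G ∈ R₁.O :=
    h39_mem_of_redF_ne_zero R₁ (by rw [hG₁]; exact one_ne_zero)
  have hG₂O : algebraMap K F d₂⁻¹ * G ∈ R₂.O :=
    h39_mem_of_redF_ne_zero R₂ (by rw [hG₂]; exact one_ne_zero)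
  have hr₁ : R₁.redF f' ≠ 0 := by
    rw [hf'1, h39_redF_mul R₁ (h39_mem_of_redF_ne_zero R₁ hc₁f) (R₁.O.pow_mem hG₁O m),
      h39_redF_pow R₁ hG₁O, hG₁, one_pow, mul_one]
    exact hc₁f
  have hr₂ : R₂.redF f' ≠ 0 := by
    rw [hf'2, h39_redF_mul R₂ (h39_mem_of_redF_ne_zero R₂ hc₂f) (R₂.O.pow_mem hG₂O m),
      h39_redF_pow R₂ hG₂O, hG₂, one_pow, mul_one]
    exact hc₂f
  set r₁ : Fb := R₁.redF f' with hr₁def
  set r₂ : Fb := R₂.redF f' with hr₂def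
  -- the divisor of `f'`
  obtain ⟨DG, hDG, hDGdeg⟩ := HasPrincipalDivisors.exists_divisor (K := K) G hG0
  have hDf' : ∀ w : Place K F, ((m : ℤ) • (D + DG)) w = w.ord f' := by
    intro w
    have hpow : w.ord (G ^ m) = (m : ℤ) * w.ord G := by
      have := w.ord_zpow G (m : ℤ)
      simpa using this
    rw [hf', w.ord_mul hf (pow_ne_zero m hG0), hpow, ← hD w, ← hDG w]
    simp only [Finsupp.coe_smul, Finsupp.coe_add, Pi.smul_apply, Pi.add_apply, smul_eq_mul]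
    ring
  -- Step 2: the two norm reductions are constants times `m`-th powers
  have hnorm : ∀ (p : Divisor K F →+ Divisor K E) (Nn : F → E),
      (∀ f : F, f ≠ 0 → Nn f ≠ 0 ∧ ∀ D : Divisor K F, (∀ w, D w = w.ord f) →
        ∀ v : Place K E, p D v = v.ord (Nn f)) →
      (p D).IsPrincipal → RE.redF (Nn f') ≠ 0 →
      ∃ (a : k) (g : Fb), a ≠ 0 ∧ g ≠ 0 ∧ RE.redF (Nn f') = algebraMap k Fb a * g ^ m := by
    intro p Nn hNn hp hne
    obtain ⟨h, hh0, hh⟩ := hp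
    obtain ⟨hNG0, hNG⟩ := hNn G hG0
    obtain ⟨-, hNf'⟩ := hNn f' hf'0
    refine h98_norm_const RE m hconstE (Nn f') (h * Nn G) (mul_ne_zero hh0 hNG0) hne ?_
    intro v
    rw [← hNf' ((m : ℤ) • (D + DG)) hDf' v, v.ord_mul hh0 hNG0, ← hh v, ← hNG DG hDG v]
    simp only [map_zsmul, map_add, Finsupp.coe_smul, Finsupp.coe_add, Pi.smul_apply,
      Pi.add_apply, smul_eq_mul]
  have hφ0 : ∀ x : Fb, x ≠ 0 → φ x ≠ 0 := fun x hx => (map_ne_zero φ).mpr hx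
  have hredα : RE.redF (Nα f') = r₁ * φ r₂ := hNRα f' hr₁ hr₂
  have hredβ : RE.redF (Nβ f') = r₂ * φ r₁ := hNRβ f' hr₁ hr₂
  obtain ⟨a, g, ha, hg, hag⟩ := hnorm pα Nα hNα hα
    (by rw [hredα]; exact mul_ne_zero hr₁ (hφ0 _ hr₂))
  obtain ⟨a', g', ha', hg', hag'⟩ := hnorm pβ Nβ hNβ hβ
    (by rw [hredβ]; exact mul_ne_zero hr₂ (hφ0 _ hr₁))
  rw [hredα] at hag
  rw [hredβ] at hag'
  obtain ⟨b, hb⟩ := hφk a
  obtain ⟨b', hb'⟩ := hφk a'
  have hb0 : b ≠ 0 := by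
    rintro rfl
    rw [map_zero] at hb
    exact hφ0 _ ((map_ne_zero (algebraMap k Fb)).mpr ha) hb
  have hb'0 : b' ≠ 0 := by
    rintro rfl
    rw [map_zero] at hb'
    exact hφ0 _ ((map_ne_zero (algebraMap k Fb)).mpr ha') hb'
  have haF : algebraMap k Fb a ≠ 0 := (map_ne_zero _).mpr ha
  have ha'F : algebraMap k Fb a' ≠ 0 := (map_ne_zero _).mpr ha'
  -- φ (φ r₁) / r₁ and φ (φ r₂) / r₂
  have hq₁ : φ (φ r₁) * r₁⁻¹ = algebraMap k Fb (b' * a⁻¹) * (φ g' * g⁻¹) ^ m := by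
    have h1 : φ r₂ * φ (φ r₁) = algebraMap k Fb b' * φ g' ^ m := by
      rw [← map_mul, hag', map_mul, hb', map_pow]
    have h2 : φ (φ r₁) = algebraMap k Fb b' * φ g' ^ m * (φ r₂)⁻¹ := by
      rw [← h1, mul_comm (φ r₂), mul_assoc, mul_inv_cancel₀ (hφ0 _ hr₂), mul_one]
    have h3 : r₁⁻¹ = φ r₂ * (algebraMap k Fb a * g ^ m)⁻¹ := by
      rw [← hag, mul_inv, mul_comm r₁⁻¹, ← mul_assoc, mul_inv_cancel₀ (hφ0 _ hr₂), one_mul]
    rw [h2, h3, map_mul, map_inv₀, mul_pow, inv_pow]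
    have := hφ0 _ hr₂
    have := pow_ne_zero m hg
    field_simp
  have hq₂ : φ (φ r₂) * r₂⁻¹ = algebraMap k Fb (b * a'⁻¹) * (φ g * g'⁻¹) ^ m := by
    have h1 : φ r₁ * φ (φ r₂) = algebraMap k Fb b * φ g ^ m := by
      rw [← map_mul, hag, map_mul, hb, map_pow]
    have h2 : φ (φ r₂) = algebraMap k Fb b * φ g ^ m * (φ r₁)⁻¹ := by
      rw [← h1, mul_comm (φ r₁), mul_assoc, mul_inv_cancel₀ (hφ0 _ hr₁), mul_one]
    have h3 : r₂⁻¹ = φ r₁ * (algebraMap k Fb a' * g' ^ m)⁻¹ := by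
      rw [← hag', mul_inv, mul_comm r₂⁻¹, ← mul_assoc, mul_inv_cancel₀ (hφ0 _ hr₁), one_mul]
    rw [h2, h3, map_mul, map_inv₀, mul_pow, inv_pow]
    have := hφ0 _ hr₁
    have := pow_ne_zero m hg'
    field_simp
  -- Step 3: lift the `m`-th roots
  obtain ⟨β₁, hβ₁⟩ := h98_root_res R₁ m hm hroot (b' * a⁻¹)
  obtain ⟨β₂, hβ₂⟩ := h98_root_res R₁ m hm hroot (b * a'⁻¹)
  obtain ⟨Γ, hΓ₁O, hΓ₂O, hΓ₁, hΓ₂⟩ := h98_joint_lift R₁ R₂ hinc
    (algebraMap k Fb β₁ * (φ g' * g⁻¹)) (algebraMap k Fb β₂ * (φ g * g'⁻¹))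
  have hΓ₁m : R₁.redF Γ ^ m = φ (φ r₁) * r₁⁻¹ := by
    rw [hΓ₁, mul_pow, ← map_pow, hβ₁, hq₁]
  have hΓ₂m : R₂.redF Γ ^ m = φ (φ r₂) * r₂⁻¹ := by
    rw [hΓ₂, mul_pow, ← map_pow, hβ₂, hq₂]
  have hΓ₁ne : R₁.redF Γ ≠ 0 := by
    intro h0
    rw [h0, zero_pow hm] at hΓ₁m
    exact mul_ne_zero (hφ0 _ (hφ0 _ hr₁)) (inv_ne_zero hr₁) hΓ₁m.symm
  have hΓ₂ne : R₂.redF Γ ≠ 0 := by
    intro h0
    rw [h0, zero_pow hm] at hΓ₂m
    exact mul_ne_zero (hφ0 _ (hφ0 _ hr₂)) (inv_ne_zero hr₂) hΓ₂m.symm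
  have hΓ0 : Γ ≠ 0 := by
    rintro rfl
    rw [h39_redF_zero] at hΓ₁ne
    exact hΓ₁ne rfl
  -- Step 4: the witness
  have hsgf'0 : sg • f' ≠ 0 := by simpa using hf'0
  have hsgG0 : sg • G ≠ 0 := by simpa using hG0
  have hsgf0 : sg • f ≠ 0 := by simpa using hf
  set H : F := sg • G * G⁻¹ * Γ⁻¹ with hH
  have hH0 : H ≠ 0 := mul_ne_zero (mul_ne_zero hsgG0 (inv_ne_zero hG0)) (inv_ne_zero hΓ0)
  set u : F := sg • f' * f'⁻¹ * (Γ⁻¹) ^ m with hu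
  have hu0 : u ≠ 0 :=
    mul_ne_zero (mul_ne_zero hsgf'0 (inv_ne_zero hf'0)) (pow_ne_zero m (inv_ne_zero hΓ0))
  have hu_eq : u = sg • f * f⁻¹ * H ^ m := by
    rw [hu, hH, hf', smul_mul', smul_pow', mul_pow, mul_pow, inv_pow, inv_pow, mul_inv]
    ring
  obtain ⟨DH, hDH, hDHdeg⟩ := HasPrincipalDivisors.exists_divisor (K := K) H hH0
  refine ⟨DH, H, u, hH0, hu0, hDH, hDHdeg, ?_, ?_, ?_⟩
  · intro v
    have hpow : v.ord (H ^ m) = (m : ℤ) * v.ord H := by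
      have := v.ord_zpow H (m : ℤ)
      simpa using this
    have h1 := SemilinearAut.ord_smul sg (sg⁻¹ • v) f
    rw [smul_inv_smul] at h1
    rw [hu_eq, v.ord_mul (mul_ne_zero hsgf0 (inv_ne_zero hf)) (pow_ne_zero m hH0),
      v.ord_mul hsgf0 (inv_ne_zero hf), v.ord_inv, hpow, h1, ← hD (sg⁻¹ • v), ← hD v, ← hDH v]
    simp only [Finsupp.coe_add, Finsupp.coe_sub, Pi.add_apply, Pi.sub_apply,
      SemilinearAut.divisor_smul_apply]
    ring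
  · -- reduction at `R₁`
    have hf'O : f' ∈ R₁.O := h39_mem_of_redF_ne_zero R₁ hr₁
    have hs : R₁.redF (sg • f') = φ (φ r₁) := hsg₁ f' hf'O
    have hsne : R₁.redF (sg • f') ≠ 0 := by rw [hs]; exact hφ0 _ (hφ0 _ hr₁)
    have hsO : sg • f' ∈ R₁.O := h39_mem_of_redF_ne_zero R₁ hsne
    obtain ⟨hinvO, hinvred⟩ := h39_inv_of_redF_ne_zero R₁ hr₁
    obtain ⟨hΓinvO, hΓinvred⟩ := h39_inv_of_redF_ne_zero R₁ hΓ₁ne
    rw [hu, h39_redF_mul R₁ (R₁.O.mul_mem _ _ hsO hinvO) (R₁.O.pow_mem hΓinvO m),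
      h39_redF_mul R₁ hsO hinvO, h39_redF_pow R₁ hΓinvO, hs, hinvred, hΓinvred, inv_pow, hΓ₁m]
    exact mul_inv_cancel₀ (mul_ne_zero (hφ0 _ (hφ0 _ hr₁)) (inv_ne_zero hr₁))
  · -- reduction at `R₂`
    have hf'O : f' ∈ R₂.O := h39_mem_of_redF_ne_zero R₂ hr₂
    have hs : R₂.redF (sg • f') = φ (φ r₂) := hsg₂ f' hf'O
    have hsne : R₂.redF (sg • f') ≠ 0 := by rw [hs]; exact hφ0 _ (hφ0 _ hr₂)
    have hsO : sg • f' ∈ R₂.O := h39_mem_of_redF_ne_zero R₂ hsne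
    obtain ⟨hinvO, hinvred⟩ := h39_inv_of_redF_ne_zero R₂ hr₂
    obtain ⟨hΓinvO, hΓinvred⟩ := h39_inv_of_redF_ne_zero R₂ hΓ₂ne
    rw [hu, h39_redF_mul R₂ (R₂.O.mul_mem _ _ hsO hinvO) (R₂.O.pow_mem hΓinvO m),
      h39_redF_mul R₂ hsO hinvO, h39_redF_pow R₂ hΓinvO, hs, hinvred, hΓinvred, inv_pow, hΓ₂m]
    exact mul_inv_cancel₀ (mul_ne_zero (hφ0 _ (hφ0 _ hr₂)) (inv_ne_zero hr₂))

/-- **(FT), class form.**  For a degree-zero divisor `D` whose class is killed by `m` and whose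
two push-forwards are principal, the class `sg • [D] - [D]` has a toric witness `(E', u)`:
`m E' = div u`, `red₁ u = 1 = red₂ u`. -/
theorem h98_frob_toric_pic0 [HasPrincipalDivisors K F]
    (R₁ R₂ : h39_RedDatum K F k Fb) (RE : h39_RedDatum K E k Fb)
    (hinc : ¬ R₁.O ≤ R₂.O ∧ ¬ R₂.O ≤ R₁.O)
    (hrank₁ : h39_RankOne R₁.A) (hrank₂ : h39_RankOne R₂.A)
    (m : ℕ) (hm : m ≠ 0) (hroot : ∀ c : K, ∃ d : K, d ^ m = c)
    (hconstE : ∀ g : E, g ≠ 0 → (∀ v : Place K E, v.ord g = 0) → ∃ c : K, g = algebraMap K E c)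
    (pα pβ : Divisor K F →+ Divisor K E) (Nα Nβ : F → E)
    (hNα : ∀ f : F, f ≠ 0 → Nα f ≠ 0 ∧ ∀ D : Divisor K F, (∀ w, D w = w.ord f) →
      ∀ v : Place K E, pα D v = v.ord (Nα f))
    (hNβ : ∀ f : F, f ≠ 0 → Nβ f ≠ 0 ∧ ∀ D : Divisor K F, (∀ w, D w = w.ord f) →
      ∀ v : Place K E, pβ D v = v.ord (Nβ f))
    (φ : Fb →+* Fb) (hφk : ∀ c : k, ∃ c' : k, φ (algebraMap k Fb c) = algebraMap k Fb c')
    (hNRα : ∀ f : F, R₁.redF f ≠ 0 → R₂.redF f ≠ 0 →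
      RE.redF (Nα f) = R₁.redF f * φ (R₂.redF f))
    (hNRβ : ∀ f : F, R₁.redF f ≠ 0 → R₂.redF f ≠ 0 →
      RE.redF (Nβ f) = R₂.redF f * φ (R₁.redF f))
    (sg : SemilinearAut K F)
    (hsg₁ : ∀ f : F, f ∈ R₁.O → R₁.redF (sg • f) = φ (φ (R₁.redF f)))
    (hsg₂ : ∀ f : F, f ∈ R₂.O → R₂.redF (sg • f) = φ (φ (R₂.redF f)))
    (D : Divisor.degZero (K := K) (F := F)) (hx : (m : ℤ) • Pic0.mk D = 0)
    (hα : (pα (D : Divisor K F)).IsPrincipal) (hβ : (pβ (D : Divisor K F)).IsPrincipal) :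
    ∃ (E' : Divisor.degZero (K := K) (F := F)) (u : F), u ≠ 0 ∧
      Pic0.mk E' = sg • Pic0.mk D - Pic0.mk D ∧
      (∀ v : Place K F, (m : ℤ) * (E' : Divisor K F) v = v.ord u) ∧
      R₁.redF u = 1 ∧ R₂.redF u = 1 := by
  have hprin : ((m : ℤ) • D : Divisor.degZero (K := K) (F := F)) ∈
      (Divisor.principal (K := K) (F := F)).addSubgroupOf (Divisor.degZero (K := K) (F := F)) := by
    have h0 : Pic0.mk ((m : ℤ) • D) = 0 := hx
    exact (QuotientAddGroup.eq_zero_iff _).mp h0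
  obtain ⟨f, hf, hfD⟩ := hprin
  have hfD' : ∀ v : Place K F, (m : ℤ) * (D : Divisor K F) v = v.ord f := by
    intro v
    have := hfD v
    simpa using this
  obtain ⟨DH, H, u, hH0, hu0, hDH, hDHdeg, hdiv, hu₁, hu₂⟩ :=
    h98_frob_toric_div R₁ R₂ RE hinc hrank₁ hrank₂ m hm hroot hconstE pα pβ Nα Nβ hNα hNβ φ hφk
      hNRα hNRβ sg hsg₁ hsg₂ (D : Divisor K F) f hf hfD' hα hβ
  have hEdeg : sg • (D : Divisor K F) - (D : Divisor K F) + DH ∈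
      Divisor.degZero (K := K) (F := F) := by
    rw [Divisor.mem_degZero, map_add, map_sub, SemilinearAut.degree_smul, hDHdeg]
    simp
  refine ⟨⟨sg • (D : Divisor K F) - (D : Divisor K F) + DH, hEdeg⟩, u, hu0, ?_, hdiv, hu₁, hu₂⟩
  rw [SemilinearAut.pic0_smul_mk]
  show Pic0.mk _ = Pic0.mk (SemilinearAut.degZeroSMulHom sg D - D)
  refine (QuotientAddGroup.eq).mpr ?_
  refine ⟨H⁻¹, inv_ne_zero hH0, fun v => ?_⟩
  rw [v.ord_inv, ← hDH v]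
  simp
  ring

/-- **(FT), family form**: the conclusion in helper87's toric language for the family
`R : Fin 2 → h39_RedDatum`. -/
theorem h98_frob_toric [HasPrincipalDivisors K F]
    (R : Fin 2 → h39_RedDatum K F k Fb) (RE : h39_RedDatum K E k Fb)
    (hinc : ¬ (R 0).O ≤ (R 1).O ∧ ¬ (R 1).O ≤ (R 0).O)
    (hrank : ∀ i, h39_RankOne (R i).A)
    (m : ℕ) (hm : m ≠ 0) (hroot : ∀ c : K, ∃ d : K, d ^ m = c)
    (hconstE : ∀ g : E, g ≠ 0 → (∀ v : Place K E, v.ord g = 0) → ∃ c : K, g = algebraMap K E c)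
    (pα pβ : Divisor K F →+ Divisor K E) (Nα Nβ : F → E)
    (hNα : ∀ f : F, f ≠ 0 → Nα f ≠ 0 ∧ ∀ D : Divisor K F, (∀ w, D w = w.ord f) →
      ∀ v : Place K E, pα D v = v.ord (Nα f))
    (hNβ : ∀ f : F, f ≠ 0 → Nβ f ≠ 0 ∧ ∀ D : Divisor K F, (∀ w, D w = w.ord f) →
      ∀ v : Place K E, pβ D v = v.ord (Nβ f))
    (φ : Fb →+* Fb) (hφk : ∀ c : k, ∃ c' : k, φ (algebraMap k Fb c) = algebraMap k Fb c')
    (hNRα : ∀ f : F, (R 0).redF f ≠ 0 → (R 1).redF f ≠ 0 →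
      RE.redF (Nα f) = (R 0).redF f * φ ((R 1).redF f))
    (hNRβ : ∀ f : F, (R 0).redF f ≠ 0 → (R 1).redF f ≠ 0 →
      RE.redF (Nβ f) = (R 1).redF f * φ ((R 0).redF f))
    (sg : SemilinearAut K F)
    (hsg : ∀ i (f : F), f ∈ (R i).O → (R i).redF (sg • f) = φ (φ ((R i).redF f)))
    (D : Divisor.degZero (K := K) (F := F)) (hx : (m : ℤ) • Pic0.mk D = 0)
    (hα : (pα (D : Divisor K F)).IsPrincipal) (hβ : (pβ (D : Divisor K F)).IsPrincipal) :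
    h87_IsToric (fun i => (R i).O) (fun i => (R i).red) m (sg • Pic0.mk D - Pic0.mk D) := by
  obtain ⟨E', u, hu0, hcl, hdiv, hu₁, hu₂⟩ :=
    h98_frob_toric_pic0 (R 0) (R 1) RE hinc (hrank 0) (hrank 1) m hm hroot hconstE pα pβ Nα Nβ
      hNα hNβ φ hφk hNRα hNRβ sg (hsg 0) (hsg 1) D hx hα hβ
  refine ⟨E', u, hu0, hcl, hdiv, ?_⟩
  have key : ∀ i, (R i).redF u = 1 → ∃ h : u ∈ (R i).O, (R i).red ⟨u, h⟩ = 1 := by
    intro i hi
    have h : u ∈ (R i).O := h39_mem_of_redF_ne_zero (R i) (by rw [hi]; exact one_ne_zero)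
    exact ⟨h, by rw [← h39_RedDatum.redF_of_mem (R i) h, hi]⟩
  intro i
  fin_cases i
  · exact key 0 hu₁
  · exact key 1 hu₂

end main

end Fermat.Agent.S35

end
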