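/-
S35 (helper29): (B) at level `M q` from the two norm-reduction identities (NR).

`h29_BProp_of_NR` : `h29_BProp M q hqM` from

  `red_M (N_α f) = red₁ f * ψ (red₂ f)`,   `red_M (N_β f) = red₂ f * ψ (red₁ f)`

(`f` a unit at both reductions of `F(M q)`, `ψ` the coefficientwise Frobenius), by helper98's
generic (FT) `h98_frob_toric` applied to the pair `h60_pair M q hqM A hA`, the level-`M` reduction
datum `h39_modRed M hqM A hA` and `sg := arithmeticGalois (s * s)`.
-/
import Mathlib
import Fermat.Agent.S35.h98_FrobToric
import Fermat.Agent.S35.h60_ToricBridge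
import Fermat.Agent.S35.h29_PullNew
import Fermat.Agent.S34.h60_PairFrob
import Fermat.Agent.S34.h60_Frame0
import Fermat.Agent.S34.h22_LatMqFinal
import Fermat.Agent.S27.h64_SpecRed
import Fermat.Agent.S18.h54_ModLevel
import Fermat.Agent.S18.h39_Mod

set_option autoImplicit false
set_option synthInstance.maxHeartbeats 400000

noncomputable section

open ModularCurve AlgebraicCurve

namespace Fermat.Agent.S35

open Fermat.Agent.S34 Fermat.Agent.S18 Fermat.Agent.S37 Fermat.Agent.S24 Fermat.Agent.S27

local notation "Qb" => AlgebraicClosure ℚ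

/-- **(B) from the norm reductions.** -/
theorem h29_BProp_of_NR (M q : ℕ) [NeZero M] [NeZero q] [Fact q.Prime] (hqM : ¬ q ∣ M)
    (hNRα : ∀ (A : ValuationSubring Qb) (hA : A.LiesOverPrime q)
      [CharP (IsLocalRing.ResidueField A) q] (f : ↥(modularFunctionFieldBar (M * q))),
      (h60_R1 M q hqM A hA).redF f ≠ 0 → (h60_R2 M q hqM A hA).redF f ≠ 0 →
      (h39_modRed M hqM A hA).redF
          (@Algebra.norm (modularFunctionFieldBar M) (modularFunctionFieldBar (M * q)) _ _
            (algebraAlong (heckeAlphaBar Qb M q)) f)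
        = (h60_R1 M q hqM A hA).redF f *
          h60_psi M (IsLocalRing.ResidueField A) (frobenius (IsLocalRing.ResidueField A) q)
            ((h60_R2 M q hqM A hA).redF f))
    (hNRβ : ∀ (A : ValuationSubring Qb) (hA : A.LiesOverPrime q)
      [CharP (IsLocalRing.ResidueField A) q] (f : ↥(modularFunctionFieldBar (M * q))),
      (h60_R1 M q hqM A hA).redF f ≠ 0 → (h60_R2 M q hqM A hA).redF f ≠ 0 →
      (h39_modRed M hqM A hA).redF
          (@Algebra.norm (modularFunctionFieldBar M) (modularFunctionFieldBar (M * q)) _ _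
            (algebraAlong (heckeBetaBar Qb M q)) f)
        = (h60_R2 M q hqM A hA).redF f *
          h60_psi M (IsLocalRing.ResidueField A) (frobenius (IsLocalRing.ResidueField A) q)
            ((h60_R1 M q hqM A hA).redF f)) :
    h29_BProp M q hqM := by
  intro A hA s hs p hp hpq n x hx hnew
  have hk2 : CharP (IsLocalRing.ResidueField A) q := h19_residueField_charP A q hA
  haveI := h88_hasPrincipalDivisors (M * q)
  rw [h60_toric_iff]
  obtain ⟨D, rfl, hDnew⟩ := hnew
  have hpα := h67_divNew_alpha hDnew (h88_alphaIntegral M q)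
  have hpβ := h67_divNew_beta hDnew (h88_betaIntegral M q)
  have hm : p ^ n ≠ 0 := pow_ne_zero n hp.ne_zero
  have hroot : ∀ c : Qb, ∃ d : Qb, d ^ (p ^ n) = c := fun c =>
    IsAlgClosed.exists_pow_nat_eq c (Nat.pos_of_ne_zero hm)
  have hxz : ((p ^ n : ℕ) : ℤ) • Pic0.mk D = 0 := by
    rw [natCast_zsmul]
    exact hx
  have hrank : ∀ i, h39_RankOne (h60_pair M q hqM A hA i).A := by
    intro i
    fin_cases i
    · show h39_RankOne (h60_R1 M q hqM A hA).A
      rw [h60_R1_A]
      exact h64_rankOne_h39 (Fact.out : q.Prime) A hA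
    · show h39_RankOne (h60_R2 M q hqM A hA).A
      rw [h60_R2_A]
      exact h64_rankOne_h39 (Fact.out : q.Prime) A hA
  have hconstE : ∀ g : ↥(modularFunctionFieldBar M), g ≠ 0 →
      (∀ v : Place Qb ↥(modularFunctionFieldBar M), v.ord g = 0) →
      ∃ c : Qb, g = algebraMap Qb ↥(modularFunctionFieldBar M) c := fun g _ hg =>
    h64_const_of_ord_eq_zero (h54_isChart_jbar M) g hg
  have hNα : ∀ f : ↥(modularFunctionFieldBar (M * q)), f ≠ 0 →
      @Algebra.norm (modularFunctionFieldBar M) (modularFunctionFieldBar (M * q)) _ _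
          (algebraAlong (heckeAlphaBar Qb M q)) f ≠ 0 ∧
        ∀ D : Divisor Qb ↥(modularFunctionFieldBar (M * q)), (∀ w, D w = w.ord f) →
          ∀ v : Place Qb ↥(modularFunctionFieldBar M),
            Divisor.pushforwardAlong (heckeAlphaBar Qb M q) (h88_alphaIntegral M q) D v
              = v.ord (@Algebra.norm (modularFunctionFieldBar M)
                  (modularFunctionFieldBar (M * q)) _ _
                  (algebraAlong (heckeAlphaBar Qb M q)) f) := by
    intro f hf
    letI := algebraAlong (heckeAlphaBar Qb M q)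
    haveI := isScalarTower_along (heckeAlphaBar Qb M q)
    haveI : Module.Finite (modularFunctionFieldBar M) (modularFunctionFieldBar (M * q)) :=
      h88_finiteAlong_alpha M q
    exact ⟨Algebra.norm_ne_zero_iff.mpr hf, fun D hD v => h87_NF_alpha M q f hf D hD v⟩
  have hNβ : ∀ f : ↥(modularFunctionFieldBar (M * q)), f ≠ 0 →
      @Algebra.norm (modularFunctionFieldBar M) (modularFunctionFieldBar (M * q)) _ _
          (algebraAlong (heckeBetaBar Qb M q)) f ≠ 0 ∧
        ∀ D : Divisor Qb ↥(modularFunctionFieldBar (M * q)), (∀ w, D w = w.ord f) →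
          ∀ v : Place Qb ↥(modularFunctionFieldBar M),
            Divisor.pushforwardAlong (heckeBetaBar Qb M q) (h88_betaIntegral M q) D v
              = v.ord (@Algebra.norm (modularFunctionFieldBar M)
                  (modularFunctionFieldBar (M * q)) _ _
                  (algebraAlong (heckeBetaBar Qb M q)) f) := by
    intro f hf
    letI := algebraAlong (heckeBetaBar Qb M q)
    haveI := isScalarTower_along (heckeBetaBar Qb M q)
    haveI : Module.Finite (modularFunctionFieldBar M) (modularFunctionFieldBar (M * q)) :=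
      h88_finiteAlong_beta M q
    exact ⟨Algebra.norm_ne_zero_iff.mpr hf, fun D hD v => h29_NF_beta M q f hf D hD v⟩
  have hφk : ∀ c : IsLocalRing.ResidueField A, ∃ c' : IsLocalRing.ResidueField A,
      h60_psi M (IsLocalRing.ResidueField A) (frobenius (IsLocalRing.ResidueField A) q)
          (algebraMap (IsLocalRing.ResidueField A)
            ↥(modularFunctionFieldFullC (IsLocalRing.ResidueField A) M) c)
        = algebraMap (IsLocalRing.ResidueField A)
            ↥(modularFunctionFieldFullC (IsLocalRing.ResidueField A) M) c' := fun c =>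
    ⟨_, h60_psi_algebraMap M (IsLocalRing.ResidueField A) _ c⟩
  have hsg : ∀ i (f : ↥(modularFunctionFieldBar (M * q))), f ∈ (h60_pair M q hqM A hA i).O →
      (h60_pair M q hqM A hA i).redF
          (arithmeticGalois (modularFunctionFieldFull (M * q)) (s * s) • f)
        = h60_psi M (IsLocalRing.ResidueField A) (frobenius (IsLocalRing.ResidueField A) q)
            (h60_psi M (IsLocalRing.ResidueField A) (frobenius (IsLocalRing.ResidueField A) q)
              ((h60_pair M q hqM A hA i).redF f)) := by
    intro i f hf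
    have hmul : arithmeticGalois (modularFunctionFieldFull (M * q)) (s * s) • f
        = arithmeticRingAut (modularFunctionFieldFull (M * q)) s
            (arithmeticRingAut (modularFunctionFieldFull (M * q)) s f) := by
      rw [map_mul, mul_smul]
      rfl
    obtain ⟨h1, h2⟩ := h60_pair_frob M q hqM A hA s hs i f hf
    obtain ⟨-, h4⟩ := h60_pair_frob M q hqM A hA s hs i _ h1
    rw [hmul, h4, h2]
  have key := h98_frob_toric (h60_pair M q hqM A hA) (h39_modRed M hqM A hA)
    (h60_not_le M q hqM A hA) hrank (p ^ n) hm hroot hconstE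
    (Divisor.pushforwardAlong (heckeAlphaBar Qb M q) (h88_alphaIntegral M q))
    (Divisor.pushforwardAlong (heckeBetaBar Qb M q) (h88_betaIntegral M q))
    (fun f => @Algebra.norm (modularFunctionFieldBar M) (modularFunctionFieldBar (M * q)) _ _
      (algebraAlong (heckeAlphaBar Qb M q)) f)
    (fun f => @Algebra.norm (modularFunctionFieldBar M) (modularFunctionFieldBar (M * q)) _ _
      (algebraAlong (heckeBetaBar Qb M q)) f)
    hNα hNβ
    (h60_psi M (IsLocalRing.ResidueField A) (frobenius (IsLocalRing.ResidueField A) q)) hφk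
    (hNRα A hA) (hNRβ A hA)
    (arithmeticGalois (modularFunctionFieldFull (M * q)) (s * s)) hsg D hxz hpα hpβ
  rw [← mul_smul, galois_smul_pic0_def]
  exact key

end Fermat.Agent.S35

end
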