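import Mathlib
import Fermat.Agent.S35.h60_E1Mod
import Fermat.Agent.S34.h17_IntModInst
import Fermat.Agent.S34.h31_Lead
import Fermat.Agent.S34.h31_YChart

/-!
# S35 (E1), closed form (helper60)

`h60_E1Prop` : at every charted level `M q` (`q ∤ M`, `5 ≤ q ∨ 2 ∣ M ∨ 3 ∣ M`), every Frobenius
element `s` at a valuation ring over `q` satisfies `s² = q²` on the toric classes of exponent
prime to `q` — the input (E1) of `h29_S35_of_E1_B`.
-/

set_option autoImplicit false
set_option synthInstance.maxHeartbeats 400000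

noncomputable section

open ModularCurve AlgebraicCurve IntermediateField

namespace Fermat.Agent.S35

open Fermat.Agent.S34 Fermat.Agent.S18 Fermat.Agent.S37 Fermat.Agent.S24 Fermat.Agent.S27

local notation "Qb" => AlgebraicClosure ℚ

/-- **(E1)** at the charted levels. -/
theorem h60_E1Prop (M q : ℕ) [NeZero M] [NeZero q] [Fact q.Prime] (hqM : ¬ q ∣ M)
    (hch : 5 ≤ q ∨ 2 ∣ M ∨ 3 ∣ M) : h29_E1Prop M q hqM :=
  h60_E1Prop_of_rows M q hqM hch
    (fun A hA => h31_ychart M q hqM A hA hch)
    (fun A hA _ _ hPinf hP0 => h17_int_mod M q hqM A hA hch hPinf hP0)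
    (fun A hA _ _ hPinf hP0 => h31_lead M q hqM A hA hch hPinf hP0)

end Fermat.Agent.S35

end
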