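import Mathlib
import Fermat.Agent.S35.h19_SeriesRed
import Fermat.Agent.S37.h49_K1Final
import Fermat.Agent.S37.h87_Decomp
import Fermat.Agent.S18.h54_ModDefs
import Fermat.Agent.S18.h19_ResField

/-!
# S35 (geometric half (B)), helper27: the norm reduction at a prime `q ∥ M q`, function level

Setting: `F = F(M q)` over `Q̄`, `α : F(M) → F(M q)` the degeneracy map (`heckeAlphaBar`), `w` the
swap (`h49_swapF`), `A` a valuation ring of `Q̄` over `q` with residue field `k`, Gauss ring =
ratios of `A`-integral `q`-series with nonzero reduced denominator (`h19_InO`), reduction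
`h19_redFun`.

* `h27_norm_identity` : `(N_α f)(q^q) = f(q^q) ∏_{b<q} (w f)(ζ^b q)` for every `f ∈ F(M q)`
  (`h49_norm_along` with the `q + 1` expansion homomorphisms `h49_sigma`);
* `h27_norm_red` : if `f` and `w f` are units of the Gauss ring then `N_α f` lies in the Gauss
  ring of level `M` and `red (N_α f) = red f · Frob (red (w f))`, `Frob` the coefficientwise
  Frobenius (series form: helper19's `h19_norm_red_series`).
-/

set_option autoImplicit false
set_option synthInstance.maxHeartbeats 400000
set_option linter.style.haveILetI false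

noncomputable section

open ModularCurve AlgebraicCurve IntermediateField HahnSeries

namespace Fermat.Agent.S35

open Fermat.Agent.S24 Fermat.Agent.S18 Fermat.Agent.S37

local notation "Qb" => AlgebraicClosure ℚ

/-- The norm along `α` as a product over the `q + 1` expansion homomorphisms. -/
theorem h27_norm_identity (M : ℕ) [NeZero M] (q : ℕ) [NeZero q] (hq : q.Prime) (hqM : ¬ q ∣ M)
    {a b : ℤ} (hab : (q : ℤ) * a - (M : ℤ) * b = 1) (ζ : Qbˣ) (hζ : IsPrimitiveRoot ζ q)
    (f : modularFunctionFieldBar (M * q)) :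
    letI := algebraAlong (heckeAlphaBar Qb M q)
    qExpand Qb q
        ((Algebra.norm (modularFunctionFieldBar M) f : modularFunctionFieldBar M) :
          LaurentSeries Qb)
      = qExpand Qb q (f : LaurentSeries Qb) *
          ∏ c : Fin q, h87_twist (ζ ^ (c : ℕ))
            ((h49_swapF hab h78_iota hq f : modularFunctionFieldBar (M * q)) :
              LaurentSeries Qb) := by
  have key := h49_norm_along (heckeAlphaBar Qb M q) (h19_DEG M q hq hqM) (h49_sigma hab hq ζ)
    (h49_sigma_injective hab hq ζ hζ)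
    (fun x x' e => (h49_sigma_alpha hab hq ζ hζ.pow_eq_one x e).trans
      (h49_sigma_alpha hab hq ζ hζ.pow_eq_one x' e).symm) f
  rw [h49_sigma_alpha hab hq ζ hζ.pow_eq_one, h49_sigma_none] at key
  rw [key]
  congr 1

/-- The reduction of the zero series is zero. -/
theorem h27_redFun_eq_zero {K : Type*} [Field K] {A : ValuationSubring K} (g : LaurentSeries K)
    (hg : h19_InO A g) (h0 : g = 0) : h19_redFun g hg = 0 := by
  subst h0
  exact h19_redFun_zero hg

/-- A unit of the Gauss ring (both it and its inverse are in the Gauss ring) has nonzero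
reduction. -/
theorem h27_redFun_ne_zero_of_inv {K : Type*} [Field K] {A : ValuationSubring K}
    (g g' : LaurentSeries K) (hg : h19_InO A g) (hg' : h19_InO A g') (h1 : g * g' = 1) :
    h19_redFun g hg ≠ 0 := by
  intro h0
  have h11 : h19_InO A (g * g') := by rw [h1]; exact h19_InO_one
  have hmul := h19_redFun_mul g g' hg hg' h11
  have hone : h19_redFun (g * g') h11 = 1 := by
    have : ∀ (x : LaurentSeries K) (hx : h19_InO A x), x = 1 → h19_redFun x hx = 1 := by
      rintro x hx rfl
      exact h19_redFun_one hx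
    exact this _ h11 h1
  rw [hone, h0, zero_mul] at hmul
  exact one_ne_zero hmul

/-- The coercion of a constant multiple. -/
theorem h27_coe_const_mul (M : ℕ) [NeZero M] (c : Qb) (x : modularFunctionFieldBar M) :
    ((algebraMap Qb (modularFunctionFieldBar M) c * x : modularFunctionFieldBar M) :
      LaurentSeries Qb) = algebraMap Qb (LaurentSeries Qb) c * (x : LaurentSeries Qb) := rfl

/-- **Norm reduction at `q ∥ M q`.**  If `f` and `w f` are units of the Gauss ring of `F(M q)`,
then `N_α f` is in the Gauss ring of `F(M)` and `red (N_α f) = red f · Frob (red (w f))`. -/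
theorem h27_norm_red (M : ℕ) [NeZero M] (q : ℕ) [NeZero q] [Fact q.Prime] (hqM : ¬ q ∣ M)
    (A : ValuationSubring Qb) [CharP (IsLocalRing.ResidueField A) q]
    {RM : h39_RedDatum Qb ↥(modularFunctionFieldBar M) (IsLocalRing.ResidueField A)
      ↥(modularFunctionFieldFullC (IsLocalRing.ResidueField A) M)}
    (hRM : h54_IsModRed M A RM)
    {a b : ℤ} (hab : (q : ℤ) * a - (M : ℤ) * b = 1)
    (f : modularFunctionFieldBar (M * q))
    (hf : h19_InO A (f : LaurentSeries Qb))
    (hg : h19_InO A ((h49_swapF hab h78_iota (Fact.out : q.Prime) f :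
      modularFunctionFieldBar (M * q)) : LaurentSeries Qb))
    (hfne : h19_redFun _ hf ≠ 0) (hgne : h19_redFun _ hg ≠ 0) :
    letI := algebraAlong (heckeAlphaBar Qb M q)
    ∃ h : h19_InO A ((Algebra.norm (modularFunctionFieldBar M) f : modularFunctionFieldBar M) :
        LaurentSeries Qb),
      h19_redFun _ h = h19_redFun _ hf *
        coeffMap (frobenius (IsLocalRing.ResidueField A) q) (h19_redFun _ hg) := by
  letI := algebraAlong (heckeAlphaBar Qb M q)
  have hq : q.Prime := Fact.out
  obtain ⟨ζA, -, hζ⟩ := h87_exists_zeta A q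
  set ζ : Qbˣ := Units.map ((A.subtype : A →+* Qb) : A →* Qb) ζA with hζdef
  have hid := h27_norm_identity M q hq hqM hab ζ hζ f
  have hf0 : f ≠ 0 := by
    intro h0
    exact hfne (h27_redFun_eq_zero _ hf (by rw [h0]; rfl))
  have hfin : Module.finrank (modularFunctionFieldBar M) (modularFunctionFieldBar (M * q))
      = q + 1 := h19_DEG M q hq hqM
  haveI : FiniteDimensional (modularFunctionFieldBar M) (modularFunctionFieldBar (M * q)) :=
    Module.finite_of_finrank_pos (by rw [hfin]; omega)
  have hN0 : Algebra.norm (modularFunctionFieldBar M) f ≠ 0 := by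
    intro h0
    exact hf0 (Algebra.norm_eq_zero_iff.mp h0)
  obtain ⟨Nf, hNf⟩ : ∃ x : modularFunctionFieldBar M,
      x = Algebra.norm (modularFunctionFieldBar M) f := ⟨_, rfl⟩
  rw [← hNf] at hid hN0 ⊢
  obtain ⟨c, hc0, hcO, hcinvO⟩ := RM.exists_scale Nf hN0
  obtain ⟨y₁, y₂, hy₂, hy⟩ := (hRM.mem_iff _).mp hcO
  obtain ⟨z₁, z₂, hz₂, hz⟩ := (hRM.mem_iff _).mp hcinvO
  rw [h27_coe_const_mul] at hy
  have hcN : h19_InO A (algebraMap Qb (LaurentSeries Qb) c * (Nf : LaurentSeries Qb)) :=
    ⟨y₁, y₂, hy₂, hy⟩
  have hcNinv : h19_InO A (((algebraMap Qb (modularFunctionFieldBar M) c * Nf)⁻¹ :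
      modularFunctionFieldBar M) : LaurentSeries Qb) := ⟨z₁, z₂, hz₂, hz⟩
  have hne : algebraMap Qb (modularFunctionFieldBar M) c * Nf ≠ 0 :=
    mul_ne_zero ((map_ne_zero _).mpr hc0) hN0
  have h1 : ((algebraMap Qb (modularFunctionFieldBar M) c * Nf : modularFunctionFieldBar M) :
      LaurentSeries Qb) * (((algebraMap Qb (modularFunctionFieldBar M) c * Nf)⁻¹ :
      modularFunctionFieldBar M) : LaurentSeries Qb) = 1 := by
    rw [← IntermediateField.coe_mul, mul_inv_cancel₀ hne]
    rfl
  rw [h27_coe_const_mul] at h1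
  have hcNne : h19_redFun _ hcN ≠ 0 := h27_redFun_ne_zero_of_inv _ _ hcN hcNinv h1
  exact h19_norm_red_series q ζ hζ.pow_eq_one hid hf hg hfne hgne c hcN hcNne

end Fermat.Agent.S35

end
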