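import Mathlib
import Fermat.Agent.S35.h29_GeomIface
import Fermat.Agent.S34.h60_Pair
import Fermat.Agent.S34.h49_SwapInv

/-!
# S35: the toric predicate `h29_Toric` in the language of the pair `h60_pair = ![R₁, R₂]`

`h29_toric_iff_pair` : `h29_Toric M q hqM A hA m y` holds iff `y` has a representative `E` with
`m E = div u`, where `u` lies in both valuation rings of the pair with reduction `1`
(the family form used by `h87_unipGeom_of_family`).
-/

set_option autoImplicit false

noncomputable section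

open ModularCurve AlgebraicCurve

namespace Fermat.Agent.S35

open Fermat.Agent.S34 Fermat.Agent.S37 Fermat.Agent.S24 Fermat.Agent.S18

local notation "Qb" => AlgebraicClosure ℚ

variable (M q : ℕ) [NeZero M] [NeZero q] [hq : Fact q.Prime] (hqM : ¬ q ∣ M)
  (A : ValuationSubring Qb) (hA : A.LiesOverPrime q)

/-- Every swap `h49_swapF` at level `M q` is `h60_w`. -/
theorem h29_swapF_eq_w {a b : ℤ} (h : (q : ℤ) * a - (M : ℤ) * b = 1) :
    h49_swapF h h78_iota hq.out = h60_w M q hqM := by
  unfold h60_w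
  exact h49_swapF_indep _ h78_iota _ h h78_iota

/-- `h29_Toric` in the language of the pair `![R₁, R₂]`. -/
theorem h29_toric_iff_pair (m : ℕ) (y : JZero (M * q)) :
    h29_Toric M q hqM A hA m y ↔
      ∃ (E : Divisor.degZero (K := Qb) (F := modularFunctionFieldBar (M * q)))
        (u : modularFunctionFieldBar (M * q)),
        u ≠ 0 ∧ Pic0.mk E = y ∧
        (∀ v : Place Qb (modularFunctionFieldBar (M * q)),
          (m : ℤ) * (E : Divisor Qb (modularFunctionFieldBar (M * q))) v = v.ord u) ∧
        ∀ i : Fin 2, u ∈ (h60_pair M q hqM A hA i).O ∧ (h60_pair M q hqM A hA i).redF u = 1 := by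
  constructor
  · rintro ⟨E, u, hu, hE, hdiv, h1, h2⟩
    refine ⟨E, u, hu, hE, hdiv, fun i => ?_⟩
    fin_cases i
    · exact h1
    · obtain ⟨a, b, hab⟩ := h49_exists_bezout
        ((Nat.Prime.coprime_iff_not_dvd hq.out).mpr hqM)
      have h3 := h2 a b hab
      rw [h29_swapF_eq_w M q hqM hab] at h3
      refine ⟨(h60_R2_mem_iff M q hqM A hA u).2 h3.1, ?_⟩
      show (h60_R2 M q hqM A hA).redF u = 1
      rw [h60_R2_redF]
      exact h3.2
  · rintro ⟨E, u, hu, hE, hdiv, h⟩
    refine ⟨E, u, hu, hE, hdiv, h 0, fun a b hab => ?_⟩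
    rw [h29_swapF_eq_w M q hqM hab]
    have h1 := h 1
    refine ⟨(h60_R2_mem_iff M q hqM A hA u).1 h1.1, ?_⟩
    have h2 : (h60_R2 M q hqM A hA).redF u = 1 := h1.2
    rw [h60_R2_redF] at h2
    exact h2

end Fermat.Agent.S35

end
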