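import Mathlib
import Fermat.Agent.S35.h29_GeomIface
import Fermat.Agent.S35.h29_ToricPair
import Fermat.Agent.S34.h60_PairFrob
import Fermat.Agent.S35.h27_NormFun
import Fermat.Agent.S35.h49_NormBC
import Fermat.Agent.S37.h87_RedData
import Fermat.Agent.S37.h70_LVL
import Fermat.Agent.S18.h64_RankOneW
import Fermat.Agent.S18.h19_ResField
import Fermat.Agent.S18.h54_Mod

/-!
# S35, row (B), modular inputs of the generic `h98_frob_toric_pic0`

At `R₁ := h60_R1`, `R₂ := h60_R2`, `RE :=` any level-`M` datum with `h54_IsModRed`,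
`φ := h60_psi (frobenius)`:

* (NR) `h98_NR_alpha`, `h98_NR_beta` : the norm reductions (from `h27_norm_red`,
  `h49_norm_beta_eq`);
* `h98_sq_R1`, `h98_sq_R2` : the square of a Frobenius element acts on `redᵢ` by `φ ∘ φ`
  (from `h60_R1_frob`, `h60_R2_frob`).
-/

set_option autoImplicit false
set_option synthInstance.maxHeartbeats 400000
set_option linter.style.haveILetI false

noncomputable section

open ModularCurve AlgebraicCurve IntermediateField

namespace Fermat.Agent.S35

open Fermat.Agent.S34 Fermat.Agent.S18 Fermat.Agent.S37 Fermat.Agent.S24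

local notation "Qb" => AlgebraicClosure ℚ

section BGlue

variable (M q : ℕ) [NeZero M] [NeZero q] [hq : Fact q.Prime] (hqM : ¬ q ∣ M)
  (A : ValuationSubring Qb) (hA : A.LiesOverPrime q)

/-- `red₁` in the series language of `h19_redFun`. -/
theorem h98_R1_redF_coe (f : ↥(modularFunctionFieldBar (M * q)))
    (hf : h19_InO A (f : LaurentSeries Qb)) :
    (((h60_R1 M q hqM A hA).redF f :
        ↥(modularFunctionFieldFullC (IsLocalRing.ResidueField A) M)) :
          LaurentSeries (IsLocalRing.ResidueField A)) = h19_redFun (f : LaurentSeries Qb) hf := by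
  have hfO : f ∈ (h60_R1 M q hqM A hA).O := (h60_R1_mem_iff M q hqM A hA f).mpr hf
  rw [(h60_R1 M q hqM A hA).redF_of_mem hfO]
  obtain ⟨y₁, y₂, hy, h⟩ := hf
  exact (h19_redFun_eq _ _ y₁ y₂ hy h _ (h60_R1_red_eq M q hqM A hA f hfO y₁ y₂ h)).symm

omit [NeZero q] hq in
/-- The reduction of a level-`M` datum in the series language of `h19_redFun`. -/
theorem h98_RM_redF_coe
    {RM : h39_RedDatum Qb ↥(modularFunctionFieldBar M) (IsLocalRing.ResidueField A)
      ↥(modularFunctionFieldFullC (IsLocalRing.ResidueField A) M)}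
    (hRM : h54_IsModRed M A RM) (g : ↥(modularFunctionFieldBar M))
    (hg : h19_InO A (g : LaurentSeries Qb)) :
    ((RM.redF g : ↥(modularFunctionFieldFullC (IsLocalRing.ResidueField A) M)) :
          LaurentSeries (IsLocalRing.ResidueField A)) = h19_redFun (g : LaurentSeries Qb) hg := by
  have hgO : g ∈ RM.O := (hRM.mem_iff g).mpr hg
  rw [RM.redF_of_mem hgO]
  obtain ⟨y₁, y₂, hy, h⟩ := hg
  exact (h19_redFun_eq _ _ y₁ y₂ hy h _ (hRM.red_eq g hgO y₁ y₂ h)).symm

/-- **(NR) for `α`**: `red_M (N_α f) = red₁ f · Frob (red₂ f)` for `f` a unit at both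
valuations. -/
theorem h98_NR_alpha [CharP (IsLocalRing.ResidueField A) q]
    {RM : h39_RedDatum Qb ↥(modularFunctionFieldBar M) (IsLocalRing.ResidueField A)
      ↥(modularFunctionFieldFullC (IsLocalRing.ResidueField A) M)}
    (hRM : h54_IsModRed M A RM) (f : ↥(modularFunctionFieldBar (M * q)))
    (h1 : (h60_R1 M q hqM A hA).redF f ≠ 0) (h2 : (h60_R2 M q hqM A hA).redF f ≠ 0) :
    RM.redF (@Algebra.norm (modularFunctionFieldBar M) (modularFunctionFieldBar (M * q)) _ _
        (algebraAlong (heckeAlphaBar Qb M q)) f)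
      = (h60_R1 M q hqM A hA).redF f *
          h60_psi M (IsLocalRing.ResidueField A) (frobenius (IsLocalRing.ResidueField A) q)
            ((h60_R2 M q hqM A hA).redF f) := by
  obtain ⟨a, b, hab⟩ := h49_exists_bezout ((Nat.Prime.coprime_iff_not_dvd hq.out).mpr hqM)
  have hw : h49_swapF hab h78_iota hq.out = h60_w M q hqM := h29_swapF_eq_w M q hqM hab
  have hfO : f ∈ (h60_R1 M q hqM A hA).O := h39_mem_of_redF_ne_zero _ h1
  have hf : h19_InO A (f : LaurentSeries Qb) := (h60_R1_mem_iff M q hqM A hA f).mp hfO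
  have h2' : (h60_R1 M q hqM A hA).redF (h60_w M q hqM f) ≠ 0 := by
    rw [← h60_R2_redF]; exact h2
  have hgO : h60_w M q hqM f ∈ (h60_R1 M q hqM A hA).O := h39_mem_of_redF_ne_zero _ h2'
  have hg : h19_InO A ((h49_swapF hab h78_iota (Fact.out : q.Prime) f :
      modularFunctionFieldBar (M * q)) : LaurentSeries Qb) := by
    have : h49_swapF hab h78_iota (Fact.out : q.Prime) f = h60_w M q hqM f := by
      rw [← hw]
    rw [this]
    exact (h60_R1_mem_iff M q hqM A hA _).mp hgO
  have e1 := h98_R1_redF_coe M q hqM A hA f hf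
  have e2 : (((h60_R1 M q hqM A hA).redF (h60_w M q hqM f) :
        ↥(modularFunctionFieldFullC (IsLocalRing.ResidueField A) M)) :
          LaurentSeries (IsLocalRing.ResidueField A)) = h19_redFun _ hg := by
    have : h60_w M q hqM f = h49_swapF hab h78_iota (Fact.out : q.Prime) f := by
      rw [← hw]
    rw [this]
    exact h98_R1_redF_coe M q hqM A hA _ hg
  have hfne : h19_redFun _ hf ≠ 0 := by
    rw [← e1]
    intro h0
    exact h1 (Subtype.ext h0)
  have hgne : h19_redFun _ hg ≠ 0 := by
    rw [← e2]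
    intro h0
    exact h2' (Subtype.ext h0)
  obtain ⟨hN, hNeq⟩ := h27_norm_red M q hqM A hRM hab f hf hg hfne hgne
  apply Subtype.ext
  rw [h98_RM_redF_coe M A hRM _ hN, hNeq, h60_R2_redF, IntermediateField.coe_mul, h60_coe_psi,
    e1, e2]

/-- **(NR) for `β`**: `red_M (N_β f) = red₂ f · Frob (red₁ f)`. -/
theorem h98_NR_beta [CharP (IsLocalRing.ResidueField A) q]
    {RM : h39_RedDatum Qb ↥(modularFunctionFieldBar M) (IsLocalRing.ResidueField A)
      ↥(modularFunctionFieldFullC (IsLocalRing.ResidueField A) M)}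
    (hRM : h54_IsModRed M A RM) (f : ↥(modularFunctionFieldBar (M * q)))
    (h1 : (h60_R1 M q hqM A hA).redF f ≠ 0) (h2 : (h60_R2 M q hqM A hA).redF f ≠ 0) :
    RM.redF (@Algebra.norm (modularFunctionFieldBar M) (modularFunctionFieldBar (M * q)) _ _
        (algebraAlong (heckeBetaBar Qb M q)) f)
      = (h60_R2 M q hqM A hA).redF f *
          h60_psi M (IsLocalRing.ResidueField A) (frobenius (IsLocalRing.ResidueField A) q)
            ((h60_R1 M q hqM A hA).redF f) := by
  obtain ⟨a, b, hab⟩ := h49_exists_bezout ((Nat.Prime.coprime_iff_not_dvd hq.out).mpr hqM)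
  have hw : h49_swapF hab h78_iota hq.out = h60_w M q hqM := h29_swapF_eq_w M q hqM hab
  rw [h49_norm_beta_eq M q hq.out hab f, hw]
  have h1' : (h60_R1 M q hqM A hA).redF (h60_w M q hqM f) ≠ 0 := by
    rw [← h60_R2_redF]; exact h2
  have h2' : (h60_R2 M q hqM A hA).redF (h60_w M q hqM f) ≠ 0 := by
    rw [h60_R2_redF, h60_w_w]; exact h1
  rw [h98_NR_alpha M q hqM A hA hRM (h60_w M q hqM f) h1' h2', h60_R2_redF M q hqM A hA
    (h60_w M q hqM f), h60_w_w, ← h60_R2_redF]

/-- The square of a Frobenius element acts on `red₁` by the square of the coefficient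
Frobenius. -/
theorem h98_sq_R1 [CharP (IsLocalRing.ResidueField A) q] (s : Qb ≃ₐ[ℚ] Qb)
    (hs : A.IsFrobeniusAt s q) (f : ↥(modularFunctionFieldBar (M * q)))
    (hf : f ∈ (h60_R1 M q hqM A hA).O) :
    (h60_R1 M q hqM A hA).redF
        ((arithmeticGalois (modularFunctionFieldFull (M * q)) s *
          arithmeticGalois (modularFunctionFieldFull (M * q)) s) • f)
      = h60_psi M (IsLocalRing.ResidueField A) (frobenius (IsLocalRing.ResidueField A) q)
          (h60_psi M (IsLocalRing.ResidueField A) (frobenius (IsLocalRing.ResidueField A) q)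
            ((h60_R1 M q hqM A hA).redF f)) := by
  obtain ⟨h1, e1⟩ := h60_R1_frob M q hqM A hA s hs f hf
  obtain ⟨-, e2⟩ := h60_R1_frob M q hqM A hA s hs _ h1
  rw [mul_smul, ← e1]
  exact e2

/-- The square of a Frobenius element acts on `red₂` by the square of the coefficient
Frobenius. -/
theorem h98_sq_R2 [CharP (IsLocalRing.ResidueField A) q] (s : Qb ≃ₐ[ℚ] Qb)
    (hs : A.IsFrobeniusAt s q) (f : ↥(modularFunctionFieldBar (M * q)))
    (hf : f ∈ (h60_R2 M q hqM A hA).O) :
    (h60_R2 M q hqM A hA).redF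
        ((arithmeticGalois (modularFunctionFieldFull (M * q)) s *
          arithmeticGalois (modularFunctionFieldFull (M * q)) s) • f)
      = h60_psi M (IsLocalRing.ResidueField A) (frobenius (IsLocalRing.ResidueField A) q)
          (h60_psi M (IsLocalRing.ResidueField A) (frobenius (IsLocalRing.ResidueField A) q)
            ((h60_R2 M q hqM A hA).redF f)) := by
  obtain ⟨h1, e1⟩ := h60_R2_frob M q hqM A hA s hs f hf
  obtain ⟨-, e2⟩ := h60_R2_frob M q hqM A hA s hs _ h1
  rw [mul_smul, ← e1]
  exact e2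

end BGlue

/-- The norm formula along `β`. -/
theorem h98_NF_beta (M q : ℕ) [NeZero M] [NeZero q] :
    NormFormulaAlong Qb (heckeBetaBar Qb M q) (h88_finiteAlong_beta M q) := by
  letI := algebraAlong (heckeBetaBar Qb M q)
  haveI := isScalarTower_along (heckeBetaBar Qb M q)
  haveI : FiniteDimensional (modularFunctionFieldBar M) (modularFunctionFieldBar (M * q)) :=
    h88_finiteAlong_beta M q
  exact h85_NF (h88_isFF M)

/-- The norm along `α` of a nonzero function is nonzero. -/
theorem h98_norm_alpha_ne (M q : ℕ) [NeZero M] [NeZero q]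
    (f : ↥(modularFunctionFieldBar (M * q))) (hf : f ≠ 0) :
    @Algebra.norm (modularFunctionFieldBar M) (modularFunctionFieldBar (M * q)) _ _
        (algebraAlong (heckeAlphaBar Qb M q)) f ≠ 0 := by
  letI := algebraAlong (heckeAlphaBar Qb M q)
  haveI : FiniteDimensional (modularFunctionFieldBar M) (modularFunctionFieldBar (M * q)) :=
    h88_finiteAlong_alpha M q
  exact Algebra.norm_ne_zero_iff.mpr hf

/-- The norm along `β` of a nonzero function is nonzero. -/
theorem h98_norm_beta_ne (M q : ℕ) [NeZero M] [NeZero q]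
    (f : ↥(modularFunctionFieldBar (M * q))) (hf : f ≠ 0) :
    @Algebra.norm (modularFunctionFieldBar M) (modularFunctionFieldBar (M * q)) _ _
        (algebraAlong (heckeBetaBar Qb M q)) f ≠ 0 := by
  letI := algebraAlong (heckeBetaBar Qb M q)
  haveI : FiniteDimensional (modularFunctionFieldBar M) (modularFunctionFieldBar (M * q)) :=
    h88_finiteAlong_beta M q
  exact Algebra.norm_ne_zero_iff.mpr hf

/-- The norm formula for `α_*`, applied. -/
theorem h98_push_alpha (M q : ℕ) [NeZero M] [NeZero q] (hαI : HeckeAlphaBarIntegral Qb M q)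
    (f : ↥(modularFunctionFieldBar (M * q))) (hf : f ≠ 0)
    (D' : Divisor Qb (modularFunctionFieldBar (M * q))) (hD' : ∀ w, D' w = w.ord f)
    (v : Place Qb (modularFunctionFieldBar M)) :
    Divisor.pushforwardAlong (heckeAlphaBar Qb M q) hαI D' v
      = v.ord (@Algebra.norm (modularFunctionFieldBar M) (modularFunctionFieldBar (M * q))
          _ _ (algebraAlong (heckeAlphaBar Qb M q)) f) :=
  h87_NF_alpha M q f hf D' hD' v

/-- The norm formula for `β_*`, applied. -/
theorem h98_push_beta (M q : ℕ) [NeZero M] [NeZero q] (hβI : HeckeBetaBarIntegral Qb M q)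
    (f : ↥(modularFunctionFieldBar (M * q))) (hf : f ≠ 0)
    (D' : Divisor Qb (modularFunctionFieldBar (M * q))) (hD' : ∀ w, D' w = w.ord f)
    (v : Place Qb (modularFunctionFieldBar M)) :
    Divisor.pushforwardAlong (heckeBetaBar Qb M q) hβI D' v
      = v.ord (@Algebra.norm (modularFunctionFieldBar M) (modularFunctionFieldBar (M * q))
          _ _ (algebraAlong (heckeBetaBar Qb M q)) f) :=
  h98_NF_beta M q f hf D' hD' v

end Fermat.Agent.S35

end
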