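import Mathlib
import Fermat.Agent.S35.h98_FrobToric
import Fermat.Agent.S35.h98_BGlueNR

/-!
# S35, row (B): `(s² - 1)` maps `q`-new classes of `p`-power order to toric classes

`h98_BProp M q hqM : h29_BProp M q hqM` for EVERY level `M` with `q ∤ M` (chart-free).

Proof = the generic `h98_frob_toric_pic0` at
`R₁ := h60_R1`, `R₂ := h60_R2`, `RE := h54_redDatum M`, `φ := h60_psi (frobenius)`,
`pα pβ := pushforwardAlong` of the two degeneracy maps, `Nα Nβ :=` the two norms,
`sg := (arithmeticGalois s)²`, with the modular inputs of `h98_BGlueNR`.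
-/

set_option autoImplicit false
set_option synthInstance.maxHeartbeats 400000
set_option linter.style.haveILetI false

noncomputable section

open ModularCurve AlgebraicCurve IntermediateField

namespace Fermat.Agent.S35

open Fermat.Agent.S34 Fermat.Agent.S18 Fermat.Agent.S37 Fermat.Agent.S24

local notation "Qb" => AlgebraicClosure ℚ

/-- **S35, row (B), at every level `M q` with `q ∤ M`.** -/
theorem h98_BProp (M q : ℕ) [NeZero M] [NeZero q] [hq : Fact q.Prime] (hqM : ¬ q ∣ M) :
    h29_BProp M q hqM := by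
  intro A hA s hs p hp hpq n x hx hnew
  obtain ⟨D, rfl, ⟨hαI, hα⟩, ⟨hβI, hβ⟩⟩ := hnew
  haveI : CharP (IsLocalRing.ResidueField A) q := h19_residueField_charP A q hA
  haveI : HasPrincipalDivisors Qb (modularFunctionFieldBar (M * q)) :=
    h88_hasPrincipalDivisors (M * q)
  have hm : p ^ n ≠ 0 := pow_ne_zero n hp.ne_zero
  have hRM := h54_isModRed M hqM A hA
  -- incomparability
  have hinc : ¬ (h60_R1 M q hqM A hA).O ≤ (h60_R2 M q hqM A hA).O ∧
      ¬ (h60_R2 M q hqM A hA).O ≤ (h60_R1 M q hqM A hA).O := by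
    obtain ⟨t, -, ht2O, hr1, hr2⟩ := h60_exists_sep M q hqM A hA
    exact h75_pair_inc_of_sep _ _ hr1 ht2O hr2
  have hrank₁ : h39_RankOne (h60_R1 M q hqM A hA).A := by
    rw [h60_R1_A]; exact h64_rankOne_h39 hq.out A hA
  have hrank₂ : h39_RankOne (h60_R2 M q hqM A hA).A := by
    rw [h60_R2_A]; exact h64_rankOne_h39 hq.out A hA
  have hx' : ((p ^ n : ℕ) : ℤ) • Pic0.mk D = 0 := by
    rw [natCast_zsmul]; exact hx
  obtain ⟨E', u, hu, hE', hdiv, h1, h2⟩ := h98_frob_toric_pic0
    (h60_R1 M q hqM A hA) (h60_R2 M q hqM A hA) (h54_redDatum M hqM A hA) hinc hrank₁ hrank₂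
    (p ^ n) hm (fun c => IsAlgClosed.exists_pow_nat_eq c (Nat.pos_of_ne_zero hm))
    (fun g _ hord => by
      obtain ⟨c, hc⟩ := h70_const_of_ord_zero (h88_isFF M) g hord
      exact ⟨c, hc.symm⟩)
    (Divisor.pushforwardAlong (heckeAlphaBar Qb M q) hαI)
    (Divisor.pushforwardAlong (heckeBetaBar Qb M q) hβI)
    (fun f => @Algebra.norm (modularFunctionFieldBar M) (modularFunctionFieldBar (M * q)) _ _
        (algebraAlong (heckeAlphaBar Qb M q)) f)
    (fun f => @Algebra.norm (modularFunctionFieldBar M) (modularFunctionFieldBar (M * q)) _ _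
        (algebraAlong (heckeBetaBar Qb M q)) f)
    (fun f hf => ⟨h98_norm_alpha_ne M q f hf, fun D' hD' v => h98_push_alpha M q hαI f hf D' hD' v⟩)
    (fun f hf => ⟨h98_norm_beta_ne M q f hf, fun D' hD' v => h98_push_beta M q hβI f hf D' hD' v⟩)
    (h60_psi M (IsLocalRing.ResidueField A) (frobenius (IsLocalRing.ResidueField A) q))
    (fun c => ⟨_, h60_psi_algebraMap M (IsLocalRing.ResidueField A) _ c⟩)
    (fun f h1 h2 => h98_NR_alpha M q hqM A hA hRM f h1 h2)
    (fun f h1 h2 => h98_NR_beta M q hqM A hA hRM f h1 h2)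
    (arithmeticGalois (modularFunctionFieldFull (M * q)) s *
      arithmeticGalois (modularFunctionFieldFull (M * q)) s)
    (fun f hf => h98_sq_R1 M q hqM A hA s hs f hf)
    (fun f hf => h98_sq_R2 M q hqM A hA s hs f hf)
    D hx' hα hβ
  refine (h29_toric_iff_pair M q hqM A hA (p ^ n) _).mpr ⟨E', u, hu, ?_, hdiv, ?_⟩
  · rw [hE', mul_smul]
    rfl
  · intro i
    have key : ∀ R : h39_RedDatum Qb ↥(modularFunctionFieldBar (M * q))
        (IsLocalRing.ResidueField A) ↥(modularFunctionFieldFullC (IsLocalRing.ResidueField A) M),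
        R.redF u = 1 → u ∈ R.O ∧ R.redF u = 1 := fun R h =>
      ⟨h39_mem_of_redF_ne_zero R (by rw [h]; exact one_ne_zero), h⟩
    fin_cases i
    · exact key _ h1
    · exact key _ h2

end Fermat.Agent.S35

end
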