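import Mathlib
import Fermat.Agent.S34.h20_NodeFinal
import Fermat.Agent.S35.h67_FrobSF

/-!
# S35 / (E1) CHART-FINAL (helper20): the Frobenius relation on toric witnesses in one call

Frobenius twin of `h20_G_of_chart_final`: the same chart hypotheses ((INT), (LEAD), (GRAPH),
`y`-chart, chart unit `t`) and a semilinear automorphism `sg` of `F` preserving `O` and `D0` and
acting on both reductions through a map `ψ2 : Fb → Fb` with `φ (φ (ψ2 f)) = f ^ (q * q)`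
(`ψ2` = the square of the coefficient Frobenius) give

  `sg • E - (q * q) • E ∈ Divisor.principal`   for every toric witness `(E, u)`.

* `h20_tau_apply`, `h20_tau_eq_of` : `h20_tau h` is THE map `ψ2` with `φ ∘ φ ∘ ψ2 = Frob²`;
* `h20_frobG_of_chart_final` : the one-call statement (node set chosen internally by
  `h20_node_final`, Frobenius binders by `h20_nodes_frob`, then helper67's `h67_frobG_of_chart`).
-/

set_option autoImplicit false

noncomputable section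

open AlgebraicCurve Module

namespace Fermat.Agent.S35

open Fermat.Agent.S34 Fermat.Agent.S18 Fermat.Agent.S24 Fermat.Agent.S27

variable {K F k Fb : Type*} [Field K] [Field F] [Algebra K F] [Field k] [Field Fb] [Algebra k Fb]

variable [IsAlgClosed k] {q : ℕ} [Fact q.Prime] [CharP k q]

/-- `φ ∘ φ ∘ τ = Frob²` for `τ := h20_tau h`. -/
theorem h20_tau_apply {x : Fb} {φ : Fb →+* Fb} (h : h96_IsFrobChart k q x φ) (f : Fb) :
    φ (φ (((h20_tau h : h57_SemiAut k Fb) : Fb ≃+* Fb) f)) = f ^ (q * q) := by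
  have e1 : ((h20_tau h : h57_SemiAut k Fb) : Fb ≃+* Fb) f =
      ((h96_frobSemi h : h57_SemiAut k Fb) : Fb ≃+* Fb).symm
        (((h96_frobSemi h : h57_SemiAut k Fb) : Fb ≃+* Fb).symm f) := rfl
  have a1 : φ (((h96_frobSemi h : h57_SemiAut k Fb) : Fb ≃+* Fb).symm
      (((h96_frobSemi h : h57_SemiAut k Fb) : Fb ≃+* Fb).symm f)) =
      (((h96_frobSemi h : h57_SemiAut k Fb) : Fb ≃+* Fb).symm f) ^ q := by
    rw [← h96_frobSemi_pow h, RingEquiv.apply_symm_apply]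
  have a2 : φ (((h96_frobSemi h : h57_SemiAut k Fb) : Fb ≃+* Fb).symm f) = f ^ q := by
    rw [← h96_frobSemi_pow h, RingEquiv.apply_symm_apply]
  rw [e1, a1, map_pow, a2, pow_mul]

/-- Any map `ψ2` with `φ ∘ φ ∘ ψ2 = Frob²` is `h20_tau h`. -/
theorem h20_tau_eq_of {x : Fb} {φ : Fb →+* Fb} (h : h96_IsFrobChart k q x φ) (ψ2 : Fb → Fb)
    (hψ2 : ∀ f : Fb, φ (φ (ψ2 f)) = f ^ (q * q)) (f : Fb) :
    ((h20_tau h : h57_SemiAut k Fb) : Fb ≃+* Fb) f = ψ2 f := by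
  apply φ.injective
  apply φ.injective
  rw [h20_tau_apply h f, hψ2 f]

variable [IsAlgClosed K]

/-- **The Frobenius relation on toric witnesses from the chart instance, in one call.** -/
theorem h20_frobG_of_chart_final
    {xF : F} (hxF : h75_IsChart K xF) {xb : Fb} (hxb : h75_IsChart k xb)
    (D : h22_Lat K F k (Fb × Fb)) (hON : h22_ON D)
    (hinv : ∀ (f : F) (hf : f ∈ D.O), IsUnit (D.red ⟨f, hf⟩) → f⁻¹ ∈ D.O)
    (hrank : h39_RankOne D.A)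
    (D0 : Divisor K F) (hD0 : 0 ≤ D0) (hdeg : Divisor.degree D0 = 2) (Qinf : Place k Fb)
    (hreg : ∀ n, ∀ a ∈ h51_Rd D (n • D0), a.1 ∈ h16_Linf Qinf n ∧ a.2 ∈ h16_Linf Qinf n)
    (n₁ : ℕ)
    (hlead₁ : ∀ n, n₁ ≤ n → ∃ x ∈ h51_Rd D ((n + 1) • D0),
      x.1 ∉ h16_Linf Qinf n ∧ x.2 ∈ h16_Linf Qinf n)
    (hlead₂ : ∀ n, n₁ ≤ n → ∃ y ∈ h51_Rd D ((n + 1) • D0),
      y.1 ∈ h16_Linf Qinf n ∧ y.2 ∉ h16_Linf Qinf n)
    {x : Fb} {φ : Fb →+* Fb} (h : h96_IsFrobChart k q x φ) {y : Fb} (hy : h75_IsChart k y)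
    (hpole : ∀ Q : Place k Fb, y ∈ Q.toValuationSubring ↔ Q ≠ Qinf)
    (hfix : h96_frobPerm h Qinf = Qinf)
    (hG1 : ∀ b : Fb, (∀ Q : Place k Fb, Q ≠ Qinf → b ∈ Q.toValuationSubring) →
      ∃ n : ℕ, (b, φ b) ∈ h51_Rd D (n • D0))
    (hG2 : ∀ b : Fb, (∀ Q : Place k Fb, Q ≠ Qinf → b ∈ Q.toValuationSubring) →
      ∃ n : ℕ, (φ b, b) ∈ h51_Rd D (n • D0))
    (c : ℕ) (hc : 0 < c) (t : F) (ht0 : t ≠ 0) (htO : t ∈ D.O) (htiO : t⁻¹ ∈ D.O)
    (E2 : Divisor K F) (hE2 : ∀ v : Place K F, 0 ≤ E2 v)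
    (hdisj : ∀ v : Place K F, (c • D0) v = 0 ∨ E2 v = 0)
    (hdivt : ∀ v : Place K F, v.ord t = E2 v - (c • D0) v)
    (ht1 : (D.redF t).1 ≠ 0) (ht2 : (D.redF t).2 ≠ 0)
    (ho1 : Qinf.ord (D.redF t).1 = -(c : ℤ)) (ho2 : Qinf.ord (D.redF t).2 = -(c : ℤ))
    {m : ℕ} (hm : (m : k) ≠ 0)
    (sg : SemilinearAut K F) (hsO : ∀ f, f ∈ D.O → sg • f ∈ D.O)
    (ψ2 : Fb → Fb) (hψ2 : ∀ f : Fb, φ (φ (ψ2 f)) = f ^ (q * q))
    (hsred : ∀ f, f ∈ D.O → D.redF (sg • f) = (ψ2 (D.redF f).1, ψ2 (D.redF f).2))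
    (hsD0 : sg • D0 = D0)
    (E : Divisor K F) (hE : Divisor.degree E = 0) (u : F) (hu : u ≠ 0)
    (hdiv : ∀ v : Place K F, (m : ℤ) * E v = v.ord u) (huO : u ∈ D.O)
    (hured : D.red ⟨u, huO⟩ = 1) :
    sg • E - (q * q) • E ∈ Divisor.principal (K := K) (F := F) := by
  obtain ⟨Sg, hSg, hSgfix, hnode⟩ := h20_node_final hxF hxb D hON D0 hD0 hdeg Qinf hreg n₁
    hlead₁ hlead₂ h hy hpole hfix hG1 hG2
  obtain ⟨hΦP, hΦ1, hΦ2⟩ := h20_nodes_frob h hxb Qinf Sg hSg hfix hSgfix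
  have hm0 : m ≠ 0 := by
    rintro rfl
    exact hm Nat.cast_zero
  have hdeg1 : (1 : ℤ) ≤ Divisor.degree D0 := by
    rw [hdeg]
    norm_num
  have hD0' : ∀ v : Place K F, 0 ≤ D0 v := fun v => hD0 v
  have hc0 : (c : ℤ) ≠ 0 := by exact_mod_cast hc.ne'
  have hcD : ∀ v : Place K F, (c • D0) v = (c : ℤ) * D0 v := by
    intro v
    rw [Finsupp.smul_apply, nsmul_eq_mul]
  have hdisj' : ∀ v : Place K F, D0 v = 0 ∨ E2 v = 0 := by
    intro v
    rcases hdisj v with h0 | h0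
    · left
      rw [hcD v] at h0
      exact (mul_eq_zero.mp h0).resolve_left hc0
    · exact Or.inr h0
  have hdivt' : ∀ v : Place K F, v.ord t = E2 v - (c : ℤ) * D0 v := by
    intro v
    rw [hdivt v, hcD v]
  have hPfin : ∀ n, FiniteDimensional k (h20_P Qinf n) := h20_P_finite hxb Qinf
  obtain ⟨n0, hn0⟩ : ∃ n0 : ℕ, n0 = max (max n₁ (h75_genus K xF))
      (max (2 * h75_genus k xb + Sg.card) (2 * h75_genus K xF)) := ⟨_, rfl⟩
  have hn0a : max n₁ (h75_genus K xF) ≤ n0 := by rw [hn0]; exact le_max_left _ _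
  have hn0b : 2 * h75_genus k xb + Sg.card ≤ n0 := by
    rw [hn0]; exact le_trans (le_max_left _ _) (le_max_right _ _)
  have hn0c : 2 * h75_genus K xF ≤ n0 := by
    rw [hn0]; exact le_trans (le_max_right _ _) (le_max_right _ _)
  have hnode' := fun n (hn : n0 ≤ n) => hnode n (le_trans hn0a hn)
  have hind := fun n (hn : n0 ≤ n) =>
    h20_chart_hind_nodes hxb Qinf Sg (h96_frobPerm h) hSg (h96_frobPerm h).injective n
      (le_trans hn0b hn)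
  have hsred' : ∀ f, f ∈ D.O → D.redF (sg • f) = h20_frobPair (h20_tau h) (D.redF f) := by
    intro f hf
    rw [hsred f hf]
    unfold h20_frobPair
    rw [h20_tau_eq_of h ψ2 hψ2, h20_tau_eq_of h ψ2 hψ2]
  exact h67_frobG_of_chart hxF D hON hinv hrank m hm D0 E2 hD0' hdeg1 hE2 hdisj' c hc t ht0 htO
    htiO hdivt' (h20_P Qinf) (h20_Bs Qinf) (h20_P_le_Bs Qinf)
    (h20_e1 hxb Qinf (h20_nodeQ1 Sg (h96_frobPerm h))
      (h20_nodeQ1_ne Qinf Sg (h96_frobPerm h) hSg))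
    (h20_e2 hxb Qinf (h20_nodeQ2 Sg) (h20_nodeQ2_ne Qinf Sg (h96_frobPerm h) hSg))
    n0 hn0c hnode' hind (h20_chart_root Qinf hm0)
    (h20_chart_hPx Qinf c (D.redF t) ht1 ht2 ho1 ho2)
    sg (q * q) (h20_frobPair (h20_tau h)) hsO hsred' hsD0 hΦP hΦ1 hΦ2
    E hE u hu hdiv huO hured

end Fermat.Agent.S35

end
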