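import Fermat.Agent.S35.h29_GeomIface
import Fermat.Agent.S34.h49_SwapInv
import Fermat.Agent.S35.h27_NormFun

/-!
# S35, row NBC (owner helper21): norm base change along the level square `(N, N q, N c, N c q)`

`ι : F(N q) → F(N c q)` an embedding which is the identity on `q`-expansions (in practice the
degeneracy map `heckeAlphaBar` after a cast of the level).  Then for `f ∈ F(N q)`

* `h21_norm_bc_alpha` : `N_{α'} (ι f) = α_c (N_α f)`,
* `h21_norm_bc_beta`  : `N_{β'} (ι f) = α_c (N_β f)`,

where `α, β : F(N) → F(N q)`, `α', β' : F(N c) → F(N c q)` are the two degeneracy maps at `q`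
and `α_c : F(N) → F(N c)` is the degeneracy map at `c`.

Proof: `h27_norm_identity` (the norm along `α` as the product over the `q + 1` expansion
homomorphisms) at both levels, plus the fact that the swap `w` commutes with `ι`
(`h49_swap_unique`: the images of `α` and `β` generate the field); for `β` the swap is an
isomorphism between the two algebra structures.
-/

set_option autoImplicit false
set_option synthInstance.maxHeartbeats 400000

noncomputable section

open ModularCurve AlgebraicCurve

namespace Fermat.Agent.S35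

open Fermat.Agent.S34 Fermat.Agent.S37 Fermat.Agent.S24 Fermat.Agent.S18

local notation "Qb" => AlgebraicClosure ℚ

/-- A `q`-expansion preserving embedding sends `α y` to `α' (α_c y)`. -/
theorem h21_iota_alpha (N q c : ℕ) [NeZero N] [NeZero q] [NeZero c]
    (ι : modularFunctionFieldBar (N * q) →ₐ[Qb] modularFunctionFieldBar (N * c * q))
    (hι : ∀ f : modularFunctionFieldBar (N * q),
      ((ι f : modularFunctionFieldBar (N * c * q)) : LaurentSeries Qb) = (f : LaurentSeries Qb))
    (y : modularFunctionFieldBar N) :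
    ι (heckeAlphaBar Qb N q y) = heckeAlphaBar Qb (N * c) q (heckeAlphaBar Qb N c y) := by
  apply Subtype.ext
  rw [hι, coe_heckeAlphaBar, coe_heckeAlphaBar, coe_heckeAlphaBar]

/-- A `q`-expansion preserving embedding sends `β y` to `β' (α_c y)`. -/
theorem h21_iota_beta (N q c : ℕ) [NeZero N] [NeZero q] [NeZero c]
    (ι : modularFunctionFieldBar (N * q) →ₐ[Qb] modularFunctionFieldBar (N * c * q))
    (hι : ∀ f : modularFunctionFieldBar (N * q),
      ((ι f : modularFunctionFieldBar (N * c * q)) : LaurentSeries Qb) = (f : LaurentSeries Qb))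
    (y : modularFunctionFieldBar N) :
    ι (heckeBetaBar Qb N q y) = heckeBetaBar Qb (N * c) q (heckeAlphaBar Qb N c y) := by
  apply Subtype.ext
  rw [hι, coe_heckeBetaBar, coe_heckeBetaBar, coe_heckeAlphaBar]

/-- The swap commutes with a `q`-expansion preserving embedding `F(N q) → F(N c q)`. -/
theorem h21_swap_iota (N q c : ℕ) [NeZero N] [NeZero q] [NeZero c] (hq : q.Prime)
    (ι : modularFunctionFieldBar (N * q) →ₐ[Qb] modularFunctionFieldBar (N * c * q))
    (hι : ∀ f : modularFunctionFieldBar (N * q),
      ((ι f : modularFunctionFieldBar (N * c * q)) : LaurentSeries Qb) = (f : LaurentSeries Qb))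
    {a b : ℤ} (hab : (q : ℤ) * a - (N : ℤ) * b = 1)
    {a' b' : ℤ} (hab' : (q : ℤ) * a' - ((N * c : ℕ) : ℤ) * b' = 1)
    (f : modularFunctionFieldBar (N * q)) :
    h49_swapF hab' h78_iota hq (ι f) = ι (h49_swapF hab h78_iota hq f) := by
  have key : (h49_swapF hab' h78_iota hq).comp ι.toRingHom
      = ι.toRingHom.comp (h49_swapF hab h78_iota hq) := by
    apply h49_swap_unique hq
    · intro y
      show h49_swapF hab' h78_iota hq (ι (heckeAlphaBar Qb N q y))
        = ι (h49_swapF hab h78_iota hq (heckeAlphaBar Qb N q y))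
      rw [h21_iota_alpha N q c ι hι, h49_swapF_alpha, h49_swapF_alpha,
        h21_iota_beta N q c ι hι]
    · intro y
      show h49_swapF hab' h78_iota hq (ι (heckeBetaBar Qb N q y))
        = ι (h49_swapF hab h78_iota hq (heckeBetaBar Qb N q y))
      rw [h21_iota_beta N q c ι hι, h49_swapF_beta, h49_swapF_beta,
        h21_iota_alpha N q c ι hι]
  exact DFunLike.congr_fun key f

/-- A primitive `q`-th root of unity in `ℚ̄ˣ`. -/
theorem h21_exists_zeta (q : ℕ) [NeZero q] : ∃ ζ : Qbˣ, IsPrimitiveRoot ζ q := by
  obtain ⟨ζ, hζ⟩ := HasEnoughRootsOfUnity.exists_primitiveRoot Qb q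
  obtain ⟨u, hu⟩ := hζ.isUnit (NeZero.ne q)
  refine ⟨u, ?_⟩
  rw [← IsPrimitiveRoot.coe_units_iff, hu]
  exact hζ

/-- **(NBC, `α`)** norm base change along the level square for the degeneracy map `α`. -/
theorem h21_norm_bc_alpha (N q c : ℕ) [NeZero N] [NeZero q] [NeZero c] (hq : q.Prime)
    (hqNc : ¬ q ∣ N * c)
    (ι : modularFunctionFieldBar (N * q) →ₐ[Qb] modularFunctionFieldBar (N * c * q))
    (hι : ∀ f : modularFunctionFieldBar (N * q),
      ((ι f : modularFunctionFieldBar (N * c * q)) : LaurentSeries Qb) = (f : LaurentSeries Qb))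
    (f : modularFunctionFieldBar (N * q)) :
    @Algebra.norm (modularFunctionFieldBar (N * c)) (modularFunctionFieldBar (N * c * q)) _ _
        (algebraAlong (heckeAlphaBar Qb (N * c) q)) (ι f)
      = heckeAlphaBar Qb N c
          (@Algebra.norm (modularFunctionFieldBar N) (modularFunctionFieldBar (N * q)) _ _
            (algebraAlong (heckeAlphaBar Qb N q)) f) := by
  have hqN : ¬ q ∣ N := fun h => hqNc (Dvd.dvd.mul_right h c)
  obtain ⟨a, b, hab⟩ := h49_exists_bezout ((Nat.Prime.coprime_iff_not_dvd hq).mpr hqN)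
  obtain ⟨a', b', hab'⟩ := h49_exists_bezout ((Nat.Prime.coprime_iff_not_dvd hq).mpr hqNc)
  obtain ⟨ζ, hζ⟩ := h21_exists_zeta q
  have h1 := h27_norm_identity N q hq hqN hab ζ hζ f
  have h2 := h27_norm_identity (N * c) q hq hqNc hab' ζ hζ (ι f)
  apply Subtype.ext
  apply qExpand_injective (R := Qb) q
  rw [coe_heckeAlphaBar]
  rw [h2, h1, hι]
  congr 1
  refine Finset.prod_congr rfl fun i _ => ?_
  rw [h21_swap_iota N q c hq ι hι hab hab' f, hι]

/-- The norm along `β` is the norm along `α` after the swap (the swap is an isomorphism between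
the two `F(M)`-algebra structures of `F(M q)`). -/
theorem h21_norm_beta_eq (M q : ℕ) [NeZero M] [NeZero q] (hq : q.Prime)
    {a b : ℤ} (hab : (q : ℤ) * a - (M : ℤ) * b = 1) (x : modularFunctionFieldBar (M * q)) :
    @Algebra.norm (modularFunctionFieldBar M) (modularFunctionFieldBar (M * q)) _ _
        (algebraAlong (heckeBetaBar Qb M q)) x
      = @Algebra.norm (modularFunctionFieldBar M) (modularFunctionFieldBar (M * q)) _ _
        (algebraAlong (heckeAlphaBar Qb M q)) (h49_swapF hab h78_iota hq x) := by
  have key := @Algebra.norm_eq_of_algEquiv (modularFunctionFieldBar M)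
    (modularFunctionFieldBar (M * q)) (modularFunctionFieldBar (M * q)) _ _
    (algebraAlong (heckeBetaBar Qb M q)) _ (algebraAlong (heckeAlphaBar Qb M q))
    (@AlgEquiv.mk (modularFunctionFieldBar M) (modularFunctionFieldBar (M * q))
      (modularFunctionFieldBar (M * q)) _ _ _
      (algebraAlong (heckeBetaBar Qb M q)) (algebraAlong (heckeAlphaBar Qb M q))
      (h49_swapEquiv hab h78_iota hq).toEquiv
      (fun x y => map_mul (h49_swapF hab h78_iota hq) x y)
      (fun x y => map_add (h49_swapF hab h78_iota hq) x y)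
      (fun y => h49_swapF_beta hab h78_iota hq y)) x
  exact key.symm

/-- **(NBC, `β`)** norm base change along the level square for the degeneracy map `β`. -/
theorem h21_norm_bc_beta (N q c : ℕ) [NeZero N] [NeZero q] [NeZero c] (hq : q.Prime)
    (hqNc : ¬ q ∣ N * c)
    (ι : modularFunctionFieldBar (N * q) →ₐ[Qb] modularFunctionFieldBar (N * c * q))
    (hι : ∀ f : modularFunctionFieldBar (N * q),
      ((ι f : modularFunctionFieldBar (N * c * q)) : LaurentSeries Qb) = (f : LaurentSeries Qb))
    (f : modularFunctionFieldBar (N * q)) :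
    @Algebra.norm (modularFunctionFieldBar (N * c)) (modularFunctionFieldBar (N * c * q)) _ _
        (algebraAlong (heckeBetaBar Qb (N * c) q)) (ι f)
      = heckeAlphaBar Qb N c
          (@Algebra.norm (modularFunctionFieldBar N) (modularFunctionFieldBar (N * q)) _ _
            (algebraAlong (heckeBetaBar Qb N q)) f) := by
  have hqN : ¬ q ∣ N := fun h => hqNc (Dvd.dvd.mul_right h c)
  obtain ⟨a, b, hab⟩ := h49_exists_bezout ((Nat.Prime.coprime_iff_not_dvd hq).mpr hqN)
  obtain ⟨a', b', hab'⟩ := h49_exists_bezout ((Nat.Prime.coprime_iff_not_dvd hq).mpr hqNc)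
  rw [h21_norm_beta_eq (N * c) q hq hab' (ι f), h21_norm_beta_eq N q hq hab f,
    h21_swap_iota N q c hq ι hι hab hab' f]
  exact h21_norm_bc_alpha N q c hq hqNc ι hι (h49_swapF hab h78_iota hq f)

end Fermat.Agent.S35

end
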