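import Mathlib

/-!
# S35 (N3), generic lemma (LI) (helper28)

`h28_int_li`: if `n : T →+ (X → ℤ)` is injective and `b : ι → T` is `ℤ`-linearly independent,
then the functions `x ↦ n (b i) x` are linearly independent over `ℂ`: a complex combination
vanishing at every `x` is trivial.

Proof: apply an arbitrary `ℚ`-linear functional `ℂ → ℚ`, clear denominators, use injectivity of
`n` and the independence of `b`; then functionals separate points.
-/

set_option autoImplicit false

namespace Fermat.Agent.S35

/-- rational version: a rational combination of the `n (b i)` vanishing everywhere is trivial. -/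
theorem h28_rat_li {T X ι : Type*} [AddCommGroup T] [Fintype ι] (n : T →+ (X → ℤ))
    (hn : Function.Injective n) (b : ι → T) (hb : LinearIndependent ℤ b) (r : ι → ℚ)
    (h : ∀ x, ∑ i, r i * ((n (b i) x : ℤ) : ℚ) = 0) : r = 0 := by
  classical
  -- common denominator
  obtain ⟨d, hd⟩ := IsLocalization.exist_integer_multiples_of_finset (nonZeroDivisors ℤ)
    (Finset.univ.image r)
  have hd0 : (d : ℤ) ≠ 0 := nonZeroDivisors.coe_ne_zero d
  have hm : ∀ i, ∃ m : ℤ, (m : ℚ) = (d : ℤ) * r i := by
    intro i
    obtain ⟨m, hm⟩ := hd (r i) (Finset.mem_image.mpr ⟨i, Finset.mem_univ _, rfl⟩)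
    refine ⟨m, ?_⟩
    have h1 : ((d : ℤ) : ℚ) * r i = (d : ℤ) • r i := by
      rw [zsmul_eq_mul]
    rw [h1]
    simpa using hm
  choose m hm using hm
  have hsum : ∑ i, m i • b i = 0 := by
    apply hn
    rw [map_zero, map_sum]
    funext x
    simp only [Finset.sum_apply, map_zsmul, Pi.smul_apply, smul_eq_mul, Pi.zero_apply]
    have h1 : ((∑ i, m i * n (b i) x : ℤ) : ℚ) = 0 := by
      push_cast
      calc ∑ i, (m i : ℚ) * (n (b i) x : ℚ)
          = ∑ i, (d : ℤ) * (r i * (n (b i) x : ℚ)) := by
            refine Finset.sum_congr rfl (fun i _ => ?_)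
            rw [hm i]
            ring
        _ = (d : ℤ) * ∑ i, r i * (n (b i) x : ℚ) := by rw [Finset.mul_sum]
        _ = 0 := by rw [h x, mul_zero]
    exact_mod_cast h1
  have hm0 : ∀ i, m i = 0 := Fintype.linearIndependent_iff.mp hb m hsum
  funext i
  have h2 := hm i
  rw [hm0 i] at h2
  have hd0' : ((d : ℤ) : ℚ) ≠ 0 := by exact_mod_cast hd0
  simpa [hd0'] using h2.symm

/-- **(LI)** the functions `n (b i)` are `ℂ`-linearly independent as soon as `n` is injective and
`b` is `ℤ`-linearly independent. -/
theorem h28_int_li {T X ι : Type*} [AddCommGroup T] [Fintype ι] (n : T →+ (X → ℤ))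
    (hn : Function.Injective n) (b : ι → T) (hb : LinearIndependent ℤ b) (c : ι → ℂ)
    (h : ∀ x, ∑ i, c i * ((n (b i) x : ℤ) : ℂ) = 0) : c = 0 := by
  classical
  funext i
  rw [Pi.zero_apply, ← Module.forall_dual_apply_eq_zero_iff ℚ]
  intro f
  have hr : (fun j => f (c j)) = 0 := by
    refine h28_rat_li n hn b hb (fun j => f (c j)) (fun x => ?_)
    have h1 := congrArg f (h x)
    rw [map_sum, map_zero] at h1
    rw [← h1]
    refine Finset.sum_congr rfl (fun j _ => ?_)
    have h2 : c j * ((n (b j) x : ℤ) : ℂ) = ((n (b j) x : ℤ) : ℚ) • c j := by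
      rw [Algebra.smul_def, mul_comm]
      simp
    rw [h2, map_smul, smul_eq_mul, mul_comm]
  exact congrFun hr i

end Fermat.Agent.S35
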