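/-
S35 (helper29): (E1) at the charted levels from the single S34 row (INT).

`h29_E1_of_int` : `h29_E1Prop M q hqM` from (INT) for the canonical lattice `h87_D`; the rows
(y-CHART) (`h84_exists_yChart`) and (LEAD) (`h31_lead`) are filled in.
-/
import Mathlib
import Fermat.Agent.S35.h60_E1Mod
import Fermat.Agent.S34.h84_YChart
import Fermat.Agent.S34.h31_Lead

set_option autoImplicit false

noncomputable section

open ModularCurve AlgebraicCurve

namespace Fermat.Agent.S35

open Fermat.Agent.S34 Fermat.Agent.S18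

local notation "Qb" => AlgebraicClosure ℚ

/-- **(E1) at a charted level from (INT)**. -/
theorem h29_E1_of_int (M q : ℕ) [NeZero M] [NeZero q] [Fact q.Prime] (hqM : ¬ q ∣ M)
    (hch : 5 ≤ q ∨ 2 ∣ M ∨ 3 ∣ M)
    (hint : ∀ (A : ValuationSubring Qb) (hA : A.LiesOverPrime q)
      {Pinf P0 : Place Qb ↥(modularFunctionFieldBar (M * q))},
      h10_IsCusp (modularFunctionFieldBar (M * q)) Pinf →
      h10_IsCusp0 M q (h60_w M q hqM) P0 →
      ∀ n, ∀ a ∈ h51_Rd (h87_D M q hqM A hA)
          (n • (Finsupp.single Pinf (1 : ℤ) + Finsupp.single P0 (1 : ℤ))),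
        a.1 ∈ h16_Linf (h11_placeInftyC (IsLocalRing.ResidueField A) M) n ∧
          a.2 ∈ h16_Linf (h11_placeInftyC (IsLocalRing.ResidueField A) M) n) :
    h29_E1Prop M q hqM :=
  h60_E1Prop_of_rows M q hqM hch (fun A hA => h84_exists_yChart M q hqM A hA hch) hint
    (fun A hA _ _ hPinf hP0 => h31_lead M q hqM A hA hch hPinf hP0)

end Fermat.Agent.S35

end
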