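/-
S35 (helper29): the Frobenius twin of the S34 node assembly (generic, no modular input).

`φ` is a Frobenius-like endomorphism of `Fb / k` for a chart (`h96_IsFrobChart`), `ψ` a ring
endomorphism of `Fb` with `φ (ψ b) = b ^ q` (the coefficientwise Frobenius).  Then

* `h29_ord_psi`    : `ord_{Φ P} (ψ b) = ord_P b`, `Φ := h96_frobPerm h`;
* `h29_val_psi`    : `b(P) = c ⟹ (ψ b)(Φ P) = c ^ q`;
* `h29_psi_mem_rr` : `ψ` preserves `L(n Qinf)` when `Φ Qinf = Qinf`;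
* `h29_frobG_of_frob` : the Frobenius twin of `h51_G_of_frob`: `sg • E₀ - q² • E₀` is principal
  for a toric witness `(E₀, u₀)`, when `sg` acts on the reductions through `ψ ∘ ψ`;
* `h29_frobG_of_chart_final` : the same in the binder shape of `h20_G_of_chart_final`.
-/
import Mathlib
import Fermat.Agent.S34.h51_NodeAsm
import Fermat.Agent.S35.h67_FrobSF

set_option autoImplicit false

noncomputable section

open AlgebraicCurve Module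

namespace Fermat.Agent.S35

open Fermat.Agent.S34 Fermat.Agent.S18 Fermat.Agent.S24 Fermat.Agent.S27

variable {K F k Fb : Type*} [Field K] [Field F] [Algebra K F] [Field k] [Field Fb] [Algebra k Fb]

variable {q : ℕ} [Fact q.Prime] [CharP k q] [IsAlgClosed k]

section Psi

variable {x : Fb} {φ : Fb →+* Fb}

/-- `ord_{Φ P} (ψ b) = ord_P b`. -/
theorem h29_ord_psi (h : h96_IsFrobChart k q x φ) (ψ : Fb →+* Fb)
    (hψ : ∀ b : Fb, φ (ψ b) = b ^ q) (P : Place k Fb) (b : Fb) :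
    (h96_frobPerm h P).ord (ψ b) = P.ord b := by
  have h1 := h96_ord_frob h P (ψ b)
  rw [hψ, ← zpow_natCast, Place.ord_zpow] at h1
  have hq : (q : ℤ) ≠ 0 := by exact_mod_cast (Fact.out : q.Prime).ne_zero
  exact (mul_left_cancel₀ hq h1).symm

/-- `b(P) = c ⟹ (ψ b)(Φ P) = c ^ q`. -/
theorem h29_val_psi (h : h96_IsFrobChart k q x φ) (ψ : Fb →+* Fb)
    (hψ : ∀ b : Fb, φ (ψ b) = b ^ q) (P : Place k Fb) {b : Fb} {c : k} (hv : h39_Val P b c) :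
    h39_Val (h96_frobPerm h P) (ψ b) (c ^ q) := by
  have h1 : h39_Val P (φ (ψ b)) (c ^ q) := by
    rw [hψ]
    exact h96_val_pow P hv q
  have hmem : ψ b ∈ (h96_frobPerm h P).toValuationSubring := by
    rw [← h96_mem_frob h P, hψ]
    exact pow_mem (h39_val_mem P hv) q
  exact (h96_val_frob_iff h P hmem (c ^ q)).mp h1

/-- `ψ` preserves `L(n Qinf)` when `Φ` fixes `Qinf`. -/
theorem h29_psi_mem_rr (h : h96_IsFrobChart k q x φ) (ψ : Fb →+* Fb)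
    (hψ : ∀ b : Fb, φ (ψ b) = b ^ q) (Qinf : Place k Fb) (hfix : h96_frobPerm h Qinf = Qinf)
    (n : ℕ) (a : Fb) (ha : a ∈ riemannRochSpace (h20_Dinf Qinf n)) :
    ψ a ∈ riemannRochSpace (h20_Dinf Qinf n) := by
  rw [h20_mem_rr_Dinf] at ha ⊢
  obtain ⟨h1, h2⟩ := ha
  refine ⟨?_, fun v hv => ?_⟩
  · rcases h1 with rfl | h1
    · left
      exact map_zero ψ
    · right
      have h3 := h29_ord_psi h ψ hψ Qinf a
      rw [hfix] at h3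
      rw [h3]
      exact h1
  · have hv' : (h96_frobPerm h).symm v ≠ Qinf := by
      intro e
      apply hv
      rw [← hfix, ← e, Equiv.apply_symm_apply]
    have h3 := h29_ord_psi h ψ hψ ((h96_frobPerm h).symm v) a
    rw [Equiv.apply_symm_apply] at h3
    apply h24_mem_of_ord_nonneg
    rw [h3]
    exact h24_ord_nonneg_of_mem _ (h2 _ hv')

end Psi

section Frob

variable [IsAlgClosed K]

/-- **The Frobenius twin of `h51_G_of_frob`**: (INT), (LEAD), (GRAPH), the Frobenius chart, a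
chart unit, and a semilinear automorphism `sg` acting on the two reductions through `ψ ∘ ψ`
(`φ ∘ ψ = Frob_q`) give `sg • E₀ - q² • E₀ ∈ principal` for every toric witness. -/
theorem h29_frobG_of_frob {xF : F} (hxF : h75_IsChart K xF)
    {xφ : Fb} {φ : Fb →+* Fb} (h : h96_IsFrobChart k q xφ φ)
    {y : Fb} (hy : h75_IsChart k y) (Qinf : Place k Fb)
    (hpole : ∀ Q : Place k Fb, y ∈ Q.toValuationSubring ↔ Q ≠ Qinf)
    (hfix : h96_frobPerm h Qinf = Qinf)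
    (D : h22_Lat K F k (Fb × Fb)) (hON : h22_ON D)
    (hinv : ∀ (f : F) (hf : f ∈ D.O), IsUnit (D.red ⟨f, hf⟩) → f⁻¹ ∈ D.O)
    (hRk : h39_RankOne D.A)
    (m : ℕ) (hm : (m : k) ≠ 0)
    (D0 D2 : Divisor K F) (hD0 : ∀ v, 0 ≤ D0 v) (hdeg : Divisor.degree D0 = 2)
    (hD2 : ∀ v, 0 ≤ D2 v) (hdisj : ∀ v, D0 v = 0 ∨ D2 v = 0)
    (N : ℕ) (hN : 1 ≤ N)
    (x : F) (hx0 : x ≠ 0) (hxO : x ∈ D.O) (hxinvO : x⁻¹ ∈ D.O)
    (hxdiv : ∀ v : Place K F, v.ord x = D2 v - (N : ℤ) * D0 v)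
    (hxb1 : Qinf.ord (D.redF x).1 ≤ -(N : ℤ)) (hxb2 : Qinf.ord (D.redF x).2 ≤ -(N : ℤ))
    (hreg : ∀ n, ∀ a ∈ h51_Rd D (n • D0), a.1 ∈ h16_Linf Qinf n ∧ a.2 ∈ h16_Linf Qinf n)
    (n₁ : ℕ)
    (hlead₁ : ∀ n, n₁ ≤ n → ∃ x ∈ h51_Rd D ((n + 1) • D0),
      x.1 ∉ h16_Linf Qinf n ∧ x.2 ∈ h16_Linf Qinf n)
    (hlead₂ : ∀ n, n₁ ≤ n → ∃ y ∈ h51_Rd D ((n + 1) • D0),
      y.1 ∈ h16_Linf Qinf n ∧ y.2 ∉ h16_Linf Qinf n)
    (hB1 : ∀ b : Fb, (∀ Q : Place k Fb, Q ≠ Qinf → b ∈ Q.toValuationSubring) →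
      ∃ n : ℕ, (b, φ b) ∈ h51_Rd D (n • D0))
    (hB2 : ∀ b : Fb, (∀ Q : Place k Fb, Q ≠ Qinf → b ∈ Q.toValuationSubring) →
      ∃ n : ℕ, (φ b, b) ∈ h51_Rd D (n • D0))
    (sg : SemilinearAut K F) (ψ : Fb →+* Fb) (hψ : ∀ b : Fb, φ (ψ b) = b ^ q)
    (hsO : ∀ f, f ∈ D.O → sg • f ∈ D.O)
    (hsred : ∀ f, f ∈ D.O → D.redF (sg • f) = (ψ (ψ (D.redF f).1), ψ (ψ (D.redF f).2)))
    (hsD0 : sg • D0 = D0)
    (E₀ : Divisor K F) (hE₀ : Divisor.degree E₀ = 0) (u₀ : F) (hu₀ : u₀ ≠ 0)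
    (hdiv : ∀ v : Place K F, (m : ℤ) * E₀ v = v.ord u₀) (hu₀O : u₀ ∈ D.O)
    (hu₀red : D.red ⟨u₀, hu₀O⟩ = 1) :
    sg • E₀ - (q ^ 2) • E₀ ∈ Divisor.principal (K := K) (F := F) := by
  obtain ⟨Sg, hSg, hnode⟩ := h51_node_of_frob hxF h hy Qinf hpole hfix D hON D0 hD0 hdeg hreg n₁
    hlead₁ hlead₂ hB1 hB2
  have hdegD0 : 1 ≤ Divisor.degree D0 := by
    rw [hdeg]
    norm_num
  have hpow : ∀ c : k, (c ^ q) ^ q = c ^ (q ^ 2) := fun c => by rw [← pow_mul, sq]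
  refine h67_frobG_of_sf hxF hy D hON hinv hRk m hm D0 D2 hD0 hdegD0 hD2 hdisj N hN
    x hx0 hxO hxinvO hxdiv Qinf hxb1 hxb2
    (Z := {Q // Q ∈ Sg}) (fun ν => h96_frobPerm h ν.1) (fun ν => ν.1)
    (fun ν => (hSg ν.1 ν.2).2.1) (fun ν => (hSg ν.1 ν.2).1)
    (fun a b hab => Subtype.ext ((h96_frobPerm h).injective hab))
    (fun a b hab => Subtype.ext hab)
    (max (max n₁ (h75_genus K xF))
      (max (2 * h75_genus K xF) (2 * h75_genus k y + Fintype.card {Q // Q ∈ Sg})))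
    (le_trans (le_max_left _ _) (le_max_right _ _))
    (le_trans (le_max_right _ _) (le_max_right _ _))
    (fun n hn a => ?_)
    sg (q ^ 2) (fun a => ψ (ψ a)) (fun a => ψ (ψ a)) hsO hsred hsD0
    (fun n a ha => h29_psi_mem_rr h ψ hψ Qinf hfix n _ (h29_psi_mem_rr h ψ hψ Qinf hfix n a ha))
    (fun n a ha => h29_psi_mem_rr h ψ hψ Qinf hfix n _ (h29_psi_mem_rr h ψ hψ Qinf hfix n a ha))
    (fun ν a c hv => ?_) (fun ν a c hv => ?_)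
    E₀ hE₀ u₀ hu₀ hdiv hu₀O hu₀red
  · rw [hnode n (le_trans (le_max_left _ _) hn) a]
    refine and_congr Iff.rfl ?_
    constructor
    · intro hc ν
      exact hc ν.1 ν.2
    · intro hc Q hQ
      exact hc ⟨Q, hQ⟩
  · have h2 := h29_val_psi h ψ hψ _ (h29_val_psi h ψ hψ _ hv)
    rw [(hSg ν.1 ν.2).2.2, hpow] at h2
    exact h2
  · have h2 := h29_val_psi h ψ hψ _ (h29_val_psi h ψ hψ _ hv)
    rw [(hSg ν.1 ν.2).2.2, hpow] at h2
    exact h2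

/-- **The Frobenius twin of `h20_G_of_chart_final`** (same statement as `h29_frobG_of_frob`, with
the chart unit in helper20's binder shape). -/
theorem h29_frobG_of_chart_final {xF : F} (hxF : h75_IsChart K xF)
    {xb : Fb} (_hxb : h75_IsChart k xb)
    (D : h22_Lat K F k (Fb × Fb)) (hON : h22_ON D)
    (hinv : ∀ (f : F) (hf : f ∈ D.O), IsUnit (D.red ⟨f, hf⟩) → f⁻¹ ∈ D.O)
    (hrank : h39_RankOne D.A)
    (D0 : Divisor K F) (hD0 : 0 ≤ D0) (hdeg : Divisor.degree D0 = 2) (Qinf : Place k Fb)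
    (hreg : ∀ n, ∀ a ∈ h51_Rd D (n • D0), a.1 ∈ h16_Linf Qinf n ∧ a.2 ∈ h16_Linf Qinf n)
    (n₁ : ℕ)
    (hlead₁ : ∀ n, n₁ ≤ n → ∃ x ∈ h51_Rd D ((n + 1) • D0),
      x.1 ∉ h16_Linf Qinf n ∧ x.2 ∈ h16_Linf Qinf n)
    (hlead₂ : ∀ n, n₁ ≤ n → ∃ y ∈ h51_Rd D ((n + 1) • D0),
      y.1 ∈ h16_Linf Qinf n ∧ y.2 ∉ h16_Linf Qinf n)
    {x : Fb} {φ : Fb →+* Fb} (h : h96_IsFrobChart k q x φ) {y : Fb} (hy : h75_IsChart k y)
    (hpole : ∀ Q : Place k Fb, y ∈ Q.toValuationSubring ↔ Q ≠ Qinf)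
    (hfix : h96_frobPerm h Qinf = Qinf)
    (hG1 : ∀ b : Fb, (∀ Q : Place k Fb, Q ≠ Qinf → b ∈ Q.toValuationSubring) →
      ∃ n : ℕ, (b, φ b) ∈ h51_Rd D (n • D0))
    (hG2 : ∀ b : Fb, (∀ Q : Place k Fb, Q ≠ Qinf → b ∈ Q.toValuationSubring) →
      ∃ n : ℕ, (φ b, b) ∈ h51_Rd D (n • D0))
    (c : ℕ) (hc : 0 < c) (t : F) (ht0 : t ≠ 0) (htO : t ∈ D.O) (htiO : t⁻¹ ∈ D.O)
    (E2 : Divisor K F) (hE2 : ∀ v : Place K F, 0 ≤ E2 v)
    (hdisj : ∀ v : Place K F, (c • D0) v = 0 ∨ E2 v = 0)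
    (hdivt : ∀ v : Place K F, v.ord t = E2 v - (c • D0) v)
    (ho1 : Qinf.ord (D.redF t).1 = -(c : ℤ)) (ho2 : Qinf.ord (D.redF t).2 = -(c : ℤ))
    {m : ℕ} (hm : (m : k) ≠ 0)
    (sg : SemilinearAut K F) (ψ : Fb →+* Fb) (hψ : ∀ b : Fb, φ (ψ b) = b ^ q)
    (hsO : ∀ f, f ∈ D.O → sg • f ∈ D.O)
    (hsred : ∀ f, f ∈ D.O → D.redF (sg • f) = (ψ (ψ (D.redF f).1), ψ (ψ (D.redF f).2)))
    (hsD0 : sg • D0 = D0)
    (E : Divisor K F) (hE : Divisor.degree E = 0) (u : F) (hu : u ≠ 0)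
    (hdiv : ∀ v : Place K F, (m : ℤ) * E v = v.ord u) (huO : u ∈ D.O)
    (hured : D.red ⟨u, huO⟩ = 1) :
    sg • E - (q ^ 2) • E ∈ Divisor.principal (K := K) (F := F) := by
  have hc0 : (c : ℤ) ≠ 0 := by exact_mod_cast hc.ne'
  have hsm : ∀ v : Place K F, (c • D0) v = (c : ℤ) * D0 v := fun v => by
    rw [Finsupp.smul_apply, nsmul_eq_mul]
  exact h29_frobG_of_frob hxF h hy Qinf hpole hfix D hON hinv hrank m hm D0 E2
    (fun v => hD0 v) hdeg hE2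
    (fun v => (hdisj v).imp (fun h0 => by
      rw [hsm] at h0
      exact (mul_eq_zero.mp h0).resolve_left hc0) id)
    c hc t ht0 htO htiO (fun v => by rw [hdivt v, hsm])
    (le_of_eq ho1) (le_of_eq ho2) hreg n₁ hlead₁ hlead₂ hG1 hG2
    sg ψ hψ hsO hsred hsD0 E hE u hu hdiv huO hured

end Frob

end Fermat.Agent.S35

end
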