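import Mathlib
import Fermat.Agent.S35.h5_FrobGlue
import Fermat.Agent.S34.h51_Last

/-!
# S35 (E1), divisor form: `sg • E - Q • E` is principal for every toric witness

The Frobenius twin of `h51_G_of_last` (S34): chart data (as in `h5_frob_trivial_gluing`), the
last-step statement `h51_LastStep` along `c • D0`, and a semilinear automorphism `sg` which
preserves `O` and `D0` and acts on the reductions through a map `Φ` raising the node values to
the `Q`-th power: for every toric witness `(E, u)` the divisor `sg • E - Q • E` is principal.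
-/

set_option autoImplicit false

noncomputable section

open AlgebraicCurve Module

namespace Fermat.Agent.S35

open Fermat.Agent.S34

variable {K F k Rb : Type*} [Field K] [Field F] [Algebra K F] [Field k] [CommRing Rb]
  [Algebra k Rb]

/-- **(E1), divisor form, from the last step.** -/
theorem h5_frob_principal_of_last (D : h22_Lat K F k Rb) (hON : h22_ON D)
    (hinv : ∀ (f : F) (hf : f ∈ D.O), IsUnit (D.red ⟨f, hf⟩) → f⁻¹ ∈ D.O)
    (D0 : Divisor K F) (P : ℕ → Submodule k Rb) [∀ n, FiniteDimensional k (P n)]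
    (Bs : Subalgebra k Rb) (hPB : ∀ n, ∀ a ∈ P n, a ∈ Bs)
    {Z : Type*} [Fintype Z] (e1 e2 : Z → (Bs →ₐ[k] k))
    (n0 : ℕ) {m : ℕ} (hm : m ≠ 0)
    (hnode : ∀ n, n0 ≤ n → ∀ a : Rb, a ∈ h51_Rd D (n • D0) ↔
        ∃ h : a ∈ P n, ∀ ν, e2 ν ⟨a, hPB n a h⟩ = e1 ν ⟨a, hPB n a h⟩)
    (hind : ∀ n, n0 ≤ n → ∀ s t : Z → k, ∃ a, ∃ h : a ∈ P n,
        (∀ ν, e1 ν ⟨a, hPB n a h⟩ = s ν) ∧ (∀ ν, e2 ν ⟨a, hPB n a h⟩ = t ν))
    (hroot : ∀ n, ∀ a : Rb, a ^ m ∈ P (m * n) → a ∈ P n)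
    (hRR : ∀ n, n0 ≤ n → ∀ E : Divisor K F, Divisor.degree E = 0 →
        Module.Finite K (riemannRochSpace (n • D0 + E)) ∧
        Module.finrank K (riemannRochSpace (n • D0 + E)) =
          Module.finrank K (riemannRochSpace (n • D0)))
    (c N0 : ℕ) (hc : 0 < c) (hN0 : 2 * n0 ≤ N0)
    (hlast : h51_LastStep D (c • D0) N0 m)
    [HasPrincipalDivisors K F] (hdeg1 : ∀ P : Place K F, P.deg = 1)
    (sg : SemilinearAut K F) (Q : ℕ) (Φ : Rb → Rb)
    (hsO : ∀ f, f ∈ D.O → sg • f ∈ D.O)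
    (hsred : ∀ f, f ∈ D.O → D.redF (sg • f) = Φ (D.redF f)) (hsD0 : sg • D0 = D0)
    (hΦP : ∀ n, ∀ a ∈ P n, Φ a ∈ P n)
    (hΦ1 : ∀ n ν a (h : a ∈ P n),
        e1 ν ⟨Φ a, hPB n _ (hΦP n a h)⟩ = e1 ν ⟨a, hPB n a h⟩ ^ Q)
    (hΦ2 : ∀ n ν a (h : a ∈ P n),
        e2 ν ⟨Φ a, hPB n _ (hΦP n a h)⟩ = e2 ν ⟨a, hPB n a h⟩ ^ Q)
    (E : Divisor K F) (hE : Divisor.degree E = 0) (u : F) (hu : u ≠ 0)
    (hdiv : ∀ v : Place K F, (m : ℤ) * E v = v.ord u) (huO : u ∈ D.O)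
    (hured : D.red ⟨u, huO⟩ = 1) :
    sg • E - Q • E ∈ Divisor.principal (K := K) (F := F) := by
  have hΦone : Φ 1 = 1 := by
    have h1 := hsred 1 D.O.one_mem
    rw [smul_one, h51_redF_one] at h1
    exact h1.symm
  obtain ⟨hdeg, hne, hdiv', huz⟩ :=
    h5_toric_frob D hinv sg Q Φ hsO hsred hΦone E hE u hu hdiv huO hured
  obtain ⟨e, he, hmem⟩ := hlast (sg • E - Q • E) ((sg • u) * (u ^ Q)⁻¹) hdeg hne hdiv' huz
    (fun j n hn => by
      have e1' : n • (c • D0) = (n * c) • D0 := by rw [mul_nsmul']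
      rw [e1']
      exact h5_frob_trivial_gluing D hON hinv D0 P Bs hPB e1 e2 n0 hm hnode hind hroot hRR
        sg Q Φ hsO hsred hsD0 hΦP hΦ1 hΦ2 E hE u hu hdiv huO hured j (n * c)
        (le_trans hN0 (le_trans hn (Nat.le_mul_of_pos_right n hc))))
  exact h51_principal_of_section hdeg1 _ hdeg e he hmem

end Fermat.Agent.S35

end
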