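import Mathlib
import Fermat.Agent.S35.h5_FrobLast
import Fermat.Agent.S34.h87_Top

/-!
# S35 (E1): the chart package with Frobenius clauses

`h5_ChartPropF D m G Q Φ` is helper87's chart package `h87_ChartProp D m G` (S34 TOP) TOGETHER
WITH the three Frobenius binders of `h5_frob_trivial_gluing` for the same `P`, `Bs`, `e1`, `e2`:
the map `Φ : Rb → Rb` preserves the filtration `P` and raises the node values to the `Q`-th
power.

* `h5_chartProp_of_F` : it implies `h87_ChartProp D m G` (so ONE chart instance serves S34 and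
  S35);
* `h5_chartProp_mono` : `h87_ChartProp` is antitone in the set `G`;
* `h5_frob_of_chartPropF` : **(E1), divisor form**: for `sg ∈ G` preserving `O` and acting on
  the reductions through `Φ`, and every toric witness `(E, u)`, the divisor `sg • E - Q • E` is
  principal.
-/

set_option autoImplicit false

noncomputable section

open AlgebraicCurve Module

namespace Fermat.Agent.S35

open Fermat.Agent.S34

variable {K F k Rb : Type*} [Field K] [Field F] [Algebra K F] [Field k] [CommRing Rb]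
  [Algebra k Rb]

/-- The chart package of `h87_ChartProp` with the Frobenius clauses `hΦP`, `hΦ1`, `hΦ2` of
`h5_frob_trivial_gluing`. -/
def h5_ChartPropF (D : h22_Lat K F k Rb) (m : ℕ) (G : Set (SemilinearAut K F)) (Q : ℕ)
    (Φ : Rb → Rb) : Prop :=
  ∃ (D0 : Divisor K F) (P : ℕ → Submodule k Rb) (_ : ∀ n, FiniteDimensional k (P n))
    (Bs : Subalgebra k Rb) (hPB : ∀ n, ∀ a ∈ P n, a ∈ Bs)
    (Z : Type) (_ : Fintype Z) (e1 e2 : Z → (Bs →ₐ[k] k)) (n0 c N0 : ℕ),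
    (∀ n, n0 ≤ n → ∀ a : Rb, a ∈ h51_Rd D (n • D0) ↔
        ∃ h : a ∈ P n, ∀ ν, e2 ν ⟨a, hPB n a h⟩ = e1 ν ⟨a, hPB n a h⟩) ∧
    (∀ n, n0 ≤ n → ∀ s t : Z → k, ∃ a, ∃ h : a ∈ P n,
        (∀ ν, e1 ν ⟨a, hPB n a h⟩ = s ν) ∧ (∀ ν, e2 ν ⟨a, hPB n a h⟩ = t ν)) ∧
    (∀ n, ∀ a : Rb, a ^ m ∈ P (m * n) → a ∈ P n) ∧
    (∀ n, n0 ≤ n → ∀ E : Divisor K F, Divisor.degree E = 0 →
        Module.Finite K (riemannRochSpace (n • D0 + E)) ∧
        Module.finrank K (riemannRochSpace (n • D0 + E)) =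
          Module.finrank K (riemannRochSpace (n • D0))) ∧
    0 < c ∧ 2 * n0 ≤ N0 ∧ h51_LastStep D (c • D0) N0 m ∧ (∀ g' ∈ G, g' • D0 = D0) ∧
    ∃ hΦP : ∀ n, ∀ a ∈ P n, Φ a ∈ P n,
      (∀ n ν a (h : a ∈ P n),
        e1 ν ⟨Φ a, hPB n _ (hΦP n a h)⟩ = e1 ν ⟨a, hPB n a h⟩ ^ Q) ∧
      (∀ n ν a (h : a ∈ P n),
        e2 ν ⟨Φ a, hPB n _ (hΦP n a h)⟩ = e2 ν ⟨a, hPB n a h⟩ ^ Q)

/-- The chart package with Frobenius clauses implies the chart package of S34 TOP. -/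
theorem h5_chartProp_of_F {D : h22_Lat K F k Rb} {m : ℕ} {G : Set (SemilinearAut K F)} {Q : ℕ}
    {Φ : Rb → Rb} (h : h5_ChartPropF D m G Q Φ) : h87_ChartProp D m G := by
  obtain ⟨D0, P, hP, Bs, hPB, Z, hZ, e1, e2, n0, c, N0, hnode, hind, hroot, hRR, hc, hN0,
    hlast, hGD0, -⟩ := h
  exact ⟨D0, P, hP, Bs, hPB, Z, hZ, e1, e2, n0, c, N0, hnode, hind, hroot, hRR, hc, hN0,
    hlast, hGD0⟩

/-- `h87_ChartProp` is antitone in the set of automorphisms. -/
theorem h5_chartProp_mono {D : h22_Lat K F k Rb} {m : ℕ} {G G' : Set (SemilinearAut K F)}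
    (hG : G' ⊆ G) (h : h87_ChartProp D m G) : h87_ChartProp D m G' := by
  obtain ⟨D0, P, hP, Bs, hPB, Z, hZ, e1, e2, n0, c, N0, hnode, hind, hroot, hRR, hc, hN0,
    hlast, hGD0⟩ := h
  exact ⟨D0, P, hP, Bs, hPB, Z, hZ, e1, e2, n0, c, N0, hnode, hind, hroot, hRR, hc, hN0,
    hlast, fun g' hg' => hGD0 g' (hG hg')⟩

/-- **(E1), divisor form, from the chart package with Frobenius clauses.** -/
theorem h5_frob_of_chartPropF (D : h22_Lat K F k Rb) (hON : h22_ON D)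
    (hinv : ∀ (f : F) (hf : f ∈ D.O), IsUnit (D.red ⟨f, hf⟩) → f⁻¹ ∈ D.O)
    {m : ℕ} (hm : m ≠ 0) (G : Set (SemilinearAut K F)) (Q : ℕ) (Φ : Rb → Rb)
    (hC : h5_ChartPropF D m G Q Φ)
    [HasPrincipalDivisors K F] (hdeg1 : ∀ P : Place K F, P.deg = 1)
    (sg : SemilinearAut K F) (hsg : sg ∈ G) (hsO : ∀ f, f ∈ D.O → sg • f ∈ D.O)
    (hsred : ∀ f, f ∈ D.O → D.redF (sg • f) = Φ (D.redF f))
    (E : Divisor K F) (hE : Divisor.degree E = 0) (u : F) (hu : u ≠ 0)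
    (hdiv : ∀ v : Place K F, (m : ℤ) * E v = v.ord u) (huO : u ∈ D.O)
    (hured : D.red ⟨u, huO⟩ = 1) :
    sg • E - Q • E ∈ Divisor.principal (K := K) (F := F) := by
  obtain ⟨D0, P, hP, Bs, hPB, Z, hZ, e1, e2, n0, c, N0, hnode, hind, hroot, hRR, hc, hN0,
    hlast, hGD0, hΦP, hΦ1, hΦ2⟩ := hC
  exact h5_frob_principal_of_last D hON hinv D0 P Bs hPB e1 e2 n0 hm hnode hind hroot hRR
    c N0 hc hN0 hlast hdeg1 sg Q Φ hsO hsred (hGD0 sg hsg) hΦP hΦ1 hΦ2 E hE u hu hdiv huO hured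

/-- The class form: `sg • [E] = Q • [E]` when `sg • E - Q • E` is principal. -/
theorem h5_pic0_frob_of_principal (sg : SemilinearAut K F) (Q : ℕ)
    (E : Divisor.degZero (K := K) (F := F))
    (h : sg • (E : Divisor K F) - Q • (E : Divisor K F) ∈
      Divisor.principal (K := K) (F := F)) :
    sg • Pic0.mk E = Q • Pic0.mk E := by
  rw [SemilinearAut.pic0_smul_mk]
  have hQ : Q • Pic0.mk E = Pic0.mk (Q • E) :=
    (map_nsmul (QuotientAddGroup.mk' ((Divisor.principal (K := K) (F := F)).addSubgroupOf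
      (Divisor.degZero (K := K) (F := F)))) Q E).symm
  rw [hQ]
  refine (QuotientAddGroup.eq).mpr ?_
  have h' := (Divisor.principal (K := K) (F := F)).neg_mem h
  show (-(SemilinearAut.degZeroSMulHom sg E) + Q • E : Divisor.degZero (K := K) (F := F)) ∈
    (Divisor.principal (K := K) (F := F)).addSubgroupOf (Divisor.degZero (K := K) (F := F))
  rw [AddSubgroup.mem_addSubgroupOf]
  have hcoe : ((-(SemilinearAut.degZeroSMulHom sg E) + Q • E :
      Divisor.degZero (K := K) (F := F)) : Divisor K F)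
        = -(sg • (E : Divisor K F) - Q • (E : Divisor K F)) := by
    simp only [AddSubgroup.coe_add, NegMemClass.coe_neg, SemilinearAut.coe_degZeroSMulHom,
      AddSubgroup.coe_nsmul]
    abel
  rw [hcoe]
  exact h'

end Fermat.Agent.S35

end
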